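import Fermat.Agent.Lib.Frobenius.Integers
import Fermat.Agent.Lib.Frobenius.Fraction
import Fermat.Agent.Lib.Frobenius.Assemble
import Fermat.Agent.Lib.Frobenius.Exists

/-!
# Existence of Frobenius elements in `Gal(ℚ̄/ℚ)`

* `exists_isFrobeniusAt` : EVERY valuation subring `A` of `ℚ̄` lying over a prime `ℓ` has a
  Frobenius element `σ` (in the sense of the prelude: `A.IsFrobeniusAt σ ℓ`).
* `exists_liesOverPrime` : there is a valuation subring over every prime.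
* `exists_liesOverPrime_isFrobeniusAt` : both at once.
-/

set_option autoImplicit false

namespace Fermat.Agent.Lib.Frobenius

theorem exists_isFrobeniusAt (A : ValuationSubring (AlgebraicClosure ℚ)) (ℓ : ℕ) (hℓ : ℓ.Prime)
    (hA : A.LiesOverPrime ℓ) :
    ∃ σ : AlgebraicClosure ℚ ≃ₐ[ℚ] AlgebraicClosure ℚ, A.IsFrobeniusAt σ ℓ := by
  obtain ⟨σ, hσ⟩ := exists_frob_on_integers A ℓ hℓ hA
  exact ⟨σ, isFrobeniusAt_of A ℓ hℓ hA σ (exists_integral_fraction A) hσ⟩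

theorem exists_liesOverPrime_isFrobeniusAt (ℓ : ℕ) (hℓ : ℓ.Prime) :
    ∃ (A : ValuationSubring (AlgebraicClosure ℚ))
      (σ : AlgebraicClosure ℚ ≃ₐ[ℚ] AlgebraicClosure ℚ),
      A.LiesOverPrime ℓ ∧ A.IsFrobeniusAt σ ℓ := by
  obtain ⟨A, hA⟩ := exists_liesOverPrime ℓ hℓ
  obtain ⟨σ, hσ⟩ := exists_isFrobeniusAt A ℓ hℓ hA
  exact ⟨A, σ, hA, hσ⟩

end Fermat.Agent.Lib.Frobenius
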