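/-
Shared library: the analytic functions `E₄`, `Δ`, `j = E₄³/Δ` on the upper half plane are given by
the formal series of the Prelude (`eisenstein4`, `etaProd`, `jq`).  Owner helper90.
-/
import Mathlib
import Fermat.Prelude.Def_ModularCurve_X0

set_option autoImplicit false

namespace Fermat.Agent.Lib.JExpansion

open UpperHalfPlane ModularForm EisensteinSeries Complex ModularCurve Filter Topology
open scoped MatrixGroups Real Manifold PowerSeries.WithPiTopology

/-- The power series `p` evaluated at `q` converges to `v`. -/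
def Ev (q : ℂ) (p : PowerSeries ℂ) (v : ℂ) : Prop :=
  HasSum (fun n : ℕ => PowerSeries.coeff n p * q ^ n) v

theorem Ev.mul {q : ℂ} {p r : PowerSeries ℂ} {v w : ℂ} (hp : Ev q p v) (hr : Ev q r w) :
    Ev q (p * r) (v * w) := by
  unfold Ev at *
  have h1 : Summable (fun n => ‖PowerSeries.coeff n p * q ^ n‖) := hp.summable.norm
  have h2 : Summable (fun n => ‖PowerSeries.coeff n r * q ^ n‖) := hr.summable.norm
  have h3 := summable_norm_sum_mul_antidiagonal_of_summable_norm h1 h2
  have h4 := tsum_mul_tsum_eq_tsum_sum_antidiagonal_of_summable_norm h1 h2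
  rw [hp.tsum_eq, hr.tsum_eq] at h4
  have h5 : ∀ n, PowerSeries.coeff n (p * r) * q ^ n =
      ∑ kl ∈ Finset.HasAntidiagonal.antidiagonal n,
      (PowerSeries.coeff kl.1 p * q ^ kl.1) * (PowerSeries.coeff kl.2 r * q ^ kl.2) := by
    intro n
    rw [PowerSeries.coeff_mul, Finset.sum_mul]
    refine Finset.sum_congr rfl fun kl hkl => ?_
    rw [← Finset.HasAntidiagonal.mem_antidiagonal.mp hkl, pow_add]; ring
  simp_rw [h5]
  rw [h4]
  exact (h3.of_norm).hasSum

theorem Ev.sub {q : ℂ} {p r : PowerSeries ℂ} {v w : ℂ} (hp : Ev q p v) (hr : Ev q r w) :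
    Ev q (p - r) (v - w) := by
  unfold Ev at *
  simpa [sub_mul] using hp.sub hr

theorem Ev.add {q : ℂ} {p r : PowerSeries ℂ} {v w : ℂ} (hp : Ev q p v) (hr : Ev q r w) :
    Ev q (p + r) (v + w) := by
  unfold Ev at *
  simpa [add_mul] using hp.add hr

theorem Ev.X_pow (q : ℂ) (m : ℕ) : Ev q (PowerSeries.X ^ m) (q ^ m) := by
  unfold Ev
  have h := hasSum_ite_eq m (q ^ m)
  convert h using 2 with n
  rw [PowerSeries.coeff_X_pow]
  split_ifs with h1
  · rw [h1, one_mul]
  · rw [zero_mul]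

theorem Ev.one (q : ℂ) : Ev q 1 1 := by
  simpa using Ev.X_pow q 0

theorem Ev.X (q : ℂ) : Ev q PowerSeries.X q := by
  simpa using Ev.X_pow q 1

theorem Ev.pow {q : ℂ} {p : PowerSeries ℂ} {v : ℂ} (hp : Ev q p v) (m : ℕ) :
    Ev q (p ^ m) (v ^ m) := by
  induction m with
  | zero => simpa using Ev.one q
  | succ m ih => rw [pow_succ, pow_succ]; exact ih.mul hp

theorem Ev.prod {ι : Type*} {q : ℂ} (s : Finset ι) {p : ι → PowerSeries ℂ} {v : ι → ℂ}
    (hp : ∀ i ∈ s, Ev q (p i) (v i)) : Ev q (∏ i ∈ s, p i) (∏ i ∈ s, v i) := by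
  classical
  induction s using Finset.induction_on with
  | empty => simpa using Ev.one q
  | insert a s ha ih =>
    rw [Finset.prod_insert ha, Finset.prod_insert ha]
    exact (hp a (Finset.mem_insert_self a s)).mul
      (ih fun i hi => hp i (Finset.mem_insert_of_mem hi))

/-- A function given by a power series on the unit disc. -/
theorem hasFPowerSeriesOnBall_of_ev {p : PowerSeries ℂ} {f : ℂ → ℂ}
    (hp : ∀ q : ℂ, ‖q‖ < 1 → Ev q p (f q)) :
    HasFPowerSeriesOnBall f (.ofScalars ℂ fun n => PowerSeries.coeff n p) 0 1 := by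
  constructor
  · refine le_of_forall_lt_imp_le_of_dense fun r hr ↦ ?_
    lift r to NNReal using hr.ne_top
    apply FormalMultilinearSeries.le_radius_of_summable
    simpa [smul_eq_mul, norm_mul, mul_comm, mul_left_comm, mul_assoc] using
      (hp (r : ℂ) (by simpa using hr)).summable.norm
  · simp
  · intro y hy
    rw [← ENNReal.coe_one, Metric.eball_coe, NNReal.coe_one, mem_ball_zero_iff] at hy
    simpa [Ev, mul_comm] using hp y hy

theorem eq_of_forall_ev {p r : PowerSeries ℂ} {f : ℂ → ℂ}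
    (hp : ∀ q : ℂ, ‖q‖ < 1 → Ev q p (f q)) (hr : ∀ q : ℂ, ‖q‖ < 1 → Ev q r (f q)) : p = r := by
  have h1 := (hasFPowerSeriesOnBall_of_ev hp).hasFPowerSeriesAt
  have h2 := (hasFPowerSeriesOnBall_of_ev hr).hasFPowerSeriesAt
  ext m
  simpa [FormalMultilinearSeries.coeff_ofScalars] using
    congr_arg (FormalMultilinearSeries.coeff · m) (h1.eq_formalMultilinearSeries h2)

/-- The Taylor series at `0`, as a formal power series. -/
noncomputable def taylorPS (f : ℂ → ℂ) : PowerSeries ℂ :=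
  .mk fun m ↦ (↑m.factorial)⁻¹ * iteratedDeriv m f 0

theorem coeff_taylorPS (f : ℂ → ℂ) (m : ℕ) :
    PowerSeries.coeff m (taylorPS f) = (↑m.factorial)⁻¹ * iteratedDeriv m f 0 := by
  simp [taylorPS]

theorem ev_taylorPS {f : ℂ → ℂ} (hf : DifferentiableOn ℂ f (Metric.ball 0 1)) {q : ℂ}
    (hq : ‖q‖ < 1) : Ev q (taylorPS f) (f q) := by
  unfold Ev
  convert! hasSum_taylorSeries_on_ball hf (by simpa using hq) using 2 with m
  grind [coeff_taylorPS, sub_zero, smul_eq_mul]

theorem eq_taylorPS {p : PowerSeries ℂ} {f : ℂ → ℂ}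
    (hp : ∀ q : ℂ, ‖q‖ < 1 → Ev q p (f q)) : p = taylorPS f := by
  have hf : DifferentiableOn ℂ f (Metric.ball 0 1) := by
    have := (hasFPowerSeriesOnBall_of_ev hp).differentiableOn
    rwa [← ENNReal.coe_one, Metric.eball_coe, NNReal.coe_one] at this
  exact eq_of_forall_ev hp fun q hq => ev_taylorPS hf hq

/-- Iterated derivatives of holomorphic functions are holomorphic. -/
theorem differentiableOn_iteratedDeriv {f : ℂ → ℂ} {U : Set ℂ} (hU : IsOpen U)
    (hf : DifferentiableOn ℂ f U) (k : ℕ) : DifferentiableOn ℂ (iteratedDeriv k f) U := by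
  induction k with
  | zero => simpa using hf
  | succ k ih => rw [iteratedDeriv_succ]; exact ih.deriv hU

/-- Locally uniform convergence of holomorphic functions implies that of all derivatives. -/
theorem tendstoLocallyUniformlyOn_iteratedDeriv {ι : Type*} {φ : Filter ι} {F : ι → ℂ → ℂ}
    {f : ℂ → ℂ} {U : Set ℂ} (hU : IsOpen U) (hf : TendstoLocallyUniformlyOn F f φ U)
    (hF : ∀ n, DifferentiableOn ℂ (F n) U) (k : ℕ) :
    TendstoLocallyUniformlyOn (fun n => iteratedDeriv k (F n)) (iteratedDeriv k f) φ U := by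
  induction k with
  | zero => simpa using hf
  | succ k ih =>
    have := ih.deriv (.of_forall fun n => differentiableOn_iteratedDeriv hU (hF n) k) hU
    simpa [iteratedDeriv_succ, Function.comp_def] using this

theorem tendsto_coeff_taylorPS {ι : Type*} {φ : Filter ι} {F : ι → ℂ → ℂ}
    {f : ℂ → ℂ} (hf : TendstoLocallyUniformlyOn F f φ (Metric.ball 0 1))
    (hF : ∀ n, DifferentiableOn ℂ (F n) (Metric.ball 0 1)) (k : ℕ) :
    Tendsto (fun n => PowerSeries.coeff k (taylorPS (F n))) φ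
      (𝓝 (PowerSeries.coeff k (taylorPS f))) := by
  simp only [coeff_taylorPS]
  exact ((tendstoLocallyUniformlyOn_iteratedDeriv Metric.isOpen_ball hf hF k).tendsto_at
    (Metric.mem_ball_self one_pos)).const_mul _

/-- Cast of an integral power series to `ℂ`. -/
noncomputable abbrev toC (p : PowerSeries ℤ) : PowerSeries ℂ := p.map (Int.castRingHom ℂ)

/-- The Euler function `∏ (1 - q ^ (n+1))` on the unit disc. -/
noncomputable def eulerFun (q : ℂ) : ℂ := ∏' n : ℕ, (1 - q ^ (n + 1))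

theorem differentiableOn_eulerFun : DifferentiableOn ℂ eulerFun (Metric.ball 0 1) :=
  differentiableOn_tprod_one_sub_pow

theorem ev_finset_prod (s : Finset ℕ) (q : ℂ) :
    Ev q (toC (∏ n ∈ s, (1 - PowerSeries.X ^ (n + 1)))) (∏ n ∈ s, (1 - q ^ (n + 1))) := by
  rw [toC, map_prod]
  refine Ev.prod s fun n _ => ?_
  simpa using (Ev.one q).sub (Ev.X_pow q (n + 1))

theorem taylorPS_eulerFun : taylorPS eulerFun = toC etaProd := by
  ext k
  have h1 : TendstoLocallyUniformlyOn (fun (s : Finset ℕ) (q : ℂ) => ∏ n ∈ s, (1 - q ^ (n + 1)))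
      eulerFun atTop (Metric.ball 0 1) := by
    have := multipliableLocallyUniformlyOn_one_sub_pow.hasProdLocallyUniformlyOn
    rw [hasProdLocallyUniformlyOn_iff_tendstoLocallyUniformlyOn] at this
    exact this
  have h2 := tendsto_coeff_taylorPS h1 (fun s => by fun_prop) k
  have h3 : ∀ s : Finset ℕ, taylorPS (fun q : ℂ => ∏ n ∈ s, (1 - q ^ (n + 1))) =
      toC (∏ n ∈ s, (1 - PowerSeries.X ^ (n + 1))) := fun s =>
    (eq_taylorPS fun q _ => ev_finset_prod s q).symm
  simp only [h3] at h2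
  have h4 : Tendsto (fun s : Finset ℕ => ∏ n ∈ s, ((1 : PowerSeries ℤ) - PowerSeries.X ^ (n + 1)))
      atTop (𝓝 etaProd) := (PowerSeries.WithPiTopology.multipliable_one_sub_X_pow ℤ).hasProd
  have h5 := ((continuous_of_discreteTopology (f := (Int.cast : ℤ → ℂ))).tendsto _).comp
    (((PowerSeries.WithPiTopology.continuous_coeff ℤ k).tendsto _).comp h4)
  have h6 : ∀ p : PowerSeries ℤ,
      PowerSeries.coeff k (toC p) = ((PowerSeries.coeff k p : ℤ) : ℂ) := fun p => by simp [toC]
  simp only [h6] at h2 ⊢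
  exact tendsto_nhds_unique h2 h5

theorem ev_eulerFun {q : ℂ} (hq : ‖q‖ < 1) : Ev q (toC etaProd) (eulerFun q) := by
  rw [← taylorPS_eulerFun]
  exact ev_taylorPS differentiableOn_eulerFun hq

theorem eulerFun_ne_zero {q : ℂ} (hq : ‖q‖ < 1) : eulerFun q ≠ 0 := by
  refine tprod_one_add_ne_zero_of_summable (f := fun n : ℕ ↦ -q ^ (n + 1)) ?_ ?_
  · intro n h
    have h1 : q ^ (n + 1) = 1 := by linear_combination -h
    have h2 : ‖q‖ ^ (n + 1) = 1 := by rw [← norm_pow, h1, norm_one]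
    have h3 : ‖q‖ ^ (n + 1) < 1 := pow_lt_one₀ (norm_nonneg _) hq (Nat.succ_ne_zero n)
    linarith
  · simpa using (summable_nat_add_iff 1).mpr (summable_geometric_of_lt_one (norm_nonneg _) hq)

theorem toC_mul_toC_inv : toC dedekindEtaUnit * toC dedekindEtaUnitInv = 1 := by
  rw [toC, toC, ← map_mul, dedekindEtaUnit_mul_inv, map_one]

/-- The formal inverse of `etaProd ^ 24` converges to the inverse of the analytic product. -/
theorem ev_eulerFun_inv {q : ℂ} (hq : ‖q‖ < 1) :
    Ev q (toC dedekindEtaUnitInv) ((eulerFun q ^ 24)⁻¹) := by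
  have hd : DifferentiableOn ℂ (fun q => (eulerFun q ^ 24)⁻¹) (Metric.ball 0 1) := by
    refine (differentiableOn_eulerFun.pow 24).inv fun x hx => ?_
    exact pow_ne_zero _ (eulerFun_ne_zero (by simpa using hx))
  have h1 : toC dedekindEtaUnit * taylorPS (fun q => (eulerFun q ^ 24)⁻¹) = 1 := by
    refine eq_of_forall_ev (f := fun _ => 1) (fun x hx => ?_) (fun x _ => Ev.one x)
    have h2 := ((ev_eulerFun hx).pow 24).mul (ev_taylorPS hd hx)
    rw [mul_inv_cancel₀ (pow_ne_zero _ (eulerFun_ne_zero hx))] at h2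
    simpa [toC, dedekindEtaUnit] using h2
  have h3 : taylorPS (fun q => (eulerFun q ^ 24)⁻¹) = toC dedekindEtaUnitInv := by
    calc taylorPS (fun q => (eulerFun q ^ 24)⁻¹)
        = (toC dedekindEtaUnit * toC dedekindEtaUnitInv) *
            taylorPS (fun q => (eulerFun q ^ 24)⁻¹) := by rw [toC_mul_toC_inv, one_mul]
      _ = toC dedekindEtaUnitInv *
            (toC dedekindEtaUnit * taylorPS (fun q => (eulerFun q ^ 24)⁻¹)) := by ring
      _ = toC dedekindEtaUnitInv := by rw [h1, mul_one]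
  rw [← h3]
  exact ev_taylorPS hd hq

local notation "𝕢" => Function.Periodic.qParam

theorem norm_q_lt_one (τ : ℍ) : ‖𝕢 1 τ‖ < 1 :=
  Function.Periodic.norm_qParam_lt_one one_pos τ.im_pos

theorem q_ne_zero (τ : ℍ) : 𝕢 1 τ ≠ 0 := Function.Periodic.qParam_ne_zero _

/-- `Δ = q ∏ (1 - qⁿ)²⁴`. -/
theorem discriminant_eq (τ : ℍ) : discriminant τ = 𝕢 1 τ * eulerFun (𝕢 1 τ) ^ 24 := by
  rw [discriminant_eq_q_prod, eulerFun,
    ← (multipliable_one_sub_pow (norm_q_lt_one τ)).tprod_pow 24]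

/-- The `q`-expansion of `Δ`. -/
theorem ev_discriminant (τ : ℍ) :
    Ev (𝕢 1 τ) (toC (PowerSeries.X * etaProd ^ 24)) (discriminant τ) := by
  rw [discriminant_eq]
  simpa [toC] using (Ev.X (𝕢 1 τ)).mul ((ev_eulerFun (norm_q_lt_one τ)).pow 24)

/-- The `q`-expansion of `E₄`. -/
theorem ev_E₄ (τ : ℍ) : Ev (𝕢 1 τ) (toC eisenstein4) (E₄ τ) := by
  have h := ModularForm.hasSum_qExpansion (f := E₄) one_pos one_mem_strictPeriods_SL τ
  unfold Ev
  convert h using 3 with n
  rw [E_qExpansion_coeff (by norm_num) (by decide)]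
  simp only [toC, PowerSeries.coeff_map, eisenstein4, PowerSeries.coeff_mk]
  split_ifs with h0
  · simp
  · have hb : bernoulli 4 = -1 / 30 := by
      rw [bernoulli_eq_bernoulli'_of_ne_one (by norm_num), bernoulli'_four]
    rw [hb, ArithmeticFunction.sigma_apply, eq_intCast]
    push_cast
    ring

theorem ev_jNum (τ : ℍ) :
    Ev (𝕢 1 τ) (toC jNum) (E₄ τ ^ 3 * (eulerFun (𝕢 1 τ) ^ 24)⁻¹) := by
  simpa [toC, jNum] using ((ev_E₄ τ).pow 3).mul (ev_eulerFun_inv (norm_q_lt_one τ))

theorem coeff_jq_natCast_sub_one (m : ℕ) :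
    jq.coeff ((m : ℤ) - 1) = ((PowerSeries.coeff m jNum : ℤ) : ℚ) := by
  rw [jq, sub_eq_add_neg, HahnSeries.coeff_single_mul_add, one_mul,
    HahnSeries.ofPowerSeries_apply_coeff, jNumQ, PowerSeries.coeff_map, eq_intCast]

/-- The analytic `j`-function `E₄³/Δ` is given by the formal Laurent series `jq` of the
Prelude. -/
theorem hasSum_j (τ : ℍ) :
    HasSum (fun n : ℤ => ((jq.coeff n : ℚ) : ℂ) * 𝕢 1 τ ^ n) (E₄ τ ^ 3 / discriminant τ) := by
  have hg : Function.Injective (fun m : ℕ => (m : ℤ) - 1) := fun a b h => by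
    simpa using h
  rw [← hg.hasSum_iff]
  · have h := (ev_jNum τ).mul_left (𝕢 1 τ)⁻¹
    have hv : (𝕢 1 τ)⁻¹ * (E₄ τ ^ 3 * (eulerFun (𝕢 1 τ) ^ 24)⁻¹) = E₄ τ ^ 3 / discriminant τ := by
      rw [discriminant_eq, div_eq_mul_inv, mul_inv]
      ring
    rw [hv] at h
    refine h.congr_fun fun m => ?_
    simp only [Function.comp_apply]
    rw [coeff_jq_natCast_sub_one, zpow_sub_one₀ (q_ne_zero τ), zpow_natCast]
    simp only [toC, PowerSeries.coeff_map, eq_intCast, Rat.cast_intCast]
    ring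
  · intro x hx
    have hlt : x < -1 := by
      by_contra hge
      rw [not_lt] at hge
      exact hx ⟨(x + 1).toNat, by
        show (((x + 1).toNat : ℕ) : ℤ) - 1 = x
        rw [Int.toNat_of_nonneg (by omega)]; ring⟩
    rw [coeff_jq_of_lt hlt]
    simp

end Fermat.Agent.Lib.JExpansion
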