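import Mathlib
import Fermat.Prelude.Def_ModularCurve_GenusNumerics

set_option autoImplicit false

open CongruenceSubgroup Matrix.SpecialLinearGroup
open scoped MatrixGroups

namespace Fermat.Agent.Lib.Gamma0Count

variable {N : ℕ}

/-- Coset equality in `SL(2,ℤ) ⧸ Γ₀(N)` is the vanishing of the cross product of first columns. -/
theorem mk_eq_mk_iff (g h : SL(2, ℤ)) :
    (QuotientGroup.mk g : SL(2, ℤ) ⧸ Gamma0 N) = QuotientGroup.mk h ↔
      (N : ℤ) ∣ g 0 0 * h 1 0 - g 1 0 * h 0 0 := by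
  rw [QuotientGroup.eq, Gamma0_mem, ZMod.intCast_zmod_eq_zero_iff_dvd]
  have : (g⁻¹ * h) 1 0 = g 0 0 * h 1 0 - g 1 0 * h 0 0 := by
    rw [Matrix.SpecialLinearGroup.coe_mul, Matrix.SpecialLinearGroup.SL2_inv_expl,
      Matrix.mul_apply]
    simp [Fin.sum_univ_two]
    ring
  rw [this]

theorem col_isCoprime (g : SL(2, ℤ)) : IsCoprime (g 0 0) (g 1 0) := by
  refine ⟨g 1 1, -g 0 1, ?_⟩
  have := g.det_coe
  rw [Matrix.det_fin_two] at this
  linarith

theorem S_mul_col (g : SL(2, ℤ)) :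
    (ModularGroup.S * g) 0 0 = - g 1 0 ∧ (ModularGroup.S * g) 1 0 = g 0 0 := by
  rw [Matrix.SpecialLinearGroup.coe_mul, ModularGroup.coe_S]
  simp [Matrix.mul_apply, Fin.sum_univ_two]

theorem T_zpow_mul_col (k : ℤ) (g : SL(2, ℤ)) :
    (ModularGroup.T ^ k * g) 0 0 = g 0 0 + k * g 1 0 ∧ (ModularGroup.T ^ k * g) 1 0 = g 1 0 := by
  rw [Matrix.SpecialLinearGroup.coe_mul, ModularGroup.coe_T_zpow]
  simp [Matrix.mul_apply, Fin.sum_univ_two]

theorem ST_mul_col (g : SL(2, ℤ)) :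
    (ModularGroup.S * ModularGroup.T * g) 0 0 = - g 1 0 ∧
      (ModularGroup.S * ModularGroup.T * g) 1 0 = g 0 0 + g 1 0 := by
  rw [mul_assoc]
  have h1 := S_mul_col (ModularGroup.T * g)
  have h2 := T_zpow_mul_col 1 g
  rw [zpow_one] at h2
  rw [h1.1, h1.2, h2.1, h2.2]
  simp

/-- the matrix `[[a, -1], [1, 0]]`. -/
def chartMat (a : ℤ) : SL(2, ℤ) := ⟨!![a, -1; 1, 0], by simp [Matrix.det_fin_two]⟩

@[simp] theorem chartMat_zero_zero (a : ℤ) : chartMat a 0 0 = a := rfl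
@[simp] theorem chartMat_one_zero (a : ℤ) : chartMat a 1 0 = 1 := rfl

/-- The affine chart `ℤ/N → SL(2,ℤ)/Γ₀(N)`, `x ↦ [x : 1]`. -/
noncomputable def chart (N : ℕ) (x : ZMod N) : SL(2, ℤ) ⧸ Gamma0 N :=
  QuotientGroup.mk (chartMat (x.cast : ℤ))

theorem chart_injective : Function.Injective (chart N) := by
  intro x y hxy
  rw [chart, chart, mk_eq_mk_iff] at hxy
  simp only [chartMat_zero_zero, chartMat_one_zero, mul_one, one_mul] at hxy
  have := (ZMod.intCast_zmod_eq_zero_iff_dvd _ N).mpr hxy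
  push_cast at this
  exact sub_eq_zero.mp this

/-- A coset whose first column `(a, c)` has `c` a unit mod `N` lies in the affine chart. -/
theorem mk_eq_chart (g : SL(2, ℤ)) (u : ZMod N) (hu : (g 1 0 : ZMod N) * u = 1) :
    (QuotientGroup.mk g : SL(2, ℤ) ⧸ Gamma0 N) = chart N ((g 0 0 : ZMod N) * u) := by
  rw [chart, mk_eq_mk_iff]
  simp only [chartMat_zero_zero, chartMat_one_zero, mul_one]
  rw [← ZMod.intCast_zmod_eq_zero_iff_dvd]
  push_cast
  linear_combination (- (g 0 0 : ZMod N)) * hu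

theorem smul_mk (γ g : SL(2, ℤ)) :
    γ • (QuotientGroup.mk g : SL(2, ℤ) ⧸ Gamma0 N) = QuotientGroup.mk (γ * g) := rfl


/-- If `N ∣ a² + t a c + c²` with `(a,c)` coprime then `c` is invertible mod `N`. -/
theorem exists_inv_of_dvd_quadratic {a c t : ℤ} (hac : IsCoprime a c)
    (h : (N : ℤ) ∣ a * a + t * (a * c) + c * c) : ∃ u : ZMod N, (c : ZMod N) * u = 1 := by
  have hcop : IsCoprime c (N : ℤ) := by
    have h1 : IsCoprime c (a * a) := (hac.symm.mul_right hac.symm)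
    obtain ⟨k, hk⟩ := h
    obtain ⟨x, y, hxy⟩ := h1
    refine ⟨x - y * (t * a) - y * c, y * k, ?_⟩
    linear_combination hxy - y * hk
  obtain ⟨x, y, hxy⟩ := hcop
  refine ⟨(x : ZMod N), ?_⟩
  have := congrArg (Int.cast : ℤ → ZMod N) hxy
  push_cast at this
  simp only [CharP.cast_eq_zero, mul_zero, add_zero] at this
  rw [mul_comm]; exact this

theorem card_fixedBy_S (N : ℕ) :
    Nat.card (MulAction.fixedBy (SL(2, ℤ) ⧸ Gamma0 N) ModularGroup.S) = ModularCurve.nuTwo N := by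
  rw [ModularCurve.nuTwo]
  symm
  refine Nat.card_congr (Equiv.ofBijective
    (fun x : {x : ZMod N // x ^ 2 + 1 = 0} =>
      (⟨chart N x.1, ?_⟩ : MulAction.fixedBy (SL(2, ℤ) ⧸ Gamma0 N) ModularGroup.S)) ⟨?_, ?_⟩)
  · rw [MulAction.mem_fixedBy, chart, smul_mk, mk_eq_mk_iff, (S_mul_col _).1, (S_mul_col _).2]
    simp only [chartMat_zero_zero, chartMat_one_zero]
    rw [← ZMod.intCast_zmod_eq_zero_iff_dvd]
    push_cast
    linear_combination - x.2
  · intro x y hxy
    exact Subtype.ext (chart_injective (congrArg Subtype.val hxy))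
  · rintro ⟨q, hq⟩
    induction q using QuotientGroup.induction_on with
    | H g =>
      rw [MulAction.mem_fixedBy, smul_mk, mk_eq_mk_iff, (S_mul_col _).1, (S_mul_col _).2] at hq
      obtain ⟨u, hu⟩ := exists_inv_of_dvd_quadratic (N := N) (t := 0) (col_isCoprime g)
        (by obtain ⟨k, hk⟩ := hq; exact ⟨-k, by linear_combination -hk⟩)
      have hq' := (ZMod.intCast_zmod_eq_zero_iff_dvd _ N).mpr hq
      push_cast at hq'
      refine ⟨⟨(g 0 0 : ZMod N) * u, ?_⟩, ?_⟩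
      · linear_combination (-u ^ 2) * hq' - (1 + (g 1 0 : ZMod N) * u) * hu
      · exact Subtype.ext (mk_eq_chart g u hu).symm

theorem card_fixedBy_ST (N : ℕ) :
    Nat.card (MulAction.fixedBy (SL(2, ℤ) ⧸ Gamma0 N) (ModularGroup.S * ModularGroup.T)) =
      ModularCurve.nuThree N := by
  rw [ModularCurve.nuThree]
  symm
  refine Nat.card_congr (Equiv.ofBijective
    (fun x : {x : ZMod N // x ^ 2 + x + 1 = 0} =>
      (⟨chart N x.1, ?_⟩ :
        MulAction.fixedBy (SL(2, ℤ) ⧸ Gamma0 N) (ModularGroup.S * ModularGroup.T))) ⟨?_, ?_⟩)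
  · rw [MulAction.mem_fixedBy, chart, smul_mk, mk_eq_mk_iff, (ST_mul_col _).1, (ST_mul_col _).2]
    simp only [chartMat_zero_zero, chartMat_one_zero]
    rw [← ZMod.intCast_zmod_eq_zero_iff_dvd]
    push_cast
    linear_combination - x.2
  · intro x y hxy
    exact Subtype.ext (chart_injective (congrArg Subtype.val hxy))
  · rintro ⟨q, hq⟩
    induction q using QuotientGroup.induction_on with
    | H g =>
      rw [MulAction.mem_fixedBy, smul_mk, mk_eq_mk_iff, (ST_mul_col _).1, (ST_mul_col _).2] at hq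
      obtain ⟨u, hu⟩ := exists_inv_of_dvd_quadratic (N := N) (t := 1) (col_isCoprime g)
        (by obtain ⟨k, hk⟩ := hq; exact ⟨-k, by linear_combination -hk⟩)
      have hq' := (ZMod.intCast_zmod_eq_zero_iff_dvd _ N).mpr hq
      push_cast at hq'
      refine ⟨⟨(g 0 0 : ZMod N) * u, ?_⟩, ?_⟩
      · linear_combination (-u ^ 2) * hq' -
          (1 + (g 1 0 : ZMod N) * u + (g 0 0 : ZMod N) * u) * hu
      · exact Subtype.ext (mk_eq_chart g u hu).symm

end Fermat.Agent.Lib.Gamma0Count
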