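import Mathlib
import Fermat.Agent.Lib.Gamma0Count

set_option autoImplicit false

open CongruenceSubgroup Matrix.SpecialLinearGroup
open scoped MatrixGroups

namespace Fermat.Agent.Lib.Gamma0Count

theorem Gamma0_mul_le (p M : ℕ) : Gamma0 (p * M) ≤ Gamma0 M := by
  intro g hg
  rw [Gamma0_mem, ZMod.intCast_zmod_eq_zero_iff_dvd] at hg ⊢
  exact dvd_trans (by push_cast; exact Dvd.intro_left _ rfl) hg

theorem inv_mul_one_zero (g h : SL(2, ℤ)) :
    (g⁻¹ * h) 1 0 = g 0 0 * h 1 0 - g 1 0 * h 0 0 := by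
  rw [Matrix.SpecialLinearGroup.coe_mul, Matrix.SpecialLinearGroup.SL2_inv_expl,
    Matrix.mul_apply]
  simp [Fin.sum_univ_two]
  ring

/-- equality of cosets in `Γ₀(M) ⧸ Γ₀(pM)`. -/
theorem relmk_eq_relmk_iff {p M : ℕ} (hM : M ≠ 0) (k k' : Gamma0 M) (c c' : ℤ)
    (hc : (k : SL(2, ℤ)) 1 0 = M * c) (hc' : (k' : SL(2, ℤ)) 1 0 = M * c') :
    (QuotientGroup.mk k : Gamma0 M ⧸ (Gamma0 (p * M)).subgroupOf (Gamma0 M)) = QuotientGroup.mk k' ↔
      (p : ℤ) ∣ (k : SL(2, ℤ)) 0 0 * c' - c * (k' : SL(2, ℤ)) 0 0 := by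
  rw [QuotientGroup.eq, Subgroup.mem_subgroupOf, Gamma0_mem, ZMod.intCast_zmod_eq_zero_iff_dvd]
  have : ((k⁻¹ * k' : Gamma0 M) : SL(2, ℤ)) 1 0 =
      M * ((k : SL(2, ℤ)) 0 0 * c' - c * (k' : SL(2, ℤ)) 0 0) := by
    rw [Subgroup.coe_mul, Subgroup.coe_inv, inv_mul_one_zero, hc, hc']
    ring
  rw [this]
  push_cast
  rw [mul_comm (p : ℤ) (M : ℤ)]
  exact mul_dvd_mul_iff_left (by exact_mod_cast hM)

/-- the matrix `[[1, 0], [c, 1]]`. -/
def lowerMat (c : ℤ) : SL(2, ℤ) := ⟨!![1, 0; c, 1], by simp [Matrix.det_fin_two]⟩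

@[simp] theorem lowerMat_zero_zero (c : ℤ) : lowerMat c 0 0 = 1 := rfl
@[simp] theorem lowerMat_one_zero (c : ℤ) : lowerMat c 1 0 = c := rfl

theorem lowerMat_mem (M : ℕ) (t : ℤ) : lowerMat (M * t) ∈ Gamma0 M := by
  rw [Gamma0_mem, lowerMat_one_zero]
  simp

theorem exists_eq_mul_of_mem {M : ℕ} (k : Gamma0 M) : ∃ c : ℤ, (k : SL(2, ℤ)) 1 0 = M * c := by
  have := k.2
  rw [Gamma0_mem, ZMod.intCast_zmod_eq_zero_iff_dvd] at this
  exact this

theorem relIndex_of_dvd {p M : ℕ} (hM : M ≠ 0) (hp : p.Prime) (hpM : p ∣ M) :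
    (Gamma0 (p * M)).relIndex (Gamma0 M) = p := by
  have : Fact p.Prime := ⟨hp⟩
  rw [Subgroup.relIndex, Subgroup.index]
  conv_rhs => rw [← Nat.card_zmod p]
  symm
  refine Nat.card_congr (Equiv.ofBijective
    (fun t : ZMod p => (QuotientGroup.mk (⟨lowerMat (M * (t.cast : ℤ)), lowerMat_mem M _⟩ : Gamma0 M) :
      Gamma0 M ⧸ (Gamma0 (p * M)).subgroupOf (Gamma0 M))) ⟨?_, ?_⟩)
  · intro s t hst
    rw [relmk_eq_relmk_iff hM _ _ (s.cast : ℤ) (t.cast : ℤ) rfl rfl] at hst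
    simp only [lowerMat_zero_zero, one_mul, mul_one] at hst
    have := (ZMod.intCast_zmod_eq_zero_iff_dvd _ p).mpr hst
    push_cast at this
    exact (sub_eq_zero.mp this).symm
  · intro q
    induction q using QuotientGroup.induction_on with
    | H k =>
      obtain ⟨c, hc⟩ := exists_eq_mul_of_mem k
      -- `a` is a unit mod `p`
      have ha : ((k : SL(2, ℤ)) 0 0 : ZMod p) ≠ 0 := by
        intro h0
        rw [ZMod.intCast_zmod_eq_zero_iff_dvd] at h0
        have h1 : (p : ℤ) ∣ (k : SL(2, ℤ)) 1 0 := by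
          rw [hc]; exact Dvd.dvd.mul_right (by exact_mod_cast hpM) _
        have := (col_isCoprime (k : SL(2, ℤ))).isUnit_of_dvd' h0 h1
        exact (Nat.prime_iff_prime_int.mp hp).not_isUnit this
      refine ⟨(c : ZMod p) * ((k : SL(2, ℤ)) 0 0 : ZMod p)⁻¹, ?_⟩
      rw [relmk_eq_relmk_iff hM _ _ _ c rfl hc]
      simp only [lowerMat_zero_zero, one_mul]
      rw [← ZMod.intCast_zmod_eq_zero_iff_dvd]
      push_cast
      field_simp
      ring

theorem relIndex_of_not_dvd {p M : ℕ} (hM : M ≠ 0) (hp : p.Prime) (hpM : ¬ p ∣ M) :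
    (Gamma0 (p * M)).relIndex (Gamma0 M) = p + 1 := by
  have : Fact p.Prime := ⟨hp⟩
  have hcop : IsCoprime (p : ℤ) (M : ℤ) := by
    rw [Nat.isCoprime_iff_coprime]; exact (Nat.Prime.coprime_iff_not_dvd hp).mpr hpM
  obtain ⟨k₀, hk₀0, hk₀1⟩ := hcop.exists_SL2_col 0
  have hk₀mem : k₀ ∈ Gamma0 M := by
    rw [Gamma0_mem, hk₀1]; simp
  have hcard : Nat.card (Option (ZMod p)) = p + 1 := by
    rw [Nat.card_eq_fintype_card, Fintype.card_option, ZMod.card]
  rw [Subgroup.relIndex, Subgroup.index, ← hcard]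
  symm
  refine Nat.card_congr (Equiv.ofBijective
    (fun t : Option (ZMod p) => (QuotientGroup.mk
      (match t with
        | some t => (⟨lowerMat (M * (t.cast : ℤ)), lowerMat_mem M _⟩ : Gamma0 M)
        | none => ⟨k₀, hk₀mem⟩) :
      Gamma0 M ⧸ (Gamma0 (p * M)).subgroupOf (Gamma0 M))) ⟨?_, ?_⟩)
  · rintro (_ | s) (_ | t) hst
    · rfl
    · exfalso
      simp only at hst
      rw [relmk_eq_relmk_iff hM _ _ 1 (t.cast : ℤ) (by simpa using hk₀1) rfl] at hst
      simp only [lowerMat_zero_zero, one_mul, hk₀0] at hst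
      have h1 : (p : ℤ) ∣ 1 := by
        have := dvd_sub (Dvd.intro ((t.cast : ℤ)) rfl : (p : ℤ) ∣ p * (t.cast : ℤ)) hst
        simpa using this
      exact (Nat.prime_iff_prime_int.mp hp).not_isUnit (isUnit_of_dvd_one h1)
    · exfalso
      simp only at hst
      rw [relmk_eq_relmk_iff hM _ _ (s.cast : ℤ) 1 rfl (by simpa using hk₀1)] at hst
      simp only [lowerMat_zero_zero, one_mul, hk₀0] at hst
      have h1 : (p : ℤ) ∣ 1 := by
        have := dvd_add (Dvd.intro_left ((s.cast : ℤ)) rfl : (p : ℤ) ∣ (s.cast : ℤ) * p) hst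
        simpa using this
      exact (Nat.prime_iff_prime_int.mp hp).not_isUnit (isUnit_of_dvd_one h1)
    · simp only at hst
      rw [relmk_eq_relmk_iff hM _ _ (s.cast : ℤ) (t.cast : ℤ) rfl rfl] at hst
      simp only [lowerMat_zero_zero, one_mul, mul_one] at hst
      have := (ZMod.intCast_zmod_eq_zero_iff_dvd _ p).mpr hst
      push_cast at this
      rw [(sub_eq_zero.mp this)]
  · intro q
    induction q using QuotientGroup.induction_on with
    | H k =>
      obtain ⟨c, hc⟩ := exists_eq_mul_of_mem k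
      by_cases ha : ((k : SL(2, ℤ)) 0 0 : ZMod p) = 0
      · refine ⟨none, ?_⟩
        simp only
        rw [relmk_eq_relmk_iff hM _ _ 1 c (by simpa using hk₀1) hc]
        simp only [hk₀0, one_mul]
        rw [ZMod.intCast_zmod_eq_zero_iff_dvd] at ha
        exact dvd_sub (Dvd.intro _ rfl) ha
      · refine ⟨some ((c : ZMod p) * ((k : SL(2, ℤ)) 0 0 : ZMod p)⁻¹), ?_⟩
        simp only
        rw [relmk_eq_relmk_iff hM _ _ _ c rfl hc]
        simp only [lowerMat_zero_zero, one_mul]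
        rw [← ZMod.intCast_zmod_eq_zero_iff_dvd]
        push_cast
        field_simp
        ring


open ModularCurve in
theorem dedekindPsi_mul_of_dvd {p M : ℕ} (hM : M ≠ 0) (hp : p.Prime) (hpM : p ∣ M) :
    dedekindPsi (p * M) = p * dedekindPsi M := by
  rw [dedekindPsi, dedekindPsi, Finset.mul_sum]
  have hset : (p * M).divisors.filter Squarefree = M.divisors.filter Squarefree := by
    ext d
    simp only [Finset.mem_filter, Nat.mem_divisors]
    constructor
    · rintro ⟨⟨hd, -⟩, hsq⟩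
      refine ⟨⟨?_, hM⟩, hsq⟩
      have : d ∣ M ^ 2 := by
        rw [sq]; exact hd.trans (Nat.mul_dvd_mul_right hpM M)
      exact (hsq.dvd_pow_iff_dvd two_ne_zero).mp this
    · rintro ⟨⟨hd, -⟩, hsq⟩
      exact ⟨⟨hd.mul_left p, mul_ne_zero hp.ne_zero hM⟩, hsq⟩
  rw [hset]
  refine Finset.sum_congr rfl fun d hd => ?_
  simp only [Finset.mem_filter, Nat.mem_divisors] at hd
  exact Nat.mul_div_assoc p hd.1.1

open ModularCurve in
theorem dedekindPsi_mul_of_not_dvd {p M : ℕ} (hM : M ≠ 0) (hp : p.Prime) (hpM : ¬ p ∣ M) :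
    dedekindPsi (p * M) = (p + 1) * dedekindPsi M := by
  rw [dedekindPsi, dedekindPsi]
  have hcop : Nat.Coprime p M := (Nat.Prime.coprime_iff_not_dvd hp).mpr hpM
  have hset : (p * M).divisors.filter Squarefree =
      M.divisors.filter Squarefree ∪ (M.divisors.filter Squarefree).image (p * ·) := by
    ext d
    simp only [Finset.mem_filter, Nat.mem_divisors, Finset.mem_union, Finset.mem_image]
    constructor
    · rintro ⟨⟨hd, -⟩, hsq⟩
      by_cases hpd : p ∣ d
      · right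
        obtain ⟨e, rfl⟩ := hpd
        refine ⟨e, ⟨⟨Nat.dvd_of_mul_dvd_mul_left hp.pos hd, hM⟩, hsq.of_mul_right⟩, rfl⟩
      · left
        refine ⟨⟨?_, hM⟩, hsq⟩
        exact (Nat.Coprime.dvd_mul_left ((Nat.Prime.coprime_iff_not_dvd hp).mpr hpd).symm).mp hd
    · rintro (⟨⟨hd, -⟩, hsq⟩ | ⟨e, ⟨⟨he, -⟩, hsq⟩, rfl⟩)
      · exact ⟨⟨hd.mul_left p, mul_ne_zero hp.ne_zero hM⟩, hsq⟩
      · refine ⟨⟨Nat.mul_dvd_mul_left p he, mul_ne_zero hp.ne_zero hM⟩, ?_⟩
        rw [Nat.squarefree_mul_iff]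
        exact ⟨hcop.coprime_dvd_right he, hp.prime.irreducible.squarefree, hsq⟩
  have hdisj : Disjoint (M.divisors.filter Squarefree)
      ((M.divisors.filter Squarefree).image (p * ·)) := by
    rw [Finset.disjoint_left]
    intro d hd hd'
    simp only [Finset.mem_filter, Nat.mem_divisors, Finset.mem_image] at hd hd'
    obtain ⟨e, -, rfl⟩ := hd'
    exact hpM ((Dvd.intro e rfl).trans hd.1.1)
  rw [hset, Finset.sum_union hdisj, Finset.sum_image (fun a _ b _ h => Nat.eq_of_mul_eq_mul_left hp.pos h),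
    add_mul, one_mul, Finset.mul_sum]
  congr 1
  · refine Finset.sum_congr rfl fun d hd => ?_
    simp only [Finset.mem_filter, Nat.mem_divisors] at hd
    exact Nat.mul_div_assoc p hd.1.1
  · refine Finset.sum_congr rfl fun d _ => ?_
    exact Nat.mul_div_mul_left M d hp.pos

theorem Gamma0_one_eq_top : Gamma0 1 = ⊤ := by
  ext g
  simp [Gamma0_mem, eq_iff_true_of_subsingleton]

theorem index_Gamma0 (N : ℕ) (hN : N ≠ 0) : (Gamma0 N).index = ModularCurve.dedekindPsi N := by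
  induction N using induction_on_primes with
  | zero => exact absurd rfl hN
  | one => rw [Gamma0_one_eq_top, Subgroup.index_top, ModularCurve.dedekindPsi_one]
  | prime_mul p M hp ih =>
    have hM : M ≠ 0 := right_ne_zero_of_mul hN
    rw [← Subgroup.relIndex_mul_index (Gamma0_mul_le p M), ih hM]
    by_cases hpM : p ∣ M
    · rw [relIndex_of_dvd hM hp hpM, dedekindPsi_mul_of_dvd hM hp hpM]
    · rw [relIndex_of_not_dvd hM hp hpM, dedekindPsi_mul_of_not_dvd hM hp hpM]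

theorem card_quotient (N : ℕ) (hN : N ≠ 0) :
    Nat.card (SL(2, ℤ) ⧸ Gamma0 N) = ModularCurve.dedekindPsi N :=
  index_Gamma0 N hN

end Fermat.Agent.Lib.Gamma0Count
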