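/-
Holomorphic `n`-th roots on the upper half plane.  Owner helper281 (task 286; node M1 of the
Galois cluster plan).

Main results (namespace `Fermat.Agent.Lib.HolRoot`):
* `exists_root` : a holomorphic `c : ℍ → ℂ` all of whose orders of vanishing are (finite and)
  divisible by `n` is the `n`-th power of a holomorphic function on `ℍ`.
* `exists_root_of_unity` : two holomorphic functions on `ℍ` with the same `n`-th power differ by
  an `n`-th root of unity.
* `exists_root_im_pos`, `exists_root_of_exhaustion`, `exists_root_ball`, `eqOn_of_pow_eq` : the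
  same for functions `ℂ → ℂ`.
-/
import Mathlib

set_option autoImplicit false

namespace Fermat.Agent.Lib.HolRoot

open Complex Metric Set Filter Topology

/-- A non-vanishing holomorphic function on a ball has a holomorphic `n`-th root. -/
theorem exists_root_ball_of_ne_zero {n : ℕ} (hn : n ≠ 0) {z₀ : ℂ} {r : ℝ} {g : ℂ → ℂ}
    (hg : DifferentiableOn ℂ g (ball z₀ r)) (hg0 : ∀ z ∈ ball z₀ r, g z ≠ 0) :
    ∃ G : ℂ → ℂ, DifferentiableOn ℂ G (ball z₀ r) ∧ ∀ z ∈ ball z₀ r, G z ^ n = g z := by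
  rcases (ball z₀ r).eq_empty_or_nonempty with he | hne
  · exact ⟨0, by simp [he], by simp [he]⟩
  have hr : 0 < r := by
    by_contra h
    rw [ball_eq_empty.mpr (not_lt.mp h)] at hne
    exact hne.ne_empty rfl
  have hopen : IsOpen (ball z₀ r) := isOpen_ball
  have hdg : DifferentiableOn ℂ (deriv g) (ball z₀ r) := hg.deriv hopen
  have hq : DifferentiableOn ℂ (fun z => deriv g z / g z) (ball z₀ r) := hdg.div hg hg0
  obtain ⟨L, hL⟩ := hq.isExactOn_ball
  -- `g * exp (-L)` is constant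
  have hder : ∀ z ∈ ball z₀ r, HasDerivAt (fun z => g z * exp (-L z)) 0 z := by
    intro z hz
    have h1 : HasDerivAt g (deriv g z) z := (hg.differentiableAt (hopen.mem_nhds hz)).hasDerivAt
    have h2 : HasDerivAt (fun z => exp (-L z)) (exp (-L z) * -(deriv g z / g z)) z :=
      ((hL z hz).neg).cexp
    have h3 := h1.mul h2
    have h0 : deriv g z * exp (-L z) + g z * (exp (-L z) * -(deriv g z / g z)) = 0 := by
      have := hg0 z hz
      field_simp
      ring
    rw [h0] at h3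
    exact h3
  have hconst : ∀ z ∈ ball z₀ r, g z * exp (-L z) = g z₀ * exp (-L z₀) := by
    intro z hz
    have hd : DifferentiableOn ℂ (fun z => g z * exp (-L z)) (ball z₀ r) :=
      fun w hw => (hder w hw).differentiableAt.differentiableWithinAt
    exact hopen.is_const_of_deriv_eq_zero (convex_ball z₀ r).isPreconnected hd
      (fun w hw => (hder w hw).deriv) hz (mem_ball_self hr)
  set C := g z₀ * exp (-L z₀) with hC
  have hC0 : C ≠ 0 := mul_ne_zero (hg0 z₀ (mem_ball_self hr)) (exp_ne_zero _)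
  refine ⟨fun z => exp ((L z + log C) / n), ?_, ?_⟩
  · intro z hz
    have : DifferentiableAt ℂ L z := (hL z hz).differentiableAt
    exact (((this.add_const _).div_const _).cexp).differentiableWithinAt
  · intro z hz
    rw [← exp_nat_mul, mul_div_cancel₀ _ (Nat.cast_ne_zero.mpr hn), exp_add, exp_log hC0,
      ← hconst z hz, mul_comm (g z), ← mul_assoc, ← exp_add]
    simp

/-- A holomorphic function near a closed ball all of whose zeros have order divisible by `n` has a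
holomorphic `n`-th root on the open ball. -/
theorem exists_root_ball {n : ℕ} (hn : n ≠ 0) {z₀ : ℂ} {r : ℝ} {c : ℂ → ℂ}
    (hc : AnalyticOnNhd ℂ c (closedBall z₀ r))
    (hord : ∀ z ∈ closedBall z₀ r, ∃ m : ℕ, analyticOrderAt c z = ((n * m : ℕ) : ℕ∞)) :
    ∃ h : ℂ → ℂ, DifferentiableOn ℂ h (ball z₀ r) ∧ ∀ z ∈ ball z₀ r, h z ^ n = c z := by
  have hsub : ball z₀ r ⊆ closedBall z₀ r := ball_subset_closedBall
  have hcB : AnalyticOnNhd ℂ c (ball z₀ r) := hc.mono hsub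
  have hfin : (MeromorphicOn.divisor c (ball z₀ r)).support.Finite :=
    MeromorphicOn.divisor_ball_support_finite hc.meromorphicOn
  have htop : ∀ u : ball z₀ r, meromorphicOrderAt c u ≠ ⊤ := by
    intro u
    obtain ⟨m, hm⟩ := hord u (hsub u.2)
    rw [(hcB u u.2).meromorphicOrderAt_eq, hm]
    exact WithTop.coe_ne_top
  obtain ⟨g, hg, hg0, hgc⟩ := hcB.meromorphicOn.extract_zeros_poles htop hfin
  have hD : ∀ u, ∃ m : ℕ, MeromorphicOn.divisor c (ball z₀ r) u = ((n * m : ℕ) : ℤ) := by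
    intro u
    by_cases hu : u ∈ ball z₀ r
    · obtain ⟨m, hm⟩ := hord u (hsub hu)
      refine ⟨m, ?_⟩
      rw [MeromorphicOn.AnalyticOnNhd.divisor_apply hcB hu, hm]
      simp
    · refine ⟨0, ?_⟩
      simp [hu]
  choose m hm using hD
  set P : ℂ → ℂ := fun z => ∏ u ∈ hfin.toFinset, (z - u) ^ m u with hPdef
  have hP : ∀ z, (∏ᶠ u, (fun z : ℂ => z - u) ^ MeromorphicOn.divisor c (ball z₀ r) u) z
      = P z ^ n := by
    intro z
    rw [Function.FactorizedRational.finprod_eq_fun hfin]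
    show ∏ᶠ u, (z - u) ^ MeromorphicOn.divisor c (ball z₀ r) u = _
    rw [finprod_eq_prod_of_mulSupport_subset (s := hfin.toFinset), hPdef, ← Finset.prod_pow]
    · refine Finset.prod_congr rfl fun u _ => ?_
      rw [hm u, zpow_natCast, mul_comm, pow_mul]
    · intro u
      contrapose
      simp_all
  obtain ⟨G, hG, hGn⟩ := exists_root_ball_of_ne_zero hn hg.differentiableOn
    (fun z hz => hg0 ⟨z, hz⟩)
  have hPd : Differentiable ℂ P := by
    rw [hPdef]
    fun_prop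
  refine ⟨fun z => P z * G z, hPd.differentiableOn.mul hG, ?_⟩
  intro z hz
  -- equality on a punctured neighbourhood, then by continuity
  have hev : ∀ᶠ y in 𝓝[≠] z, (P y * G y) ^ n = c y := by
    have h1 := (mem_codiscreteWithin_iff_forall_mem_nhdsNE.mp hgc) z hz
    have h2 : ball z₀ r ∈ 𝓝[≠] z := mem_nhdsWithin_of_mem_nhds (isOpen_ball.mem_nhds hz)
    filter_upwards [h1, h2] with y hy1 hy2
    rcases hy1 with hy1 | hy1
    · have hy3 : c y = (∏ᶠ u, (fun z : ℂ => z - u) ^ MeromorphicOn.divisor c (ball z₀ r) u) y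
          * g y := hy1
      rw [hy3, hP, mul_pow, hGn y hy2]
    · exact absurd hy2 hy1
  have hcont1 : ContinuousAt (fun y => (P y * G y) ^ n) z :=
    ((hPd.continuous.continuousAt).mul
      (hG.differentiableAt (isOpen_ball.mem_nhds hz)).continuousAt).pow n
  have hcont2 : ContinuousAt c z := (hcB z hz).continuousAt
  exact tendsto_nhds_unique_of_eventuallyEq (hcont1.tendsto.mono_left nhdsWithin_le_nhds)
    (hcont2.tendsto.mono_left nhdsWithin_le_nhds) hev

/-- Two holomorphic functions on a connected open set with the same `n`-th power which agree at a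
point where they do not vanish are equal. -/
theorem eqOn_of_pow_eq {n : ℕ} (hn : n ≠ 0) {U : Set ℂ} (hU : IsOpen U) (hUc : IsPreconnected U)
    {h₁ h₂ : ℂ → ℂ} (hh₁ : DifferentiableOn ℂ h₁ U) (hh₂ : DifferentiableOn ℂ h₂ U)
    (hpow : ∀ z ∈ U, h₁ z ^ n = h₂ z ^ n) {w : ℂ} (hw : w ∈ U) (hw0 : h₂ w ≠ 0)
    (hww : h₁ w = h₂ w) : EqOn h₁ h₂ U := by
  have ha₁ : AnalyticOnNhd ℂ h₁ U := hh₁.analyticOnNhd hU
  have ha₂ : AnalyticOnNhd ℂ h₂ U := hh₂.analyticOnNhd hU
  refine ha₁.eqOn_of_preconnected_of_eventuallyEq ha₂ hUc hw ?_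
  have hc₁ : ContinuousAt h₁ w := (ha₁ w hw).continuousAt
  have hc₂ : ContinuousAt h₂ w := (ha₂ w hw).continuousAt
  have hS : ContinuousAt (fun z => ∑ i ∈ Finset.range n, h₁ z ^ i * h₂ z ^ (n - 1 - i)) w := by
    refine tendsto_finsetSum _ fun i _ => ?_
    exact (hc₁.pow i).mul (hc₂.pow (n - 1 - i))
  have hS0 : (∑ i ∈ Finset.range n, h₁ w ^ i * h₂ w ^ (n - 1 - i)) ≠ 0 := by
    rw [hww]
    have : ∀ i ∈ Finset.range n, h₂ w ^ i * h₂ w ^ (n - 1 - i) = h₂ w ^ (n - 1) := by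
      intro i hi
      rw [← pow_add]
      congr 1
      have := Finset.mem_range.mp hi
      omega
    rw [Finset.sum_congr rfl this, Finset.sum_const, Finset.card_range, nsmul_eq_mul]
    exact mul_ne_zero (Nat.cast_ne_zero.mpr hn) (pow_ne_zero _ hw0)
  filter_upwards [hS.eventually_ne hS0, hU.mem_nhds hw] with z hz1 hz2
  have := geom_sum₂_mul (h₁ z) (h₂ z) n
  rw [hpow z hz2, sub_self] at this
  exact sub_eq_zero.mp ((mul_eq_zero.mp this).resolve_left hz1)

/-- Gluing of roots along an exhaustion by balls. -/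
theorem exists_root_of_exhaustion {n : ℕ} (hn : n ≠ 0) {Ω : Set ℂ} {c : ℂ → ℂ}
    (hc : AnalyticOnNhd ℂ c Ω)
    (hord : ∀ z ∈ Ω, ∃ m : ℕ, analyticOrderAt c z = ((n * m : ℕ) : ℕ∞))
    (ctr : ℕ → ℂ) (rad : ℕ → ℝ) (hrad : 0 < rad 0)
    (hsub : ∀ k, closedBall (ctr k) (rad k) ⊆ Ω)
    (hmono : ∀ k, ball (ctr k) (rad k) ⊆ ball (ctr (k + 1)) (rad (k + 1)))
    (hcover : ∀ z ∈ Ω, ∃ k, z ∈ ball (ctr k) (rad k)) :
    ∃ h : ℂ → ℂ, DifferentiableOn ℂ h Ω ∧ ∀ z ∈ Ω, h z ^ n = c z := by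
  classical
  have hmono' : ∀ j k, j ≤ k → ball (ctr j) (rad j) ⊆ ball (ctr k) (rad k) := by
    intro j k hjk
    induction hjk with
    | refl => exact subset_rfl
    | step _ ih => exact ih.trans (hmono _)
  -- base point
  have h0mem : ctr 0 ∈ Ω := hsub 0 (mem_closedBall_self hrad.le)
  obtain ⟨w, hwB, hw0⟩ : ∃ w ∈ ball (ctr 0) (rad 0), c w ≠ 0 := by
    obtain ⟨m, hm⟩ := hord _ h0mem
    have hne : analyticOrderAt c (ctr 0) ≠ ⊤ := by
      rw [hm]; exact ENat.natCast_ne_top _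
    rw [Ne, analyticOrderAt_eq_top] at hne
    by_contra hcon
    push Not at hcon
    exact hne (Filter.mem_of_superset (ball_mem_nhds _ hrad) hcon)
  -- roots on each ball
  have hex : ∀ k, ∃ h : ℂ → ℂ, DifferentiableOn ℂ h (ball (ctr k) (rad k)) ∧
      ∀ z ∈ ball (ctr k) (rad k), h z ^ n = c z := fun k =>
    exists_root_ball hn (hc.mono (hsub k)) (fun z hz => hord z (hsub k hz))
  choose h₀ hd₀ hp₀ using hex
  have hwk : ∀ k, w ∈ ball (ctr k) (rad k) := fun k => hmono' 0 k (Nat.zero_le k) hwB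
  have hne₀ : ∀ k, h₀ k w ≠ 0 := by
    intro k h0
    have := hp₀ k w (hwk k)
    rw [h0, zero_pow hn] at this
    exact hw0 this.symm
  -- normalised roots
  set h₁ : ℕ → ℂ → ℂ := fun k z => (h₀ 0 w / h₀ k w) * h₀ k z with hh₁
  have hd₁ : ∀ k, DifferentiableOn ℂ (h₁ k) (ball (ctr k) (rad k)) := fun k =>
    (hd₀ k).const_mul _
  have hp₁ : ∀ k, ∀ z ∈ ball (ctr k) (rad k), h₁ k z ^ n = c z := by
    intro k z hz
    simp only [hh₁]
    rw [mul_pow, div_pow, hp₀ 0 w hwB, hp₀ k w (hwk k), div_self hw0, one_mul, hp₀ k z hz]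
  have hw₁ : ∀ k, h₁ k w = h₀ 0 w := by
    intro k
    simp only [hh₁]
    rw [div_mul_cancel₀ _ (hne₀ k)]
  have hcompat : ∀ j k, j ≤ k → EqOn (h₁ j) (h₁ k) (ball (ctr j) (rad j)) := by
    intro j k hjk
    refine eqOn_of_pow_eq hn isOpen_ball (convex_ball _ _).isPreconnected (hd₁ j)
      ((hd₁ k).mono (hmono' j k hjk)) ?_ (hwk j) ?_ ?_
    · intro z hz
      rw [hp₁ j z hz, hp₁ k z (hmono' j k hjk hz)]
    · rw [hw₁]; exact hne₀ 0
    · rw [hw₁, hw₁]
  -- glue
  set idx : ℂ → ℕ := fun z => if hz : ∃ k, z ∈ ball (ctr k) (rad k) then Nat.find hz else 0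
    with hidx
  have hglue : ∀ k, EqOn (fun z => h₁ (idx z) z) (h₁ k) (ball (ctr k) (rad k)) := by
    intro k z hz
    have hz' : ∃ k, z ∈ ball (ctr k) (rad k) := ⟨k, hz⟩
    have hi : idx z = Nat.find hz' := by simp only [hidx, dif_pos hz']
    have hmem : z ∈ ball (ctr (idx z)) (rad (idx z)) := by rw [hi]; exact Nat.find_spec hz'
    have hle : idx z ≤ k := by rw [hi]; exact Nat.find_min' hz' hz
    exact hcompat (idx z) k hle hmem
  refine ⟨fun z => h₁ (idx z) z, ?_, ?_⟩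
  · intro z hz
    obtain ⟨k, hk⟩ := hcover z hz
    have h1 : DifferentiableAt ℂ (h₁ k) z := (hd₁ k).differentiableAt (isOpen_ball.mem_nhds hk)
    have h2 : (fun z => h₁ (idx z) z) =ᶠ[𝓝 z] h₁ k :=
      Filter.eventuallyEq_of_mem (isOpen_ball.mem_nhds hk) (hglue k)
    exact (h2.differentiableAt_iff.mpr h1).differentiableWithinAt
  · intro z hz
    obtain ⟨k, hk⟩ := hcover z hz
    have := hglue k hk
    simp only at this
    show h₁ (idx z) z ^ n = c z
    rw [this, hp₁ k z hk]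

/-- Holomorphic `n`-th roots on the upper half plane (as a subset of `ℂ`). -/
theorem exists_root_im_pos {n : ℕ} (hn : n ≠ 0) {c : ℂ → ℂ}
    (hc : DifferentiableOn ℂ c {z : ℂ | 0 < z.im})
    (hord : ∀ z : ℂ, 0 < z.im → ∃ m : ℕ, analyticOrderAt c z = ((n * m : ℕ) : ℕ∞)) :
    ∃ h : ℂ → ℂ, DifferentiableOn ℂ h {z : ℂ | 0 < z.im} ∧ ∀ z : ℂ, 0 < z.im → h z ^ n = c z := by
  have hopen : IsOpen {z : ℂ | 0 < z.im} := isOpen_lt continuous_const Complex.continuous_im
  have hR : ∀ k : ℕ, (0 : ℝ) < (k : ℝ) + 2 := fun k => by positivity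
  have hR1 : ∀ k : ℕ, 1 / ((k : ℝ) + 2) < (k : ℝ) + 2 := by
    intro k
    rw [div_lt_iff₀ (hR k)]
    have : (0 : ℝ) ≤ k := Nat.cast_nonneg k
    nlinarith
  refine exists_root_of_exhaustion hn (hc.analyticOnNhd hopen) hord
    (fun k => (((k : ℝ) + 2 : ℝ) : ℂ) * I) (fun k => ((k : ℝ) + 2) - 1 / ((k : ℝ) + 2)) ?_ ?_ ?_ ?_
  · norm_num
  · intro k z hz
    rw [mem_closedBall, dist_eq_norm] at hz
    have h1 : |(z - (((k : ℝ) + 2 : ℝ) : ℂ) * I).im| ≤ ‖z - (((k : ℝ) + 2 : ℝ) : ℂ) * I‖ :=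
      Complex.abs_im_le_norm _
    have h2 : (z - (((k : ℝ) + 2 : ℝ) : ℂ) * I).im = z.im - ((k : ℝ) + 2) := by
      simp
    rw [h2] at h1
    have h3 := (abs_le.mp (h1.trans hz)).1
    have h4 : 0 < 1 / ((k : ℝ) + 2) := by have := hR k; positivity
    show 0 < z.im
    linarith
  · intro k
    apply ball_subset_ball'
    have hd : dist ((((k : ℝ) + 2 : ℝ) : ℂ) * I) (((((k + 1 : ℕ) : ℝ)) + 2 : ℝ) * I) = 1 := by
      rw [dist_eq_norm, ← sub_mul, norm_mul, Complex.norm_I, mul_one, ← Complex.ofReal_sub,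
        Complex.norm_real]
      push_cast
      norm_num
    rw [hd]
    have h5 : 1 / ((((k + 1 : ℕ) : ℝ)) + 2) ≤ 1 / ((k : ℝ) + 2) := by
      apply one_div_le_one_div_of_le (hR k)
      push_cast
      linarith
    push_cast at h5 ⊢
    linarith
  · intro z hz
    have hy : 0 < z.im := hz
    obtain ⟨k, hk⟩ := exists_nat_gt ((z.re ^ 2 + z.im ^ 2 + 2) / (2 * z.im))
    refine ⟨k, ?_⟩
    rw [mem_ball, dist_eq_norm]
    have hk' : z.re ^ 2 + z.im ^ 2 + 2 < 2 * z.im * ((k : ℝ) + 2) := by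
      rw [div_lt_iff₀ (by positivity)] at hk
      nlinarith
    have hpos : 0 ≤ ((k : ℝ) + 2) - 1 / ((k : ℝ) + 2) := by linarith [hR1 k]
    refine lt_of_pow_lt_pow_left₀ 2 hpos ?_
    have hn2 : ‖z - (((k : ℝ) + 2 : ℝ) : ℂ) * I‖ ^ 2 = z.re ^ 2 + (z.im - ((k : ℝ) + 2)) ^ 2 := by
      rw [Complex.sq_norm, Complex.normSq_apply]
      simp
      ring
    rw [hn2]
    have h6 : (((k : ℝ) + 2) - 1 / ((k : ℝ) + 2)) ^ 2
        = ((k : ℝ) + 2) ^ 2 - 2 + (1 / ((k : ℝ) + 2)) ^ 2 := by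
      have := (hR k).ne'
      field_simp
      ring
    rw [h6]
    have h7 : 0 ≤ (1 / ((k : ℝ) + 2)) ^ 2 := sq_nonneg _
    nlinarith


section UHP

open UpperHalfPlane
open scoped Manifold

/-- A holomorphic function on `ℍ` all of whose orders of vanishing are divisible by `n` is an
`n`-th power of a holomorphic function. -/
theorem exists_root {n : ℕ} (hn : n ≠ 0) (c : ℍ → ℂ) (hc : MDiff c)
    (hord : ∀ τ : ℍ, ∃ m : ℕ,
      analyticOrderAt (fun z : ℂ => c (ofComplex z)) (τ : ℂ) = ((n * m : ℕ) : ℕ∞)) :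
    ∃ h : ℍ → ℂ, MDiff h ∧ ∀ τ, h τ ^ n = c τ := by
  have hc' : DifferentiableOn ℂ (fun z : ℂ => c (ofComplex z)) {z : ℂ | 0 < z.im} :=
    UpperHalfPlane.mdifferentiable_iff.mp hc
  obtain ⟨h, hd, hp⟩ := exists_root_im_pos hn hc' (fun z hz => hord ⟨z, hz⟩)
  refine ⟨fun τ => h τ, ?_, ?_⟩
  · rw [UpperHalfPlane.mdifferentiable_iff]
    refine hd.congr ?_
    intro z hz
    show h (ofComplex z : ℂ) = h z
    rw [UpperHalfPlane.ofComplex_apply_of_im_pos hz]
  · intro τ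
    have := hp τ τ.im_pos
    rwa [UpperHalfPlane.ofComplex_apply] at this

/-- Two holomorphic functions on `ℍ` with the same `n`-th power differ by an `n`-th root of
unity. -/
theorem exists_root_of_unity {n : ℕ} (hn : n ≠ 0) {h₁ h₂ : ℍ → ℂ} (hh₁ : MDiff h₁)
    (hh₂ : MDiff h₂) (hpow : ∀ τ, h₁ τ ^ n = h₂ τ ^ n) :
    ∃ ζ : ℂ, ζ ^ n = 1 ∧ ∀ τ, h₁ τ = ζ * h₂ τ := by
  by_cases h0 : ∀ τ, h₂ τ = 0
  · refine ⟨1, one_pow n, fun τ => ?_⟩
    have := hpow τ
    rw [h0 τ, zero_pow hn] at this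
    rw [h0 τ, mul_zero]
    exact pow_eq_zero_iff hn |>.mp this
  push Not at h0
  obtain ⟨w, hw⟩ := h0
  have hopen : IsOpen {z : ℂ | 0 < z.im} := isOpen_lt continuous_const Complex.continuous_im
  have hconn : IsPreconnected {z : ℂ | 0 < z.im} :=
    (convex_halfSpace_im_gt 0).isPreconnected
  have hd₁ : DifferentiableOn ℂ (fun z : ℂ => h₁ (ofComplex z)) {z : ℂ | 0 < z.im} :=
    UpperHalfPlane.mdifferentiable_iff.mp hh₁
  have hd₂ : DifferentiableOn ℂ (fun z : ℂ => h₂ (ofComplex z)) {z : ℂ | 0 < z.im} :=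
    UpperHalfPlane.mdifferentiable_iff.mp hh₂
  have hζ : (h₁ w / h₂ w) ^ n = 1 := by
    rw [div_pow, hpow w, div_self (pow_ne_zero n hw)]
  refine ⟨h₁ w / h₂ w, hζ, fun τ => ?_⟩
  have hζ0 : h₁ w / h₂ w ≠ 0 := by
    intro h
    rw [h, zero_pow hn] at hζ
    exact zero_ne_one hζ
  have key := eqOn_of_pow_eq hn hopen hconn hd₁ (hd₂.const_mul (h₁ w / h₂ w))
    (fun z _ => by
      show h₁ (ofComplex z) ^ n = (h₁ w / h₂ w * h₂ (ofComplex z)) ^ n
      rw [mul_pow, hζ, one_mul, hpow])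
    (w := (w : ℂ)) w.im_pos
    (by
      show h₁ w / h₂ w * h₂ (ofComplex (w : ℂ)) ≠ 0
      rw [UpperHalfPlane.ofComplex_apply]
      exact mul_ne_zero hζ0 hw)
    (by
      show h₁ (ofComplex (w : ℂ)) = h₁ w / h₂ w * h₂ (ofComplex (w : ℂ))
      rw [UpperHalfPlane.ofComplex_apply, div_mul_cancel₀ _ hw])
  have := key τ.im_pos
  simpa [UpperHalfPlane.ofComplex_apply] using this

end UHP

end Fermat.Agent.Lib.HolRoot
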