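import Fermat.Agent.Lib.FrobDensity.Stabilizer
import Fermat.Agent.Lib.FrobDensity.BridgeStrong

/-!
# Frobenius density theorem (weak Chebotarev), existence form, for `Gal(ℚ̄/ℚ)`

For every finite extension `L ⊆ ℚ̄` of `ℚ`, every `σ ∈ Gal(ℚ̄/ℚ)` and every finite set `S` of
primes there is a prime `ℓ ∉ S` and a place `A` of `ℚ̄` over `ℓ`, unramified in `L`, all of whose
Frobenius elements generate on `L` the same cyclic group as `σ`.

* `exists_frobenius_generator'` : strong form (inertia at `A` fixes `L`; every Frobenius at `A`).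
* `exists_frobenius_generator`  : one Frobenius element.
-/

set_option autoImplicit false
set_option linter.style.haveILetI false

namespace Fermat.Agent.Lib.FrobDensity

open NumberField Ideal
open scoped Pointwise

theorem exists_frobenius_generator'
    (L : IntermediateField ℚ (AlgebraicClosure ℚ)) [FiniteDimensional ℚ L]
    (σ : AlgebraicClosure ℚ ≃ₐ[ℚ] AlgebraicClosure ℚ) (S : Finset ℕ) :
    ∃ (ℓ : ℕ) (A : ValuationSubring (AlgebraicClosure ℚ)),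
      ℓ.Prime ∧ ℓ ∉ S ∧ A.LiesOverPrime ℓ ∧ A.inertiaSubgroupIn ℚ ≤ L.fixingSubgroup ∧
      ∀ φ : AlgebraicClosure ℚ ≃ₐ[ℚ] AlgebraicClosure ℚ, A.IsFrobeniusAt φ ℓ →
        ∃ a b : ℕ, (∀ x ∈ L, φ x = (σ ^ a) x) ∧ (∀ x ∈ L, (φ ^ b) x = σ x) := by
  haveI : IsGalois ℚ (AlgebraicClosure ℚ) := Fermat.Agent.Lib.Frobenius.isGalois_rat
  let E : IntermediateField ℚ (AlgebraicClosure ℚ) :=
    IntermediateField.normalClosure ℚ L (AlgebraicClosure ℚ)
  haveI : FiniteDimensional ℚ E := normalClosure.is_finiteDimensional ℚ L (AlgebraicClosure ℚ)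
  haveI : Normal ℚ E := normalClosure.normal ℚ L (AlgebraicClosure ℚ)
  haveI : NumberField E := { to_charZero := inferInstance, to_finiteDimensional := inferInstance }
  haveI : IsGalois ℚ E := { }
  have hLE : L ≤ E := L.le_normalClosure
  obtain ⟨ℓ, P, hℓ, hℓS, hP, hmem, hI, hstab⟩ :=
    exists_prime_stabilizer_eq_zpowers E (AlgEquiv.restrictNormalHom E σ) S
  obtain ⟨A, hA, hin, hall⟩ := exists_valuationSubring_of_inertia_eq_bot E ℓ hℓ P hP hmem hI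
  refine ⟨ℓ, A, hℓ, hℓS, hA,
    hin.trans (IntermediateField.fixingSubgroup_antitone hLE), fun φ hφ => ?_⟩
  have hstab' := hall φ hφ
  set σE := AlgEquiv.restrictNormalHom E σ with hσE
  set φE := AlgEquiv.restrictNormalHom E φ with hφE
  have h1 : φE ∈ Subgroup.zpowers σE := by
    rw [← hstab, hstab']; exact Subgroup.mem_zpowers _
  have h2 : σE ∈ Subgroup.zpowers φE := by
    rw [← hstab', hstab]; exact Subgroup.mem_zpowers _
  obtain ⟨a, ha⟩ := (mem_powers_iff_mem_zpowers.2 h1 : φE ∈ Submonoid.powers σE)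
  obtain ⟨b, hb⟩ := (mem_powers_iff_mem_zpowers.2 h2 : σE ∈ Submonoid.powers φE)
  replace ha : σE ^ a = φE := ha
  replace hb : φE ^ b = σE := hb
  refine ⟨a, b, fun x hx => ?_, fun x hx => ?_⟩
  · have h3 : (φE ⟨x, hLE hx⟩ : AlgebraicClosure ℚ) = φ x :=
      AlgEquiv.restrictNormal_commutes φ E ⟨x, hLE hx⟩
    have h4 : ((AlgEquiv.restrictNormalHom E (σ ^ a)) ⟨x, hLE hx⟩ : AlgebraicClosure ℚ)
        = (σ ^ a) x := AlgEquiv.restrictNormal_commutes (σ ^ a) E ⟨x, hLE hx⟩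
    rw [← h3, ← h4, map_pow, ← hσE, ha]
  · have h3 : (σE ⟨x, hLE hx⟩ : AlgebraicClosure ℚ) = σ x :=
      AlgEquiv.restrictNormal_commutes σ E ⟨x, hLE hx⟩
    have h4 : ((AlgEquiv.restrictNormalHom E (φ ^ b)) ⟨x, hLE hx⟩ : AlgebraicClosure ℚ)
        = (φ ^ b) x := AlgEquiv.restrictNormal_commutes (φ ^ b) E ⟨x, hLE hx⟩
    rw [← h3, ← h4, map_pow, ← hφE, hb]

theorem exists_frobenius_generator
    (L : IntermediateField ℚ (AlgebraicClosure ℚ)) [FiniteDimensional ℚ L]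
    (σ : AlgebraicClosure ℚ ≃ₐ[ℚ] AlgebraicClosure ℚ) (S : Finset ℕ) :
    ∃ (ℓ : ℕ) (A : ValuationSubring (AlgebraicClosure ℚ))
      (φ : AlgebraicClosure ℚ ≃ₐ[ℚ] AlgebraicClosure ℚ) (a b : ℕ),
      ℓ.Prime ∧ ℓ ∉ S ∧ A.LiesOverPrime ℓ ∧ A.IsFrobeniusAt φ ℓ ∧
      (∀ x ∈ L, φ x = (σ ^ a) x) ∧ (∀ x ∈ L, (φ ^ b) x = σ x) := by
  obtain ⟨ℓ, A, hℓ, hℓS, hA, -, hall⟩ := exists_frobenius_generator' L σ S
  obtain ⟨φ, hφ⟩ := Fermat.Agent.Lib.Frobenius.exists_isFrobeniusAt A ℓ hℓ hA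
  obtain ⟨a, b, h1, h2⟩ := hall φ hφ
  exact ⟨ℓ, A, φ, a, b, hℓ, hℓS, hA, hφ, h1, h2⟩

end Fermat.Agent.Lib.FrobDensity
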