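import Mathlib

set_option autoImplicit false
set_option linter.unusedSimpArgs false

namespace Fermat.Agent.Lib.CyclotomicPID

open NumberField Polynomial IsCyclotomicExtension Ideal

section generic

variable (p : ℕ) [hp : Fact p.Prime] (K : Type*) [Field K] [NumberField K]
  [hK : IsCyclotomicExtension {p} ℚ K]

/-- Reindexing a product over `(ZMod p)ˣ` as a product over `1 ≤ k < p`. -/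
theorem prod_units_eq_prod_Ico {M : Type*} [CommMonoid M] (g : ℕ → M) :
    ∏ u : (ZMod p)ˣ, g u.val.val = ∏ k ∈ Finset.Ico 1 p, g k := by
  have hp' := hp.out
  refine Finset.prod_bij' (fun u _ => u.val.val)
    (fun k hk => ZMod.unitOfCoprime k
      (Nat.coprime_of_lt_prime (by have := (Finset.mem_Ico.mp hk).1; omega) (Finset.mem_Ico.mp hk).2 hp').symm)
    ?_ ?_ ?_ ?_ ?_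
  · intro u _
    rw [Finset.mem_Ico]
    refine ⟨?_, ZMod.val_lt _⟩
    rw [Nat.one_le_iff_ne_zero, Ne, ZMod.val_eq_zero]
    exact u.ne_zero
  · intro k _
    exact Finset.mem_univ _
  · intro u _
    ext
    simp
  · intro k hk
    simp only [ZMod.coe_unitOfCoprime]
    exact ZMod.val_cast_of_lt (Finset.mem_Ico.mp hk).2
  · intro u _
    rfl

theorem norm_aeval_eq_prod {ζ : K} (hζ : ζ ^ p = 1) (f : ℤ[X]) :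
    algebraMap ℚ K (Algebra.norm ℚ (aeval ζ f)) = ∏ k ∈ Finset.Ico 1 p, aeval (ζ ^ k) f := by
  have : IsGalois ℚ K := IsCyclotomicExtension.isGalois {p} ℚ K
  rw [Algebra.norm_eq_prod_automorphisms, ← prod_units_eq_prod_Ico p (fun k => aeval (ζ ^ k) f)]
  refine Fintype.prod_equiv (Rat.galEquivZMod p K).toEquiv _ _ fun σ => ?_
  have h1 : σ (aeval ζ f) = aeval (σ ζ) f := by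
    have := Polynomial.aeval_algHom_apply (σ.toAlgHom.restrictScalars ℤ) ζ f
    exact this.symm
  rw [h1, Rat.galEquivZMod_apply_of_pow_eq p K σ hζ]
  rfl

/-- If `|N α| = ℓ ^ f` with `f` the order of `ℓ` mod `p`, then some prime over `ℓ` is principal. -/
theorem exists_isPrincipal_primesOver (ℓ : ℕ) [hℓ : Fact ℓ.Prime] (hℓp : ℓ ≠ p) (α : 𝓞 K)
    (hα : (Algebra.norm ℤ α).natAbs = ℓ ^ orderOf (ℓ : ZMod p)) :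
    ∃ P ∈ primesOver (span {(ℓ : ℤ)}) (𝓞 K), Submodule.IsPrincipal P := by
  have hℓ' := hℓ.out
  have hndvd : ¬ ℓ ∣ p := fun h => hℓp ((Nat.prime_dvd_prime_iff_eq hℓ' hp.out).mp h)
  have hunit : IsUnit (ℓ : ZMod p) := by
    rw [ZMod.isUnit_iff_coprime]
    exact (Nat.coprime_primes hℓ' hp.out).mpr hℓp
  have hfpos : 0 < orderOf (ℓ : ZMod p) := by
    obtain ⟨u, hu⟩ := hunit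
    rw [← hu, orderOf_units]
    exact orderOf_pos u
  have hI : absNorm (span {α}) = ℓ ^ orderOf (ℓ : ZMod p) := by
    rw [absNorm_span_singleton, hα]
  have hne : span {α} ≠ ⊤ := by
    intro h
    rw [h, absNorm_top] at hI
    exact absurd hI.symm (Nat.one_lt_pow hfpos.ne' hℓ'.one_lt).ne'
  obtain ⟨P, hPmax, hle⟩ := Ideal.exists_le_maximal _ hne
  have hPprime : P.IsPrime := hPmax.isPrime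
  have hmem : ((ℓ : ℕ) : 𝓞 K) ∈ P := by
    have h1 : ((absNorm (span {α}) : ℕ) : 𝓞 K) ∈ P := hle (absNorm_mem _)
    rw [hI, Nat.cast_pow] at h1
    exact hPprime.mem_of_pow_mem _ h1
  have hlies : P.LiesOver (span {(ℓ : ℤ)}) := by
    constructor
    have hmaxℓ : (span {(ℓ : ℤ)}).IsMaximal :=
      (Nat.prime_iff_prime_int.mp hℓ').isMaximal_span_singleton
    refine hmaxℓ.eq_of_le (Ideal.IsPrime.under ℤ P).ne_top ?_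
    rw [span_singleton_le_iff_mem, Ideal.mem_comap]
    simpa using hmem
  refine ⟨P, ⟨hPprime, hlies⟩, ?_⟩
  have hPnorm : absNorm P = ℓ ^ orderOf (ℓ : ZMod p) := by
    rw [← Ideal.pow_inertiaDeg ℓ P, Rat.inertiaDeg_eq_of_not_dvd ℓ K P hndvd]
  obtain ⟨J, hJ⟩ := Ideal.dvd_iff_le.mpr hle
  have hJ1 : absNorm J = 1 := by
    have := congrArg absNorm hJ
    rw [map_mul, hI, hPnorm] at this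
    have hpos : 0 < ℓ ^ orderOf (ℓ : ZMod p) := pow_pos hℓ'.pos _
    exact (Nat.eq_of_mul_eq_mul_left hpos (by rw [mul_one]; exact this)).symm
  rw [absNorm_eq_one_iff] at hJ1
  rw [hJ1, Ideal.mul_top] at hJ
  rw [← hJ]
  exact ⟨α, rfl⟩

/-- Integral version of the norm formula. -/
theorem norm_int_aeval_eq (ζ : 𝓞 K) (hζ : ζ ^ p = 1) (f : ℤ[X]) (n : ℤ)
    (h : ∏ k ∈ Finset.Ico 1 p, aeval (ζ ^ k) f = (n : 𝓞 K)) :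
    Algebra.norm ℤ (aeval ζ f) = n := by
  have hζ' : (ζ : K) ^ p = 1 := by
    have := congrArg (algebraMap (𝓞 K) K) hζ
    simpa using this
  have h1 := norm_aeval_eq_prod p K hζ' f
  have h2 : (algebraMap (𝓞 K) K) (aeval ζ f) = aeval (ζ : K) f := by
    rw [← Polynomial.aeval_algebraMap_apply]
  have h3 : ∏ k ∈ Finset.Ico 1 p, aeval ((ζ : K) ^ k) f = ((n : ℚ) : K) := by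
    have := congrArg (algebraMap (𝓞 K) K) h
    rw [map_prod] at this
    simp only [map_intCast] at this
    rw [Rat.cast_intCast, ← this]
    refine Finset.prod_congr rfl fun k _ => ?_
    rw [← Polynomial.aeval_algebraMap_apply, map_pow]
  rw [h3] at h1
  have h4 : Algebra.norm ℚ (aeval (ζ : K) f) = (n : ℚ) :=
    (algebraMap ℚ K).injective (by rw [h1]; simp)
  have h5 := Algebra.coe_norm_int (K := K) (aeval ζ f)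
  rw [show ((aeval ζ f : 𝓞 K) : K) = aeval (ζ : K) f from h2, h4] at h5
  exact_mod_cast h5

open Real Module InfinitePlace Nat in
/-- The Minkowski bound of the `p`-th cyclotomic field in closed form. -/
theorem minkowski_eq :
    (4 / π) ^ nrComplexPlaces K *
      ((finrank ℚ K)! / (finrank ℚ K) ^ (finrank ℚ K) * √|(discr K : ℝ)|) =
    (4 / π) ^ ((p - 1) / 2) * (((p - 1)! : ℝ) / ((p - 1 : ℕ) : ℝ) ^ (p - 1) * √((p : ℝ) ^ (p - 2))) := by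
  rw [Rat.discr_prime p K, IsCyclotomicExtension.finrank (n := p) K
    (cyclotomic.irreducible_rat hp.out.pos), Rat.nrComplexPlaces_eq_totient_div_two p,
    totient_prime hp.out]
  congr 3
  push_cast
  rw [abs_mul, abs_pow, abs_pow, abs_neg, abs_one, one_pow, one_mul, abs_of_nonneg (by positivity)]

open Real Module InfinitePlace Nat in
/-- PID criterion for the `p`-th cyclotomic field: `B` bounds the Minkowski constant, and every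
prime power `ℓ ^ f ≤ B` with `ℓ ^ f ≡ 1 mod p` is the absolute norm of an element. -/
theorem isPrincipalIdealRing_of_bound (B : ℕ)
    (hB : (4 / π) ^ ((p - 1) / 2) *
      (((p - 1)! : ℝ) / ((p - 1 : ℕ) : ℝ) ^ (p - 1) * √((p : ℝ) ^ (p - 2))) < B + 1)
    (h : ∀ ℓ f : ℕ, ℓ.Prime → ℓ ≠ p → 0 < f → ℓ ^ f ≤ B → ℓ ^ f % p = 1 →
      ∃ α : 𝓞 K, (Algebra.norm ℤ α).natAbs = ℓ ^ f) :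
    IsPrincipalIdealRing (𝓞 K) := by
  have : IsGalois ℚ K := IsCyclotomicExtension.isGalois {p} ℚ K
  have hfloor : ⌊(4 / π) ^ nrComplexPlaces K *
      ((finrank ℚ K)! / (finrank ℚ K) ^ (finrank ℚ K) * √|(discr K : ℝ)|)⌋₊ ≤ B := by
    rw [minkowski_eq p K]
    exact Nat.lt_succ_iff.mp ((Nat.floor_lt (by positivity)).mpr (by exact_mod_cast hB))
  refine RingOfIntegers.isPrincipalIdealRing_of_isPrincipal_of_lt_or_isPrincipal_of_mem_primesOver_of_mem_Icc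
    fun ℓ hℓmem hℓ => ?_
  have : Fact ℓ.Prime := ⟨hℓ⟩
  by_cases hℓp : ℓ = p
  · subst hℓp
    have hζ := IsCyclotomicExtension.zeta_spec ℓ ℚ K
    exact ⟨span {hζ.toInteger - 1}, ⟨Rat.isPrime_span_zeta_sub_one' ℓ hζ,
      by
        have : IsCyclotomicExtension {ℓ ^ (0 + 1)} ℚ K := by rw [zero_add, pow_one]; infer_instance
        have hζ' : IsPrimitiveRoot (IsCyclotomicExtension.zeta ℓ ℚ K) (ℓ ^ (0 + 1)) := by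
          rw [zero_add, pow_one]; exact hζ
        exact Rat.liesOver_span_zeta_sub_one ℓ 0 hζ'⟩, Or.inr ⟨_, rfl⟩⟩
  · have hndvd : ¬ ℓ ∣ p := fun h => hℓp ((Nat.prime_dvd_prime_iff_eq hℓ hp.out).mp h)
    by_cases hle : ℓ ^ orderOf (ℓ : ZMod p) ≤ B
    · have hunit : IsUnit (ℓ : ZMod p) := by
        rw [ZMod.isUnit_iff_coprime]
        exact (Nat.coprime_primes hℓ hp.out).mpr hℓp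
      have hfpos : 0 < orderOf (ℓ : ZMod p) := by
        obtain ⟨u, hu⟩ := hunit
        rw [← hu, orderOf_units]
        exact orderOf_pos u
      have hmod : ℓ ^ orderOf (ℓ : ZMod p) % p = 1 := by
        have h1 : ((ℓ ^ orderOf (ℓ : ZMod p) : ℕ) : ZMod p) = ((1 : ℕ) : ZMod p) := by
          rw [Nat.cast_pow, pow_orderOf_eq_one, Nat.cast_one]
        rw [ZMod.natCast_eq_natCast_iff'] at h1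
        rw [h1, Nat.mod_eq_of_lt hp.out.one_lt]
      obtain ⟨α, hα⟩ := h ℓ _ hℓ hℓp hfpos hle hmod
      obtain ⟨P, hP, hprinc⟩ := exists_isPrincipal_primesOver p K ℓ hℓp α hα
      exact ⟨P, hP, Or.inr hprinc⟩
    · obtain ⟨⟨P, hP1, hP2⟩⟩ := (span {(ℓ : ℤ)}).nonempty_primesOver (S := 𝓞 K)
      refine ⟨P, ⟨hP1, hP2⟩, Or.inl ?_⟩
      rw [Rat.inertiaDeg_eq_of_not_dvd ℓ K P hndvd]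
      exact lt_of_le_of_lt hfloor (not_le.mp hle)

end generic

section seven

variable (K : Type*) [Field K] [NumberField K] [IsCyclotomicExtension {7} ℚ K]

open Real in
/-- The ring of integers of `ℚ(ζ₇)` is a PID. -/
theorem seven_pid : IsPrincipalIdealRing (𝓞 K) := by
  have : Fact (Nat.Prime 7) := ⟨by norm_num⟩
  refine isPrincipalIdealRing_of_bound 7 K 4 ?_ ?_
  · have h1 : √((7 : ℝ) ^ (7 - 2)) < 130 := by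
      rw [Real.sqrt_lt' (by norm_num)]
      norm_num
    have h2 : (4 / π) ^ ((7 - 1) / 2) < (4 / 3) ^ ((7 - 1) / 2) := by
      gcongr
      exact pi_gt_three
    calc (4 / π) ^ ((7 - 1) / 2) * ((((7 - 1).factorial : ℕ) : ℝ) / ((7 - 1 : ℕ) : ℝ) ^ (7 - 1) *
            √(((7 : ℕ) : ℝ) ^ (7 - 2)))
        < (4 / 3) ^ ((7 - 1) / 2) * ((((7 - 1).factorial : ℕ) : ℝ) / ((7 - 1 : ℕ) : ℝ) ^ (7 - 1) *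
            130) := by
          push_cast
          gcongr
      _ < ((4 : ℕ) : ℝ) + 1 := by
          norm_num [Nat.factorial]
  · intro ℓ f hℓ _ hf hle hmod
    exfalso
    have h2 : 2 ≤ ℓ ^ f := le_trans hℓ.two_le (Nat.le_self_pow hf.ne' ℓ)
    generalize ℓ ^ f = n at *
    interval_cases n <;> omega

end seven

section thirteen

theorem prod_eq_27 {R : Type*} [CommRing R] (ζ : R)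
    (hΦ : 1 + ζ + ζ ^ 2 + ζ ^ 3 + ζ ^ 4 + ζ ^ 5 + ζ ^ 6 + ζ ^ 7 + ζ ^ 8 + ζ ^ 9 + ζ ^ 10 + ζ ^ 11 + ζ ^ 12 = 0) :
    ∏ k ∈ Finset.Ico 1 13, aeval (ζ ^ k) (1 + X - X ^ 3 : ℤ[X]) = ((27 : ℤ) : R) := by
  rw [Finset.prod_Ico_eq_prod_range]
  simp only [Nat.reduceSub, Finset.prod_range_succ, Finset.prod_range_zero, map_add, map_sub, map_one,
    aeval_X, map_pow, Int.cast_ofNat]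
  linear_combination ((-26) + 27*ζ + 1*ζ^4 + 1*ζ^7 + 1*ζ^8 + 1*ζ^9 + (-1)*ζ^10 + 2*ζ^11 + 2*ζ^12 + (-26)*ζ^13 + 27*ζ^14 + 2*ζ^16 + 1*ζ^17 + 1*ζ^19 + 2*ζ^20 + (-1)*ζ^22 + 1*ζ^24 + 1*ζ^25 + (-30)*ζ^26 + 25*ζ^27 + 1*ζ^28 + (-2)*ζ^29 + (-3)*ζ^30 + (-3)*ζ^31 + (-1)*ζ^32 + (-4)*ζ^33 + (-6)*ζ^34 + (-2)*ζ^35 + (-1)*ζ^36 + (-5)*ζ^37 + (-6)*ζ^38 + (-32)*ζ^39 + 26*ζ^40 + (-5)*ζ^41 + (-6)*ζ^42 + (-4)*ζ^43 + (-1)*ζ^44 + (-1)*ζ^45 + (-7)*ζ^46 + (-1)*ζ^47 + 5*ζ^48 + (-1)*ζ^49 + (-5)*ζ^50 + 3*ζ^51 + (-24)*ζ^52 + 32*ζ^53 + 6*ζ^55 + 11*ζ^56 + 6*ζ^57 + 3*ζ^58 + 6*ζ^59 + 12*ζ^60 + 11*ζ^61 + 4*ζ^62 + 6*ζ^63 + 16*ζ^64 + (-22)*ζ^65 + 33*ζ^66 + 10*ζ^67 + 11*ζ^68 + 2*ζ^69 + 2*ζ^70 + 3*ζ^71 + 7*ζ^72 + 1*ζ^73 + 1*ζ^74 + (-7)*ζ^75 + 1*ζ^76 + (-45)*ζ^78 + 29*ζ^79 + (-9)*ζ^80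 + (-7)*ζ^81 + (-17)*ζ^82 + (-7)*ζ^83 + (-3)*ζ^84 + (-16)*ζ^85 + (-18)*ζ^86 + (-8)*ζ^87 + (-10)*ζ^88 + (-10)*ζ^89 + (-10)*ζ^90 + (-46)*ζ^91 + 29*ζ^92 + (-3)*ζ^93 + (-14)*ζ^94 + (-5)*ζ^95 + 7*ζ^96 + (-5)*ζ^97 + (-4)*ζ^98 + 2*ζ^99 + 10*ζ^100 + 1*ζ^101 + 9*ζ^102 + 6*ζ^103 + (-24)*ζ^104 + 42*ζ^105 + 8*ζ^106 + 9*ζ^107 + 11*ζ^108 + 15*ζ^109 + 13*ζ^110 + 7*ζ^111 + 11*ζ^112 + 10*ζ^113 + (-1)*ζ^114 + 16*ζ^115 + 3*ζ^116 + (-36)*ζ^117 + 40*ζ^118 + 5*ζ^119 + (-1)*ζ^120 + 10*ζ^121 + (-8)*ζ^122 + (-5)*ζ^123 + (-9)*ζ^124 + (-1)*ζ^125 + (-10)*ζ^126 + (-7)*ζ^127 + (-3)*ζ^128 + (-15)*ζ^129 + (-32)*ζ^130 + 25*ζ^131 + (-4)*ζ^132 + (-8)*ζ^133 + (-8)*ζ^134 + (-10)*ζ^135 + (-9)*ζ^136 + (-2)*ζ^137 + 6*ζ^138 + (-13)*ζ^139 + 1*ζ^140 + 2*ζ^141 + (-1)*ζ^142 + (-32)*ζ^143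 + 41*ζ^144 + (-11)*ζ^145 + 9*ζ^146 + 11*ζ^147 + (-10)*ζ^148 + 9*ζ^149 + 8*ζ^150 + 8*ζ^151 + (-11)*ζ^152 + 12*ζ^153 + 7*ζ^154 + 2*ζ^155 + (-28)*ζ^156 + 32*ζ^157 + 3*ζ^158 + 5*ζ^159 + (-3)*ζ^160 + (-1)*ζ^161 + (-3)*ζ^162 + 7*ζ^163 + (-3)*ζ^164 + (-6)*ζ^165 + 5*ζ^166 + (-1)*ζ^167 + (-9)*ζ^168 + (-16)*ζ^169 + 18*ζ^170 + (-11)*ζ^171 + 10*ζ^172 + (-8)*ζ^173 + 1*ζ^174 + (-6)*ζ^175 + 6*ζ^176 + (-7)*ζ^177 + 2*ζ^178 + (-4)*ζ^181 + (-8)*ζ^182 + 12*ζ^183 + (-4)*ζ^184 + 6*ζ^185 + (-2)*ζ^186 + 2*ζ^187 + (-1)*ζ^188 + 8*ζ^189 + (-6)*ζ^190 + 3*ζ^191 + 1*ζ^192 + 1*ζ^193 + (-6)*ζ^194 + 5*ζ^196 + (-2)*ζ^197 + 1*ζ^198 + (-2)*ζ^199 + 2*ζ^200 + 1*ζ^202 + (-3)*ζ^203 + 2*ζ^204 + (-1)*ζ^205 + 1*ζ^206 + (-4)*ζ^207 + 1*ζ^209 + (-1)*ζ^210 + 1*ζ^211 + 2*ζ^215 + (-1)*ζ^216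 + 1*ζ^217 + (-1)*ζ^220 + (-1)*ζ^221 + 1*ζ^222) * hΦ

theorem prod_eq_53 {R : Type*} [CommRing R] (ζ : R)
    (hΦ : 1 + ζ + ζ ^ 2 + ζ ^ 3 + ζ ^ 4 + ζ ^ 5 + ζ ^ 6 + ζ ^ 7 + ζ ^ 8 + ζ ^ 9 + ζ ^ 10 + ζ ^ 11 + ζ ^ 12 = 0) :
    ∏ k ∈ Finset.Ico 1 13, aeval (ζ ^ k) (1 + X + X ^ 3 : ℤ[X]) = ((53 : ℤ) : R) := by
  rw [Finset.prod_Ico_eq_prod_range]
  simp only [Nat.reduceSub, Finset.prod_range_succ, Finset.prod_range_zero, map_add, map_sub, map_one,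
    aeval_X, map_pow, Int.cast_ofNat]
  linear_combination ((-52) + 53*ζ + 2*ζ^3 + (-1)*ζ^4 + 2*ζ^5 + 2*ζ^6 + 1*ζ^7 + 1*ζ^8 + 5*ζ^9 + 3*ζ^10 + 2*ζ^11 + 8*ζ^12 + (-50)*ζ^13 + 61*ζ^14 + 10*ζ^15 + 8*ζ^16 + 7*ζ^17 + 20*ζ^18 + 7*ζ^19 + 18*ζ^20 + 24*ζ^21 + 17*ζ^22 + 20*ζ^23 + 33*ζ^24 + 23*ζ^25 + (-24)*ζ^26 + 101*ζ^27 + 33*ζ^28 + 38*ζ^29 + 55*ζ^30 + 49*ζ^31 + 43*ζ^32 + 84*ζ^33 + 46*ζ^34 + 74*ζ^35 + 91*ζ^36 + 71*ζ^37 + 74*ζ^38 + 72*ζ^39 + 134*ζ^40 + 101*ζ^41 + 136*ζ^42 + 102*ζ^43 + 123*ζ^44 + 173*ζ^45 + 117*ζ^46 + 143*ζ^47 + 205*ζ^48 + 135*ζ^49 + 167*ζ^50 + 225*ζ^51 + 124*ζ^52 + 228*ζ^53 + 282*ζ^54 + 186*ζ^55 + 221*ζ^56 + 298*ζ^57 + 223*ζ^58 + 228*ζ^59 + 342*ζ^60 + 245*ζ^61 + 262*ζ^62 + 376*ζ^63 + 266*ζ^64 + 244*ζ^65 + 485*ζ^66 + 276*ζ^67 + 327*ζ^68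 + 436*ζ^69 + 322*ζ^70 + 335*ζ^71 + 485*ζ^72 + 337*ζ^73 + 369*ζ^74 + 505*ζ^75 + 353*ζ^76 + 402*ζ^77 + 521*ζ^78 + 393*ζ^79 + 413*ζ^80 + 569*ζ^81 + 383*ζ^82 + 417*ζ^83 + 605*ζ^84 + 390*ζ^85 + 430*ζ^86 + 616*ζ^87 + 406*ζ^88 + 436*ζ^89 + 646*ζ^90 + 414*ζ^91 + 433*ζ^92 + 645*ζ^93 + 416*ζ^94 + 439*ζ^95 + 625*ζ^96 + 455*ζ^97 + 400*ζ^98 + 678*ζ^99 + 392*ζ^100 + 435*ζ^101 + 627*ζ^102 + 428*ζ^103 + 408*ζ^104 + 642*ζ^105 + 378*ζ^106 + 425*ζ^107 + 587*ζ^108 + 401*ζ^109 + 383*ζ^110 + 595*ζ^111 + 377*ζ^112 + 382*ζ^113 + 543*ζ^114 + 386*ζ^115 + 317*ζ^116 + 566*ζ^117 + 328*ζ^118 + 341*ζ^119 + 507*ζ^120 + 324*ζ^121 + 284*ζ^122 + 507*ζ^123 + 287*ζ^124 + 287*ζ^125 + 454*ζ^126 + 267*ζ^127 + 253*ζ^128 + 425*ζ^129 + 244*ζ^130 + 237*ζ^131 + 390*ζ^132 + 236*ζ^133 +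 198*ζ^134 + 350*ζ^135 + 221*ζ^136 + 174*ζ^137 + 336*ζ^138 + 179*ζ^139 + 163*ζ^140 + 288*ζ^141 + 175*ζ^142 + 124*ζ^143 + 275*ζ^144 + 131*ζ^145 + 143*ζ^146 + 211*ζ^147 + 144*ζ^148 + 79*ζ^149 + 232*ζ^150 + 92*ζ^151 + 103*ζ^152 + 162*ζ^153 + 117*ζ^154 + 50*ζ^155 + 178*ζ^156 + 56*ζ^157 + 81*ζ^158 + 115*ζ^159 + 91*ζ^160 + 25*ζ^161 + 141*ζ^162 + 31*ζ^163 + 61*ζ^164 + 74*ζ^165 + 71*ζ^166 + 5*ζ^167 + 109*ζ^168 + 14*ζ^169 + 42*ζ^170 + 49*ζ^171 + 54*ζ^172 + (-8)*ζ^173 + 83*ζ^174 + 6*ζ^175 + 30*ζ^176 + 29*ζ^177 + 36*ζ^178 + (-10)*ζ^179 + 56*ζ^180 + (-2)*ζ^181 + 22*ζ^182 + 14*ζ^183 + 28*ζ^184 + (-10)*ζ^185 + 36*ζ^186 + (-2)*ζ^187 + 15*ζ^188 + 8*ζ^189 + 18*ζ^190 + (-13)*ζ^191 + 27*ζ^192 + (-5)*ζ^193 + 8*ζ^194 + 4*ζ^195 + 11*ζ^196 + (-8)*ζ^197 + 17*ζ^198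 + (-4)*ζ^199 + 4*ζ^200 + 2*ζ^201 + 7*ζ^202 + (-5)*ζ^203 + 8*ζ^204 + (-3)*ζ^205 + 3*ζ^206 + 4*ζ^208 + (-3)*ζ^209 + 5*ζ^210 + (-1)*ζ^211 + 2*ζ^214 + (-2)*ζ^215 + 3*ζ^216 + (-1)*ζ^217 + 1*ζ^220 + (-1)*ζ^221 + 1*ζ^222) * hΦ

theorem prod_eq_79 {R : Type*} [CommRing R] (ζ : R)
    (hΦ : 1 + ζ + ζ ^ 2 + ζ ^ 3 + ζ ^ 4 + ζ ^ 5 + ζ ^ 6 + ζ ^ 7 + ζ ^ 8 + ζ ^ 9 + ζ ^ 10 + ζ ^ 11 + ζ ^ 12 = 0) :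
    ∏ k ∈ Finset.Ico 1 13, aeval (ζ ^ k) (1 + X - X ^ 4 : ℤ[X]) = ((79 : ℤ) : R) := by
  rw [Finset.prod_Ico_eq_prod_range]
  simp only [Nat.reduceSub, Finset.prod_range_succ, Finset.prod_range_zero, map_add, map_sub, map_one,
    aeval_X, map_pow, Int.cast_ofNat]
  linear_combination ((-78) + 79*ζ + 1*ζ^3 + (-1)*ζ^4 + 2*ζ^5 + 1*ζ^7 + 1*ζ^9 + 3*ζ^10 + 2*ζ^12 + (-79)*ζ^13 + 82*ζ^14 + 2*ζ^15 + 2*ζ^16 + (-1)*ζ^17 + 4*ζ^18 + (-1)*ζ^19 + 6*ζ^20 + 2*ζ^22 + 1*ζ^23 + (-2)*ζ^24 + 5*ζ^25 + (-81)*ζ^26 + 82*ζ^27 + (-2)*ζ^29 + (-3)*ζ^30 + 2*ζ^31 + (-6)*ζ^32 + 5*ζ^33 + (-14)*ζ^34 + 6*ζ^35 + (-7)*ζ^36 + (-3)*ζ^37 + (-5)*ζ^38 + (-88)*ζ^39 + 79*ζ^40 + (-6)*ζ^41 + (-12)*ζ^42 + (-8)*ζ^43 + (-4)*ζ^44 + (-1)*ζ^45 + (-3)*ζ^46 + (-16)*ζ^47 + (-16)*ζ^49 + 5*ζ^50 +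 (-15)*ζ^51 + (-77)*ζ^52 + 67*ζ^53 + 2*ζ^54 + 3*ζ^55 + (-4)*ζ^56 + (-4)*ζ^57 + 1*ζ^58 + (-6)*ζ^59 + 3*ζ^60 + 2*ζ^61 + 1*ζ^62 + 8*ζ^63 + (-7)*ζ^64 + (-53)*ζ^65 + 88*ζ^66 + 7*ζ^67 + 5*ζ^68 + (-14)*ζ^69 + 31*ζ^70 + 10*ζ^71 + 7*ζ^72 + 10*ζ^73 + 6*ζ^74 + 25*ζ^75 + 8*ζ^76 + 14*ζ^77 + (-46)*ζ^78 + 64*ζ^79 + 20*ζ^80 + 5*ζ^81 + 3*ζ^82 + 28*ζ^83 + (-16)*ζ^84 + 28*ζ^85 + (-11)*ζ^86 + 8*ζ^87 + 18*ζ^88 + (-19)*ζ^89 + 17*ζ^90 + (-49)*ζ^91 + 38*ζ^92 + 19*ζ^93 + (-60)*ζ^94 + 31*ζ^95 + (-6)*ζ^96 + (-8)*ζ^97 + (-20)*ζ^98 + (-32)*ζ^99 + 16*ζ^100 + 4*ζ^101 + (-32)*ζ^102 + (-20)*ζ^103 + (-63)*ζ^104 + 47*ζ^105 + (-14)*ζ^106 + (-42)*ζ^107 + 7*ζ^108 + (-22)*ζ^109 + (-3)*ζ^110 + (-23)*ζ^111 + (-22)*ζ^112 + 6*ζ^113 + (-9)*ζ^114 + (-9)*ζ^115 + (-11)*ζ^116 + (-46)*ζ^117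 + 40*ζ^118 + (-21)*ζ^119 + 3*ζ^120 + (-6)*ζ^121 + 25*ζ^122 + (-11)*ζ^123 + (-11)*ζ^124 + (-6)*ζ^125 + 29*ζ^126 + 20*ζ^127 + 5*ζ^128 + (-26)*ζ^129 + 18*ζ^130 + 25*ζ^131 + 11*ζ^132 + (-2)*ζ^133 + 11*ζ^134 + 40*ζ^135 + 13*ζ^136 + (-11)*ζ^137 + 17*ζ^138 + 12*ζ^139 + 39*ζ^140 + (-15)*ζ^141 + 17*ζ^142 + (-10)*ζ^143 + 9*ζ^144 + 26*ζ^145 + (-2)*ζ^146 + 10*ζ^147 + 10*ζ^148 + 5*ζ^149 + (-8)*ζ^150 + (-3)*ζ^151 + 15*ζ^152 + 19*ζ^153 + (-37)*ζ^154 + 16*ζ^155 + (-30)*ζ^156 + 15*ζ^157 + (-14)*ζ^158 + (-10)*ζ^160 + 10*ζ^161 + (-2)*ζ^162 + (-30)*ζ^163 + (-12)*ζ^164 + 21*ζ^165 + (-22)*ζ^166 + (-13)*ζ^167 + (-5)*ζ^168 + (-16)*ζ^169 + (-13)*ζ^170 + 3*ζ^171 + (-9)*ζ^172 + 5*ζ^173 + (-5)*ζ^174 + 6*ζ^175 + (-31)*ζ^176 + 6*ζ^177 + 8*ζ^178 + (-4)*ζ^179 + (-9)*ζ^180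 + 10*ζ^181 + (-15)*ζ^182 + (-3)*ζ^183 + 9*ζ^184 + (-4)*ζ^185 + 3*ζ^186 + 20*ζ^187 + 4*ζ^188 + (-23)*ζ^189 + 14*ζ^190 + 16*ζ^191 + (-2)*ζ^192 + (-8)*ζ^193 + 24*ζ^194 + (-22)*ζ^195 + 18*ζ^196 + (-3)*ζ^197 + 6*ζ^198 + 5*ζ^199 + 18*ζ^200 + (-8)*ζ^201 + (-6)*ζ^202 + 3*ζ^203 + 22*ζ^204 + (-15)*ζ^205 + 2*ζ^206 + 11*ζ^207 + (-20)*ζ^208 + 11*ζ^209 + 5*ζ^210 + (-10)*ζ^211 + 5*ζ^212 + 8*ζ^213 + 1*ζ^214 + (-21)*ζ^215 + 10*ζ^216 + 4*ζ^217 + (-4)*ζ^218 + (-1)*ζ^219 + 1*ζ^220 + (-14)*ζ^221 + 3*ζ^222 + (-6)*ζ^224 + 4*ζ^225 + 6*ζ^226 + (-6)*ζ^227 + (-10)*ζ^228 + 9*ζ^229 + (-4)*ζ^230 + 1*ζ^231 + (-5)*ζ^232 + 9*ζ^233 + (-13)*ζ^234 + 5*ζ^235 + (-1)*ζ^236 + (-3)*ζ^237 + 3*ζ^238 + 10*ζ^239 + (-11)*ζ^240 + 1*ζ^241 + 1*ζ^242 + 3*ζ^243 + 2*ζ^244 + (-3)*ζ^245 + 2*ζ^246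 + (-6)*ζ^247 + 6*ζ^248 + 2*ζ^249 + (-5)*ζ^250 + 6*ζ^251 + 2*ζ^252 + (-4)*ζ^253 + 1*ζ^254 + 1*ζ^255 + 2*ζ^256 + (-1)*ζ^257 + (-1)*ζ^258 + 2*ζ^259 + (-5)*ζ^260 + 3*ζ^261 + (-2)*ζ^263 + 5*ζ^264 + (-1)*ζ^265 + (-2)*ζ^266 + 1*ζ^268 + (-2)*ζ^271 + 1*ζ^272 + (-3)*ζ^273 + 3*ζ^274 + (-2)*ζ^275 + 1*ζ^277 + 2*ζ^278 + (-3)*ζ^279 + 1*ζ^280 + (-1)*ζ^281 + 1*ζ^282 + (-2)*ζ^284 + 2*ζ^285 + (-2)*ζ^286 + 2*ζ^287 + (-1)*ζ^288 + 1*ζ^290 + 1*ζ^291 + (-1)*ζ^292 + 1*ζ^293 + (-1)*ζ^294 + 1*ζ^295 + (-1)*ζ^297 + (-1)*ζ^299 + 1*ζ^300) * hΦ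

theorem prod_eq_131 {R : Type*} [CommRing R] (ζ : R)
    (hΦ : 1 + ζ + ζ ^ 2 + ζ ^ 3 + ζ ^ 4 + ζ ^ 5 + ζ ^ 6 + ζ ^ 7 + ζ ^ 8 + ζ ^ 9 + ζ ^ 10 + ζ ^ 11 + ζ ^ 12 = 0) :
    ∏ k ∈ Finset.Ico 1 13, aeval (ζ ^ k) (1 - X - X ^ 3 : ℤ[X]) = ((131 : ℤ) : R) := by
  rw [Finset.prod_Ico_eq_prod_range]
  simp only [Nat.reduceSub, Finset.prod_range_succ, Finset.prod_range_zero, map_add, map_sub, map_one,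
    aeval_X, map_pow, Int.cast_ofNat]
  linear_combination ((-130) + 129*ζ + 1*ζ^4 + 2*ζ^5 + (-2)*ζ^6 + 3*ζ^7 + (-3)*ζ^8 + 1*ζ^9 + (-1)*ζ^10 + (-4)*ζ^12 + (-126)*ζ^13 + 127*ζ^14 + (-2)*ζ^15 + 1*ζ^17 + 8*ζ^18 + (-5)*ζ^19 + 8*ζ^20 + (-2)*ζ^21 + 7*ζ^22 + (-6)*ζ^23 + 5*ζ^24 + (-17)*ζ^25 + (-114)*ζ^26 + 117*ζ^27 + (-5)*ζ^28 + (-10)*ζ^29 + 3*ζ^30 + 5*ζ^31 + (-3)*ζ^32 + 10*ζ^33 + (-4)*ζ^34 + 8*ζ^35 + 9*ζ^36 + 11*ζ^37 + (-20)*ζ^38 + (-98)*ζ^39 + 100*ζ^40 + 13*ζ^41 + (-32)*ζ^42 + 20*ζ^43 + (-9)*ζ^44 + (-5)*ζ^45 + 1*ζ^46 + 1*ζ^47 + (-13)*ζ^48 + 25*ζ^49 + (-5)*ζ^50 + (-1)*ζ^51 + (-88)*ζ^52 + 88*ζ^53 + (-6)*ζ^54 + (-12)*ζ^55 + 25*ζ^56 + 2*ζ^57 + (-13)*ζ^58 + 8*ζ^59 + (-6)*ζ^60 + (-7)*ζ^61 + 20*ζ^62 + (-26)*ζ^63 + 30*ζ^64 + (-72)*ζ^65 + 67*ζ^66 + (-22)*ζ^67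 + (-13)*ζ^68 + 16*ζ^69 + 6*ζ^70 + (-21)*ζ^71 + 25*ζ^72 + (-17)*ζ^73 + 7*ζ^74 + 37*ζ^75 + (-61)*ζ^76 + (-6)*ζ^77 + 39*ζ^78 + (-7)*ζ^79 + 31*ζ^80 + (-61)*ζ^81 + 55*ζ^82 + (-17)*ζ^83 + (-1)*ζ^84 + (-14)*ζ^85 + 2*ζ^86 + (-32)*ζ^87 + 72*ζ^88 + (-58)*ζ^89 + 20*ζ^90 + 6*ζ^91 + (-9)*ζ^92 + 13*ζ^93 + (-30)*ζ^94 + 47*ζ^95 + (-23)*ζ^96 + 7*ζ^97 + (-4)*ζ^98 + (-22)*ζ^99 + 10*ζ^100 + 23*ζ^101 + (-27)*ζ^102 + 24*ζ^103 + (-28)*ζ^106 + 11*ζ^107 + (-9)*ζ^108 + 31*ζ^109 + (-21)*ζ^110 + 1*ζ^111 + (-27)*ζ^112 + 54*ζ^113 + (-35)*ζ^114 + 32*ζ^115 + (-51)*ζ^116 + 64*ζ^117 + (-54)*ζ^118 + 31*ζ^119 + (-21)*ζ^120 + 8*ζ^121 + (-20)*ζ^122 + 51*ζ^123 + (-57)*ζ^124 + 43*ζ^125 + (-34)*ζ^126 + 25*ζ^127 + (-17)*ζ^128 + 23*ζ^129 + (-8)*ζ^130 + (-13)*ζ^131 + (-12)*ζ^132 + 38*ζ^133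 + (-42)*ζ^134 + 42*ζ^135 + (-25)*ζ^136 + 2*ζ^137 + 4*ζ^138 + 7*ζ^139 + (-5)*ζ^140 + (-10)*ζ^141 + 11*ζ^142 + 10*ζ^143 + (-19)*ζ^144 + 3*ζ^145 + 7*ζ^146 + (-13)*ζ^147 + 20*ζ^148 + (-15)*ζ^149 + 12*ζ^150 + (-22)*ζ^151 + 31*ζ^152 + (-26)*ζ^153 + 23*ζ^154 + (-12)*ζ^155 + 10*ζ^156 + (-26)*ζ^157 + 31*ζ^158 + (-33)*ζ^159 + 37*ζ^160 + (-41)*ζ^161 + 41*ζ^162 + (-35)*ζ^163 + 33*ζ^164 + (-28)*ζ^165 + 19*ζ^166 + (-25)*ζ^167 + 41*ζ^168 + (-38)*ζ^169 + 34*ζ^170 + (-41)*ζ^171 + 34*ζ^172 + (-30)*ζ^173 + 33*ζ^174 + (-30)*ζ^175 + 24*ζ^176 + (-25)*ζ^177 + 34*ζ^178 + (-38)*ζ^179 + 34*ζ^180 + (-30)*ζ^181 + 26*ζ^182 + (-24)*ζ^183 + 22*ζ^184 + (-22)*ζ^185 + 20*ζ^186 + (-18)*ζ^187 + 21*ζ^188 + (-22)*ζ^189 + 20*ζ^190 + (-19)*ζ^191 + 17*ζ^192 + (-15)*ζ^193 + 16*ζ^194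 + (-16)*ζ^195 + 11*ζ^196 + (-10)*ζ^197 + 11*ζ^198 + (-10)*ζ^199 + 12*ζ^200 + (-12)*ζ^201 + 9*ζ^202 + (-7)*ζ^203 + 6*ζ^204 + (-5)*ζ^205 + 3*ζ^206 + (-2)*ζ^207 + 4*ζ^208 + (-5)*ζ^209 + 5*ζ^210 + (-5)*ζ^211 + 4*ζ^212 + (-2)*ζ^213 + 2*ζ^214 + (-2)*ζ^215 + 1*ζ^216 + (-1)*ζ^217 + 2*ζ^218 + (-2)*ζ^219 + 1*ζ^220 + (-1)*ζ^221 + 1*ζ^222) * hΦ

theorem prod_eq_157 {R : Type*} [CommRing R] (ζ : R)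
    (hΦ : 1 + ζ + ζ ^ 2 + ζ ^ 3 + ζ ^ 4 + ζ ^ 5 + ζ ^ 6 + ζ ^ 7 + ζ ^ 8 + ζ ^ 9 + ζ ^ 10 + ζ ^ 11 + ζ ^ 12 = 0) :
    ∏ k ∈ Finset.Ico 1 13, aeval (ζ ^ k) (1 - X + X ^ 2 + X ^ 4 : ℤ[X]) = ((157 : ℤ) : R) := by
  rw [Finset.prod_Ico_eq_prod_range]
  simp only [Nat.reduceSub, Finset.prod_range_succ, Finset.prod_range_zero, map_add, map_sub, map_one,
    aeval_X, map_pow, Int.cast_ofNat]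
  linear_combination ((-156) + 155*ζ + 1*ζ^2 + 1*ζ^4 + (-2)*ζ^5 + 1*ζ^6 + (-2)*ζ^7 + 4*ζ^8 + (-3)*ζ^9 + 3*ζ^10 + (-4)*ζ^11 + 6*ζ^12 + (-163)*ζ^13 + 159*ζ^14 + (-2)*ζ^15 + 5*ζ^16 + (-6)*ζ^17 + 6*ζ^18 + (-7)*ζ^19 + 10*ζ^20 + (-12)*ζ^21 + 10*ζ^22 + (-9)*ζ^23 + 15*ζ^24 + (-15)*ζ^25 + (-148)*ζ^26 + 141*ζ^27 + 24*ζ^28 + (-25)*ζ^29 + 24*ζ^30 + (-27)*ζ^31 + 33*ζ^32 + (-25)*ζ^33 + 20*ζ^34 + (-25)*ζ^35 + 37*ζ^36 + (-39)*ζ^37 + 34*ζ^38 + (-199)*ζ^39 + 204*ζ^40 + (-54)*ζ^41 + 45*ζ^42 + (-47)*ζ^43 + 62*ζ^44 + (-63)*ζ^45 + 62*ζ^46 + (-71)*ζ^47 + 104*ζ^48 + (-93)*ζ^49 + 82*ζ^50 + (-99)*ζ^51 + (-40)*ζ^52 + 42*ζ^53 + 95*ζ^54 + (-118)*ζ^55 + 137*ζ^56 + (-146)*ζ^57 + 132*ζ^58 + (-150)*ζ^59 + 178*ζ^60 + (-169)*ζ^61 + 165*ζ^62 + (-158)*ζ^63 + 196*ζ^64 + (-354)*ζ^65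 + 345*ζ^66 + (-219)*ζ^67 + 268*ζ^68 + (-256)*ζ^69 + 237*ζ^70 + (-293)*ζ^71 + 317*ζ^72 + (-316)*ζ^73 + 281*ζ^74 + (-323)*ζ^75 + 384*ζ^76 + (-371)*ζ^77 + 200*ζ^78 + (-243)*ζ^79 + 462*ζ^80 + (-444)*ζ^81 + 432*ζ^82 + (-435)*ζ^83 + 497*ζ^84 + (-484)*ζ^85 + 450*ζ^86 + (-534)*ζ^87 + 619*ζ^88 + (-611)*ζ^89 + 578*ζ^90 + (-819)*ζ^91 + 856*ζ^92 + (-653)*ζ^93 + 627*ζ^94 + (-713)*ζ^95 + 807*ζ^96 + (-794)*ζ^97 + 798*ζ^98 + (-850)*ζ^99 + 908*ζ^100 + (-870)*ζ^101 + 837*ζ^102 + (-864)*ζ^103 + 786*ζ^104 + (-834)*ζ^105 + 974*ζ^106 + (-1033)*ζ^107 + 1142*ζ^108 + (-1115)*ζ^109 + 1067*ζ^110 + (-1174)*ζ^111 + 1252*ζ^112 + (-1189)*ζ^113 + 1167*ζ^114 + (-1295)*ζ^115 + 1422*ζ^116 + (-1542)*ζ^117 + 1475*ζ^118 + (-1445)*ζ^119 + 1570*ζ^120 + (-1492)*ζ^121 + 1433*ζ^122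 + (-1488)*ζ^123 + 1593*ζ^124 + (-1587)*ζ^125 + 1546*ζ^126 + (-1650)*ζ^127 + 1788*ζ^128 + (-1708)*ζ^129 + 1530*ζ^130 + (-1690)*ζ^131 + 1871*ζ^132 + (-1780)*ζ^133 + 1787*ζ^134 + (-1950)*ζ^135 + 2046*ζ^136 + (-1976)*ζ^137 + 1975*ζ^138 + (-2096)*ζ^139 + 2142*ζ^140 + (-2096)*ζ^141 + 2082*ζ^142 + (-2170)*ζ^143 + 2227*ζ^144 + (-2125)*ζ^145 + 2092*ζ^146 + (-2168)*ζ^147 + 2271*ζ^148 + (-2248)*ζ^149 + 2182*ζ^150 + (-2239)*ζ^151 + 2297*ζ^152 + (-2201)*ζ^153 + 2166*ζ^154 + (-2340)*ζ^155 + 2409*ζ^156 + (-2344)*ζ^157 + 2421*ζ^158 + (-2516)*ζ^159 + 2518*ζ^160 + (-2406)*ζ^161 + 2328*ζ^162 + (-2360)*ζ^163 + 2447*ζ^164 + (-2462)*ζ^165 + 2416*ζ^166 + (-2443)*ζ^167 + 2526*ζ^168 + (-2473)*ζ^169 + 2385*ζ^170 + (-2362)*ζ^171 + 2377*ζ^172 + (-2318)*ζ^173 + 2294*ζ^174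 + (-2404)*ζ^175 + 2462*ζ^176 + (-2366)*ζ^177 + 2326*ζ^178 + (-2378)*ζ^179 + 2394*ζ^180 + (-2311)*ζ^181 + 2254*ζ^182 + (-2236)*ζ^183 + 2280*ζ^184 + (-2266)*ζ^185 + 2210*ζ^186 + (-2205)*ζ^187 + 2201*ζ^188 + (-2128)*ζ^189 + 2080*ζ^190 + (-2078)*ζ^191 + 2084*ζ^192 + (-1981)*ζ^193 + 1885*ζ^194 + (-1907)*ζ^195 + 1953*ζ^196 + (-1898)*ζ^197 + 1858*ζ^198 + (-1853)*ζ^199 + 1821*ζ^200 + (-1756)*ζ^201 + 1725*ζ^202 + (-1665)*ζ^203 + 1626*ζ^204 + (-1603)*ζ^205 + 1576*ζ^206 + (-1567)*ζ^207 + 1578*ζ^208 + (-1487)*ζ^209 + 1378*ζ^210 + (-1349)*ζ^211 + 1361*ζ^212 + (-1296)*ζ^213 + 1221*ζ^214 + (-1199)*ζ^215 + 1210*ζ^216 + (-1168)*ζ^217 + 1126*ζ^218 + (-1107)*ζ^219 + 1069*ζ^220 + (-986)*ζ^221 + 957*ζ^222 + (-947)*ζ^223 + 933*ζ^224 + (-881)*ζ^225 + 832*ζ^226 +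 (-810)*ζ^227 + 806*ζ^228 + (-766)*ζ^229 + 713*ζ^230 + (-675)*ζ^231 + 660*ζ^232 + (-616)*ζ^233 + 583*ζ^234 + (-562)*ζ^235 + 544*ζ^236 + (-501)*ζ^237 + 486*ζ^238 + (-488)*ζ^239 + 470*ζ^240 + (-415)*ζ^241 + 380*ζ^242 + (-365)*ζ^243 + 354*ζ^244 + (-338)*ζ^245 + 327*ζ^246 + (-301)*ζ^247 + 296*ζ^248 + (-279)*ζ^249 + 252*ζ^250 + (-234)*ζ^251 + 223*ζ^252 + (-196)*ζ^253 + 181*ζ^254 + (-178)*ζ^255 + 177*ζ^256 + (-158)*ζ^257 + 142*ζ^258 + (-133)*ζ^259 + 131*ζ^260 + (-114)*ζ^261 + 100*ζ^262 + (-90)*ζ^263 + 87*ζ^264 + (-83)*ζ^265 + 80*ζ^266 + (-73)*ζ^267 + 70*ζ^268 + (-60)*ζ^269 + 52*ζ^270 + (-49)*ζ^271 + 50*ζ^272 + (-40)*ζ^273 + 31*ζ^274 + (-30)*ζ^275 + 32*ζ^276 + (-26)*ζ^277 + 22*ζ^278 + (-21)*ζ^279 + 22*ζ^280 + (-17)*ζ^281 + 14*ζ^282 + (-12)*ζ^283 +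 9*ζ^284 + (-7)*ζ^285 + 9*ζ^286 + (-9)*ζ^287 + 9*ζ^288 + (-7)*ζ^289 + 5*ζ^290 + (-4)*ζ^291 + 4*ζ^292 + (-2)*ζ^293 + 1*ζ^294 + (-2)*ζ^295 + 3*ζ^296 + (-2)*ζ^297 + 1*ζ^298 + (-1)*ζ^299 + 1*ζ^300) * hΦ

theorem check_thirteen : ∀ ℓ ∈ Finset.range 313, ∀ f ∈ Finset.range 9, 2 ≤ ℓ →
    (∀ d ∈ [2, 3, 5, 7, 11, 13, 17], d ∣ ℓ → d = ℓ) → ℓ ≠ 13 → 0 < f → ℓ ^ f ≤ 312 →
    ℓ ^ f % 13 = 1 →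
    (ℓ = 3 ∧ f = 3) ∨ (ℓ = 53 ∧ f = 1) ∨ (ℓ = 79 ∧ f = 1) ∨ (ℓ = 131 ∧ f = 1) ∨
      (ℓ = 157 ∧ f = 1) := by
  decide +kernel

variable (K : Type*) [Field K] [NumberField K] [IsCyclotomicExtension {13} ℚ K]

open Real in
/-- The ring of integers of `ℚ(ζ₁₃)` is a PID. -/
theorem thirteen_pid : IsPrincipalIdealRing (𝓞 K) := by
  have : Fact (Nat.Prime 13) := ⟨by norm_num⟩
  refine isPrincipalIdealRing_of_bound 13 K 312 ?_ ?_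
  · have h1 : √((13 : ℝ) ^ (13 - 2)) < 1338716 := by
      rw [Real.sqrt_lt' (by norm_num)]
      norm_num
    have h2 : (4 / π) ^ ((13 - 1) / 2) < (4 / 3.14) ^ ((13 - 1) / 2) := by
      gcongr
      exact pi_gt_d2
    calc (4 / π) ^ ((13 - 1) / 2) * ((((13 - 1).factorial : ℕ) : ℝ) / ((13 - 1 : ℕ) : ℝ) ^ (13 - 1) *
            √(((13 : ℕ) : ℝ) ^ (13 - 2)))
        < (4 / 3.14) ^ ((13 - 1) / 2) * ((((13 - 1).factorial : ℕ) : ℝ) / ((13 - 1 : ℕ) : ℝ) ^ (13 - 1) *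
            1338716) := by
          push_cast
          gcongr
      _ < ((312 : ℕ) : ℝ) + 1 := by
          norm_num [Nat.factorial]
  · intro ℓ f hℓ hℓp hf hle hmod
    have hζ := (IsCyclotomicExtension.zeta_spec 13 ℚ K).toInteger_isPrimitiveRoot
    set ζ := (IsCyclotomicExtension.zeta_spec 13 ℚ K).toInteger with hζdef
    have hΦ : 1 + ζ + ζ ^ 2 + ζ ^ 3 + ζ ^ 4 + ζ ^ 5 + ζ ^ 6 + ζ ^ 7 + ζ ^ 8 + ζ ^ 9 + ζ ^ 10 + ζ ^ 11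
        + ζ ^ 12 = 0 := by
      have := hζ.geom_sum_eq_zero (by norm_num)
      simpa [Finset.sum_range_succ] using this
    have hζ13 : ζ ^ 13 = 1 := hζ.pow_eq_one
    have hℓle : ℓ ≤ 312 := le_trans (Nat.le_self_pow hf.ne' ℓ) hle
    have hf9 : f < 9 := by
      by_contra hcon
      have h9 : 2 ^ 9 ≤ ℓ ^ f :=
        le_trans (Nat.pow_le_pow_right (by norm_num) (not_lt.mp hcon))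
          (Nat.pow_le_pow_left hℓ.two_le f)
      omega
    have hdiv : ∀ d ∈ [2, 3, 5, 7, 11, 13, 17], d ∣ ℓ → d = ℓ := by
      intro d hd hdvd
      rcases (Nat.dvd_prime hℓ).mp hdvd with h | h
      · subst h
        simp at hd
      · exact h
    rcases check_thirteen ℓ (Finset.mem_range.mpr (by omega)) f (Finset.mem_range.mpr hf9) hℓ.two_le
      hdiv hℓp hf hle hmod with ⟨rfl, rfl⟩ | ⟨rfl, rfl⟩ | ⟨rfl, rfl⟩ | ⟨rfl, rfl⟩ | ⟨rfl, rfl⟩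
    · exact ⟨_, by rw [norm_int_aeval_eq 13 K ζ hζ13 _ 27 (prod_eq_27 ζ hΦ)]; rfl⟩
    · exact ⟨_, by rw [norm_int_aeval_eq 13 K ζ hζ13 _ 53 (prod_eq_53 ζ hΦ)]; rfl⟩
    · exact ⟨_, by rw [norm_int_aeval_eq 13 K ζ hζ13 _ 79 (prod_eq_79 ζ hΦ)]; rfl⟩
    · exact ⟨_, by rw [norm_int_aeval_eq 13 K ζ hζ13 _ 131 (prod_eq_131 ζ hΦ)]; rfl⟩
    · exact ⟨_, by rw [norm_int_aeval_eq 13 K ζ hζ13 _ 157 (prod_eq_157 ζ hΦ)]; rfl⟩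

end thirteen

section eleven

theorem prod_eq_23 {R : Type*} [CommRing R] (ζ : R)
    (hΦ : 1 + ζ + ζ ^ 2 + ζ ^ 3 + ζ ^ 4 + ζ ^ 5 + ζ ^ 6 + ζ ^ 7 + ζ ^ 8 + ζ ^ 9 + ζ ^ 10 = 0) :
    ∏ k ∈ Finset.Ico 1 11, aeval (ζ ^ k) (1 + X + X ^ 3 : ℤ[X]) = ((23 : ℤ) : R) := by
  rw [Finset.prod_Ico_eq_prod_range]
  simp only [Nat.reduceSub, Finset.prod_range_succ, Finset.prod_range_zero, map_add, map_sub, map_one,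
    aeval_X, map_pow, Int.cast_ofNat]
  linear_combination ((-22) + 23*ζ + 2*ζ^3 + (-1)*ζ^4 + 2*ζ^5 + 2*ζ^6 + 1*ζ^7 + 1*ζ^8 + 5*ζ^9 + 3*ζ^10 + (-21)*ζ^11 + 30*ζ^12 + 2*ζ^13 + 8*ζ^14 + 8*ζ^15 + 7*ζ^16 + 6*ζ^17 + 16*ζ^18 + 4*ζ^19 + 16*ζ^20 + 18*ζ^21 + (-13)*ζ^22 + 38*ζ^23 + 24*ζ^24 + 15*ζ^25 + 17*ζ^26 + 34*ζ^27 + 18*ζ^28 + 25*ζ^29 + 33*ζ^30 + 30*ζ^31 + 23*ζ^32 + 26*ζ^33 + 43*ζ^34 + 44*ζ^35 + 52*ζ^36 + 34*ζ^37 + 38*ζ^38 + 66*ζ^39 + 33*ζ^40 + 45*ζ^41 + 75*ζ^42 + 36*ζ^43 + 39*ζ^44 + 108*ζ^45 + 39*ζ^46 + 62*ζ^47 + 86*ζ^48 + 46*ζ^49 + 69*ζ^50 + 91*ζ^51 + 57*ζ^52 + 65*ζ^53 + 109*ζ^54 + 43*ζ^55 + 85*ζ^56 + 102*ζ^57 + 69*ζ^58 + 68*ζ^59 + 108*ζ^60 + 64*ζ^61 + 78*ζ^62 + 112*ζ^63 + 59*ζ^64 + 81*ζ^65 + 124*ζ^66 + 47*ζ^67 + 90*ζ^68 + 112*ζ^69 + 56*ζ^70 +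 69*ζ^71 + 135*ζ^72 + 43*ζ^73 + 82*ζ^74 + 105*ζ^75 + 57*ζ^76 + 74*ζ^77 + 109*ζ^78 + 50*ζ^79 + 72*ζ^80 + 94*ζ^81 + 43*ζ^82 + 76*ζ^83 + 98*ζ^84 + 28*ζ^85 + 70*ζ^86 + 89*ζ^87 + 33*ζ^88 + 63*ζ^89 + 81*ζ^90 + 30*ζ^91 + 51*ζ^92 + 81*ζ^93 + 20*ζ^94 + 54*ζ^95 + 60*ζ^96 + 23*ζ^97 + 40*ζ^98 + 64*ζ^99 + 12*ζ^100 + 48*ζ^101 + 42*ζ^102 + 19*ζ^103 + 28*ζ^104 + 53*ζ^105 + (-1)*ζ^106 + 42*ζ^107 + 25*ζ^108 + 17*ζ^109 + 19*ζ^110 + 40*ζ^111 + (-6)*ζ^112 + 30*ζ^113 + 19*ζ^114 + 10*ζ^115 + 9*ζ^116 + 31*ζ^117 + (-9)*ζ^118 + 22*ζ^119 + 11*ζ^120 + 10*ζ^121 + 4*ζ^122 + 21*ζ^123 + (-10)*ζ^124 + 19*ζ^125 + 2*ζ^126 + 5*ζ^127 + 3*ζ^128 + 12*ζ^129 + (-7)*ζ^130 + 13*ζ^131 + 1*ζ^132 + 3*ζ^133 + 9*ζ^135 + (-6)*ζ^136 + 7*ζ^137 + 2*ζ^139 + (-1)*ζ^140 + 5*ζ^141 + (-3)*ζ^142 +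 4*ζ^143 + 2*ζ^147 + (-2)*ζ^148 + 3*ζ^149 + (-1)*ζ^150 + 1*ζ^153 + (-1)*ζ^154 + 1*ζ^155) * hΦ

theorem check_eleven : ∀ ℓ ∈ Finset.range 61, ∀ f ∈ Finset.range 6, 2 ≤ ℓ →
    (∀ d ∈ [2, 3, 5, 7], d ∣ ℓ → d = ℓ) → ℓ ≠ 11 → 0 < f → ℓ ^ f ≤ 60 →
    ℓ ^ f % 11 = 1 → (ℓ = 23 ∧ f = 1) := by
  decide +kernel

variable (K : Type*) [Field K] [NumberField K] [IsCyclotomicExtension {11} ℚ K]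

open Real in
/-- The ring of integers of `ℚ(ζ₁₁)` is a PID. -/
theorem eleven_pid : IsPrincipalIdealRing (𝓞 K) := by
  have : Fact (Nat.Prime 11) := ⟨by norm_num⟩
  refine isPrincipalIdealRing_of_bound 11 K 60 ?_ ?_
  · have h1 : √((11 : ℝ) ^ (11 - 2)) < 48559 := by
      rw [Real.sqrt_lt' (by norm_num)]
      norm_num
    have h2 : (4 / π) ^ ((11 - 1) / 2) < (4 / 3.14) ^ ((11 - 1) / 2) := by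
      gcongr
      exact pi_gt_d2
    calc (4 / π) ^ ((11 - 1) / 2) * ((((11 - 1).factorial : ℕ) : ℝ) / ((11 - 1 : ℕ) : ℝ) ^ (11 - 1) *
            √(((11 : ℕ) : ℝ) ^ (11 - 2)))
        < (4 / 3.14) ^ ((11 - 1) / 2) * ((((11 - 1).factorial : ℕ) : ℝ) / ((11 - 1 : ℕ) : ℝ) ^ (11 - 1) *
            48559) := by
          push_cast
          gcongr
      _ < ((60 : ℕ) : ℝ) + 1 := by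
          norm_num [Nat.factorial]
  · intro ℓ f hℓ hℓp hf hle hmod
    have hζ := (IsCyclotomicExtension.zeta_spec 11 ℚ K).toInteger_isPrimitiveRoot
    set ζ := (IsCyclotomicExtension.zeta_spec 11 ℚ K).toInteger with hζdef
    have hΦ : 1 + ζ + ζ ^ 2 + ζ ^ 3 + ζ ^ 4 + ζ ^ 5 + ζ ^ 6 + ζ ^ 7 + ζ ^ 8 + ζ ^ 9 + ζ ^ 10 = 0 := by
      have := hζ.geom_sum_eq_zero (by norm_num)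
      simpa [Finset.sum_range_succ] using this
    have hζ11 : ζ ^ 11 = 1 := hζ.pow_eq_one
    have hℓle : ℓ ≤ 60 := le_trans (Nat.le_self_pow hf.ne' ℓ) hle
    have hf6 : f < 6 := by
      by_contra hcon
      have h6 : 2 ^ 6 ≤ ℓ ^ f :=
        le_trans (Nat.pow_le_pow_right (by norm_num) (not_lt.mp hcon))
          (Nat.pow_le_pow_left hℓ.two_le f)
      omega
    have hdiv : ∀ d ∈ [2, 3, 5, 7], d ∣ ℓ → d = ℓ := by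
      intro d hd hdvd
      rcases (Nat.dvd_prime hℓ).mp hdvd with h | h
      · subst h
        simp at hd
      · exact h
    obtain ⟨rfl, rfl⟩ := check_eleven ℓ (Finset.mem_range.mpr (by omega)) f (Finset.mem_range.mpr hf6)
      hℓ.two_le hdiv hℓp hf hle hmod
    exact ⟨_, by rw [norm_int_aeval_eq 11 K ζ hζ11 _ 23 (prod_eq_23 ζ hΦ)]; rfl⟩

end eleven

end Fermat.Agent.Lib.CyclotomicPID
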