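import Mathlib

/-!
# Eisenstein series with a character of a subgroup of `SL(2, ℤ)`

For a bounded weight function `w : (Fin 2 → ℤ) → ℂ` we study
`wEis w k z = ∑' v, w v * (v 0 * z + v 1) ^ (-k)`.
-/

set_option autoImplicit false

noncomputable section

open ModularForm UpperHalfPlane Complex Matrix CongruenceSubgroup Set Filter Topology
open EisensteinSeries
open scoped MatrixGroups Manifold

namespace Fermat.Agent.Lib.EisensteinChar

/-- Right multiplication by an element of `SL(2, ℤ)` as a permutation of `Fin 2 → ℤ`. -/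
def vecMulEquiv (γ : SL(2, ℤ)) : (Fin 2 → ℤ) ≃ (Fin 2 → ℤ) where
  toFun v := v ᵥ* γ
  invFun v := v ᵥ* ↑(γ⁻¹)
  left_inv v := by
    simp_rw [vecMul_vecMul, ← Matrix.SpecialLinearGroup.coe_mul, mul_inv_cancel,
      Matrix.SpecialLinearGroup.coe_one, vecMul_one]
  right_inv v := by
    simp_rw [vecMul_vecMul, ← Matrix.SpecialLinearGroup.coe_mul, inv_mul_cancel,
      Matrix.SpecialLinearGroup.coe_one, vecMul_one]

@[simp] lemma vecMulEquiv_apply (γ : SL(2, ℤ)) (v : Fin 2 → ℤ) :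
    vecMulEquiv γ v = v ᵥ* γ := rfl

@[simp] lemma vecMulEquiv_symm_apply (γ : SL(2, ℤ)) (v : Fin 2 → ℤ) :
    (vecMulEquiv γ).symm v = v ᵥ* ↑(γ⁻¹) := rfl

/-- The weighted Eisenstein series. -/
def wEis (w : (Fin 2 → ℤ) → ℂ) (k : ℤ) (z : ℍ) : ℂ := ∑' v : Fin 2 → ℤ, w v * eisSummand k v z

variable {w : (Fin 2 → ℤ) → ℂ} {k : ℤ}

lemma norm_term_le (hw : ∀ v, ‖w v‖ ≤ 1) (v : Fin 2 → ℤ) (z : ℍ) :
    ‖w v * eisSummand k v z‖ ≤ ‖eisSummand k v z‖ := by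
  rw [norm_mul]
  exact mul_le_of_le_one_left (norm_nonneg _) (hw v)

lemma summable_norm_term (hw : ∀ v, ‖w v‖ ≤ 1) (hk : 3 ≤ k) (z : ℍ) :
    Summable fun v : Fin 2 → ℤ ↦ ‖w v * eisSummand k v z‖ :=
  (summable_norm_eisSummand hk z).of_nonneg_of_le (fun _ ↦ norm_nonneg _)
    (fun v ↦ norm_term_le hw v z)

lemma summable_term (hw : ∀ v, ‖w v‖ ≤ 1) (hk : 3 ≤ k) (z : ℍ) :
    Summable fun v : Fin 2 → ℤ ↦ w v * eisSummand k v z :=
  (summable_norm_term hw hk z).of_norm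

/-- Slash action on weighted Eisenstein series. -/
lemma wEis_slash (w : (Fin 2 → ℤ) → ℂ) (k : ℤ) (γ : SL(2, ℤ)) :
    wEis w k ∣[k] γ = wEis (fun v ↦ w (v ᵥ* ↑(γ⁻¹))) k := by
  ext1 z
  simp_rw [SL_slash_apply, _root_.zpow_neg,
    mul_inv_eq_iff_eq_mul₀ (zpow_ne_zero _ <| denom_ne_zero _ z),
    wEis, eisSummand_SL2_apply]
  rw [← (vecMulEquiv γ).tsum_eq (fun v ↦ w (v ᵥ* ↑(γ⁻¹)) * eisSummand k v z), ← tsum_mul_right]
  refine tsum_congr fun v ↦ ?_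
  have := (vecMulEquiv γ).left_inv v
  simp only [Equiv.toFun_as_coe, Equiv.invFun_as_coe, vecMulEquiv_apply,
    vecMulEquiv_symm_apply] at this
  simp only [vecMulEquiv_apply, this]
  ring

/-- Locally uniform convergence of the weighted series. -/
theorem wEis_tendstoLocallyUniformly (hw : ∀ v, ‖w v‖ ≤ 1) (hk : 3 ≤ k) :
    TendstoLocallyUniformly (fun (s : Finset (Fin 2 → ℤ)) ↦ (∑ x ∈ s, w x * eisSummand k x ·))
      (wEis w k ·) Filter.atTop := by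
  have hk' : (2 : ℝ) < k := by norm_cast
  have p_sum : Summable fun x : Fin 2 → ℤ ↦ ‖x‖ ^ (-k) :=
    mod_cast (summable_one_div_norm_rpow hk')
  simp only [tendstoLocallyUniformly_iff_forall_isCompact, wEis]
  intro K hK
  obtain ⟨A, B, hB, HABK⟩ := subset_verticalStrip_of_isCompact hK
  refine (tendstoUniformlyOn_tsum (hu := p_sum.mul_left <| r ⟨⟨A, B⟩, hB⟩ ^ (-k : ℝ))
    (fun p z hz ↦ ?_)).mono HABK
  refine (norm_term_le hw p z).trans ?_
  simpa only [eisSummand, one_div, ← _root_.zpow_neg, norm_zpow, ← Real.rpow_intCast,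
    Int.cast_neg] using summand_bound_of_mem_verticalStrip (by positivity) p hB hz

lemma wEis_tendstoLocallyUniformlyOn (hw : ∀ v, ‖w v‖ ≤ 1) (hk : 3 ≤ k) :
    TendstoLocallyUniformlyOn (fun (s : Finset (Fin 2 → ℤ)) ↦
      ↑ₕ(fun (z : ℍ) ↦ ∑ x ∈ s, w x * eisSummand k x z)) (↑ₕ(wEis w k))
          Filter.atTop {z : ℂ | 0 < z.im} := by
  rw [← upperHalfPlaneSet, ← range_coe, ← image_univ]
  apply TendstoLocallyUniformlyOn.comp (s := ⊤) _ _ _ (OpenPartialHomeomorph.continuousOn_symm _)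
  · simp only [Set.top_eq_univ, tendstoLocallyUniformlyOn_univ]
    apply wEis_tendstoLocallyUniformly hw hk
  · simp only [IsOpenEmbedding.toOpenPartialHomeomorph_target, Set.top_eq_univ, mapsTo_range_iff,
    Set.mem_univ, forall_const]

lemma term_extension_differentiableOn (w : (Fin 2 → ℤ) → ℂ) (k : ℤ) (a : Fin 2 → ℤ) :
    DifferentiableOn ℂ (↑ₕ(fun z : ℍ ↦ w a * eisSummand k a z)) {z : ℂ | 0 < z.im} :=
  (eisSummand_extension_differentiableOn k a).const_mul (w a)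

/-- Weighted Eisenstein series are holomorphic. -/
theorem wEis_mdifferentiable (hw : ∀ v, ‖w v‖ ≤ 1) (hk : 3 ≤ k) : MDiff (wEis w k) := by
  intro τ
  suffices DifferentiableAt ℂ (↑ₕ(wEis w k)) τ.1 by
    convert!
      MDifferentiableAt.comp τ (DifferentiableAt.mdifferentiableAt this) τ.mdifferentiable_coe
    exact funext fun z ↦ (comp_ofComplex (wEis w k) z).symm
  refine DifferentiableOn.differentiableAt ?_ (isOpen_upperHalfPlaneSet.mem_nhds τ.2)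
  refine (wEis_tendstoLocallyUniformlyOn hw hk).differentiableOn
    (Eventually.of_forall fun s ↦ ?_) isOpen_upperHalfPlaneSet
  have : (↑ₕ(fun (z : ℍ) ↦ ∑ x ∈ s, w x * eisSummand k x z)) =
      fun z ↦ ∑ x ∈ s, (↑ₕ(fun z : ℍ ↦ w x * eisSummand k x z)) z := by
    ext z; simp [Function.comp]
  rw [this]
  exact DifferentiableOn.fun_sum fun _ _ ↦ term_extension_differentiableOn _ _ _

lemma denom_T_zpow (n : ℤ) (z : ℍ) : denom (ModularGroup.T ^ n : SL(2, ℤ)) z = 1 := by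
  simp [denom, ModularGroup.coe_T_zpow, -map_zpow]

/-- The majorant series is invariant under integer translations. -/
lemma tsum_norm_eisSummand_T_zpow (k n : ℤ) (z : ℍ) :
    ∑' v : Fin 2 → ℤ, ‖eisSummand k v (ModularGroup.T ^ n • z)‖ =
      ∑' v : Fin 2 → ℤ, ‖eisSummand k v z‖ := by
  rw [← (vecMulEquiv (ModularGroup.T ^ n)).tsum_eq (fun v ↦ ‖eisSummand k v z‖)]
  refine tsum_congr fun v ↦ ?_
  rw [eisSummand_SL2_apply, denom_T_zpow, _root_.one_zpow, one_mul, vecMulEquiv_apply]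

lemma norm_wEis_le (hw : ∀ v, ‖w v‖ ≤ 1) (hk : 3 ≤ k) (z : ℍ) :
    ‖wEis w k z‖ ≤ ∑' v : Fin 2 → ℤ, ‖eisSummand k v z‖ :=
  (norm_tsum_le_tsum_norm (summable_norm_term hw hk z)).trans
    ((summable_norm_term hw hk z).tsum_le_tsum (fun v ↦ norm_term_le hw v z)
      (summable_norm_eisSummand hk z))

/-- The majorant is bounded on `2 ≤ im z`. -/
lemma tsum_norm_eisSummand_le (hk : 3 ≤ k) (z : ℍ) (hz : 2 ≤ z.im) :
    ∑' v : Fin 2 → ℤ, ‖eisSummand k v z‖ ≤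
      ∑' (x : Fin 2 → ℤ), r ⟨⟨1, 2⟩, Nat.ofNat_pos⟩ ^ (-k) * ‖x‖ ^ (-k) := by
  obtain ⟨n, hn⟩ := (ModularGroup_T_zpow_mem_verticalStrip z (N := 1) one_pos)
  rw [← tsum_norm_eisSummand_T_zpow k ((1 : ℕ) * n) z]
  have hk' : (2 : ℝ) < k := by norm_cast
  apply (summable_norm_eisSummand hk _).tsum_le_tsum _
  · exact_mod_cast (summable_one_div_norm_rpow hk').mul_left <| r ⟨⟨1, 2⟩, Nat.ofNat_pos⟩ ^ (-k)
  · intro x
    simp_rw [eisSummand, norm_zpow]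
    exact_mod_cast
      summand_bound_of_mem_verticalStrip (lt_trans two_pos hk').le x two_pos
      (verticalStrip_anti_right 1 hz (by exact_mod_cast hn))

theorem isBoundedAtImInfty_wEis (hw : ∀ v, ‖w v‖ ≤ 1) (hk : 3 ≤ k) :
    IsBoundedAtImInfty (wEis w k) := by
  rw [UpperHalfPlane.isBoundedAtImInfty_iff]
  exact ⟨_, 2, fun z hz ↦ (norm_wEis_le hw hk z).trans (tsum_norm_eisSummand_le hk z hz)⟩

theorem isBoundedAtImInfty_wEis_slash (hw : ∀ v, ‖w v‖ ≤ 1) (hk : 3 ≤ k) (γ : SL(2, ℤ)) :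
    IsBoundedAtImInfty (wEis w k ∣[k] γ) := by
  rw [wEis_slash]
  exact isBoundedAtImInfty_wEis (fun v ↦ hw _) hk

/-- Periodicity of `wEis` for translation invariant weights. -/
lemma wEis_T_zpow_smul (hT : ∀ (n : ℤ) (v : Fin 2 → ℤ), w (v ᵥ* (ModularGroup.T ^ n : SL(2, ℤ))) = w v)
    (n : ℤ) (z : ℍ) : wEis w k (ModularGroup.T ^ n • z) = wEis w k z := by
  have h := congrFun (wEis_slash w k (ModularGroup.T ^ n)) z
  rw [SL_slash_apply, denom_T_zpow, _root_.one_zpow, mul_one] at h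
  rw [h]
  congr 1
  ext v
  rw [← _root_.zpow_neg]
  exact hT _ _

lemma norm_eisSummand_le_im (hk : 0 ≤ k) (v : Fin 2 → ℤ) (hv : v 0 ≠ 0) (z : ℍ) :
    ‖eisSummand k v z‖ ≤ z.im ^ (-k) := by
  have h1 : z.im ≤ ‖(v 0 : ℂ) * z + v 1‖ := by
    have h2 : |((v 0 : ℂ) * z + v 1).im| ≤ ‖(v 0 : ℂ) * z + v 1‖ := Complex.abs_im_le_norm _
    have h3 : ((v 0 : ℂ) * z + v 1).im = (v 0 : ℝ) * z.im := by simp
    rw [h3, abs_mul, abs_of_pos z.im_pos] at h2
    have h4 : (1 : ℝ) ≤ |(v 0 : ℝ)| := by exact_mod_cast Int.one_le_abs hv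
    nlinarith [z.im_pos]
  rw [eisSummand, norm_zpow, _root_.zpow_neg, _root_.zpow_neg]
  exact inv_anti₀ (zpow_pos z.im_pos _) (zpow_le_zpow_left₀ hk z.im_pos.le h1)

lemma tendsto_eisSummand_atImInfty (hk : 0 < k) (v : Fin 2 → ℤ) (hv : v 0 ≠ 0) :
    Tendsto (fun z : ℍ ↦ eisSummand k v z) atImInfty (𝓝 0) := by
  refine squeeze_zero_norm (fun z ↦ norm_eisSummand_le_im hk.le v hv z) ?_
  exact (tendsto_zpow_atTop_zero (by omega : -k < 0)).comp tendsto_comap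

/-- The value at infinity of a weighted Eisenstein series. -/
def wEisLim (w : (Fin 2 → ℤ) → ℂ) (k : ℤ) : ℂ :=
  ∑' v : Fin 2 → ℤ, w v * (if v 0 = 0 then ((v 1 : ℤ) : ℂ) ^ (-k) else 0)

lemma tendsto_wEis_strip (hw : ∀ v, ‖w v‖ ≤ 1) (hk : 3 ≤ k) :
    Tendsto (wEis w k) (atImInfty ⊓ 𝓟 (verticalStrip 1 2)) (𝓝 (wEisLim w k)) := by
  have hk' : (2 : ℝ) < k := by norm_cast
  refine tendsto_tsum_of_dominated_convergence
    (bound := fun x : Fin 2 → ℤ ↦ r ⟨⟨1, 2⟩, Nat.ofNat_pos⟩ ^ (-k) * ‖x‖ ^ (-k)) ?_ ?_ ?_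
  · exact_mod_cast (summable_one_div_norm_rpow hk').mul_left <| r ⟨⟨1, 2⟩, Nat.ofNat_pos⟩ ^ (-k)
  · intro v
    refine Tendsto.const_mul _ ?_
    by_cases hv : v 0 = 0
    · have : eisSummand k v = fun _ ↦ ((v 1 : ℤ) : ℂ) ^ (-k) := by
        ext z; simp [eisSummand, hv]
      rw [this, if_pos hv]
      exact tendsto_const_nhds
    · simp only [hv, if_false]
      exact (tendsto_eisSummand_atImInfty (by omega) v hv).mono_left inf_le_left
  · have : verticalStrip 1 2 ∈ atImInfty ⊓ 𝓟 (verticalStrip 1 2) :=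
      mem_inf_of_right (mem_principal_self _)
    filter_upwards [this] with z hz v
    refine (norm_term_le hw v z).trans ?_
    simp_rw [eisSummand, norm_zpow]
    exact_mod_cast
      summand_bound_of_mem_verticalStrip (lt_trans two_pos hk').le v two_pos hz

/-- A translation invariant weighted Eisenstein series tends to `wEisLim` at `i∞`. -/
theorem tendsto_wEis_atImInfty (hw : ∀ v, ‖w v‖ ≤ 1) (hk : 3 ≤ k)
    (hT : ∀ (n : ℤ) (v : Fin 2 → ℤ), w (v ᵥ* (ModularGroup.T ^ n : SL(2, ℤ))) = w v) :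
    Tendsto (wEis w k) atImInfty (𝓝 (wEisLim w k)) := by
  intro U hU
  have h := tendsto_wEis_strip hw hk hU
  rw [mem_map, mem_inf_principal, atImInfty_mem] at h
  obtain ⟨A, hA⟩ := h
  rw [mem_map, atImInfty_mem]
  refine ⟨max A 2, fun z hz ↦ ?_⟩
  obtain ⟨n, hn⟩ := (ModularGroup_T_zpow_mem_verticalStrip z (N := 1) one_pos)
  have him : (ModularGroup.T ^ ((1 : ℕ) * n) • z).im = z.im := ModularGroup.im_T_zpow_smul z _
  have h1 := hA (ModularGroup.T ^ ((1 : ℕ) * n) • z) (by rw [him]; exact (le_max_left _ _).trans hz)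
    (verticalStrip_anti_right 1 ((le_max_right _ _).trans hz) (by exact_mod_cast hn))
  simp only [mem_preimage] at h1 ⊢
  rwa [wEis_T_zpow_smul hT] at h1

/-! ### The weight attached to a character -/

/-- The bottom row of `g`, written as `![0, 1] ᵥ* g`. -/
def bot (g : SL(2, ℤ)) : Fin 2 → ℤ := ![0, 1] ᵥ* g

lemma bot_apply (g : SL(2, ℤ)) (j : Fin 2) : bot g j = g 1 j := by
  simp [bot, vecMul, dotProduct, Fin.sum_univ_two]

lemma bot_mul (g h : SL(2, ℤ)) : bot (g * h) = bot g ᵥ* h := by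
  rw [bot, bot, Matrix.SpecialLinearGroup.coe_mul, vecMul_vecMul]

lemma bot_one : bot 1 = ![0, 1] := by
  rw [bot, Matrix.SpecialLinearGroup.coe_one, vecMul_one]

lemma vecMul_inv_cancel (v : Fin 2 → ℤ) (γ : SL(2, ℤ)) :
    (v ᵥ* (γ : Matrix (Fin 2) (Fin 2) ℤ)) ᵥ* ((γ⁻¹ : SL(2, ℤ)) : Matrix (Fin 2) (Fin 2) ℤ) = v :=
  (vecMulEquiv γ).left_inv v

lemma vecMul_inv_cancel' (v : Fin 2 → ℤ) (γ : SL(2, ℤ)) :
    (v ᵥ* ((γ⁻¹ : SL(2, ℤ)) : Matrix (Fin 2) (Fin 2) ℤ)) ᵥ* (γ : Matrix (Fin 2) (Fin 2) ℤ) = v :=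
  (vecMulEquiv γ).right_inv v

variable (G : Subgroup SL(2, ℤ)) (φ : G →* ℂˣ)

open Classical in
/-- The weight function of the Eisenstein series with character `φ`. -/
def charWeight (v : Fin 2 → ℤ) : ℂ :=
  if h : ∃ g : G, bot (g : SL(2, ℤ)) = v then (((φ h.choose)⁻¹ : ℂˣ) : ℂ) else 0

variable {G φ}

lemma charWeight_bot (hpar : ∀ g : G, (g : SL(2, ℤ)) 1 0 = 0 → φ g = 1) (g : G) :
    charWeight G φ (bot (g : SL(2, ℤ))) = (((φ g)⁻¹ : ℂˣ) : ℂ) := by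
  have h : ∃ g' : G, bot (g' : SL(2, ℤ)) = bot (g : SL(2, ℤ)) := ⟨g, rfl⟩
  rw [charWeight, dif_pos h]
  have h1 : bot ((h.choose * g⁻¹ : G) : SL(2, ℤ)) = ![0, 1] := by
    rw [Subgroup.coe_mul, bot_mul, h.choose_spec, Subgroup.coe_inv, bot, vecMul_inv_cancel]
  have h2 : φ (h.choose * g⁻¹) = 1 := by
    apply hpar
    rw [← bot_apply, h1]; rfl
  rw [map_mul, map_inv, mul_inv_eq_one] at h2
  rw [h2]

lemma charWeight_of_not (v : Fin 2 → ℤ) (h : ¬ ∃ g : G, bot (g : SL(2, ℤ)) = v) :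
    charWeight G φ v = 0 := by
  rw [charWeight, dif_neg h]

lemma norm_charWeight_le (hφ : ∀ g : G, ‖((φ g : ℂˣ) : ℂ)‖ = 1) (v : Fin 2 → ℤ) :
    ‖charWeight G φ v‖ ≤ 1 := by
  rw [charWeight]
  split_ifs with h
  · rw [Units.val_inv_eq_inv_val, norm_inv, hφ, inv_one]
  · simp

lemma charWeight_vecMul_inv (hpar : ∀ g : G, (g : SL(2, ℤ)) 1 0 = 0 → φ g = 1) (γ : G)
    (v : Fin 2 → ℤ) :
    charWeight G φ (v ᵥ* ↑((γ : SL(2, ℤ))⁻¹)) = (φ γ : ℂ) * charWeight G φ v := by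
  by_cases h : ∃ g : G, bot (g : SL(2, ℤ)) = v
  · obtain ⟨g, rfl⟩ := h
    have : bot (g : SL(2, ℤ)) ᵥ* ↑((γ : SL(2, ℤ))⁻¹) = bot ((g * γ⁻¹ : G) : SL(2, ℤ)) := by
      rw [Subgroup.coe_mul, bot_mul, Subgroup.coe_inv]
    rw [this, charWeight_bot hpar, charWeight_bot hpar, map_mul, map_inv, mul_inv, inv_inv,
      Units.val_mul, mul_comm]
  · rw [charWeight_of_not v h, mul_zero]
    apply charWeight_of_not
    rintro ⟨g, hg⟩
    apply h
    refine ⟨g * γ, ?_⟩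
    rw [Subgroup.coe_mul, bot_mul, hg, vecMul_inv_cancel']

lemma charWeight_vecMul_T_zpow (hpar : ∀ g : G, (g : SL(2, ℤ)) 1 0 = 0 → φ g = 1)
    (hT : ModularGroup.T ∈ G) (n : ℤ) (v : Fin 2 → ℤ) :
    charWeight G φ (v ᵥ* (ModularGroup.T ^ n : SL(2, ℤ))) = charWeight G φ v := by
  have hmem : (ModularGroup.T ^ (-n) : SL(2, ℤ)) ∈ G := G.zpow_mem hT _
  have h := charWeight_vecMul_inv hpar ⟨_, hmem⟩ v
  have h1 : φ ⟨_, hmem⟩ = 1 := by
    apply hpar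
    simp [ModularGroup.coe_T_zpow]
  rw [h1, Units.val_one, one_mul] at h
  simpa using h

lemma bot_eq_of_c_eq_zero (g : SL(2, ℤ)) (h : g 1 0 = 0) :
    bot g = ![0, 1] ∨ bot g = ![0, -1] := by
  have hdet := g.det_coe
  rw [Matrix.det_fin_two, h, mul_zero, sub_zero] at hdet
  have h1 : g 1 1 = 1 ∨ g 1 1 = -1 := Int.isUnit_iff.mp (IsUnit.of_mul_eq_one _ (by rw [mul_comm]; exact hdet))
  rcases h1 with h1 | h1
  · left; ext j; fin_cases j <;> simp [bot_apply, h, h1]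
  · right; ext j; fin_cases j <;> simp [bot_apply, h, h1]

lemma bot_neg_one : bot (-1) = ![0, -1] := by
  ext j; fin_cases j <;> simp [bot_apply]

lemma wEisLim_charWeight (hpar : ∀ g : G, (g : SL(2, ℤ)) 1 0 = 0 → φ g = 1)
    (hneg : (-1 : SL(2, ℤ)) ∈ G) (hk : Even k) : wEisLim (charWeight G φ) k = 2 := by
  have hne : (![0, 1] : Fin 2 → ℤ) ≠ ![0, -1] := by
    intro h; have := congrFun h 1; simp at this
  rw [wEisLim, tsum_eq_sum (s := {![0, 1], ![0, -1]})]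
  · rw [Finset.sum_pair hne]
    have h1 : charWeight G φ ![0, 1] = 1 := by
      have := charWeight_bot hpar (1 : G)
      rwa [Subgroup.coe_one, bot_one, map_one, inv_one, Units.val_one] at this
    have h2 : charWeight G φ ![0, -1] = 1 := by
      have := charWeight_bot hpar (⟨-1, hneg⟩ : G)
      rw [hpar ⟨-1, hneg⟩ (by simp)] at this
      simpa [bot_neg_one] using this
    rw [h1, h2]
    simp only [cons_val_zero, if_true, cons_val_one, one_mul]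
    have h3 : (((-1 : ℤ) : ℂ)) ^ (-k) = 1 := by
      rw [Int.cast_neg, Int.cast_one]
      exact (hk.neg).neg_one_zpow
    rw [h3]
    norm_num
  · intro v hv
    by_cases hv0 : v 0 = 0
    · by_cases h : ∃ g : G, bot (g : SL(2, ℤ)) = v
      · exfalso
        obtain ⟨g, rfl⟩ := h
        rw [bot_apply] at hv0
        rcases bot_eq_of_c_eq_zero _ hv0 with h | h <;> simp [h] at hv
      · rw [charWeight_of_not v h, zero_mul]
    · rw [if_neg hv0, mul_zero]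

variable (G φ) in
/-- The Eisenstein series of weight `k` with character `φ`. -/
def eisChar (k : ℤ) (z : ℍ) : ℂ := (1 / 2 : ℂ) * wEis (charWeight G φ) k z

lemma eisChar_eq_smul (k : ℤ) : eisChar G φ k = (1 / 2 : ℂ) • wEis (charWeight G φ) k := rfl

theorem eisChar_mdifferentiable (hφ : ∀ g : G, ‖((φ g : ℂˣ) : ℂ)‖ = 1) (hk : 3 ≤ k) :
    MDiff (eisChar G φ k) := by
  rw [eisChar_eq_smul]
  exact (wEis_mdifferentiable (norm_charWeight_le hφ) hk).const_smul _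

theorem eisChar_slash (hpar : ∀ g : G, (g : SL(2, ℤ)) 1 0 = 0 → φ g = 1) (k : ℤ) (γ : G) :
    eisChar G φ k ∣[k] (γ : SL(2, ℤ)) = ((φ γ : ℂˣ) : ℂ) • eisChar G φ k := by
  rw [eisChar_eq_smul, ModularForm.SL_smul_slash, wEis_slash]
  have : (fun v ↦ charWeight G φ (v ᵥ* ↑((γ : SL(2, ℤ))⁻¹))) =
      fun v ↦ ((φ γ : ℂˣ) : ℂ) * charWeight G φ v := by
    ext v; exact charWeight_vecMul_inv hpar γ v
  rw [this]
  ext z
  simp only [Pi.smul_apply, smul_eq_mul, wEis, mul_assoc, tsum_mul_left]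
  ring

theorem isBoundedAtImInfty_eisChar_slash (hφ : ∀ g : G, ‖((φ g : ℂˣ) : ℂ)‖ = 1) (hk : 3 ≤ k)
    (γ : SL(2, ℤ)) : IsBoundedAtImInfty (eisChar G φ k ∣[k] γ) := by
  rw [eisChar_eq_smul, ModularForm.SL_smul_slash]
  exact (isBoundedAtImInfty_wEis_slash (norm_charWeight_le hφ) hk γ).const_smul_left _

theorem tendsto_eisChar_atImInfty (hφ : ∀ g : G, ‖((φ g : ℂˣ) : ℂ)‖ = 1)
    (hpar : ∀ g : G, (g : SL(2, ℤ)) 1 0 = 0 → φ g = 1) (hT : ModularGroup.T ∈ G)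
    (hneg : (-1 : SL(2, ℤ)) ∈ G) (hk : 3 ≤ k) (hk2 : Even k) :
    Tendsto (eisChar G φ k) atImInfty (𝓝 1) := by
  have h := (tendsto_wEis_atImInfty (norm_charWeight_le hφ) hk
    (charWeight_vecMul_T_zpow hpar hT)).const_mul (1 / 2 : ℂ)
  rw [wEisLim_charWeight hpar hneg hk2, show (1 / 2 : ℂ) * 2 = 1 by norm_num] at h
  exact h

theorem eisChar_ne_zero (hφ : ∀ g : G, ‖((φ g : ℂˣ) : ℂ)‖ = 1)
    (hpar : ∀ g : G, (g : SL(2, ℤ)) 1 0 = 0 → φ g = 1) (hT : ModularGroup.T ∈ G)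
    (hneg : (-1 : SL(2, ℤ)) ∈ G) (hk : 3 ≤ k) (hk2 : Even k) : eisChar G φ k ≠ 0 := by
  intro h0
  have h := tendsto_eisChar_atImInfty hφ hpar hT hneg hk hk2
  rw [h0] at h
  have h1 : Tendsto (0 : ℍ → ℂ) atImInfty (𝓝 0) := tendsto_const_nhds
  exact one_ne_zero (tendsto_nhds_unique h h1)

/-! ### Powers: genuine modular forms -/

lemma pow_slash_SL2 (f : ℍ → ℂ) (k : ℤ) (n : ℕ) (A : SL(2, ℤ)) :
    (f ^ n) ∣[k * n] A = (f ∣[k] A) ^ n := by
  induction n with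
  | zero =>
    simp only [Nat.cast_zero, mul_zero, pow_zero]
    exact ModularForm.is_invariant_one A
  | succ n ih =>
    rw [pow_succ, pow_succ, ← ih, ← ModularForm.mul_slash_SL2]
    congr 1
    push_cast; ring

lemma isBoundedAtImInfty_pow {f : ℍ → ℂ} (hf : IsBoundedAtImInfty f) (n : ℕ) :
    IsBoundedAtImInfty (f ^ n) := by
  induction n with
  | zero =>
    rw [pow_zero]
    exact Filter.const_boundedAtFilter _ (1 : ℂ)
  | succ n ih =>
    rw [pow_succ]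
    exact ih.mul hf

lemma norm_eq_one_of_pow (n : ℕ) (hn0 : n ≠ 0) (hn : ∀ g : G, φ g ^ n = 1) (g : G) :
    ‖((φ g : ℂˣ) : ℂ)‖ = 1 := by
  apply Complex.norm_eq_one_of_pow_eq_one (n := n) _ hn0
  rw [← Units.val_pow_eq_pow_val, hn, Units.val_one]

/-- If `φ ^ n = 1`, the `n`-th power of the Eisenstein series with character `φ` is a modular
form of weight `k * n` for `G`. -/
def eisCharPow [G.FiniteIndex] (hpar : ∀ g : G, (g : SL(2, ℤ)) 1 0 = 0 → φ g = 1)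
    (hk : 3 ≤ k) (n : ℕ) (hn0 : n ≠ 0) (hn : ∀ g : G, φ g ^ n = 1) :
    ModularForm (G : Subgroup (GL (Fin 2) ℝ)) (k * n) where
  toFun := eisChar G φ k ^ n
  slash_action_eq' A hA := by
    obtain ⟨A, hA, rfl⟩ := hA
    change (eisChar G φ k ^ n) ∣[k * n] A = _
    rw [pow_slash_SL2, eisChar_slash hpar k ⟨A, hA⟩, smul_pow, ← Units.val_pow_eq_pow_val, hn,
      Units.val_one, one_smul]
  holo' := (eisChar_mdifferentiable (norm_eq_one_of_pow n hn0 hn) hk).pow n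
  bdd_at_cusps' {c} hc := by
    have : Subgroup.IsArithmetic (G : Subgroup (GL (Fin 2) ℝ)) :=
      Subgroup.isArithmetic_iff_finiteIndex.mpr inferInstance
    rw [Subgroup.IsArithmetic.isCusp_iff_isCusp_SL2Z] at hc
    rw [OnePoint.isBoundedAt_iff_forall_SL2Z hc]
    intro γ _
    rw [pow_slash_SL2]
    exact isBoundedAtImInfty_pow
      (isBoundedAtImInfty_eisChar_slash (norm_eq_one_of_pow n hn0 hn) hk γ) n

@[simp] lemma coe_eisCharPow [G.FiniteIndex]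
    (hpar : ∀ g : G, (g : SL(2, ℤ)) 1 0 = 0 → φ g = 1)
    (hk : 3 ≤ k) (n : ℕ) (hn0 : n ≠ 0) (hn : ∀ g : G, φ g ^ n = 1) :
    (eisCharPow hpar hk n hn0 hn : ℍ → ℂ) = eisChar G φ k ^ n := rfl

/-! ### Pointwise transformation laws and the quotient `E_φ / E_1` -/

theorem eisChar_smul (hpar : ∀ g : G, (g : SL(2, ℤ)) 1 0 = 0 → φ g = 1) (k : ℤ) (γ : G) (z : ℍ) :
    eisChar G φ k ((γ : SL(2, ℤ)) • z) =
      ((φ γ : ℂˣ) : ℂ) * denom (γ : SL(2, ℤ)) z ^ k * eisChar G φ k z := by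
  have h := congrFun (eisChar_slash hpar k γ) z
  rw [SL_slash_apply, Pi.smul_apply, smul_eq_mul, _root_.zpow_neg,
    mul_inv_eq_iff_eq_mul₀ (zpow_ne_zero _ <| denom_ne_zero _ z)] at h
  rw [h]; ring

variable (G φ) in
/-- The quotient `E_φ / E_1`: a meromorphic function on `ℍ` transforming by the character `φ`. -/
def charQuot (k : ℤ) (z : ℍ) : ℂ := eisChar G φ k z / eisChar G (1 : G →* ℂˣ) k z

theorem charQuot_smul (hpar : ∀ g : G, (g : SL(2, ℤ)) 1 0 = 0 → φ g = 1) (k : ℤ) (γ : G) (z : ℍ) :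
    charQuot G φ k ((γ : SL(2, ℤ)) • z) = ((φ γ : ℂˣ) : ℂ) * charQuot G φ k z := by
  rw [charQuot, charQuot, eisChar_smul hpar, eisChar_smul (φ := (1 : G →* ℂˣ)) (fun _ _ ↦ rfl)]
  simp only [MonoidHom.one_apply, Units.val_one, one_mul]
  have hd : denom (γ : SL(2, ℤ)) z ^ k ≠ 0 := zpow_ne_zero _ <| denom_ne_zero _ z
  by_cases h0 : eisChar G (1 : G →* ℂˣ) k z = 0
  · simp [h0]
  · field_simp

theorem tendsto_charQuot_atImInfty (hφ : ∀ g : G, ‖((φ g : ℂˣ) : ℂ)‖ = 1)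
    (hpar : ∀ g : G, (g : SL(2, ℤ)) 1 0 = 0 → φ g = 1) (hT : ModularGroup.T ∈ G)
    (hneg : (-1 : SL(2, ℤ)) ∈ G) (hk : 3 ≤ k) (hk2 : Even k) :
    Tendsto (charQuot G φ k) atImInfty (𝓝 1) := by
  have h1 := tendsto_eisChar_atImInfty hφ hpar hT hneg hk hk2
  have h2 := tendsto_eisChar_atImInfty (φ := (1 : G →* ℂˣ)) (fun _ ↦ by simp) (fun _ _ ↦ rfl)
    hT hneg hk hk2
  have h3 := h1.div h2 one_ne_zero
  rw [div_one] at h3
  exact h3

/-- `(E_φ / E_1) ^ n` is the quotient of two modular forms of weight `k * n` on `G`. -/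
theorem charQuot_pow_eq [G.FiniteIndex] (hpar : ∀ g : G, (g : SL(2, ℤ)) 1 0 = 0 → φ g = 1)
    (hk : 3 ≤ k) (n : ℕ) (hn0 : n ≠ 0) (hn : ∀ g : G, φ g ^ n = 1) (z : ℍ) :
    charQuot G φ k z ^ n = eisCharPow hpar hk n hn0 hn z /
      eisCharPow (φ := (1 : G →* ℂˣ)) (fun _ _ ↦ rfl) hk n hn0 (fun _ ↦ by simp) z := by
  rw [charQuot, div_pow]
  rfl

/-! ### The case `G = Γ₀(N)` -/

lemma T_mem_Gamma0 (N : ℕ) : ModularGroup.T ∈ Gamma0 N := by
  rw [Gamma0_mem, ModularGroup.coe_T]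
  simp

lemma neg_one_mem_Gamma0 (N : ℕ) : (-1 : SL(2, ℤ)) ∈ Gamma0 N := by
  simp [Gamma0_mem]

end Fermat.Agent.Lib.EisensteinChar
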