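/-
Additive equivalence on the points of a Weierstrass curve induced by a change of variables.
(Task FrobCH-N15; helper196.)  Mathlib only.
-/
import Mathlib

set_option autoImplicit false

namespace Fermat.Agent.Lib.VarChange

open WeierstrassCurve WeierstrassCurve.Affine

noncomputable section

section Formulas

variable {F : Type*} [Field F]

/-- new `x`-coordinate -/
def vcX (C : VariableChange F) (x : F) : F := ((C.u⁻¹ : Fˣ) : F) ^ 2 * (x - C.r)

/-- new `y`-coordinate -/
def vcY (C : VariableChange F) (x y : F) : F :=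
  ((C.u⁻¹ : Fˣ) : F) ^ 3 * (y - C.s * (x - C.r) - C.t)

theorem vc_u_ne_zero (C : VariableChange F) : ((C.u⁻¹ : Fˣ) : F) ≠ 0 := Units.ne_zero _

theorem vcX_injective (C : VariableChange F) : Function.Injective (vcX C) := by
  intro x x' h
  have hv := vc_u_ne_zero C
  have := mul_left_cancel₀ (pow_ne_zero 2 hv) h
  exact sub_left_injective this

theorem vcY_injective (C : VariableChange F) (x : F) : Function.Injective (vcY C x) := by
  intro y y' h
  have hv := vc_u_ne_zero C
  have := mul_left_cancel₀ (pow_ne_zero 3 hv) h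
  linear_combination this

theorem vc_equation_iff (C : VariableChange F) (W : WeierstrassCurve F) (x y : F) :
    (C • W).toAffine.Equation (vcX C x) (vcY C x y) ↔ W.toAffine.Equation x y := by
  have hv := vc_u_ne_zero C
  rw [equation_iff', equation_iff']
  simp only [variableChange_a₁, variableChange_a₂, variableChange_a₃, variableChange_a₄,
    variableChange_a₆, vcX, vcY]
  generalize ((C.u⁻¹ : Fˣ) : F) = v at hv
  have key : (v ^ 3 * (y - C.s * (x - C.r) - C.t)) ^ 2
      + v * (W.a₁ + 2 * C.s) * (v ^ 2 * (x - C.r)) * (v ^ 3 * (y - C.s * (x - C.r) - C.t))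
      + v ^ 3 * (W.a₃ + C.r * W.a₁ + 2 * C.t) * (v ^ 3 * (y - C.s * (x - C.r) - C.t))
      - ((v ^ 2 * (x - C.r)) ^ 3
        + v ^ 2 * (W.a₂ - C.s * W.a₁ + 3 * C.r - C.s ^ 2) * (v ^ 2 * (x - C.r)) ^ 2
        + v ^ 4 * (W.a₄ - C.s * W.a₃ + 2 * C.r * W.a₂ - (C.t + C.r * C.s) * W.a₁ + 3 * C.r ^ 2
            - 2 * C.s * C.t) * (v ^ 2 * (x - C.r))
        + v ^ 6 * (W.a₆ + C.r * W.a₄ + C.r ^ 2 * W.a₂ + C.r ^ 3 - C.t * W.a₃ - C.t ^ 2
            - C.r * C.t * W.a₁))
      = v ^ 6 * (y ^ 2 + W.a₁ * x * y + W.a₃ * y - (x ^ 3 + W.a₂ * x ^ 2 + W.a₄ * x + W.a₆)) := by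
    ring
  rw [key, mul_eq_zero, or_iff_right (pow_ne_zero 6 hv)]

theorem vc_nonsingular_iff (C : VariableChange F) (W : WeierstrassCurve F) (x y : F) :
    (C • W).toAffine.Nonsingular (vcX C x) (vcY C x y) ↔ W.toAffine.Nonsingular x y := by
  have hv := vc_u_ne_zero C
  rw [nonsingular_iff', nonsingular_iff', vc_equation_iff]
  refine and_congr_right fun _ => ?_
  simp only [variableChange_a₁, variableChange_a₂, variableChange_a₃, variableChange_a₄, vcX, vcY]
  generalize ((C.u⁻¹ : Fˣ) : F) = v at hv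
  have kY : 2 * (v ^ 3 * (y - C.s * (x - C.r) - C.t)) + v * (W.a₁ + 2 * C.s) * (v ^ 2 * (x - C.r))
      + v ^ 3 * (W.a₃ + C.r * W.a₁ + 2 * C.t) = v ^ 3 * (2 * y + W.a₁ * x + W.a₃) := by ring
  have kX : v * (W.a₁ + 2 * C.s) * (v ^ 3 * (y - C.s * (x - C.r) - C.t))
      - (3 * (v ^ 2 * (x - C.r)) ^ 2
        + 2 * (v ^ 2 * (W.a₂ - C.s * W.a₁ + 3 * C.r - C.s ^ 2)) * (v ^ 2 * (x - C.r))
        + v ^ 4 * (W.a₄ - C.s * W.a₃ + 2 * C.r * W.a₂ - (C.t + C.r * C.s) * W.a₁ + 3 * C.r ^ 2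
            - 2 * C.s * C.t))
      = v ^ 4 * ((W.a₁ * y - (3 * x ^ 2 + 2 * W.a₂ * x + W.a₄))
          + C.s * (2 * y + W.a₁ * x + W.a₃)) := by ring
  rw [kX, kY]
  have h3 := pow_ne_zero 3 hv
  have h4 := pow_ne_zero 4 hv
  simp only [ne_eq, mul_eq_zero, h3, h4, false_or]
  by_cases hY : 2 * y + W.a₁ * x + W.a₃ = 0
  · simp [hY]
  · simp [hY]

theorem vc_negY (C : VariableChange F) (W : WeierstrassCurve F) (x y : F) :
    (C • W).toAffine.negY (vcX C x) (vcY C x y) = vcY C x (W.toAffine.negY x y) := by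
  simp only [negY, variableChange_a₁, variableChange_a₃, vcX, vcY]
  ring

theorem vc_addX (C : VariableChange F) (W : WeierstrassCurve F) (x₁ x₂ l : F) :
    (C • W).toAffine.addX (vcX C x₁) (vcX C x₂) (((C.u⁻¹ : Fˣ) : F) * (l - C.s))
      = vcX C (W.toAffine.addX x₁ x₂ l) := by
  simp only [addX, variableChange_a₁, variableChange_a₂, vcX]
  ring

theorem vc_negAddY (C : VariableChange F) (W : WeierstrassCurve F) (x₁ x₂ y₁ l : F) :
    (C • W).toAffine.negAddY (vcX C x₁) (vcX C x₂) (vcY C x₁ y₁) (((C.u⁻¹ : Fˣ) : F) * (l - C.s))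
      = vcY C (W.toAffine.addX x₁ x₂ l) (W.toAffine.negAddY x₁ x₂ y₁ l) := by
  rw [negAddY, vc_addX, negAddY]
  simp only [vcX, vcY]
  ring

theorem vc_addY (C : VariableChange F) (W : WeierstrassCurve F) (x₁ x₂ y₁ l : F) :
    (C • W).toAffine.addY (vcX C x₁) (vcX C x₂) (vcY C x₁ y₁) (((C.u⁻¹ : Fˣ) : F) * (l - C.s))
      = vcY C (W.toAffine.addX x₁ x₂ l) (W.toAffine.addY x₁ x₂ y₁ l) := by
  rw [addY, vc_negAddY, vc_addX, vc_negY, addY]

theorem vc_slope [DecidableEq F] (C : VariableChange F) (W : WeierstrassCurve F)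
    {x₁ x₂ y₁ y₂ : F} (h₁ : W.toAffine.Equation x₁ y₁) (h₂ : W.toAffine.Equation x₂ y₂)
    (hxy : ¬(x₁ = x₂ ∧ y₁ = W.toAffine.negY x₂ y₂)) :
    (C • W).toAffine.slope (vcX C x₁) (vcX C x₂) (vcY C x₁ y₁) (vcY C x₂ y₂)
      = ((C.u⁻¹ : Fˣ) : F) * (W.toAffine.slope x₁ x₂ y₁ y₂ - C.s) := by
  have hv := vc_u_ne_zero C
  by_cases hx : x₁ = x₂
  · subst hx
    have hy : y₁ ≠ W.toAffine.negY x₁ y₂ := fun h => hxy ⟨rfl, h⟩
    have hyy : y₁ = y₂ := Y_eq_of_Y_ne h₁ h₂ rfl hy
    subst hyy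
    have hy' : vcY C x₁ y₁ ≠ (C • W).toAffine.negY (vcX C x₁) (vcY C x₁ y₁) := by
      rw [vc_negY]
      exact fun h => hy (vcY_injective C x₁ h)
    rw [slope_of_Y_ne rfl hy, slope_of_Y_ne rfl hy', vc_negY]
    have hden : y₁ - W.toAffine.negY x₁ y₁ ≠ 0 := sub_ne_zero.mpr hy
    have hden' : vcY C x₁ y₁ - vcY C x₁ (W.toAffine.negY x₁ y₁)
        = ((C.u⁻¹ : Fˣ) : F) ^ 3 * (y₁ - W.toAffine.negY x₁ y₁) := by
      simp only [vcY]; ring
    rw [hden']
    have hnum : 3 * vcX C x₁ ^ 2 + 2 * (C • W).toAffine.a₂ * vcX C x₁ + (C • W).toAffine.a₄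
          - (C • W).toAffine.a₁ * vcY C x₁ y₁
        = ((C.u⁻¹ : Fˣ) : F) ^ 4 * ((3 * x₁ ^ 2 + 2 * W.toAffine.a₂ * x₁ + W.toAffine.a₄
            - W.toAffine.a₁ * y₁) - C.s * (y₁ - W.toAffine.negY x₁ y₁)) := by
      simp only [variableChange_a₁, variableChange_a₂, variableChange_a₄, vcX, vcY, negY]
      ring
    rw [hnum]
    generalize y₁ - W.toAffine.negY x₁ y₁ = D at hden
    generalize ((C.u⁻¹ : Fˣ) : F) = v at hv
    field_simp
  · have hx' : vcX C x₁ ≠ vcX C x₂ := fun h => hx (vcX_injective C h)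
    rw [slope_of_X_ne hx, slope_of_X_ne hx']
    have h12 : x₁ - x₂ ≠ 0 := sub_ne_zero.mpr hx
    have hden' : vcX C x₁ - vcX C x₂ = ((C.u⁻¹ : Fˣ) : F) ^ 2 * (x₁ - x₂) := by
      simp only [vcX]; ring
    have hnum : vcY C x₁ y₁ - vcY C x₂ y₂
        = ((C.u⁻¹ : Fˣ) : F) ^ 3 * ((y₁ - y₂) - C.s * (x₁ - x₂)) := by
      simp only [vcY]; ring
    rw [hden', hnum]
    generalize x₁ - x₂ = D at h12
    generalize ((C.u⁻¹ : Fˣ) : F) = v at hv
    field_simp

end Formulas

section Points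

variable {F : Type*} [Field F] [DecidableEq F]

/-- the map on points induced by a change of variables -/
def pointFun (C : VariableChange F) (W : WeierstrassCurve F) :
    W.toAffine.Point → (C • W).toAffine.Point
  | .zero => .zero
  | .some x y h => .some (vcX C x) (vcY C x y) ((vc_nonsingular_iff C W x y).mpr h)

/-- the additive map on points induced by a change of variables -/
def pointHom (C : VariableChange F) (W : WeierstrassCurve F) :
    W.toAffine.Point →+ (C • W).toAffine.Point where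
  toFun := pointFun C W
  map_zero' := rfl
  map_add' := by
    rintro (_ | ⟨x₁, y₁, h₁⟩) (_ | ⟨x₂, y₂, h₂⟩)
    any_goals rfl
    by_cases hxy : x₁ = x₂ ∧ y₁ = W.toAffine.negY x₂ y₂
    · rw [Point.add_of_Y_eq hxy.1 hxy.2]
      have h' : vcY C x₁ y₁ = (C • W).toAffine.negY (vcX C x₂) (vcY C x₂ y₂) := by
        rw [vc_negY, hxy.2, hxy.1]
      exact (Point.add_of_Y_eq (congrArg _ hxy.1) h').symm
    · rw [Point.add_some hxy]
      have hxy' : ¬(vcX C x₁ = vcX C x₂ ∧
          vcY C x₁ y₁ = (C • W).toAffine.negY (vcX C x₂) (vcY C x₂ y₂)) := by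
        rintro ⟨hx, hy⟩
        have hx' := vcX_injective C hx
        subst hx'
        rw [vc_negY] at hy
        exact hxy ⟨rfl, vcY_injective C _ hy⟩
      refine Eq.trans ?_ (Point.add_some hxy').symm
      show Point.some _ _ _ = Point.some _ _ _
      simp only [Point.some.injEq]
      rw [vc_slope C W h₁.1 h₂.1 hxy, vc_addX, vc_addY]
      exact ⟨rfl, rfl⟩

theorem pointHom_some (C : VariableChange F) (W : WeierstrassCurve F) {x y : F}
    (h : W.toAffine.Nonsingular x y) :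
    pointHom C W (.some x y h)
      = .some (vcX C x) (vcY C x y) ((vc_nonsingular_iff C W x y).mpr h) := rfl

theorem pointHom_bijective (C : VariableChange F) (W : WeierstrassCurve F) :
    Function.Bijective (pointHom C W) := by
  constructor
  · rintro (_ | ⟨x₁, y₁, h₁⟩) (_ | ⟨x₂, y₂, h₂⟩) h
    · rfl
    · exact absurd h (by rw [pointHom_some]; exact fun h => by cases h)
    · exact absurd h (by rw [pointHom_some]; exact fun h => by cases h)
    · rw [pointHom_some, pointHom_some, Point.some.injEq] at h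
      have hx := vcX_injective C h.1
      subst hx
      have hy := vcY_injective C _ h.2
      subst hy
      rfl
  · rintro (_ | ⟨x', y', h'⟩)
    · exact ⟨0, rfl⟩
    · have huv : (C.u : F) * ((C.u⁻¹ : Fˣ) : F) = 1 := by
        rw [← Units.val_mul, mul_inv_cancel, Units.val_one]
      set x : F := (C.u : F) ^ 2 * x' + C.r with hx
      set y : F := (C.u : F) ^ 3 * y' + C.s * ((C.u : F) ^ 2 * x') + C.t with hy
      have hX : vcX C x = x' := by
        simp only [vcX, hx]
        linear_combination (x' * ((C.u : F) * ((C.u⁻¹ : Fˣ) : F) + 1)) * huv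
      have hY : vcY C x y = y' := by
        simp only [vcY, hx, hy]
        linear_combination (y' * (((C.u : F) * ((C.u⁻¹ : Fˣ) : F)) ^ 2
          + (C.u : F) * ((C.u⁻¹ : Fˣ) : F) + 1)) * huv
      have hns : W.toAffine.Nonsingular x y := by
        rw [← vc_nonsingular_iff C W, hX, hY]
        exact h'
      refine ⟨.some x y hns, ?_⟩
      rw [pointHom_some, Point.some.injEq]
      exact ⟨hX, hY⟩

/-- the additive equivalence on points induced by a change of variables -/
def pointEquiv (C : VariableChange F) (W W' : WeierstrassCurve F) (h : C • W = W') :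
    W.toAffine.Point ≃+ W'.toAffine.Point :=
  h ▸ AddEquiv.ofBijective (pointHom C W) (pointHom_bijective C W)

theorem pointEquiv_some (C : VariableChange F) (W W' : WeierstrassCurve F) (h : C • W = W')
    {x y : F} (hxy : W.toAffine.Nonsingular x y) :
    ∃ hxy', pointEquiv C W W' h (.some x y hxy) =
      .some ((C.u⁻¹ : Fˣ) ^ 2 * (x - C.r))
        ((C.u⁻¹ : Fˣ) ^ 3 * (y - C.s * (x - C.r) - C.t)) hxy' := by
  subst h
  exact ⟨(vc_nonsingular_iff C W x y).mpr hxy, rfl⟩

theorem pointEquiv_zero (C : VariableChange F) (W W' : WeierstrassCurve F) (h : C • W = W') :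
    pointEquiv C W W' h 0 = 0 := map_zero _

end Points

theorem map_pointEquiv {k : Type*} [Field k] (C : VariableChange k) (W W' : WeierstrassCurve k)
    (h : C • W = W') {K K' : Type*} [Field K] [DecidableEq K] [Algebra k K] [Field K']
    [DecidableEq K'] [Algebra k K'] (f : K →ₐ[k] K')
    (hK : C.baseChange K • (W⁄K) = (W'⁄K)) (hK' : C.baseChange K' • (W⁄K') = (W'⁄K'))
    (P : (W⁄K).Point) :
    Point.map (W' := W') f (pointEquiv (C.baseChange K) (W⁄K) (W'⁄K) hK P) =
      pointEquiv (C.baseChange K') (W⁄K') (W'⁄K') hK' (Point.map (W' := W) f P) := by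
  rcases P with _ | ⟨x, y, hxy⟩
  · have e1 : pointEquiv (C.baseChange K) (W⁄K) (W'⁄K) hK Point.zero = 0 := map_zero _
    have e2 : Point.map (W' := W) f (Point.zero : (W⁄K).Point) = 0 := rfl
    rw [e1, e2, map_zero, map_zero]
  · obtain ⟨h1, e1⟩ := pointEquiv_some (C.baseChange K) (W⁄K) (W'⁄K) hK hxy
    rw [e1, Point.map_some, Point.map_some]
    obtain ⟨h2, e2⟩ := pointEquiv_some (C.baseChange K') (W⁄K') (W'⁄K') hK'
      ((WeierstrassCurve.Affine.baseChange_nonsingular W f.injective ..).mpr hxy)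
    rw [e2, Point.some.injEq]
    simp [VariableChange.baseChange, VariableChange.map]

end

end Fermat.Agent.Lib.VarChange
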