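import Mathlib
import Fermat.Prelude.Def_GaloisRep_CompletionBridge
import Fermat.Prelude.Def_EllipticCurve_FrobeniusTrace

set_option autoImplicit false

namespace Fermat.Agent.Lib.FrobeniusPadic

open scoped NNReal Pointwise

variable (q : ℕ) [Fact q.Prime]

/-- The Galois action on the ring of integers of the algebraic closure of `ℚ_[q]`. -/
@[instance_reducible]
noncomputable def actB :
    MulSemiringAction (PadicAlgCl q ≃ₐ[ℚ_[q]] PadicAlgCl q) (padicIntegers q) where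
  smul τ x := ⟨τ x.1, by
    rw [mem_padicIntegers_iff, nnnorm_padicAlgCl_algEquiv]
    exact (mem_padicIntegers_iff q).1 x.2⟩
  one_smul x := Subtype.ext rfl
  mul_smul σ τ x := Subtype.ext rfl
  smul_zero τ := Subtype.ext (map_zero τ)
  smul_add τ x y := Subtype.ext (map_add τ x.1 y.1)
  smul_one τ := Subtype.ext (map_one τ)
  smul_mul τ x y := Subtype.ext (map_mul τ x.1 y.1)

/-- The structure map `ℤ_[q] → padicIntegers q`. -/
noncomputable def toB : ℤ_[q] →+* padicIntegers q where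
  toFun a := ⟨algebraMap ℚ_[q] (PadicAlgCl q) a.1, by
    rw [mem_padicIntegers_iff]
    have h : ‖algebraMap ℚ_[q] (PadicAlgCl q) a.1‖ = ‖a.1‖ := PadicAlgCl.norm_extends q a.1
    have h2 : ‖a.1‖ ≤ 1 := a.2
    exact_mod_cast (h.trans_le h2)⟩
  map_one' := Subtype.ext (map_one _)
  map_mul' a b := Subtype.ext (map_mul _ _ _)
  map_zero' := Subtype.ext (map_zero _)
  map_add' a b := Subtype.ext (map_add _ _ _)

lemma mem_maxB_iff (x : padicIntegers q) :
    x ∈ IsLocalRing.maximalIdeal (padicIntegers q) ↔ ‖x.1‖₊ < 1 :=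
  Valuation.mem_maximalIdeal_iff _ _

lemma toB_mem_maxB_iff (a : ℤ_[q]) :
    toB q a ∈ IsLocalRing.maximalIdeal (padicIntegers q) ↔ a ∈ IsLocalRing.maximalIdeal ℤ_[q] := by
  rw [mem_maxB_iff, IsLocalRing.mem_maximalIdeal, PadicInt.mem_nonunits]
  have h : ‖algebraMap ℚ_[q] (PadicAlgCl q) a.1‖ = ‖a.1‖ := PadicAlgCl.norm_extends q a.1
  change ‖algebraMap ℚ_[q] (PadicAlgCl q) a.1‖₊ < 1 ↔ ‖a.1‖ < 1
  rw [← h, ← NNReal.coe_lt_coe]
  simp

theorem exists_local_frobenius :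
    ∃ τ : PadicAlgCl q ≃ₐ[ℚ_[q]] PadicAlgCl q, ∀ x : PadicAlgCl q, ‖x‖₊ ≤ 1 →
      ‖τ x - x ^ q‖₊ < 1 := by
  classical
  let _ := actB q
  let _ : Algebra ℤ_[q] (padicIntegers q) := (toB q).toAlgebra
  let _ : TopologicalSpace (padicIntegers q) := ⊥
  have : DiscreteTopology (padicIntegers q) := ⟨rfl⟩
  have : SMulCommClass (PadicAlgCl q ≃ₐ[ℚ_[q]] PadicAlgCl q) ℤ_[q] (padicIntegers q) := by
    refine ⟨fun τ a x => Subtype.ext ?_⟩
    change τ (algebraMap ℚ_[q] (PadicAlgCl q) a.1 * x.1) =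
      algebraMap ℚ_[q] (PadicAlgCl q) a.1 * τ x.1
    rw [map_mul, AlgEquiv.commutes]
  have : IsGalois ℚ_[q] (PadicAlgCl q) := inferInstance
  have : ContinuousSMul (PadicAlgCl q ≃ₐ[ℚ_[q]] PadicAlgCl q) (padicIntegers q) := by
    rw [continuousSMul_iff_stabilizer_isOpen]
    intro x
    convert stabilizer_isOpen_of_isIntegral (K := ℚ_[q]) (L := PadicAlgCl q) x.1 using 1
    ext τ
    simp only [SetLike.mem_coe, MulAction.mem_stabilizer_iff]
    exact Subtype.ext_iff
  have : (IsLocalRing.maximalIdeal (padicIntegers q)).LiesOver (IsLocalRing.maximalIdeal ℤ_[q]) := by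
    refine ⟨Ideal.ext fun a => ?_⟩
    exact (toB_mem_maxB_iff q a).symm
  have : Algebra.IsInvariant ℤ_[q] (padicIntegers q) (PadicAlgCl q ≃ₐ[ℚ_[q]] PadicAlgCl q) := by
    refine ⟨fun b hb => ?_⟩
    have h1 : b.1 ∈ Set.range (algebraMap ℚ_[q] (PadicAlgCl q)) := by
      rw [InfiniteGalois.mem_range_algebraMap_iff_fixed]
      intro f
      exact congrArg Subtype.val (hb f)
    obtain ⟨a, ha⟩ := h1
    have h : ‖algebraMap ℚ_[q] (PadicAlgCl q) a‖ = ‖a‖ := PadicAlgCl.norm_extends q a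
    have hb2 : ‖b.1‖₊ ≤ 1 := (mem_padicIntegers_iff q).1 b.2
    refine ⟨⟨a, ?_⟩, Subtype.ext ha⟩
    rw [← h, ha]
    exact_mod_cast hb2
  have key := Ideal.Quotient.stabilizerHom_surjective_of_profinite
    (G := PadicAlgCl q ≃ₐ[ℚ_[q]] PadicAlgCl q)
    (IsLocalRing.maximalIdeal ℤ_[q]) (IsLocalRing.maximalIdeal (padicIntegers q))
  have hq : q.Prime := Fact.out
  have hqB : (q : padicIntegers q) ∈ IsLocalRing.maximalIdeal (padicIntegers q) := by
    rw [mem_maxB_iff]
    have h1 : ((q : padicIntegers q) : PadicAlgCl q) = (q : PadicAlgCl q) := by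
      push_cast; rfl
    rw [h1]
    have h2 := PadicAlgCl.valuation_p q
    rw [PadicAlgCl.valuation_def] at h2
    rw [h2, one_div]
    apply inv_lt_one_of_one_lt₀
    exact_mod_cast hq.one_lt
  have : CharP (padicIntegers q ⧸ IsLocalRing.maximalIdeal (padicIntegers q)) q := by
    rw [CharP.charP_iff_prime_eq_zero hq]
    rw [← map_natCast (Ideal.Quotient.mk (IsLocalRing.maximalIdeal (padicIntegers q)))]
    exact Ideal.Quotient.eq_zero_iff_mem.2 hqB
  let F₀ : (padicIntegers q ⧸ IsLocalRing.maximalIdeal (padicIntegers q)) →ₐ[ℤ_[q] ⧸ IsLocalRing.maximalIdeal ℤ_[q]]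
      (padicIntegers q ⧸ IsLocalRing.maximalIdeal (padicIntegers q)) :=
    { frobenius (padicIntegers q ⧸ IsLocalRing.maximalIdeal (padicIntegers q)) q with
      commutes' := by
        intro r
        obtain ⟨a, rfl⟩ := Ideal.Quotient.mk_surjective r
        change (Ideal.Quotient.mk (IsLocalRing.maximalIdeal (padicIntegers q)) (toB q a)) ^ q =
          Ideal.Quotient.mk (IsLocalRing.maximalIdeal (padicIntegers q)) (toB q a)
        rw [← map_pow, ← map_pow, Ideal.Quotient.eq, ← map_sub, toB_mem_maxB_iff,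
          ← PadicInt.ker_toZMod, RingHom.mem_ker, map_sub, map_pow, ZMod.pow_card, sub_self] }
  have hF₀ : Function.Bijective F₀ := by
    constructor
    · exact frobenius_inj (padicIntegers q ⧸ IsLocalRing.maximalIdeal (padicIntegers q)) q
    · intro y
      obtain ⟨b, rfl⟩ := Ideal.Quotient.mk_surjective y
      obtain ⟨c, hc⟩ := IsAlgClosed.exists_pow_nat_eq b.1 hq.pos
      have hb2 : ‖b.1‖₊ ≤ 1 := (mem_padicIntegers_iff q).1 b.2
      have hc2 : ‖c‖₊ ≤ 1 := by
        rw [← hc, nnnorm_pow] at hb2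
        exact (pow_le_one_iff hq.ne_zero).1 hb2
      refine ⟨Ideal.Quotient.mk _ (⟨c, hc2⟩ : padicIntegers q), ?_⟩
      change (Ideal.Quotient.mk (IsLocalRing.maximalIdeal (padicIntegers q))
        (⟨c, hc2⟩ : padicIntegers q)) ^ q = _
      rw [← map_pow]
      congr 1
      exact Subtype.ext hc
  obtain ⟨τ, hτ⟩ := key (AlgEquiv.ofBijective F₀ hF₀)
  refine ⟨τ.1, fun x hx => ?_⟩
  have h3 := DFunLike.congr_fun hτ (Ideal.Quotient.mk _ (⟨x, hx⟩ : padicIntegers q))
  change Ideal.Quotient.mk (IsLocalRing.maximalIdeal (padicIntegers q))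
      (τ.1 • (⟨x, hx⟩ : padicIntegers q)) =
    (Ideal.Quotient.mk (IsLocalRing.maximalIdeal (padicIntegers q))
      (⟨x, hx⟩ : padicIntegers q)) ^ q at h3
  rw [← map_pow, Ideal.Quotient.eq, mem_maxB_iff] at h3
  exact h3

lemma mem_nonunits_padicPlace_iff (x : AlgebraicClosure ℚ) :
    x ∈ (padicPlace q).nonunits ↔ ‖padicEmbedding q x‖₊ < 1 := by
  rw [ValuationSubring.mem_nonunits_iff_or, mem_padicPlace_iff, map_inv₀, nnnorm_inv]
  by_cases hx : x = 0
  · simp [hx]
  · have h0 : ‖padicEmbedding q x‖₊ ≠ 0 := by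
      rw [nnnorm_ne_zero_iff]
      exact (map_ne_zero _).2 hx
    simp only [hx, false_or, not_le]
    exact one_lt_inv₀ (pos_iff_ne_zero.2 h0)

theorem padicPlace_liesOverPrime : (padicPlace q).LiesOverPrime q := by
  have hq : q.Prime := Fact.out
  change (q : AlgebraicClosure ℚ) ∈ (padicPlace q).nonunits
  rw [mem_nonunits_padicPlace_iff, map_natCast]
  have h2 := PadicAlgCl.valuation_p q
  rw [PadicAlgCl.valuation_def] at h2
  rw [h2, one_div]
  apply inv_lt_one_of_one_lt₀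
  exact_mod_cast hq.one_lt

theorem exists_isFrobeniusAt_padicPlace :
    ∃ σ : AlgebraicClosure ℚ ≃ₐ[ℚ] AlgebraicClosure ℚ, (padicPlace q).IsFrobeniusAt σ q := by
  obtain ⟨τ, hτ⟩ := exists_local_frobenius q
  refine ⟨localGaloisToGlobal q τ, localGaloisToGlobal_mem_decompositionSubgroup q τ, fun x => ?_⟩
  obtain ⟨a, rfl⟩ := IsLocalRing.residue_surjective x
  rw [← IsLocalRing.ResidueField.residue_smul, ← map_pow]
  change Ideal.Quotient.mk _ _ = Ideal.Quotient.mk _ _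
  rw [Ideal.Quotient.eq, ← ValuationSubring.coe_mem_nonunits_iff, mem_nonunits_padicPlace_iff]
  have h1 := hτ (padicEmbedding q a.1) ((mem_padicPlace_iff q).1 a.2)
  rw [← padicEmbedding_localGaloisToGlobal, ← map_pow, ← map_sub] at h1
  exact h1

/-- Existence of Frobenius elements in the absolute Galois group of `ℚ`. -/
theorem exists_frobenius {ℓ : ℕ} (hℓ : ℓ.Prime) :
    ∃ (A : ValuationSubring (AlgebraicClosure ℚ))
      (σ : AlgebraicClosure ℚ ≃ₐ[ℚ] AlgebraicClosure ℚ),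
      A.LiesOverPrime ℓ ∧ A.IsFrobeniusAt σ ℓ := by
  have : Fact ℓ.Prime := ⟨hℓ⟩
  obtain ⟨σ, hσ⟩ := exists_isFrobeniusAt_padicPlace ℓ
  exact ⟨padicPlace ℓ, σ, padicPlace_liesOverPrime ℓ, hσ⟩

end Fermat.Agent.Lib.FrobeniusPadic
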