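import Mathlib
import Fermat.Agent.Lib.Gamma0Count

set_option autoImplicit false

open CongruenceSubgroup Matrix.SpecialLinearGroup
open scoped MatrixGroups

namespace Fermat.Agent.Lib.Gamma0Count

variable {N : ℕ}

/-- The set of `⟨T⟩`-orbits on `SL(2,ℤ) ⧸ Γ₀(N)` (the cusps of `Γ₀(N)`). -/
abbrev TOrbits (N : ℕ) : Type :=
  MulAction.orbitRel.Quotient (Subgroup.zpowers ModularGroup.T) (SL(2, ℤ) ⧸ Gamma0 N)

/-- the orbit of the coset of `g`. -/
def orbMk (N : ℕ) (g : SL(2, ℤ)) : TOrbits N :=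
  Quotient.mk'' (QuotientGroup.mk g : SL(2, ℤ) ⧸ Gamma0 N)

theorem orbMk_surjective : Function.Surjective (orbMk N) := by
  intro x
  induction x using Quotient.inductionOn' with
  | h q =>
    induction q using QuotientGroup.induction_on with
    | H g => exact ⟨g, rfl⟩

theorem orbMk_eq_iff (g h : SL(2, ℤ)) :
    orbMk N g = orbMk N h ↔
      ∃ k : ℤ, (N : ℤ) ∣ (h 0 0 + k * h 1 0) * g 1 0 - h 1 0 * g 0 0 := by
  rw [orbMk, orbMk, Quotient.eq'', MulAction.orbitRel_apply, MulAction.mem_orbit_iff]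
  constructor
  · rintro ⟨⟨t, ht⟩, hx⟩
    obtain ⟨k, rfl⟩ := Subgroup.mem_zpowers_iff.mp ht
    refine ⟨k, ?_⟩
    change (ModularGroup.T ^ k) • (QuotientGroup.mk h : SL(2, ℤ) ⧸ Gamma0 N) = _ at hx
    rw [smul_mk, mk_eq_mk_iff, (T_zpow_mul_col k h).1, (T_zpow_mul_col k h).2] at hx
    exact hx
  · rintro ⟨k, hk⟩
    refine ⟨⟨ModularGroup.T ^ k, Subgroup.zpow_mem_zpowers _ k⟩, ?_⟩
    change (ModularGroup.T ^ k) • (QuotientGroup.mk h : SL(2, ℤ) ⧸ Gamma0 N) = _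
    rw [smul_mk, mk_eq_mk_iff, (T_zpow_mul_col k h).1, (T_zpow_mul_col k h).2]
    exact hk


/-- arithmetic core of injectivity. -/
theorem arith_inj {d d' : ℕ} (hd : d ∣ N) (hd' : d' ∣ N) (hN : N ≠ 0) {a a' k : ℤ}
    (ha : IsCoprime a (d : ℤ)) (ha' : IsCoprime a' (d' : ℤ))
    (h : (N : ℤ) ∣ (a' + k * d') * d - d' * a) :
    d = d' ∧ ((Nat.gcd d (N / d) : ℕ) : ℤ) ∣ a - a' := by
  have hdZ : (d : ℤ) ∣ N := by exact_mod_cast hd
  have hdZ' : (d' : ℤ) ∣ N := by exact_mod_cast hd'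
  have h1 : (d : ℤ) ∣ d' := by
    have : (d : ℤ) ∣ d' * a := by
      have h2 := hdZ.trans h
      have h3 : (d : ℤ) ∣ (a' + k * d') * d := Dvd.intro_left _ rfl
      have := dvd_sub h3 h2
      simpa using this
    exact ha.symm.dvd_of_dvd_mul_right this
  have h2 : (d' : ℤ) ∣ d := by
    have : (d' : ℤ) ∣ a' * d := by
      have h2 := hdZ'.trans h
      have h3 : (d' : ℤ) ∣ d' * a - k * d' * d := ⟨a - k * d, by ring⟩
      have := dvd_add h2 h3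
      have e : (a' + k * d') * d - d' * a + (d' * a - k * d' * d) = a' * d := by ring
      rwa [e] at this
    exact ha'.symm.dvd_of_dvd_mul_left this
  have hdd : d = d' := Nat.dvd_antisymm (by exact_mod_cast h1) (by exact_mod_cast h2)
  subst hdd
  refine ⟨rfl, ?_⟩
  have hd0 : d ≠ 0 := fun h0 => hN (by rw [h0] at hd; exact Nat.eq_zero_of_zero_dvd hd)
  obtain ⟨m, rfl⟩ := hd
  have hm : d * m / d = m := Nat.mul_div_cancel_left m (Nat.pos_of_ne_zero hd0)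
  rw [hm]
  have h3 : (m : ℤ) ∣ a' + k * d - a := by
    have : ((d : ℤ) * m) ∣ d * (a' + k * d - a) := by
      have e : (d : ℤ) * (a' + k * d - a) = (a' + k * d) * d - d * a := by ring
      rw [e]; exact_mod_cast h
    exact (mul_dvd_mul_iff_left (by exact_mod_cast hd0)).mp this
  have g1 : ((Nat.gcd d m : ℕ) : ℤ) ∣ m := by exact_mod_cast Nat.gcd_dvd_right d m
  have g2 : ((Nat.gcd d m : ℕ) : ℤ) ∣ d := by exact_mod_cast Nat.gcd_dvd_left d m
  have h4 := g1.trans h3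
  have h5 : ((Nat.gcd d m : ℕ) : ℤ) ∣ k * d := Dvd.dvd.mul_left g2 k
  have := dvd_sub h5 h4
  have e : k * d - (a' + k * d - a) = a - a' := by ring
  rwa [e] at this

/-- arithmetic core of surjectivity. -/
theorem arith_surj {d m : ℕ} {a a₀ y : ℤ} (hy : IsCoprime y (m : ℤ))
    (h : ((Nat.gcd d m : ℕ) : ℤ) ∣ a₀ * y - a) :
    ∃ k : ℤ, ((d * m : ℕ) : ℤ) ∣ (a₀ + k * d) * (d * y) - d * a := by
  obtain ⟨t, ht⟩ := h
  obtain ⟨y', m', hym⟩ := hy
  have hb := Int.gcd_eq_gcd_ab d m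
  rw [Int.gcd_natCast_natCast] at hb
  set α := Int.gcdA d m
  set β := Int.gcdB d m
  refine ⟨-t * α * y', ⟨t * (α * d * m' + β), ?_⟩⟩
  push_cast
  have e1 : a = a₀ * y - (Nat.gcd d m : ℤ) * t := by linarith
  rw [e1, hb]
  linear_combination (-(d : ℤ) * t * α * d) * hym


theorem exists_rep (hN : N ≠ 0) (d : ℕ) (hd : d ∣ N) (r : (ZMod (Nat.gcd d (N / d)))ˣ) :
    ∃ g : SL(2, ℤ), g 1 0 = d ∧ ((g 0 0 : ℤ) : ZMod (Nat.gcd d (N / d))) = r := by
  have hd0 : d ≠ 0 := fun h0 => hN (by rw [h0] at hd; exact Nat.eq_zero_of_zero_dvd hd)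
  have : NeZero d := ⟨hd0⟩
  obtain ⟨u, hu⟩ := ZMod.unitsMap_surjective (Nat.gcd_dvd_left d (N / d)) r
  have hcop : IsCoprime (((u : ZMod d).val : ℕ) : ℤ) (d : ℤ) := by
    rw [Nat.isCoprime_iff_coprime]; exact ZMod.val_coe_unit_coprime u
  obtain ⟨g, hg0, hg1⟩ := hcop.exists_SL2_col 0
  refine ⟨g, hg1, ?_⟩
  rw [hg0, ← hu, ZMod.unitsMap_val]
  simp

/-- chosen representative of the cusp with invariants `(d, r)`. -/
noncomputable def rep (hN : N ≠ 0) (x : Σ d : N.divisors, (ZMod (Nat.gcd d (N / d)))ˣ) :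
    SL(2, ℤ) :=
  (exists_rep hN x.1 (Nat.dvd_of_mem_divisors x.1.2) x.2).choose

theorem rep_one_zero (hN : N ≠ 0) (x : Σ d : N.divisors, (ZMod (Nat.gcd d (N / d)))ˣ) :
    rep hN x 1 0 = (x.1 : ℕ) :=
  (exists_rep hN x.1 (Nat.dvd_of_mem_divisors x.1.2) x.2).choose_spec.1

theorem rep_zero_zero (hN : N ≠ 0) (x : Σ d : N.divisors, (ZMod (Nat.gcd d (N / d)))ˣ) :
    ((rep hN x 0 0 : ℤ) : ZMod (Nat.gcd x.1 (N / x.1))) = x.2 :=
  (exists_rep hN x.1 (Nat.dvd_of_mem_divisors x.1.2) x.2).choose_spec.2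

theorem orbMk_rep_injective (hN : N ≠ 0) : Function.Injective (fun x => orbMk N (rep hN x)) := by
  rintro ⟨⟨d, hd⟩, r⟩ ⟨⟨d', hd'⟩, r'⟩ h
  simp only at h
  rw [orbMk_eq_iff] at h
  obtain ⟨k, hk⟩ := h
  have c1 := col_isCoprime (rep hN ⟨⟨d, hd⟩, r⟩)
  have c2 := col_isCoprime (rep hN ⟨⟨d', hd'⟩, r'⟩)
  have z1 := rep_zero_zero hN ⟨⟨d, hd⟩, r⟩
  have z2 := rep_zero_zero hN ⟨⟨d', hd'⟩, r'⟩
  rw [rep_one_zero] at hk c1 c2
  rw [rep_one_zero] at hk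
  simp only at hk c1 c2 z1 z2
  obtain ⟨hdd, hdvd⟩ := arith_inj (Nat.dvd_of_mem_divisors hd) (Nat.dvd_of_mem_divisors hd') hN
    c1 c2 hk
  subst hdd
  have : r = r' := by
    apply Units.ext
    rw [← z1, ← z2, ← sub_eq_zero, ← Int.cast_sub, ZMod.intCast_zmod_eq_zero_iff_dvd]
    exact hdvd
  rw [this]

theorem orbMk_rep_surjective (hN : N ≠ 0) : Function.Surjective (fun x => orbMk N (rep hN x)) := by
  intro q
  obtain ⟨g, rfl⟩ := orbMk_surjective q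
  set d : ℕ := Int.gcd (g 1 0) N with hd
  have hdN : d ∣ N := by
    have := Int.gcd_dvd_right (g 1 0) (N : ℤ)
    exact_mod_cast this
  have hd0 : d ≠ 0 := fun h0 => hN (by rw [h0] at hdN; exact Nat.eq_zero_of_zero_dvd hdN)
  obtain ⟨m, hm⟩ := hdN
  obtain ⟨y, hy⟩ : (d : ℤ) ∣ g 1 0 := Int.gcd_dvd_left (g 1 0) (N : ℤ)
  have hmd : N / d = m := by rw [hm]; exact Nat.mul_div_cancel_left m (Nat.pos_of_ne_zero hd0)
  -- `y` is coprime to `m`
  have hym : IsCoprime y (m : ℤ) := by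
    rw [Int.isCoprime_iff_gcd_eq_one]
    have h1 : Int.gcd ((d : ℤ) * y) ((d : ℤ) * m) = d := by
      rw [← hy]
      have : ((d : ℤ) * m) = (N : ℤ) := by rw [hm]; push_cast; ring
      rw [this]
    rw [Int.gcd_mul_left, Int.natAbs_natCast] at h1
    exact Nat.eq_of_mul_eq_mul_left (Nat.pos_of_ne_zero hd0) (by rw [h1, mul_one])
  have hggm : Nat.gcd d (N / d) = Nat.gcd d m := by rw [hmd]
  have hy_unit : IsUnit ((y : ℤ) : ZMod (Nat.gcd d (N / d))) := by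
    rw [ZMod.coe_int_isUnit_iff_isCoprime, hggm]
    exact (hym.of_isCoprime_of_dvd_right (by exact_mod_cast Nat.gcd_dvd_right d m)).symm
  have ha_unit : IsUnit ((g 0 0 : ℤ) : ZMod (Nat.gcd d (N / d))) := by
    rw [ZMod.coe_int_isUnit_iff_isCoprime, hggm]
    refine ((col_isCoprime g).of_isCoprime_of_dvd_right ?_).symm
    rw [hy]
    exact Dvd.dvd.mul_right (by exact_mod_cast Nat.gcd_dvd_left d m) y
  have hdmem : d ∈ N.divisors := Nat.mem_divisors.mpr ⟨⟨m, hm⟩, hN⟩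
  refine ⟨⟨⟨d, hdmem⟩, ha_unit.unit * hy_unit.unit⁻¹⟩, ?_⟩
  simp only
  symm
  rw [orbMk_eq_iff, rep_one_zero]
  simp only
  have z := rep_zero_zero hN ⟨⟨d, hdmem⟩, ha_unit.unit * hy_unit.unit⁻¹⟩
  simp only at z
  have key : ((Nat.gcd d m : ℕ) : ℤ) ∣
      rep hN ⟨⟨d, hdmem⟩, ha_unit.unit * hy_unit.unit⁻¹⟩ 0 0 * y - g 0 0 := by
    rw [← hggm, ← ZMod.intCast_zmod_eq_zero_iff_dvd]
    push_cast
    rw [z, Units.val_mul, IsUnit.unit_spec, mul_assoc]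
    have : ((hy_unit.unit⁻¹ : (ZMod (Nat.gcd d (N / d)))ˣ) : ZMod (Nat.gcd d (N / d))) * (y : ZMod (Nat.gcd d (N / d))) = 1 := by
      exact hy_unit.val_inv_mul
    rw [this, mul_one, sub_self]
  obtain ⟨k, hk⟩ := arith_surj hym key
  refine ⟨k, ?_⟩
  have hNe : ((d * m : ℕ) : ℤ) = (N : ℤ) := by rw [← hm]
  rw [hy, ← hNe]
  exact hk

theorem card_units_zmod (n : ℕ) (hn : n ≠ 0) : Nat.card (ZMod n)ˣ = Nat.totient n := by
  have : NeZero n := ⟨hn⟩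
  rw [Nat.card_eq_fintype_card, ZMod.card_units_eq_totient]

theorem card_TOrbits (N : ℕ) (hN : N ≠ 0) :
    Nat.card (MulAction.orbitRel.Quotient (Subgroup.zpowers ModularGroup.T)
      (SL(2, ℤ) ⧸ Gamma0 N)) = ModularCurve.cuspCount N := by
  have e := Nat.card_congr (Equiv.ofBijective _ ⟨orbMk_rep_injective hN, orbMk_rep_surjective hN⟩)
  rw [← e]
  have hne : ∀ d : N.divisors, Nat.gcd d (N / d) ≠ 0 := by
    intro d h
    have h1 := Nat.eq_zero_of_gcd_eq_zero_left h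
    have h2 := Nat.dvd_of_mem_divisors d.2
    rw [h1] at h2
    exact hN (Nat.eq_zero_of_zero_dvd h2)
  have : ∀ d : N.divisors, Finite (ZMod (Nat.gcd d (N / d)))ˣ := by
    intro d
    have : NeZero (Nat.gcd d (N / d)) := ⟨hne d⟩
    infer_instance
  rw [Nat.card_sigma, ModularCurve.cuspCount]
  rw [← Finset.sum_coe_sort N.divisors (fun d => Nat.totient (Nat.gcd d (N / d)))]
  exact Finset.sum_congr rfl fun d _ => card_units_zmod _ (hne d)

end Fermat.Agent.Lib.Gamma0Count
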