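import Mathlib

/-!
Shared definitions for the direct proof of Fermat's Last Theorem for small regular primes
(used by S11, reusable by S10).
-/

set_option autoImplicit false

namespace Fermat.Agent.Lib.KummerDefs

open NumberField

/-- Kummer's lemma for the prime `p` and the `p`-th cyclotomic field `K`: a unit which is
congruent to a rational integer modulo `p` is a `p`-th power of a unit. -/
def KummerLemma (p : ℕ) (K : Type*) [Field K] : Prop :=
  ∀ u : (𝓞 K)ˣ, (∃ n : ℤ, (p : 𝓞 K) ∣ (u : 𝓞 K) - (n : 𝓞 K)) → ∃ v : (𝓞 K)ˣ, u = v ^ p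

/-- Every `p`-th power in the ring of integers of the `p`-th cyclotomic field is congruent to a
rational integer modulo `p`. -/
theorem exists_int_dvd_pow_sub {p : ℕ} [hp : Fact p.Prime] {K : Type*} [Field K] [NumberField K]
    [IsCyclotomicExtension {p} ℚ K] (x : 𝓞 K) :
    ∃ n : ℤ, (p : 𝓞 K) ∣ x ^ p - (n : 𝓞 K) := by
  have hζ := IsCyclotomicExtension.zeta_spec p ℚ K
  have htop := IsCyclotomicExtension.Rat.adjoin_singleton_eq_top hζ
  have hx : x ∈ Algebra.adjoin ℤ {hζ.toInteger} := by rw [htop]; trivial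
  induction hx using Algebra.adjoin_induction with
  | mem y hy =>
    rw [Set.mem_singleton_iff] at hy
    subst hy
    refine ⟨1, ?_⟩
    rw [hζ.toInteger_isPrimitiveRoot.pow_eq_one]
    simp
  | algebraMap r =>
    refine ⟨r ^ p, ?_⟩
    simp
  | add y z _ _ hy hz =>
    obtain ⟨m, hm⟩ := hy
    obtain ⟨n, hn⟩ := hz
    obtain ⟨r, hr⟩ := exists_add_pow_prime_eq hp.out y z
    refine ⟨m + n, ?_⟩
    rw [hr]
    have : y ^ p + z ^ p + (p : 𝓞 K) * y * z * r - ((m + n : ℤ) : 𝓞 K) =
        (y ^ p - m) + (z ^ p - n) + (p : 𝓞 K) * (y * z * r) := by push_cast; ring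
    rw [this]
    exact dvd_add (dvd_add hm hn) (dvd_mul_right _ _)
  | mul y z _ _ hy hz =>
    obtain ⟨m, hm⟩ := hy
    obtain ⟨n, hn⟩ := hz
    refine ⟨m * n, ?_⟩
    have : (y * z) ^ p - ((m * n : ℤ) : 𝓞 K) =
        (y ^ p - m) * z ^ p + m * (z ^ p - n) := by push_cast; ring
    rw [this]
    exact dvd_add (Dvd.dvd.mul_right hm _) (Dvd.dvd.mul_left hn _)

end Fermat.Agent.Lib.KummerDefs
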