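import Mathlib
import Fermat.Agent.Lib.KummerDefs

/-!
Kummer's descent for the second case of Fermat's Last Theorem, for an odd prime `p` such that
the ring of integers of the `p`-th cyclotomic field is a PID and Kummer's lemma holds.
-/

set_option autoImplicit false

namespace Fermat.Agent.Lib.KummerCaseII

open Polynomial Finset

section Abstract

variable {R : Type*} [CommRing R] [IsDomain R]

lemma pow_mul_eq_pow_mul {π Y Z : R} (hπ : Prime π) (hY : ¬ π ∣ Y) (hZ : ¬ π ∣ Z) {i j : ℕ}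
    (h : π ^ i * Y = π ^ j * Z) : i = j ∧ Y = Z := by
  have key : ∀ {i j : ℕ} {Y Z : R}, ¬ π ∣ Y → i < j → π ^ i * Y ≠ π ^ j * Z := by
    intro i j Y Z hY hij h
    obtain ⟨d, rfl⟩ := Nat.exists_eq_add_of_lt hij
    rw [show i + d + 1 = i + (d + 1) by ring, pow_add, mul_assoc] at h
    have := mul_left_cancel₀ (pow_ne_zero i hπ.ne_zero) h
    exact hY ⟨π ^ d * Z, by rw [this]; ring⟩
  rcases lt_trichotomy i j with hij | rfl | hij
  · exact (key hY hij h).elim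
  · exact ⟨rfl, mul_left_cancel₀ (pow_ne_zero i hπ.ne_zero) h⟩
  · exact (key hZ hij h.symm).elim

variable {p : ℕ} {ζ : R}

lemma pi_dvd_add_mul (hp : p.Prime) (hp2 : p ≠ 2) (hζ : IsPrimitiveRoot ζ p)
    (hπ : Prime (ζ - 1)) {a b c : R} {u : Rˣ} (hc : (ζ - 1) ∣ c)
    (H : a ^ p + b ^ p = u * c ^ p) {η : R} (hη : η ∈ nthRootsFinset p (1 : R)) :
    (ζ - 1) ∣ a + η * b := by
  have hodd : Odd p := hp.odd_of_ne_two hp2
  have h1 : (ζ - 1) ∣ ∏ η ∈ nthRootsFinset p (1 : R), (a + η * b) := by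
    rw [← hζ.pow_add_pow_eq_prod_add_mul a b hodd, H]
    exact Dvd.dvd.mul_left (dvd_pow hc hp.ne_zero) _
  obtain ⟨η₀, hη₀, h0⟩ := hπ.exists_mem_finset_dvd h1
  have h2 : (ζ - 1) ∣ η - η₀ := hζ.sub_one_dvd_sub hp hη hη₀
  have : a + η * b = (a + η₀ * b) + (η - η₀) * b := by ring
  rw [this]
  exact dvd_add h0 (Dvd.dvd.mul_right h2 _)

lemma not_sq_dvd_sub_mul (hp : p.Prime) (hζ : IsPrimitiveRoot ζ p)
    (hπ : Prime (ζ - 1)) {η η' : R} (hη : η ∈ nthRootsFinset p (1 : R))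
    (hη' : η' ∈ nthRootsFinset p (1 : R)) (hne : η ≠ η') {b : R} (hb : ¬ (ζ - 1) ∣ b) :
    ¬ (ζ - 1) ^ 2 ∣ (η - η') * b := by
  intro h
  obtain ⟨w, hw⟩ := hζ.nthRootsFinset_pairwise_associated_sub_one_sub_of_prime hp hη hη' hne
  rw [← hw, sq, mul_assoc, mul_dvd_mul_iff_left hπ.ne_zero] at h
  exact hb ((Units.dvd_mul_left).mp h)

lemma exists_sq_dvd (hp : p.Prime) (hζ : IsPrimitiveRoot ζ p) (hπ : Prime (ζ - 1))
    (hcard : Nat.card (R ⧸ Ideal.span {ζ - 1}) = p) {a b : R} (hb : ¬ (ζ - 1) ∣ b)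
    (hall : ∀ η ∈ nthRootsFinset p (1 : R), (ζ - 1) ∣ a + η * b) :
    ∃ η ∈ nthRootsFinset p (1 : R), (ζ - 1) ^ 2 ∣ a + η * b := by
  classical
  choose! q hq using hall
  have hfin : Finite (R ⧸ Ideal.span {ζ - 1}) :=
    Nat.finite_of_card_ne_zero (by rw [hcard]; exact hp.ne_zero)
  let f : {η // η ∈ nthRootsFinset p (1 : R)} → R ⧸ Ideal.span {ζ - 1} :=
    fun η => Ideal.Quotient.mk _ (q η.1)
  have hinj : Function.Injective f := by
    intro η η' h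
    by_contra hne
    have hne' : η.1 ≠ η'.1 := fun h => hne (Subtype.ext h)
    have h1 : (ζ - 1) ∣ q η.1 - q η'.1 := by
      rw [← Ideal.mem_span_singleton, ← Ideal.Quotient.eq]; exact h
    apply not_sq_dvd_sub_mul hp hζ hπ η.2 η'.2 hne' hb
    have : (η.1 - η'.1) * b = (ζ - 1) * (q η.1 - q η'.1) := by
      rw [mul_sub, ← hq _ η.2, ← hq _ η'.2]; ring
    rw [this, sq]
    exact mul_dvd_mul_left _ h1
  have hbij := hinj.bijective_of_nat_card_le (by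
    rw [hcard]; simp [hζ.card_nthRootsFinset])
  obtain ⟨η, hη⟩ := hbij.2 0
  refine ⟨η.1, η.2, ?_⟩
  rw [hq _ η.2, sq]
  apply mul_dvd_mul_left
  rw [← Ideal.mem_span_singleton, ← Ideal.Quotient.eq_zero_iff_mem]; exact hη


/-- The factorisation step: assuming `π ^ 2 ∣ a + b`, we get the `π`-free parts `X η` of the
factors `a + η b`, pairwise coprime, with product `u * c ^ p`. -/
lemma exists_factors [IsPrincipalIdealRing R] (hp : p.Prime) (hp2 : p ≠ 2)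
    (hζ : IsPrimitiveRoot ζ p) (hπ : Prime (ζ - 1)) {M : ℕ} (hM : 1 ≤ M) {a b c : R} {u : Rˣ}
    (hb : ¬ (ζ - 1) ∣ b) (hc : ¬ (ζ - 1) ∣ c) (hab : IsCoprime a b)
    (H : a ^ p + b ^ p = u * ((ζ - 1) ^ M * c) ^ p) (hsq : (ζ - 1) ^ 2 ∣ a + b) :
    2 ≤ M ∧ ∃ X : R → R, a + b = (ζ - 1) ^ ((M - 1) * p + 1) * X 1 ∧
      (∀ η ∈ nthRootsFinset p (1 : R), η ≠ 1 → a + η * b = (ζ - 1) * X η) ∧
      (∀ η ∈ nthRootsFinset p (1 : R), ¬ (ζ - 1) ∣ X η) ∧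
      (∀ η ∈ nthRootsFinset p (1 : R), ∀ η' ∈ nthRootsFinset p (1 : R), η ≠ η' →
        IsCoprime (X η) (X η')) ∧
      ∏ η ∈ nthRootsFinset p (1 : R), X η = u * c ^ p := by
  classical
  have hodd : Odd p := hp.odd_of_ne_two hp2
  have h1mem : (1 : R) ∈ nthRootsFinset p (1 : R) := by
    rw [mem_nthRootsFinset hp.pos]; exact one_pow p
  have hcdvd : (ζ - 1) ∣ (ζ - 1) ^ M * c :=
    Dvd.dvd.mul_right (dvd_pow_self _ (by omega)) _
  have hall : ∀ η ∈ nthRootsFinset p (1 : R), (ζ - 1) ∣ a + η * b :=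
    fun η hη => pi_dvd_add_mul hp hp2 hζ hπ hcdvd H hη
  have hc0 : c ≠ 0 := fun h => hc (h ▸ dvd_zero _)
  have hne : a + b ≠ 0 := by
    intro h0
    have ha : a = -b := eq_neg_of_add_eq_zero_left h0
    rw [ha, hodd.neg_pow, neg_add_cancel] at H
    have := H.symm
    simp [hπ.ne_zero, hc0, hp.ne_zero] at this
  obtain ⟨y, hy, hy'⟩ :=
    (FiniteMultiplicity.of_not_isUnit hπ.not_isUnit hne).exists_eq_pow_mul_and_not_dvd
  set k := multiplicity (ζ - 1) (a + b) with hk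
  have hk2 : 2 ≤ k := by
    by_contra hlt
    rw [hy] at hsq
    have hk' : k = 0 ∨ k = 1 := by omega
    rcases hk' with h0 | h1
    · rw [h0, pow_zero, one_mul] at hsq
      exact hy' (dvd_trans (dvd_pow_self _ two_ne_zero) hsq)
    · rw [h1, pow_one, sq, mul_dvd_mul_iff_left hπ.ne_zero] at hsq
      exact hy' hsq
  choose! x hx using hall
  have hx' : ∀ η ∈ nthRootsFinset p (1 : R), η ≠ 1 → ¬ (ζ - 1) ∣ x η := by
    intro η hη hη1 hdvd
    apply not_sq_dvd_sub_mul hp hζ hπ hη h1mem hη1 hb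
    have : (η - 1) * b = (a + η * b) - (a + b) := by ring
    rw [this]
    refine dvd_sub ?_ hsq
    rw [hx η hη, sq]
    exact mul_dvd_mul_left _ hdvd
  let X : R → R := fun η => if η = 1 then y else x η
  have hX1 : X 1 = y := if_pos rfl
  have hXne : ∀ η, η ≠ 1 → X η = x η := fun η hη => if_neg hη
  have hXnd : ∀ η ∈ nthRootsFinset p (1 : R), ¬ (ζ - 1) ∣ X η := by
    intro η hη
    by_cases h : η = 1
    · rw [h, hX1]; exact hy'
    · rw [hXne η h]; exact hx' η hη h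
  have hXdvd : ∀ η ∈ nthRootsFinset p (1 : R), X η ∣ a + η * b := by
    intro η hη
    by_cases h : η = 1
    · rw [h, hX1, one_mul, hy]; exact dvd_mul_left _ _
    · rw [hXne η h, hx η hη]; exact dvd_mul_left _ _
  have hprod : (ζ - 1) ^ (k + (p - 1)) * ∏ η ∈ nthRootsFinset p (1 : R), X η =
      (ζ - 1) ^ (M * p) * (u * c ^ p) := by
    have e1 : ∏ η ∈ nthRootsFinset p (1 : R), (a + η * b) = u * ((ζ - 1) ^ M * c) ^ p := by
      rw [← hζ.pow_add_pow_eq_prod_add_mul a b hodd, H]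
    rw [← mul_prod_erase _ _ h1mem] at e1 ⊢
    have e2 : ∏ η ∈ (nthRootsFinset p (1 : R)).erase 1, (a + η * b) =
        (ζ - 1) ^ (p - 1) * ∏ η ∈ (nthRootsFinset p (1 : R)).erase 1, X η := by
      have : (p - 1) = ((nthRootsFinset p (1 : R)).erase 1).card := by
        rw [card_erase_of_mem h1mem, hζ.card_nthRootsFinset]
      rw [this, ← prod_const, ← prod_mul_distrib]
      refine prod_congr rfl fun η hη => ?_
      rw [mem_erase] at hη
      rw [hXne η hη.1, hx η hη.2]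
    rw [e2, one_mul, hy] at e1
    rw [hX1, pow_add]
    calc (ζ - 1) ^ k * (ζ - 1) ^ (p - 1) * (y * ∏ η ∈ (nthRootsFinset p (1 : R)).erase 1, X η)
        = (ζ - 1) ^ k * y * ((ζ - 1) ^ (p - 1) *
            ∏ η ∈ (nthRootsFinset p (1 : R)).erase 1, X η) := by ring
      _ = u * ((ζ - 1) ^ M * c) ^ p := e1
      _ = (ζ - 1) ^ (M * p) * (u * c ^ p) := by rw [mul_pow, ← pow_mul]; ring
  have hnd1 : ¬ (ζ - 1) ∣ ∏ η ∈ nthRootsFinset p (1 : R), X η := by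
    intro h
    obtain ⟨η, hη, h'⟩ := hπ.exists_mem_finset_dvd h
    exact hXnd η hη h'
  have hnd2 : ¬ (ζ - 1) ∣ (u : R) * c ^ p := by
    intro h
    rw [Units.dvd_mul_left] at h
    exact hc (hπ.dvd_of_dvd_pow h)
  obtain ⟨hkM, hprod'⟩ := pow_mul_eq_pow_mul hπ hnd1 hnd2 hprod
  have hp1 : 1 ≤ p := hp.one_le
  have hM2 : 2 ≤ M := by
    by_contra hlt
    have : M = 1 := by omega
    rw [this] at hkM
    omega
  have hkeq : k = (M - 1) * p + 1 := by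
    obtain ⟨M', rfl⟩ : ∃ M', M = M' + 1 := ⟨M - 1, by omega⟩
    simp only [Nat.add_sub_cancel]
    have : (M' + 1) * p = M' * p + p := by ring
    omega
  refine ⟨hM2, X, ?_, ?_, hXnd, ?_, hprod'⟩
  · rw [hX1, ← hkeq]; exact hy
  · intro η hη hη1
    rw [hXne η hη1, hx η hη]
  · intro η hη η' hη' hne'
    refine isCoprime_of_prime_dvd (not_and.2 fun _ hz => hXnd η' hη' (by simp [hz])) ?_
    intro q hq hq1 hq2
    have h1 : q ∣ a + η * b := hq1.trans (hXdvd η hη)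
    have h2 : q ∣ a + η' * b := hq2.trans (hXdvd η' hη')
    obtain ⟨w, hw⟩ :=
      hζ.nthRootsFinset_pairwise_associated_sub_one_sub_of_prime hp hη hη' hne'
    have h3 : q ∣ (ζ - 1) * b := by
      have : (ζ - 1) * b = ((a + η * b) - (a + η' * b)) * (↑w⁻¹ : R) := by
        have : (a + η * b) - (a + η' * b) = (η - η') * b := by ring
        rw [this, ← hw]
        have hw1 : (w : R) * (↑w⁻¹ : R) = 1 := Units.mul_inv w
        linear_combination (-(ζ - 1) * b) * hw1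
      rw [this]
      exact Dvd.dvd.mul_right (dvd_sub h1 h2) _
    have h4 : q ∣ (ζ - 1) * a := by
      have : (ζ - 1) * a = (η * (a + η' * b) - η' * (a + η * b)) * (↑w⁻¹ : R) := by
        have : η * (a + η' * b) - η' * (a + η * b) = (η - η') * a := by ring
        rw [this, ← hw]
        have hw1 : (w : R) * (↑w⁻¹ : R) = 1 := Units.mul_inv w
        linear_combination (-(ζ - 1) * a) * hw1
      rw [this]
      exact Dvd.dvd.mul_right (dvd_sub (Dvd.dvd.mul_left h2 _) (Dvd.dvd.mul_left h1 _)) _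
    by_cases hqπ : q ∣ ζ - 1
    · have : Associated q (ζ - 1) := hq.associated_of_dvd hπ hqπ
      exact hXnd η hη (this.symm.dvd.trans hq1)
    · have hqb : q ∣ b := (hq.dvd_or_dvd h3).resolve_left hqπ
      have hqa : q ∣ a := (hq.dvd_or_dvd h4).resolve_left hqπ
      exact hq.not_isUnit (hab.isUnit_of_dvd' hqa hqb)


/-- A unit `η` with `p ∣ y₁ ^ p + η * y₂ ^ p`, `π ∤ y₂`, is congruent to an integer mod `p`. -/
lemma exists_int_dvd_unit_sub (hp : p.Prime) (hζ : IsPrimitiveRoot ζ p) (hπ : Prime (ζ - 1))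
    (hint : ∀ x : R, ∃ n : ℤ, (p : R) ∣ x ^ p - (n : R)) {y₁ y₂ η : R}
    (hy₂ : ¬ (ζ - 1) ∣ y₂) (h : (p : R) ∣ y₁ ^ p + η * y₂ ^ p) :
    ∃ n : ℤ, (p : R) ∣ η - (n : R) := by
  obtain ⟨n₁, s₁, hs₁⟩ := hint y₁
  obtain ⟨n₂, s₂, hs₂⟩ := hint y₂
  obtain ⟨t, ht⟩ := h
  have hπp : (ζ - 1) ∣ (p : R) := hζ.sub_one_dvd_natCast hp.one_lt
  have hcop : IsCoprime n₂ (p : ℤ) := by
    rw [isCoprime_comm, Prime.coprime_iff_not_dvd (Nat.prime_iff_prime_int.mp hp)]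
    intro hdvd
    apply hy₂
    apply hπ.dvd_of_dvd_pow (n := p)
    have h1 : (p : R) ∣ (n₂ : R) := by
      have := (Int.cast_dvd_cast (α := R) _ _ hdvd)
      simpa using this
    have h2 : y₂ ^ p = (p : R) * s₂ + n₂ := by linear_combination hs₂
    rw [h2]
    exact hπp.trans (dvd_add (dvd_mul_right _ _) h1)
  obtain ⟨k, l, hkl⟩ := hcop
  have hkl' : (k : R) * n₂ + l * p = 1 := by exact_mod_cast congrArg (Int.cast : ℤ → R) hkl
  refine ⟨-(k * n₁), k * t - k * s₁ - η * k * s₂ + η * l, ?_⟩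
  push_cast
  linear_combination (-η) * hkl' + (k : R) * ht - (k : R) * hs₁ - η * k * hs₂

/-- One descent step, assuming `π ^ 2 ∣ a + b`. -/
lemma descent_aux [IsPrincipalIdealRing R] (hp : p.Prime) (hp2 : p ≠ 2)
    (hζ : IsPrimitiveRoot ζ p) (hπ : Prime (ζ - 1)) (hpdvd : (p : R) ∣ (ζ - 1) ^ p)
    (hint : ∀ x : R, ∃ n : ℤ, (p : R) ∣ x ^ p - (n : R))
    (hK : ∀ u : Rˣ, (∃ n : ℤ, (p : R) ∣ (u : R) - (n : R)) → ∃ v : Rˣ, u = v ^ p)
    {M : ℕ} (hM : 1 ≤ M) {a b c : R} {u : Rˣ}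
    (hb : ¬ (ζ - 1) ∣ b) (hc : ¬ (ζ - 1) ∣ c) (hab : IsCoprime a b)
    (H : a ^ p + b ^ p = u * ((ζ - 1) ^ M * c) ^ p) (hsq : (ζ - 1) ^ 2 ∣ a + b) :
    2 ≤ M ∧ ∃ (a' b' c' : R) (u' : Rˣ), ¬ (ζ - 1) ∣ a' ∧ ¬ (ζ - 1) ∣ b' ∧ ¬ (ζ - 1) ∣ c' ∧
      IsCoprime a' b' ∧ a' ^ p + b' ^ p = u' * ((ζ - 1) ^ (M - 1) * c') ^ p := by
  classical
  obtain ⟨hM2, X, hX1, hXη, hXnd, hXcop, hXprod⟩ :=
    exists_factors hp hp2 hζ hπ hM hb hc hab H hsq
  refine ⟨hM2, ?_⟩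
  have hp0 : p ≠ 0 := hp.ne_zero
  have h1mem : (1 : R) ∈ nthRootsFinset p (1 : R) := by
    rw [mem_nthRootsFinset hp.pos]; exact one_pow p
  have hζmem : ζ ∈ nthRootsFinset p (1 : R) := by
    rw [mem_nthRootsFinset hp.pos]; exact hζ.pow_eq_one
  have hζ'mem : ζ ^ (p - 1) ∈ nthRootsFinset p (1 : R) := by
    rw [mem_nthRootsFinset hp.pos, ← pow_mul, mul_comm, pow_mul, hζ.pow_eq_one, one_pow]
  have hp3 : 3 ≤ p := by
    have := hp.two_le
    omega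
  have hζ1 : ζ ≠ 1 := hζ.ne_one hp.one_lt
  have hζ'1 : ζ ^ (p - 1) ≠ 1 := hζ.pow_ne_one_of_pos_of_lt (by omega) (by omega)
  have hζζ' : ζ ≠ ζ ^ (p - 1) := by
    intro h
    have h2 : ζ ^ (p - 2) = 1 := by
      have h3 : ζ * ζ ^ (p - 2) = ζ * 1 := by
        rw [← pow_succ', show p - 2 + 1 = p - 1 by omega, mul_one]; exact h.symm
      exact mul_left_cancel₀ (hζ.ne_zero hp0) h3
    exact hζ.pow_ne_one_of_pos_of_lt (by omega) (by omega) h2
  have hζmul : ζ * ζ ^ (p - 1) = 1 := by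
    rw [← pow_succ', show p - 1 + 1 = p by omega, hζ.pow_eq_one]
  -- each `X η` is a unit times a `p`-th power
  have hpow : ∀ η ∈ nthRootsFinset p (1 : R), ∃ d : R, Associated (d ^ p) (X η) := by
    intro η hη
    have hcop : IsCoprime (X η) (∏ η' ∈ (nthRootsFinset p (1 : R)).erase η, X η') := by
      refine IsCoprime.prod_right fun η' hη' => ?_
      rw [mem_erase] at hη'
      exact hXcop η hη η' hη'.2 hη'.1.symm
    refine exists_associated_pow_of_associated_pow_mul hcop (c := c) ?_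
    rw [mul_prod_erase _ _ hη, hXprod]
    exact ⟨u, mul_comm _ _⟩
  obtain ⟨Y₀, u₀, hY₀⟩ := hpow 1 h1mem
  obtain ⟨Y₁, u₁, hY₁⟩ := hpow ζ hζmem
  obtain ⟨Y₂, u₂, hY₂⟩ := hpow _ hζ'mem
  -- the linear relation
  have hrel : X ζ + ζ * X (ζ ^ (p - 1)) = (1 + ζ) * ((ζ - 1) ^ ((M - 1) * p) * X 1) := by
    apply mul_left_cancel₀ hπ.ne_zero
    have e1 := hXη ζ hζmem hζ1
    have e2 := hXη _ hζ'mem hζ'1
    rw [pow_succ] at hX1
    linear_combination (-1 : R) * e1 - ζ * e2 + (1 + ζ) * hX1 + b * hζmul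
  have hunit : IsUnit (1 + ζ) := by
    have := hζ.geom_sum_isUnit hp.two_le (j := 2)
      ((Nat.coprime_primes Nat.prime_two hp).mpr (Ne.symm hp2))
    simpa [Finset.sum_range_succ] using this
  obtain ⟨w, hw⟩ := hunit
  have hζu : IsUnit ζ := hζ.isUnit hp0
  obtain ⟨z, hz⟩ := hζu
  have hu₁ : (↑u₁⁻¹ : R) * u₁ = 1 := Units.inv_mul u₁
  -- the key equation
  have hkey : Y₁ ^ p + ((u₁⁻¹ * z * u₂ : Rˣ) : R) * Y₂ ^ p =
      ((u₁⁻¹ * w * u₀ : Rˣ) : R) * ((ζ - 1) ^ (M - 1) * Y₀) ^ p := by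
    rw [← hY₀, ← hY₁, ← hY₂] at hrel
    push_cast
    rw [mul_pow, ← pow_mul, hw, hz]
    linear_combination (↑u₁⁻¹ : R) * hrel - Y₁ ^ p * hu₁
  have hY₂nd : ¬ (ζ - 1) ∣ Y₂ := fun h =>
    hXnd _ hζ'mem (hY₂ ▸ Dvd.dvd.mul_right (dvd_pow h hp0) _)
  have hY₁nd : ¬ (ζ - 1) ∣ Y₁ := fun h =>
    hXnd _ hζmem (hY₁ ▸ Dvd.dvd.mul_right (dvd_pow h hp0) _)
  have hY₀nd : ¬ (ζ - 1) ∣ Y₀ := fun h =>
    hXnd _ h1mem (hY₀ ▸ Dvd.dvd.mul_right (dvd_pow h hp0) _)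
  have hdvd : (p : R) ∣ Y₁ ^ p + ((u₁⁻¹ * z * u₂ : Rˣ) : R) * Y₂ ^ p := by
    rw [hkey, mul_pow, ← pow_mul]
    refine Dvd.dvd.mul_left (Dvd.dvd.mul_right (hpdvd.trans ?_) _) _
    exact pow_dvd_pow _ (Nat.le_mul_of_pos_left p (by omega))
  obtain ⟨v, hv⟩ := hK _ (exists_int_dvd_unit_sub hp hζ hπ hint hY₂nd hdvd)
  refine ⟨Y₁, v * Y₂, Y₀, u₁⁻¹ * w * u₀, hY₁nd, ?_, hY₀nd, ?_, ?_⟩
  · rwa [Units.dvd_mul_left]
  · have h1 : IsCoprime (X ζ) (X (ζ ^ (p - 1))) := hXcop _ hζmem _ hζ'mem hζζ'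
    have h2 : IsCoprime Y₁ Y₂ := by
      refine IsCoprime.of_isCoprime_of_dvd_left (IsCoprime.of_isCoprime_of_dvd_right h1 ?_) ?_
      · exact hY₂ ▸ Dvd.dvd.mul_right (dvd_pow_self _ hp0) _
      · exact hY₁ ▸ Dvd.dvd.mul_right (dvd_pow_self _ hp0) _
    exact (isCoprime_mul_unit_left_right v.isUnit _ _).mpr h2
  · rw [mul_pow, ← hkey, hv]
    push_cast
    ring


/-- One descent step. -/
lemma descent [IsPrincipalIdealRing R] (hp : p.Prime) (hp2 : p ≠ 2)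
    (hζ : IsPrimitiveRoot ζ p) (hπ : Prime (ζ - 1))
    (hcard : Nat.card (R ⧸ Ideal.span {ζ - 1}) = p) (hpdvd : (p : R) ∣ (ζ - 1) ^ p)
    (hint : ∀ x : R, ∃ n : ℤ, (p : R) ∣ x ^ p - (n : R))
    (hK : ∀ u : Rˣ, (∃ n : ℤ, (p : R) ∣ (u : R) - (n : R)) → ∃ v : Rˣ, u = v ^ p)
    {M : ℕ} (hM : 1 ≤ M) {a b c : R} {u : Rˣ}
    (hb : ¬ (ζ - 1) ∣ b) (hc : ¬ (ζ - 1) ∣ c) (hab : IsCoprime a b)
    (H : a ^ p + b ^ p = u * ((ζ - 1) ^ M * c) ^ p) :
    2 ≤ M ∧ ∃ (a' b' c' : R) (u' : Rˣ), ¬ (ζ - 1) ∣ a' ∧ ¬ (ζ - 1) ∣ b' ∧ ¬ (ζ - 1) ∣ c' ∧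
      IsCoprime a' b' ∧ a' ^ p + b' ^ p = u' * ((ζ - 1) ^ (M - 1) * c') ^ p := by
  have hcdvd : (ζ - 1) ∣ (ζ - 1) ^ M * c :=
    Dvd.dvd.mul_right (dvd_pow_self _ (by omega)) _
  obtain ⟨η, hη, hsq⟩ := exists_sq_dvd hp hζ hπ hcard hb
    (fun η hη => pi_dvd_add_mul hp hp2 hζ hπ hcdvd H hη)
  have hη1 : η ^ p = 1 := (mem_nthRootsFinset hp.pos 1).mp hη
  have hηu : IsUnit η := IsUnit.of_pow_eq_one hη1 hp.ne_zero
  refine descent_aux hp hp2 hζ hπ hpdvd hint hK hM (a := a) (b := η * b) (c := c) (u := u)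
    ?_ hc ?_ ?_ hsq
  · rwa [hηu.dvd_mul_left]
  · exact (isCoprime_mul_unit_left_right hηu _ _).mpr hab
  · rw [mul_pow, hη1, one_mul, H]

/-- No solution of the generalised Fermat equation in the second case (abstract form). -/
theorem no_solution [IsPrincipalIdealRing R] (hp : p.Prime) (hp2 : p ≠ 2)
    (hζ : IsPrimitiveRoot ζ p) (hπ : Prime (ζ - 1))
    (hcard : Nat.card (R ⧸ Ideal.span {ζ - 1}) = p) (hpdvd : (p : R) ∣ (ζ - 1) ^ p)
    (hint : ∀ x : R, ∃ n : ℤ, (p : R) ∣ x ^ p - (n : R))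
    (hK : ∀ u : Rˣ, (∃ n : ℤ, (p : R) ∣ (u : R) - (n : R)) → ∃ v : Rˣ, u = v ^ p)
    (M : ℕ) : ∀ (a b c : R) (u : Rˣ), ¬ (ζ - 1) ∣ b → ¬ (ζ - 1) ∣ c → IsCoprime a b →
      a ^ p + b ^ p ≠ u * ((ζ - 1) ^ (M + 1) * c) ^ p := by
  induction M with
  | zero =>
    intro a b c u hb hc hab H
    have := (descent hp hp2 hζ hπ hcard hpdvd hint hK (le_refl 1) hb hc hab H).1
    omega
  | succ M ih =>
    intro a b c u hb hc hab H
    obtain ⟨-, a', b', c', u', -, hb', hc', hab', H'⟩ :=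
      descent hp hp2 hζ hπ hcard hpdvd hint hK (by omega) hb hc hab H
    exact ih a' b' c' u' hb' hc' hab' H'

end Abstract


section Cyclotomic

open NumberField Fermat.Agent.Lib.KummerDefs

/-- The second case of Fermat's Last Theorem (generalised equation) in the ring of integers of
the `p`-th cyclotomic field, assuming it is a PID and that Kummer's lemma holds. -/
theorem caseII_gen {p : ℕ} [hpf : Fact p.Prime] (hp2 : p ≠ 2) {K : Type*} [Field K] [NumberField K]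
    [IsCyclotomicExtension {p} ℚ K] [IsPrincipalIdealRing (𝓞 K)] (hK : KummerLemma p K)
    {ζ : K} (hζ : IsPrimitiveRoot ζ p) (a b c : 𝓞 K) (u : (𝓞 K)ˣ) (hc : c ≠ 0)
    (_ha : ¬ (hζ.toInteger - 1) ∣ a) (hb : ¬ (hζ.toInteger - 1) ∣ b)
    (hcdvd : (hζ.toInteger - 1) ∣ c) (hab : IsCoprime a b) :
    a ^ p + b ^ p ≠ u * c ^ p := by
  have hp := hpf.out
  have hπ : Prime (hζ.toInteger - 1) := hζ.zeta_sub_one_prime'
  obtain ⟨c', hc', hc'nd⟩ :=
    (FiniteMultiplicity.of_not_isUnit hπ.not_isUnit hc).exists_eq_pow_mul_and_not_dvd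
  set M := multiplicity (hζ.toInteger - 1) c with hM
  have hM1 : 1 ≤ M := by
    by_contra hlt
    have h0 : M = 0 := by omega
    rw [h0, pow_zero, one_mul] at hc'
    exact hc'nd (hc' ▸ hcdvd)
  obtain ⟨M', hM'⟩ : ∃ M', M = M' + 1 := ⟨M - 1, by omega⟩
  rw [hc', hM']
  refine no_solution hp hp2 hζ.toInteger_isPrimitiveRoot hπ ?_ ?_
    (fun x => exists_int_dvd_pow_sub x) hK M' a b c' u hb hc'nd hab
  · rw [← Submodule.cardQuot_apply, ← Ideal.absNorm_apply]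
    have hK1 : IsCyclotomicExtension {p ^ (0 + 1)} ℚ K := by rwa [zero_add, pow_one]
    have hζ1 : IsPrimitiveRoot ζ (p ^ (0 + 1)) := by rwa [zero_add, pow_one]
    exact IsCyclotomicExtension.Rat.absNorm_span_zeta_sub_one p 0 hζ1
  · have h := (IsCyclotomicExtension.Rat.associated_zeta_sub_one_pow_prime p hζ).symm.dvd
    exact h.trans (pow_dvd_pow _ (Nat.sub_le p 1))


/-- The second case of Fermat's Last Theorem over `ℤ` for the exponent `p`. -/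
theorem caseII_int {p : ℕ} [hpf : Fact p.Prime] (hp2 : p ≠ 2) (K : Type*) [Field K] [NumberField K]
    [IsCyclotomicExtension {p} ℚ K] [IsPrincipalIdealRing (𝓞 K)] (hK : KummerLemma p K)
    (a b c : ℤ) (hc : c ≠ 0) (ha : ¬ (p : ℤ) ∣ a) (hb : ¬ (p : ℤ) ∣ b) (hcdvd : (p : ℤ) ∣ c)
    (hab : IsCoprime a b) : a ^ p + b ^ p ≠ c ^ p := by
  intro h
  have hζ := IsCyclotomicExtension.zeta_spec p ℚ K
  refine caseII_gen hp2 hK hζ (a : 𝓞 K) (b : 𝓞 K) (c : 𝓞 K) 1 (by exact_mod_cast hc)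
    (fun hdvd => ha ?_) (fun hdvd => hb ?_) ?_ (IsCoprime.intCast hab) ?_
  · exact (IsCyclotomicExtension.Rat.zeta_sub_one_dvd_intCast_iff' p hζ).mp hdvd
  · exact (IsCyclotomicExtension.Rat.zeta_sub_one_dvd_intCast_iff' p hζ).mp hdvd
  · exact (IsCyclotomicExtension.Rat.zeta_sub_one_dvd_intCast_iff' p hζ).mpr hcdvd
  · simpa using mod_cast h

end Cyclotomic

end Fermat.Agent.Lib.KummerCaseII
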