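import Mathlib
import Fermat.Agent.Lib.KummerDefs

/-!
Wiring for the direct proof of Fermat's Last Theorem for small regular primes:
* `CaseIIGen p K` : the statement of the generalised second case over `𝓞 K`;
* `caseII_int` : the generalised second case implies the second case over `ℤ`;
* `flt_of_caseI_caseII` : first case + second case (with `p ∣ c` only) give the full statement
  for coprime nonzero integers.
-/

set_option autoImplicit false

namespace Fermat.Agent.Lib.KummerWiring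

open NumberField Fermat.Agent.Lib.KummerDefs

/-- The generalised second case of Fermat's Last Theorem over the `p`-th cyclotomic integers. -/
def CaseIIGen (p : ℕ) [Fact p.Prime] (K : Type*) [Field K] [NumberField K] : Prop :=
  ∀ {ζ : K} (hζ : IsPrimitiveRoot ζ p) (a b c : 𝓞 K) (u : (𝓞 K)ˣ), c ≠ 0 →
    ¬ (hζ.toInteger - 1) ∣ a → ¬ (hζ.toInteger - 1) ∣ b → (hζ.toInteger - 1) ∣ c →
    IsCoprime a b → a ^ p + b ^ p ≠ u * c ^ p

/-- The second case over `ℤ` (with `p ∣ c`) follows from the generalised second case. -/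
theorem caseII_int {p : ℕ} [hp : Fact p.Prime] (hp2 : p ≠ 2) (K : Type*) [Field K] [NumberField K]
    [IsCyclotomicExtension {p} ℚ K] (H : CaseIIGen p K)
    (a b c : ℤ) (hc : c ≠ 0) (ha : ¬ (p : ℤ) ∣ a) (hb : ¬ (p : ℤ) ∣ b) (hcdvd : (p : ℤ) ∣ c)
    (hab : IsCoprime a b) : a ^ p + b ^ p ≠ c ^ p := by
  have hζ := IsCyclotomicExtension.zeta_spec p ℚ K
  intro h
  obtain ⟨x, hx⟩ := hcdvd
  refine H hζ a b c 1 (by simp [hc]) (fun hdvd ↦ ha ?_) (fun hdvd ↦ hb ?_) ?_ ?_ ?_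
  · rwa [← Ideal.norm_dvd_iff (hζ.prime_norm_toInteger_sub_one_of_prime_ne_two' hp2),
      hζ.norm_toInteger_sub_one_of_prime_ne_two' hp2] at hdvd
  · rwa [← Ideal.norm_dvd_iff (hζ.prime_norm_toInteger_sub_one_of_prime_ne_two' hp2),
      hζ.norm_toInteger_sub_one_of_prime_ne_two' hp2] at hdvd
  · exact dvd_trans hζ.toInteger_sub_one_dvd_prime' ⟨(x : 𝓞 K), by rw [hx]; push_cast; ring⟩
  · exact IsCoprime.intCast hab
  · simpa using mod_cast h

/-- If `a ^ p + b ^ p = c ^ p` and `a`, `b` are coprime then `a`, `c` are coprime. -/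
theorem isCoprime_left_of_eq {p : ℕ} (hp : p ≠ 0) {a b c : ℤ} (hab : IsCoprime a b)
    (h : a ^ p + b ^ p = c ^ p) : IsCoprime a c := by
  have h1 : IsCoprime (a ^ p) (b ^ p) := hab.pow
  have h2 : IsCoprime (a ^ p) (c ^ p) := by
    rw [← h]
    have := IsCoprime.add_mul_left_right h1 1
    simpa [add_comm] using this
  exact (IsCoprime.pow_iff (Nat.pos_of_ne_zero hp) (Nat.pos_of_ne_zero hp)).1 h2

/-- First case + second case (only for `p ∣ c`) give Fermat's Last Theorem for the odd prime `p`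
and coprime nonzero integers. -/
theorem flt_of_caseI_caseII {p : ℕ} (hp : p.Prime) (hp2 : p ≠ 2)
    (hI : ∀ a b c : ℤ, IsCoprime a b → ¬ (p : ℤ) ∣ a * b * c → a ^ p + b ^ p ≠ c ^ p)
    (hII : ∀ a b c : ℤ, c ≠ 0 → ¬ (p : ℤ) ∣ a → ¬ (p : ℤ) ∣ b → (p : ℤ) ∣ c → IsCoprime a b →
      a ^ p + b ^ p ≠ c ^ p)
    (a b c : ℤ) (ha : a ≠ 0) (hb : b ≠ 0) (hc : c ≠ 0) (hab : IsCoprime a b) :
    a ^ p + b ^ p ≠ c ^ p := by
  intro h
  have hodd : Odd p := hp.odd_of_ne_two hp2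
  have hpZ : Prime (p : ℤ) := Nat.prime_iff_prime_int.1 hp
  have hac : IsCoprime a c := isCoprime_left_of_eq hp.ne_zero hab h
  have hbc : IsCoprime b c := isCoprime_left_of_eq hp.ne_zero hab.symm (by rw [add_comm]; exact h)
  have hnot : ∀ {x y : ℤ}, IsCoprime x y → (p : ℤ) ∣ x → ¬ (p : ℤ) ∣ y := fun hxy hx hy =>
    hpZ.not_isUnit (hxy.isUnit_of_dvd' hx hy)
  by_cases h1 : (p : ℤ) ∣ a * b * c
  swap
  · exact hI a b c hab h1 h
  rw [hpZ.dvd_mul, hpZ.dvd_mul] at h1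
  rcases h1 with (hpa | hpb) | hpc
  · -- `c ^ p + (-b) ^ p = a ^ p`
    refine hII c (-b) a ha (hnot hac hpa) ?_ hpa hbc.symm.neg_right ?_
    · rw [dvd_neg]; exact hnot hab hpa
    · rw [hodd.neg_pow]; linarith
  · -- `c ^ p + (-a) ^ p = b ^ p`
    refine hII c (-a) b hb (hnot hbc hpb) ?_ hpb hac.symm.neg_right ?_
    · rw [dvd_neg]; exact hnot hab.symm hpb
    · rw [hodd.neg_pow]; linarith
  · exact hII a b c hc (hnot hac.symm hpc) (hnot hbc.symm hpc) hpc hab h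

/-- Packaged form: first case over `ℤ`, Kummer-type second case over `𝓞 K`. -/
theorem flt_of_caseI_caseIIGen {p : ℕ} [hp : Fact p.Prime] (hp2 : p ≠ 2) (K : Type*) [Field K]
    [NumberField K] [IsCyclotomicExtension {p} ℚ K] (H : CaseIIGen p K)
    (hI : ∀ a b c : ℤ, IsCoprime a b → ¬ (p : ℤ) ∣ a * b * c → a ^ p + b ^ p ≠ c ^ p)
    (a b c : ℤ) (ha : a ≠ 0) (hb : b ≠ 0) (hc : c ≠ 0) (hab : IsCoprime a b) :
    a ^ p + b ^ p ≠ c ^ p :=
  flt_of_caseI_caseII hp.out hp2 hI (caseII_int hp2 K H) a b c ha hb hc hab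

end Fermat.Agent.Lib.KummerWiring
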