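import Fermat.Prelude.Def_FLTPrelim_FreyPackage
import Fermat.Agent.Lib.KummerWiring

/-!
A Frey package with exponent `p` contradicts Fermat's Last Theorem for `p`
(in the form: coprime nonzero integers).
-/

set_option autoImplicit false

namespace Fermat.Agent.Lib.KummerFrey

open NumberField Fermat.Agent.Lib.KummerDefs Fermat.Agent.Lib.KummerWiring

theorem isCoprime_of_freyPackage (P : FreyPackage) : IsCoprime P.a P.b := by
  rw [← gcd_isUnit_iff, P.hgcdab]
  exact isUnit_one

/-- A Frey package contradicts Fermat's Last Theorem for its exponent. -/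
theorem false_of_freyPackage (P : FreyPackage)
    (h : ∀ a b c : ℤ, a ≠ 0 → b ≠ 0 → c ≠ 0 → IsCoprime a b → a ^ P.p + b ^ P.p ≠ c ^ P.p) :
    False :=
  h P.a P.b P.c P.ha0 P.hb0 P.hc0 (isCoprime_of_freyPackage P) P.hFLT

/-- A Frey package with exponent `p` is impossible as soon as the first case (over `ℤ`) and the
generalised second case (over the cyclotomic integers) are known for `p`. -/
theorem false_of_freyPackage_of_cases (P : FreyPackage) {p : ℕ} [hp : Fact p.Prime] (hPp : P.p = p)
    (K : Type*) [Field K] [NumberField K] [IsCyclotomicExtension {p} ℚ K] (H : CaseIIGen p K)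
    (hI : ∀ a b c : ℤ, IsCoprime a b → ¬ (p : ℤ) ∣ a * b * c → a ^ p + b ^ p ≠ c ^ p) : False := by
  have hp2 : p ≠ 2 := by
    have := P.hp5
    omega
  refine false_of_freyPackage P fun a b c ha hb hc hab => ?_
  rw [hPp]
  exact flt_of_caseI_caseIIGen hp2 K H hI a b c ha hb hc hab

end Fermat.Agent.Lib.KummerFrey
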