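import Mathlib

/-!
Reduction of the ring of integers of the `p`-th cyclotomic field modulo `p`, and the
logarithmic-derivative lemma used for the explicit proof of Kummer's lemma for small primes.
-/

set_option autoImplicit false

namespace Fermat.Agent.Lib.KummerLogDeriv

open NumberField Polynomial

/-- In characteristic `p`, `Φ_p (1 + X) = X ^ (p - 1)`. -/
theorem cyclotomic_comp_one_add_X (p : ℕ) [hp : Fact p.Prime] :
    (cyclotomic p (ZMod p)).comp (1 + X) = X ^ (p - 1) := by
  have h := cyclotomic_mul_prime_eq_pow_of_not_dvd (ZMod p) (p := p) (n := 1)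
    (by simpa using hp.out.one_lt.ne')
  rw [one_mul, cyclotomic_one] at h
  rw [h]
  simp

/-- Evaluating an integer polynomial at the class of `g` in a quotient of `(ZMod p)[X]`. -/
theorem aeval_mk_eq (p : ℕ) (I : Ideal (ZMod p)[X]) (g : (ZMod p)[X]) (f : ℤ[X]) :
    aeval (Ideal.Quotient.mk I g) f =
      Ideal.Quotient.mk I ((f.map (Int.castRingHom (ZMod p))).comp g) := by
  induction f using Polynomial.induction_on' with
  | add a b ha hb => simp [ha, hb]
  | monomial n a => simp [← C_mul_X_pow_eq_monomial]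

theorem X_pow_dvd_map_of_dvd_aeval {p : ℕ} [Fact p.Prime] {K : Type*} [Field K]
    [NumberField K] [IsCyclotomicExtension {p} ℚ K] {ζ : K} (hζ : IsPrimitiveRoot ζ p)
    (f : ℤ[X]) (h : (p : 𝓞 K) ∣ aeval (hζ.toInteger - 1) f) :
    (X : (ZMod p)[X]) ^ (p - 1) ∣ f.map (Int.castRingHom (ZMod p)) := by
  set I : Ideal (ZMod p)[X] := Ideal.span {X ^ (p - 1)} with hI
  have hmin : minpoly ℤ hζ.integralPowerBasis.gen = cyclotomic p ℤ := by
    rw [hζ.integralPowerBasis_gen, cyclotomic_eq_minpoly hζ (NeZero.pos p),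
      ← RingOfIntegers.minpoly_coe]
    rfl
  have hroot : aeval (Ideal.Quotient.mk I (1 + X)) (minpoly ℤ hζ.integralPowerBasis.gen) = 0 := by
    rw [hmin, aeval_mk_eq, map_cyclotomic, cyclotomic_comp_one_add_X,
      Ideal.Quotient.eq_zero_iff_mem, hI]
    exact Ideal.mem_span_singleton_self _
  let π : 𝓞 K →ₐ[ℤ] ((ZMod p)[X] ⧸ I) := hζ.integralPowerBasis.lift _ hroot
  have hπζ : π hζ.toInteger = Ideal.Quotient.mk I (1 + X) := by
    have := hζ.integralPowerBasis.lift_gen _ hroot
    rwa [hζ.integralPowerBasis_gen] at this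
  have hπ : π (hζ.toInteger - 1) = Ideal.Quotient.mk I X := by
    rw [map_sub, hπζ, map_one, map_add, map_one]; ring
  obtain ⟨w, hw⟩ := h
  have h1 : π (aeval (hζ.toInteger - 1) f) = 0 := by
    rw [hw, map_mul, map_natCast]
    have : ((p : ℕ) : (ZMod p)[X] ⧸ I) = 0 := by
      rw [← map_natCast (Ideal.Quotient.mk I), ← map_natCast (C : ZMod p →+* (ZMod p)[X])]
      simp
    rw [this, zero_mul]
  rw [← aeval_algHom_apply, hπ, aeval_mk_eq, comp_X, Ideal.Quotient.eq_zero_iff_mem, hI,
    Ideal.mem_span_singleton] at h1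
  exact h1

/-- The product rule for `∏ h i ^ e i`, multiplied out to avoid division. -/
theorem prod_mul_derivative_prod_pow {R : Type*} [CommRing R] {ι : Type*} [DecidableEq ι]
    (s : Finset ι) (h : ι → R[X]) (e : ι → ℕ) :
    (∏ i ∈ s, h i) * derivative (∏ i ∈ s, h i ^ e i) =
      (∏ i ∈ s, h i ^ e i) *
        ∑ i ∈ s, C (e i : R) * derivative (h i) * ∏ j ∈ s.erase i, h j := by
  induction s using Finset.induction_on with
  | empty => simp
  | insert a s ha ih =>
    rw [Finset.prod_insert ha, Finset.prod_insert ha, derivative_mul, Finset.sum_insert ha,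
      Finset.erase_insert ha]
    have h2 : ∑ i ∈ s, C (e i : R) * derivative (h i) * ∏ j ∈ (insert a s).erase i, h j =
        h a * ∑ i ∈ s, C (e i : R) * derivative (h i) * ∏ j ∈ s.erase i, h j := by
      rw [Finset.mul_sum]
      refine Finset.sum_congr rfl fun i hi => ?_
      have hia : i ≠ a := fun hh => ha (hh ▸ hi)
      rw [Finset.erase_insert_of_ne hia.symm, Finset.prod_insert (by
        simp [ha])]
      ring
    rw [h2]
    have h3 : h a * derivative (h a ^ e a) = h a ^ e a * (C (e a : R) * derivative (h a)) := by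
      rw [derivative_pow]
      rcases Nat.eq_zero_or_pos (e a) with h0 | h0
      · simp [h0]
      · obtain ⟨m, hm⟩ : ∃ m, e a = m + 1 := ⟨e a - 1, by omega⟩
        rw [hm]
        simp only [Nat.add_sub_cancel, pow_succ]
        ring
    calc (h a * ∏ i ∈ s, h i) * (derivative (h a ^ e a) * ∏ i ∈ s, h i ^ e i +
          h a ^ e a * derivative (∏ i ∈ s, h i ^ e i))
        = (h a * derivative (h a ^ e a)) * (∏ i ∈ s, h i) * ∏ i ∈ s, h i ^ e i +
          h a * h a ^ e a * ((∏ i ∈ s, h i) * derivative (∏ i ∈ s, h i ^ e i)) := by ring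
      _ = _ := by rw [h3, ih]; ring

theorem X_pow_dvd_logDeriv {p : ℕ} [Fact p.Prime] {n : ℕ} (h : Fin n → (ZMod p)[X])
    (h0 : ∀ i, (h i).coeff 0 ≠ 0) (e : Fin n → ℕ) (c : ZMod p) {k : ℕ}
    (hd : (X : (ZMod p)[X]) ^ (k + 1) ∣ ∏ i, h i ^ e i - C c) :
    (X : (ZMod p)[X]) ^ k ∣
      ∑ i, C (e i : ZMod p) * derivative (h i) * ∏ j ∈ Finset.univ.erase i, h j := by
  have hder : (X : (ZMod p)[X]) ^ k ∣ derivative (∏ i, h i ^ e i) := by
    obtain ⟨g, hg⟩ := hd
    have : ∏ i, h i ^ e i = X ^ (k + 1) * g + C c := by rw [← hg]; ring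
    rw [this, derivative_add, derivative_C, add_zero, derivative_mul, derivative_X_pow]
    refine dvd_add ?_ ?_
    · simp only [Nat.add_sub_cancel]
      exact Dvd.dvd.mul_right (Dvd.dvd.mul_left dvd_rfl _) _
    · rw [pow_succ, mul_assoc]; exact dvd_mul_right _ _
  have hid := prod_mul_derivative_prod_pow Finset.univ h e
  have hdvd : (X : (ZMod p)[X]) ^ k ∣ (∏ i, h i ^ e i) *
      ∑ i, C (e i : ZMod p) * derivative (h i) * ∏ j ∈ Finset.univ.erase i, h j := by
    rw [← hid]; exact Dvd.dvd.mul_left hder _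
  have hX : ¬ (X : (ZMod p)[X]) ∣ ∏ i, h i ^ e i := by
    intro hx
    obtain ⟨i, -, hi⟩ := (Polynomial.prime_X).exists_mem_finset_dvd hx
    have := (Polynomial.prime_X).dvd_of_dvd_pow hi
    rw [X_dvd_iff] at this
    exact h0 i this
  exact (Polynomial.prime_X).pow_dvd_of_dvd_mul_left k hX hdvd

end Fermat.Agent.Lib.KummerLogDeriv
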