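import Fermat.Agent.Lib.KummerDefs

/-!
Dirichlet counting: `(p-1)/2` units of the `p`-th cyclotomic field which are independent modulo
"rational integers mod `p`" generate the units modulo `p`-th powers, hence Kummer's lemma holds.
-/

set_option autoImplicit false

namespace Fermat.Agent.Lib.KummerUnits

open NumberField Fermat.Agent.Lib.KummerDefs

section Abstract

variable {E : Type*} [CommGroup E] (p : ℕ)

/-- The map `(ι → Fin p) → E / E^p` attached to a finite family of elements of `E`. -/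
def expMap {ι : Type*} [Fintype ι] (γ : ι → E) (e : ι → Fin p) :
    E ⧸ (powMonoidHom p : E →* E).range :=
  QuotientGroup.mk (∏ i, γ i ^ (e i : ℕ))

lemma expMap_surjective {ι : Type*} [Fintype ι] [NeZero p] (γ : ι → E)
    (h : ∀ u : E, ∃ k : ι → ℤ, u = ∏ i, γ i ^ k i) :
    Function.Surjective (expMap p γ) := by
  intro q
  obtain ⟨u, rfl⟩ := QuotientGroup.mk_surjective q
  obtain ⟨k, rfl⟩ := h u
  have hp0 : (p : ℤ) ≠ 0 := by exact_mod_cast NeZero.ne p
  have hppos : (0 : ℤ) < p := by exact_mod_cast Nat.pos_of_ne_zero (NeZero.ne p)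
  refine ⟨fun i => ⟨(k i % p).toNat, ?_⟩, ?_⟩
  · have h1 := Int.emod_nonneg (k i) hp0
    have h2 := Int.emod_lt_of_pos (k i) hppos
    omega
  · rw [expMap, QuotientGroup.eq]
    refine ⟨∏ i, γ i ^ (k i / p), ?_⟩
    rw [powMonoidHom_apply, ← Finset.prod_pow, ← Finset.prod_inv_distrib,
      ← Finset.prod_mul_distrib]
    refine Finset.prod_congr rfl fun i _ => ?_
    have h1 := Int.emod_nonneg (k i) hp0
    rw [← zpow_natCast, ← zpow_natCast, ← zpow_mul, ← zpow_neg, ← zpow_add]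
    congr 1
    simp only [Int.toNat_of_nonneg h1]
    have := Int.emod_add_mul_ediv (k i) p
    linarith

end Abstract

theorem kummerLemma_of_independent {p : ℕ} [Fact p.Prime] {K : Type*} [Field K]
    [NumberField K] [IsCyclotomicExtension {p} ℚ K] {n : ℕ} (hn : 2 * n + 1 = p)
    (η : Fin n → (𝓞 K)ˣ)
    (hη : ∀ e : Fin n → ℕ,
      (∃ m : ℤ, (p : 𝓞 K) ∣ ((∏ i, η i ^ e i : (𝓞 K)ˣ) : 𝓞 K) - (m : 𝓞 K)) → ∀ i, p ∣ e i) :
    KummerLemma p K := by
  classical
  have hp : p.Prime := Fact.out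
  have hp1 := hp.one_lt
  have hp3 : 2 < p := by omega
  have : NeZero p := ⟨hp.ne_zero⟩
  have hrank : Units.rank K + 1 = n := by
    dsimp only [Units.rank]
    rw [InfinitePlace.card_eq_nrRealPlaces_add_nrComplexPlaces,
      IsCyclotomicExtension.Rat.nrRealPlaces_eq_zero (n := p) K hp3, zero_add,
      IsCyclotomicExtension.Rat.nrComplexPlaces_eq_totient_div_two (n := p),
      Nat.totient_prime hp]
    omega
  -- a generating family with `rank + 1` elements
  obtain ⟨g, hg⟩ := IsCyclic.exists_generator (α := Units.torsion K)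
  let γ : Option (Fin (Units.rank K)) → (𝓞 K)ˣ := fun o =>
    match o with
    | none => (g : (𝓞 K)ˣ)
    | some i => Units.fundSystem K i
  have hγ : ∀ u : (𝓞 K)ˣ, ∃ k : Option (Fin (Units.rank K)) → ℤ, u = ∏ i, γ i ^ k i := by
    intro u
    obtain ⟨⟨t, f⟩, hu, -⟩ := Units.exist_unique_eq_mul_prod K u
    obtain ⟨k0, hk0⟩ := Subgroup.mem_zpowers_iff.mp (hg t)
    refine ⟨fun o => match o with
      | none => k0
      | some i => f i, ?_⟩
    rw [Fintype.prod_option]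
    simp only [γ]
    rw [hu, ← hk0]
    simp
  have hsurj := expMap_surjective p γ hγ
  have : Finite ((𝓞 K)ˣ ⧸ (powMonoidHom p : (𝓞 K)ˣ →* (𝓞 K)ˣ).range) :=
    Finite.of_surjective _ hsurj
  have hcard : Nat.card ((𝓞 K)ˣ ⧸ (powMonoidHom p : (𝓞 K)ˣ →* (𝓞 K)ˣ).range) ≤
      Nat.card (Fin n → Fin p) := by
    refine (Nat.card_le_card_of_surjective _ hsurj).trans (le_of_eq ?_)
    simp only [Nat.card_eq_fintype_card, Fintype.card_fun, Fintype.card_fin, Fintype.card_option]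
    rw [hrank]
  -- injectivity for `η`
  have hinj : Function.Injective (expMap p η) := by
    intro e e' hee
    rw [expMap, expMap, QuotientGroup.eq] at hee
    obtain ⟨v, hv⟩ := hee
    rw [powMonoidHom_apply] at hv
    have key : (∏ i, η i ^ ((e' i : ℕ) + (p - (e i : ℕ))) : (𝓞 K)ˣ) = (v * ∏ i, η i) ^ p := by
      rw [mul_pow, hv, ← Finset.prod_pow, mul_assoc, ← Finset.prod_mul_distrib,
        ← Finset.prod_inv_distrib, ← Finset.prod_mul_distrib]
      refine Finset.prod_congr rfl fun i _ => ?_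
      have hi : (e i : ℕ) ≤ p := (e i).2.le
      rw [pow_add, pow_sub _ hi]
      rw [mul_comm ((η i ^ (e i : ℕ))⁻¹), mul_assoc]
    obtain ⟨m, hm⟩ := exists_int_dvd_pow_sub (p := p) (K := K)
      (((v * ∏ i, η i : (𝓞 K)ˣ)) : 𝓞 K)
    have hdiv := hη (fun i => (e' i : ℕ) + (p - (e i : ℕ))) ⟨m, by
      rw [key]; simpa using hm⟩
    funext i
    have h1 := hdiv i
    have h2 := (e i).2
    have h3 := (e' i).2
    obtain ⟨c, hc⟩ := h1
    apply Fin.ext
    have hc1 : c = 1 := by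
      have hlt : p * c < p * 2 := by rw [← hc]; omega
      have hgt : p * 0 < p * c := by rw [← hc]; omega
      have := Nat.lt_of_mul_lt_mul_left hlt
      have := Nat.lt_of_mul_lt_mul_left hgt
      omega
    rw [hc1] at hc
    omega
  have hbij := hinj.bijective_of_nat_card_le hcard
  -- Kummer's lemma
  rintro u ⟨m, hm⟩
  obtain ⟨e, he⟩ := hbij.2 (QuotientGroup.mk u)
  rw [expMap, QuotientGroup.eq] at he
  obtain ⟨v, hv⟩ := he
  rw [powMonoidHom_apply] at hv
  have hprod : (∏ i, η i ^ (e i : ℕ) : (𝓞 K)ˣ) = u * (v⁻¹) ^ p := by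
    rw [inv_pow, hv]
    simp
  obtain ⟨k', hk'⟩ := exists_int_dvd_pow_sub (p := p) (K := K) ((v⁻¹ : (𝓞 K)ˣ) : 𝓞 K)
  have hdiv := hη (fun i => (e i : ℕ)) ⟨m * k', by
    rw [hprod]
    have : ((u * v⁻¹ ^ p : (𝓞 K)ˣ) : 𝓞 K) - ((m * k' : ℤ) : 𝓞 K) =
        ((u : 𝓞 K) - m) * ((v⁻¹ : (𝓞 K)ˣ) : 𝓞 K) ^ p +
          m * (((v⁻¹ : (𝓞 K)ˣ) : 𝓞 K) ^ p - k') := by
      push_cast; ring
    rw [this]
    exact dvd_add (Dvd.dvd.mul_right hm _) (Dvd.dvd.mul_left hk' _)⟩
  have he0 : ∀ i, (e i : ℕ) = 0 := fun i =>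
    Nat.eq_zero_of_dvd_of_lt (hdiv i) (e i).2
  refine ⟨v, ?_⟩
  rw [hv]
  simp [he0]

end Fermat.Agent.Lib.KummerUnits
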