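import Fermat.Agent.Lib.KummerUnits
import Fermat.Agent.Lib.KummerLogDeriv

/-!
Kummer's lemma for `p = 13`: explicit independence of the cyclotomic units
`ζ, 1 + ζ, .., 1 + ζ + .. + ζ ^ 5` modulo rational integers mod `13`.
(file produced by a small script, generic in `p`)
-/

set_option autoImplicit false

namespace Fermat.Agent.Lib.KummerUnits13

open NumberField Polynomial Fermat.Agent.Lib.KummerDefs Fermat.Agent.Lib.KummerUnits
  Fermat.Agent.Lib.KummerLogDeriv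

/-- The polynomials `1 + X` and `((1 + X) ^ a - 1) / X` for `a = 2, .., 6`, expanded. -/
noncomputable def hpoly (R : Type*) [CommRing R] : Fin 6 → R[X] :=
  ![1 + X,
    2 + X,
    3 + 3 * X + X ^ 2,
    4 + 6 * X + 4 * X ^ 2 + X ^ 3,
    5 + 10 * X + 10 * X ^ 2 + 5 * X ^ 3 + X ^ 4,
    6 + 15 * X + 20 * X ^ 2 + 15 * X ^ 3 + 6 * X ^ 4 + X ^ 5]

theorem logDeriv_expand {R : Type*} [CommRing R] (a : Fin 6 → R) :
    ∑ i, C (a i) * derivative (hpoly R i) * ∏ j ∈ Finset.univ.erase i, hpoly R j =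
      C (720 * a 0 + 360 * a 1 + 720 * a 2 + 1080 * a 3 + 1440 * a 4 + 1800 * a 5) +
      C (5400 * a 0 + 2880 * a 1 + 5880 * a 2 + 9000 * a 3 + 12240 * a 4 + 15600 * a 5) * X +
      C (20100 * a 0 + 11310 * a 1 + 23460 * a 2 + 36450 * a 3 + 50280 * a 4 + 64950 * a 5) * X ^ 2 +
      C (48750 * a 0 + 28770 * a 1 + 60430 * a 2 + 94920 * a 3 + 132156 * a 4 + 172030 * a 5) * X ^ 3 +
      C (85514 * a 0 + 52747 * a 1 + 111914 * a 2 + 177141 * a 3 + 247924 * a 4 + 323615 * a 5) * X ^ 4 +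
      C (114257 * a 0 + 73512 * a 1 + 157223 * a 2 + 250078 * a 3 + 350660 * a 4 + 457250 * a 5) * X ^ 5 +
      C (119573 * a 0 + 80159 * a 1 + 172483 * a 2 + 274997 * a 3 + 385236 * a 4 + 500545 * a 5) * X ^ 6 +
      C (99426 * a 0 + 69420 * a 1 + 149995 * a 2 + 239128 * a 3 + 333895 * a 4 + 431656 * a 5) * X ^ 7 +
      C (66014 * a 0 + 48010 * a 1 + 103950 * a 2 + 165322 * a 3 + 229676 * a 4 + 295254 * a 5) * X ^ 8 +
      C (34900 * a 0 + 26452 * a 1 + 57259 * a 2 + 90640 * a 3 + 125139 * a 4 + 159970 * a 5) * X ^ 9 +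
      C (14536 * a 0 + 11492 * a 1 + 24803 * a 2 + 38998 * a 3 + 53475 * a 4 + 68006 * a 5) * X ^ 10 +
      C (4674 * a 0 + 3859 * a 1 + 8278 * a 2 + 12905 * a 3 + 17575 * a 4 + 22249 * a 5) * X ^ 11 +
      C (1121 * a 0 + 968 * a 1 + 2056 * a 2 + 3174 * a 3 + 4295 * a 4 + 5416 * a 5) * X ^ 12 +
      C (189 * a 0 + 171 * a 1 + 358 * a 2 + 547 * a 3 + 736 * a 4 + 925 * a 5) * X ^ 13 +
      C (20 * a 0 + 19 * a 1 + 39 * a 2 + 59 * a 3 + 79 * a 4 + 99 * a 5) * X ^ 14 +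
      C (1 * a 0 + 1 * a 1 + 2 * a 2 + 3 * a 3 + 4 * a 4 + 5 * a 5) * X ^ 15 := by
  have e0 : (Finset.univ.erase (0 : Fin 6)) = {1, 2, 3, 4, 5} := by decide
  have e1 : (Finset.univ.erase (1 : Fin 6)) = {0, 2, 3, 4, 5} := by decide
  have e2 : (Finset.univ.erase (2 : Fin 6)) = {0, 1, 3, 4, 5} := by decide
  have e3 : (Finset.univ.erase (3 : Fin 6)) = {0, 1, 2, 4, 5} := by decide
  have e4 : (Finset.univ.erase (4 : Fin 6)) = {0, 1, 2, 3, 5} := by decide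
  have e5 : (Finset.univ.erase (5 : Fin 6)) = {0, 1, 2, 3, 4} := by decide
  rw [Fin.sum_univ_six, e0, e1, e2, e3, e4, e5]
  simp [hpoly, Finset.prod_insert, derivative_pow]
  simp only [map_ofNat C]
  ring

theorem coeff_expand {R : Type*} [CommRing R] (b0 b1 b2 b3 b4 b5 b6 b7 b8 b9 b10 b11 b12 b13 b14 b15 : R) (d : ℕ) :
    (C b0 + C b1 * X + C b2 * X ^ 2 + C b3 * X ^ 3 + C b4 * X ^ 4 + C b5 * X ^ 5 + C b6 * X ^ 6 + C b7 * X ^ 7 + C b8 * X ^ 8 + C b9 * X ^ 9 + C b10 * X ^ 10 + C b11 * X ^ 11 + C b12 * X ^ 12 + C b13 * X ^ 13 + C b14 * X ^ 14 + C b15 * X ^ 15 : R[X]).coeff d =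
      (if d = 0 then b0 else 0) + (if d = 1 then b1 else 0) + (if d = 2 then b2 else 0) + (if d = 3 then b3 else 0) + (if d = 4 then b4 else 0) + (if d = 5 then b5 else 0) + (if d = 6 then b6 else 0) + (if d = 7 then b7 else 0) + (if d = 8 then b8 else 0) + (if d = 9 then b9 else 0) + (if d = 10 then b10 else 0) + (if d = 11 then b11 else 0) + (if d = 12 then b12 else 0) + (if d = 13 then b13 else 0) + (if d = 14 then b14 else 0) + (if d = 15 then b15 else 0) := by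
  simp only [coeff_add, coeff_C_mul, coeff_X_pow, coeff_X, coeff_C, mul_ite, mul_one, mul_zero]
  simp only [eq_comm]

theorem hpoly_coeff_zero_ne (i : Fin 6) : (hpoly (ZMod 13) i).coeff 0 ≠ 0 := by
  fin_cases i <;> simp [hpoly] <;> decide

theorem core [Fact (Nat.Prime 13)] (e : Fin 6 → ℕ) (c : ZMod 13)
    (hd : (X : (ZMod 13)[X]) ^ 12 ∣ ∏ i, hpoly (ZMod 13) i ^ e i - C c) : ∀ i, 13 ∣ e i := by
  have h0 := hpoly_coeff_zero_ne
  have hS := X_pow_dvd_logDeriv (hpoly (ZMod 13)) h0 e c (k := 11) hd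
  rw [logDeriv_expand (fun i => (e i : ZMod 13)), X_pow_dvd_iff] at hS
  have c0 := hS 0 (by norm_num)
  have c1 := hS 1 (by norm_num)
  have c3 := hS 3 (by norm_num)
  have c5 := hS 5 (by norm_num)
  have c7 := hS 7 (by norm_num)
  have c9 := hS 9 (by norm_num)
  simp only [coeff_expand] at c0 c1 c3 c5 c7 c9
  norm_num at c0 c1 c3 c5 c7 c9
  have hp : ((13 : ℕ) : ZMod 13) = 0 := ZMod.natCast_self 13
  push_cast at hp
  intro i
  rw [← ZMod.natCast_eq_zero_iff]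
  fin_cases i
  · show ((e 0 : ℕ) : ZMod 13) = 0
    linear_combination 10 * c0 + 6 * c1 + 10 * c3 + 11 * c5 + 8 * c7 + 6 * c9 - (214518 * (e 0 : ZMod 13) + 140868 * (e 1 : ZMod 13) + 301519 * (e 2 : ZMod 13) + 478594 * (e 3 : ZMod 13) + 668358 * (e 4 : ZMod 13) + 867286 * (e 5 : ZMod 13)) * hp
  · show ((e 1 : ℕ) : ZMod 13) = 0
    linear_combination 12 * c0 + 1 * c1 + 5 * c3 + 9 * c5 + 3 * c7 + 9 * c9 - (146037 * (e 0 : ZMod 13) + 96845 * (e 1 : ZMod 13) + 207461 * (e 2 : ZMod 13) + 329262 * (e 3 : ZMod 13) + 459552 * (e 4 : ZMod 13) + 595946 * (e 5 : ZMod 13)) * hp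
  · show ((e 2 : ℕ) : ZMod 13) = 0
    linear_combination 12 * c0 + 10 * c1 + 5 * c3 + 5 * c5 + 7 * c7 + 4 * c9 - (131789 * (e 0 : ZMod 13) + 87406 * (e 1 : ZMod 13) + 187285 * (e 2 : ZMod 13) + 297262 * (e 3 : ZMod 13) + 414737 * (e 4 : ZMod 13) + 537344 * (e 5 : ZMod 13)) * hp
  · show ((e 3 : ℕ) : ZMod 13) = 0
    linear_combination 10 * c0 + 5 * c1 + 6 * c3 + 12 * c5 + 7 * c7 + 10 * c9 - (210982 * (e 0 : ZMod 13) + 140248 * (e 1 : ZMod 13) + 300647 * (e 2 : ZMod 13) + 477427 * (e 3 : ZMod 13) + 666547 * (e 4 : ZMod 13) + 864344 * (e 5 : ZMod 13)) * hp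
  · show ((e 4 : ℕ) : ZMod 13) = 0
    linear_combination 11 * c0 + 3 * c1 + 2 * c3 + 5 * c5 + 1 * c9 - (55985 * (e 0 : ZMod 13) + 35704 * (e 1 : ZMod 13) + 76138 * (e 2 : ZMod 13) + 120750 * (e 3 : ZMod 13) + 168870 * (e 4 : ZMod 13) + 219760 * (e 5 : ZMod 13)) * hp
  · show ((e 5 : ℕ) : ZMod 13) = 0
    linear_combination 11 * c0 + 1 * c1 + 6 * c3 + 4 * c5 + 10 * c7 + 3 * c9 - (143216 * (e 0 : ZMod 13) + 95928 * (e 1 : ZMod 13) + 205923 * (e 2 : ZMod 13) + 327224 * (e 3 : ZMod 13) + 456771 * (e 4 : ZMod 13) + 591773 * (e 5 : ZMod 13)) * hp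

theorem hpoly_map (R : Type*) [CommRing R] (i : Fin 6) :
    (hpoly ℤ i).map (Int.castRingHom R) = hpoly R i := by
  fin_cases i <;> simp [hpoly]

theorem kummerLemma_thirteen (K : Type*) [Field K] [NumberField K]
    [IsCyclotomicExtension {13} ℚ K] : KummerLemma 13 K := by
  have : Fact (Nat.Prime 13) := ⟨by norm_num⟩
  have hζ := IsCyclotomicExtension.zeta_spec 13 ℚ K
  have hzp : IsPrimitiveRoot hζ.toInteger 13 := hζ.toInteger_isPrimitiveRoot
  let η : Fin 6 → (𝓞 K)ˣ :=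
    ![(hzp.isUnit (by norm_num)).unit,
      (hzp.geom_sum_isUnit (j := 2) (by norm_num) (by norm_num)).unit,
      (hzp.geom_sum_isUnit (j := 3) (by norm_num) (by norm_num)).unit,
      (hzp.geom_sum_isUnit (j := 4) (by norm_num) (by norm_num)).unit,
      (hzp.geom_sum_isUnit (j := 5) (by norm_num) (by norm_num)).unit,
      (hzp.geom_sum_isUnit (j := 6) (by norm_num) (by norm_num)).unit]
  have hη : ∀ i, (η i : 𝓞 K) = aeval (hζ.toInteger - 1) (hpoly ℤ i) := by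
    intro i
    fin_cases i <;> simp [η, hpoly, Finset.sum_range_succ, map_ofNat] <;> ring
  refine kummerLemma_of_independent (n := 6) (by norm_num) η ?_
  rintro e ⟨m, hm⟩
  have h1 : ((∏ i, η i ^ e i : (𝓞 K)ˣ) : 𝓞 K) - (m : 𝓞 K) =
      aeval (hζ.toInteger - 1) (∏ i, hpoly ℤ i ^ e i - C m) := by
    simp [Units.coe_prod, hη, map_prod]
  rw [h1] at hm
  have h2 := X_pow_dvd_map_of_dvd_aeval hζ _ hm
  have h3 : (∏ i, hpoly ℤ i ^ e i - C m).map (Int.castRingHom (ZMod 13)) =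
      ∏ i, hpoly (ZMod 13) i ^ e i - C (m : ZMod 13) := by
    simp [Polynomial.map_prod, hpoly_map]
  rw [h3] at h2
  exact core e _ h2

end Fermat.Agent.Lib.KummerUnits13
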