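import Fermat.Agent.Lib.KummerUnits
import Fermat.Agent.Lib.KummerLogDeriv

/-!
Kummer's lemma for `p = 5`: explicit independence of the cyclotomic units
`ζ, 1 + ζ, .., 1 + ζ + .. + ζ ^ 1` modulo rational integers mod `5`.
(file produced by a small script, generic in `p`)
-/

set_option autoImplicit false

namespace Fermat.Agent.Lib.KummerUnits5

open NumberField Polynomial Fermat.Agent.Lib.KummerDefs Fermat.Agent.Lib.KummerUnits
  Fermat.Agent.Lib.KummerLogDeriv

/-- The polynomials `1 + X` and `((1 + X) ^ a - 1) / X` for `a = 2, .., 2`, expanded. -/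
noncomputable def hpoly (R : Type*) [CommRing R] : Fin 2 → R[X] :=
  ![1 + X,
    2 + X]

theorem logDeriv_expand {R : Type*} [CommRing R] (a : Fin 2 → R) :
    ∑ i, C (a i) * derivative (hpoly R i) * ∏ j ∈ Finset.univ.erase i, hpoly R j =
      C (2 * a 0 + 1 * a 1) +
      C (1 * a 0 + 1 * a 1) * X := by
  have e0 : (Finset.univ.erase (0 : Fin 2)) = {1} := by decide
  have e1 : (Finset.univ.erase (1 : Fin 2)) = {0} := by decide
  rw [Fin.sum_univ_two, e0, e1]
  simp [hpoly, Finset.prod_insert, derivative_pow]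
  simp only [map_ofNat C]
  ring

theorem coeff_expand {R : Type*} [CommRing R] (b0 b1 : R) (d : ℕ) :
    (C b0 + C b1 * X : R[X]).coeff d =
      (if d = 0 then b0 else 0) + (if d = 1 then b1 else 0) := by
  simp only [coeff_add, coeff_C_mul, coeff_X_pow, coeff_X, coeff_C, mul_ite, mul_one, mul_zero]
  simp only [eq_comm]

theorem hpoly_coeff_zero_ne (i : Fin 2) : (hpoly (ZMod 5) i).coeff 0 ≠ 0 := by
  fin_cases i <;> simp [hpoly] <;> decide

theorem core [Fact (Nat.Prime 5)] (e : Fin 2 → ℕ) (c : ZMod 5)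
    (hd : (X : (ZMod 5)[X]) ^ 4 ∣ ∏ i, hpoly (ZMod 5) i ^ e i - C c) : ∀ i, 5 ∣ e i := by
  have h0 := hpoly_coeff_zero_ne
  have hS := X_pow_dvd_logDeriv (hpoly (ZMod 5)) h0 e c (k := 3) hd
  rw [logDeriv_expand (fun i => (e i : ZMod 5)), X_pow_dvd_iff] at hS
  have c0 := hS 0 (by norm_num)
  have c1 := hS 1 (by norm_num)
  simp only [coeff_expand] at c0 c1
  norm_num at c0 c1
  have hp : ((5 : ℕ) : ZMod 5) = 0 := ZMod.natCast_self 5
  push_cast at hp
  intro i
  rw [← ZMod.natCast_eq_zero_iff]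
  fin_cases i
  · show ((e 0 : ℕ) : ZMod 5) = 0
    linear_combination 1 * c0 + 4 * c1 - (1 * (e 0 : ZMod 5) + 1 * (e 1 : ZMod 5)) * hp
  · show ((e 1 : ℕ) : ZMod 5) = 0
    linear_combination 4 * c0 + 2 * c1 - (2 * (e 0 : ZMod 5) + 1 * (e 1 : ZMod 5)) * hp

theorem hpoly_map (R : Type*) [CommRing R] (i : Fin 2) :
    (hpoly ℤ i).map (Int.castRingHom R) = hpoly R i := by
  fin_cases i <;> simp [hpoly]

theorem kummerLemma_five (K : Type*) [Field K] [NumberField K]
    [IsCyclotomicExtension {5} ℚ K] : KummerLemma 5 K := by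
  have : Fact (Nat.Prime 5) := ⟨by norm_num⟩
  have hζ := IsCyclotomicExtension.zeta_spec 5 ℚ K
  have hzp : IsPrimitiveRoot hζ.toInteger 5 := hζ.toInteger_isPrimitiveRoot
  let η : Fin 2 → (𝓞 K)ˣ :=
    ![(hzp.isUnit (by norm_num)).unit,
      (hzp.geom_sum_isUnit (j := 2) (by norm_num) (by norm_num)).unit]
  have hη : ∀ i, (η i : 𝓞 K) = aeval (hζ.toInteger - 1) (hpoly ℤ i) := by
    intro i
    fin_cases i <;> simp [η, hpoly, Finset.sum_range_succ, map_ofNat] <;> ring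
  refine kummerLemma_of_independent (n := 2) (by norm_num) η ?_
  rintro e ⟨m, hm⟩
  have h1 : ((∏ i, η i ^ e i : (𝓞 K)ˣ) : 𝓞 K) - (m : 𝓞 K) =
      aeval (hζ.toInteger - 1) (∏ i, hpoly ℤ i ^ e i - C m) := by
    simp [Units.coe_prod, hη, map_prod]
  rw [h1] at hm
  have h2 := X_pow_dvd_map_of_dvd_aeval hζ _ hm
  have h3 : (∏ i, hpoly ℤ i ^ e i - C m).map (Int.castRingHom (ZMod 5)) =
      ∏ i, hpoly (ZMod 5) i ^ e i - C (m : ZMod 5) := by
    simp [Polynomial.map_prod, hpoly_map]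
  rw [h3] at h2
  exact core e _ h2

end Fermat.Agent.Lib.KummerUnits5
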