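import Fermat.Agent.Lib.KummerUnits
import Fermat.Agent.Lib.KummerLogDeriv

/-!
Kummer's lemma for `p = 7`: explicit independence of the cyclotomic units
`ζ, 1 + ζ, .., 1 + ζ + .. + ζ ^ 2` modulo rational integers mod `7`.
(file produced by a small script, generic in `p`)
-/

set_option autoImplicit false

namespace Fermat.Agent.Lib.KummerUnits7

open NumberField Polynomial Fermat.Agent.Lib.KummerDefs Fermat.Agent.Lib.KummerUnits
  Fermat.Agent.Lib.KummerLogDeriv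

/-- The polynomials `1 + X` and `((1 + X) ^ a - 1) / X` for `a = 2, .., 3`, expanded. -/
noncomputable def hpoly (R : Type*) [CommRing R] : Fin 3 → R[X] :=
  ![1 + X,
    2 + X,
    3 + 3 * X + X ^ 2]

theorem logDeriv_expand {R : Type*} [CommRing R] (a : Fin 3 → R) :
    ∑ i, C (a i) * derivative (hpoly R i) * ∏ j ∈ Finset.univ.erase i, hpoly R j =
      C (6 * a 0 + 3 * a 1 + 6 * a 2) +
      C (9 * a 0 + 6 * a 1 + 13 * a 2) * X +
      C (5 * a 0 + 4 * a 1 + 9 * a 2) * X ^ 2 +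
      C (1 * a 0 + 1 * a 1 + 2 * a 2) * X ^ 3 := by
  have e0 : (Finset.univ.erase (0 : Fin 3)) = {1, 2} := by decide
  have e1 : (Finset.univ.erase (1 : Fin 3)) = {0, 2} := by decide
  have e2 : (Finset.univ.erase (2 : Fin 3)) = {0, 1} := by decide
  rw [Fin.sum_univ_three, e0, e1, e2]
  simp [hpoly, Finset.prod_insert, derivative_pow]
  simp only [map_ofNat C]
  ring

theorem coeff_expand {R : Type*} [CommRing R] (b0 b1 b2 b3 : R) (d : ℕ) :
    (C b0 + C b1 * X + C b2 * X ^ 2 + C b3 * X ^ 3 : R[X]).coeff d =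
      (if d = 0 then b0 else 0) + (if d = 1 then b1 else 0) + (if d = 2 then b2 else 0) + (if d = 3 then b3 else 0) := by
  simp only [coeff_add, coeff_C_mul, coeff_X_pow, coeff_X, coeff_C, mul_ite, mul_one, mul_zero]
  simp only [eq_comm]

theorem hpoly_coeff_zero_ne (i : Fin 3) : (hpoly (ZMod 7) i).coeff 0 ≠ 0 := by
  fin_cases i <;> simp [hpoly] <;> decide

theorem core [Fact (Nat.Prime 7)] (e : Fin 3 → ℕ) (c : ZMod 7)
    (hd : (X : (ZMod 7)[X]) ^ 6 ∣ ∏ i, hpoly (ZMod 7) i ^ e i - C c) : ∀ i, 7 ∣ e i := by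
  have h0 := hpoly_coeff_zero_ne
  have hS := X_pow_dvd_logDeriv (hpoly (ZMod 7)) h0 e c (k := 5) hd
  rw [logDeriv_expand (fun i => (e i : ZMod 7)), X_pow_dvd_iff] at hS
  have c0 := hS 0 (by norm_num)
  have c1 := hS 1 (by norm_num)
  have c3 := hS 3 (by norm_num)
  simp only [coeff_expand] at c0 c1 c3
  norm_num at c0 c1 c3
  have hp : ((7 : ℕ) : ZMod 7) = 0 := ZMod.natCast_self 7
  push_cast at hp
  intro i
  rw [← ZMod.natCast_eq_zero_iff]
  fin_cases i
  · show ((e 0 : ℕ) : ZMod 7) = 0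
    linear_combination 5 * c0 + 6 * c3 - (5 * (e 0 : ZMod 7) + 3 * (e 1 : ZMod 7) + 6 * (e 2 : ZMod 7)) * hp
  · show ((e 1 : ℕ) : ZMod 7) = 0
    linear_combination 4 * c0 + 5 * c1 + 1 * c3 - (10 * (e 0 : ZMod 7) + 6 * (e 1 : ZMod 7) + 13 * (e 2 : ZMod 7)) * hp
  · show ((e 2 : ℕ) : ZMod 7) = 0
    linear_combination 6 * c0 + 1 * c1 + 4 * c3 - (7 * (e 0 : ZMod 7) + 4 * (e 1 : ZMod 7) + 8 * (e 2 : ZMod 7)) * hp

theorem hpoly_map (R : Type*) [CommRing R] (i : Fin 3) :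
    (hpoly ℤ i).map (Int.castRingHom R) = hpoly R i := by
  fin_cases i <;> simp [hpoly]

theorem kummerLemma_seven (K : Type*) [Field K] [NumberField K]
    [IsCyclotomicExtension {7} ℚ K] : KummerLemma 7 K := by
  have : Fact (Nat.Prime 7) := ⟨by norm_num⟩
  have hζ := IsCyclotomicExtension.zeta_spec 7 ℚ K
  have hzp : IsPrimitiveRoot hζ.toInteger 7 := hζ.toInteger_isPrimitiveRoot
  let η : Fin 3 → (𝓞 K)ˣ :=
    ![(hzp.isUnit (by norm_num)).unit,
      (hzp.geom_sum_isUnit (j := 2) (by norm_num) (by norm_num)).unit,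
      (hzp.geom_sum_isUnit (j := 3) (by norm_num) (by norm_num)).unit]
  have hη : ∀ i, (η i : 𝓞 K) = aeval (hζ.toInteger - 1) (hpoly ℤ i) := by
    intro i
    fin_cases i <;> simp [η, hpoly, Finset.sum_range_succ, map_ofNat] <;> ring
  refine kummerLemma_of_independent (n := 3) (by norm_num) η ?_
  rintro e ⟨m, hm⟩
  have h1 : ((∏ i, η i ^ e i : (𝓞 K)ˣ) : 𝓞 K) - (m : 𝓞 K) =
      aeval (hζ.toInteger - 1) (∏ i, hpoly ℤ i ^ e i - C m) := by
    simp [Units.coe_prod, hη, map_prod]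
  rw [h1] at hm
  have h2 := X_pow_dvd_map_of_dvd_aeval hζ _ hm
  have h3 : (∏ i, hpoly ℤ i ^ e i - C m).map (Int.castRingHom (ZMod 7)) =
      ∏ i, hpoly (ZMod 7) i ^ e i - C (m : ZMod 7) := by
    simp [Polynomial.map_prod, hpoly_map]
  rw [h3] at h2
  exact core e _ h2

end Fermat.Agent.Lib.KummerUnits7
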