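/-
Owner: helper276.  Universal property of `PSL(2,ℤ) = C₂ * C₃`, phrased for `SL(2,ℤ)`:
for `s u` in a group with `s ^ 2 = 1`, `u ^ 3 = 1` there is a homomorphism
`SL(2,ℤ) →* H` with `S ↦ s`, `S * T ↦ u`.  Proof by the ping-pong lemma on `OnePoint ℚ`.
-/
import Mathlib

set_option autoImplicit false

namespace Fermat.Agent.Lib.PSL2Pres

open Matrix Matrix.SpecialLinearGroup ModularGroup OnePoint Monoid
open scoped MatrixGroups Pointwise Cardinal

/-- The homomorphism from a cyclic group of order `n` determined by an element killed by `n`. -/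
noncomputable def cyc {G : Type*} [Group G] (n : ℕ) (g : G) (hg : g ^ n = 1) :
    Multiplicative (ZMod n) →* G :=
  AddMonoidHom.toMultiplicativeLeft
    (ZMod.lift n ⟨zmultiplesHom (Additive G) (Additive.ofMul g), by
      rw [zmultiplesHom_apply, natCast_zsmul, ← ofMul_pow, hg, ofMul_one]⟩)

theorem cyc_ofAdd_intCast {G : Type*} [Group G] (n : ℕ) (g : G) (hg : g ^ n = 1) (k : ℤ) :
    cyc n g hg (Multiplicative.ofAdd (k : ZMod n)) = g ^ k := by
  simp [cyc]

theorem cyc_ofAdd_one {G : Type*} [Group G] (n : ℕ) (g : G) (hg : g ^ n = 1) :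
    cyc n g hg (Multiplicative.ofAdd (1 : ZMod n)) = g := by
  have := cyc_ofAdd_intCast n g hg 1
  simpa using this

/-- orders of the two factors -/
def ord (b : Bool) : ℕ := cond b 3 2

/-- the two cyclic factors -/
abbrev Fac (b : Bool) : Type := Multiplicative (ZMod (ord b))

/-- a pair of elements as a family -/
def gen {G : Type*} (s u : G) (b : Bool) : G := cond b u s

theorem gen_pow {G : Type*} [Group G] {s u : G} (hs : s ^ 2 = 1) (hu : u ^ 3 = 1) (b : Bool) :
    gen s u b ^ ord b = 1 := by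
  cases b
  · exact hs
  · exact hu

/-- the homomorphism out of the free product `C₂ * C₃` given by `s`, `u`. -/
noncomputable def freeLift {G : Type*} [Group G] {s u : G} (hs : s ^ 2 = 1) (hu : u ^ 3 = 1) :
    CoprodI Fac →* G :=
  CoprodI.lift fun b => cyc (ord b) (gen s u b) (gen_pow hs hu b)

theorem freeLift_of_false {G : Type*} [Group G] {s u : G} (hs : s ^ 2 = 1) (hu : u ^ 3 = 1) :
    freeLift hs hu (CoprodI.of (i := false) (Multiplicative.ofAdd (1 : ZMod (ord false)))) = s := by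
  rw [freeLift, CoprodI.lift_of, cyc_ofAdd_one]; rfl

theorem freeLift_of_true {G : Type*} [Group G] {s u : G} (hs : s ^ 2 = 1) (hu : u ^ 3 = 1) :
    freeLift hs hu (CoprodI.of (i := true) (Multiplicative.ofAdd (1 : ZMod (ord true)))) = u := by
  rw [freeLift, CoprodI.lift_of, cyc_ofAdd_one]; rfl

/-- The action of `SL(2,ℤ)` on `ℙ¹(ℚ)` as a permutation representation. -/
noncomputable def rho : SL(2, ℤ) →* Equiv.Perm (OnePoint ℚ) :=
  (MulAction.toPermHom (GL (Fin 2) ℚ) (OnePoint ℚ)).comp (mapGL ℚ)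

theorem rho_apply_coe (g : SL(2, ℤ)) (k : ℚ) :
    rho g (k : OnePoint ℚ) =
      if ((g 1 0 : ℤ) : ℚ) * k + ((g 1 1 : ℤ) : ℚ) = 0 then ∞
      else ((((g 0 0 : ℤ) : ℚ) * k + ((g 0 1 : ℤ) : ℚ)) /
        (((g 1 0 : ℤ) : ℚ) * k + ((g 1 1 : ℤ) : ℚ)) : ℚ) := by
  show (mapGL ℚ g) • (k : OnePoint ℚ) = _
  rw [smul_some_eq_ite]
  simp [mapGL_coe_matrix]

theorem rho_apply_infty (g : SL(2, ℤ)) :
    rho g (∞ : OnePoint ℚ) =
      if ((g 1 0 : ℤ) : ℚ) = 0 then ∞ else ((((g 0 0 : ℤ) : ℚ) / ((g 1 0 : ℤ) : ℚ) : ℚ)) := by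
  show (mapGL ℚ g) • (∞ : OnePoint ℚ) = _
  rw [smul_infty_eq_ite]
  simp [mapGL_coe_matrix]

theorem rho_neg_one : rho (-1) = 1 := by
  ext x
  induction x using OnePoint.rec with
  | infty => rw [rho_apply_infty]; simp
  | coe k => rw [rho_apply_coe]; simp

theorem S_sq : (S : SL(2, ℤ)) ^ 2 = -1 := by decide

theorem ST_cube : (S * T : SL(2, ℤ)) ^ 3 = -1 := by decide

theorem rho_S_sq : rho S ^ 2 = 1 := by
  rw [← map_pow, S_sq, rho_neg_one]

theorem rho_ST_cube : rho (S * T) ^ 3 = 1 := by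
  rw [← map_pow, ST_cube, rho_neg_one]

/-- positive rationals / negative rationals -/
def pp (b : Bool) : Set (OnePoint ℚ) :=
  {x | ∃ q : ℚ, (cond b (q < 0) (0 < q)) ∧ x = (q : OnePoint ℚ)}

theorem rho_S_neg {q : ℚ} (hq : q < 0) : rho S (q : OnePoint ℚ) ∈ pp false := by
  refine ⟨-1 / q, ?_, ?_⟩
  · show 0 < -1 / q
    exact div_pos_of_neg_of_neg (by norm_num) hq
  · rw [rho_apply_coe]
    have h10 : (S : SL(2, ℤ)) 1 0 = 1 := by decide
    have h11 : (S : SL(2, ℤ)) 1 1 = 0 := by decide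
    have h00 : (S : SL(2, ℤ)) 0 0 = 0 := by decide
    have h01 : (S : SL(2, ℤ)) 0 1 = -1 := by decide
    rw [h10, h11, h00, h01]
    simp [hq.ne]

theorem rho_ST_pos {q : ℚ} (hq : 0 < q) : rho (S * T) (q : OnePoint ℚ) ∈ pp true := by
  refine ⟨-1 / (q + 1), ?_, ?_⟩
  · show -1 / (q + 1) < 0
    exact div_neg_of_neg_of_pos (by norm_num) (by linarith)
  · rw [rho_apply_coe]
    have h10 : (S * T : SL(2, ℤ)) 1 0 = 1 := by decide
    have h11 : (S * T : SL(2, ℤ)) 1 1 = 1 := by decide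
    have h00 : (S * T : SL(2, ℤ)) 0 0 = 0 := by decide
    have h01 : (S * T : SL(2, ℤ)) 0 1 = -1 := by decide
    rw [h10, h11, h00, h01]
    have : q + 1 ≠ 0 := by linarith
    simp [this]

theorem rho_ST_sq_pos {q : ℚ} (hq : 0 < q) : rho ((S * T) ^ 2) (q : OnePoint ℚ) ∈ pp true := by
  refine ⟨(-q - 1) / q, ?_, ?_⟩
  · show (-q - 1) / q < 0
    exact div_neg_of_neg_of_pos (by linarith) hq
  · rw [rho_apply_coe]
    have h10 : ((S * T) ^ 2 : SL(2, ℤ)) 1 0 = 1 := by decide
    have h11 : ((S * T) ^ 2 : SL(2, ℤ)) 1 1 = 0 := by decide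
    have h00 : ((S * T) ^ 2 : SL(2, ℤ)) 0 0 = -1 := by decide
    have h01 : ((S * T) ^ 2 : SL(2, ℤ)) 0 1 = -1 := by decide
    rw [h10, h11, h00, h01]
    simp [hq.ne', sub_eq_add_neg]

/-- the map from the free product to permutations of `ℙ¹(ℚ)` -/
noncomputable def piHom : CoprodI Fac →* Equiv.Perm (OnePoint ℚ) :=
  freeLift rho_S_sq rho_ST_cube

theorem fac_false_cases (h : Fac false) (hh : h ≠ 1) :
    h = Multiplicative.ofAdd (((1 : ℤ) : ZMod (ord false))) := by
  revert h
  show ∀ h : Multiplicative (ZMod 2), h ≠ 1 → h = Multiplicative.ofAdd (((1 : ℤ) : ZMod 2))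
  decide

theorem fac_true_cases (h : Fac true) (hh : h ≠ 1) :
    h = Multiplicative.ofAdd (((1 : ℤ) : ZMod (ord true))) ∨
      h = Multiplicative.ofAdd (((2 : ℤ) : ZMod (ord true))) := by
  revert h
  show ∀ h : Multiplicative (ZMod 3), h ≠ 1 → h = Multiplicative.ofAdd (((1 : ℤ) : ZMod 3)) ∨
    h = Multiplicative.ofAdd (((2 : ℤ) : ZMod 3))
  decide

theorem piHom_injective : Function.Injective piHom := by
  refine CoprodI.lift_injective_of_ping_pong _ (Or.inr ⟨true, ?_⟩) pp ?_ ?_ ?_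
  · show 3 ≤ #(Multiplicative (ZMod 3))
    rw [Cardinal.mk_fintype]
    simp [ZMod.card]
  · intro b
    cases b
    · exact ⟨((1 : ℚ) : OnePoint ℚ), 1, by norm_num, rfl⟩
    · exact ⟨((-1 : ℚ) : OnePoint ℚ), -1, by norm_num, rfl⟩
  · intro a b hab
    rw [Function.onFun, Set.disjoint_left]
    rintro x ⟨q, hq, rfl⟩ ⟨q', hq', hqq⟩
    have hqq' : q = q' := OnePoint.coe_injective hqq
    subst hqq'
    cases a <;> cases b <;> simp_all <;> linarith
  · intro a b hab h hh
    rintro _ ⟨x, ⟨q, hq, rfl⟩, rfl⟩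
    cases a <;> cases b
    · exact absurd rfl hab
    · rw [fac_false_cases h hh, cyc_ofAdd_intCast, zpow_one]
      exact rho_S_neg hq
    · rcases fac_true_cases h hh with rfl | rfl
      · rw [cyc_ofAdd_intCast, zpow_one]
        exact rho_ST_pos hq
      · rw [cyc_ofAdd_intCast]
        have : gen (rho S) (rho (S * T)) true ^ (2 : ℤ) = rho ((S * T) ^ 2) := by
          rw [map_pow]; rfl
        rw [this]
        exact rho_ST_sq_pos hq
    · exact absurd rfl hab

theorem rho_mem_range (g : SL(2, ℤ)) : rho g ∈ piHom.range := by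
  have hS : rho S ∈ piHom.range := ⟨_, freeLift_of_false rho_S_sq rho_ST_cube⟩
  have hU : rho (S * T) ∈ piHom.range := ⟨_, freeLift_of_true rho_S_sq rho_ST_cube⟩
  have hT : rho T ∈ piHom.range := by
    have : rho T = (rho S)⁻¹ * rho (S * T) := by rw [map_mul, inv_mul_cancel_left]
    rw [this]
    exact mul_mem (inv_mem hS) hU
  have hg : g ∈ Subgroup.closure ({S, T} : Set SL(2, ℤ)) := by
    rw [SpecialLinearGroup.SL2Z_generators]; trivial
  induction hg using Subgroup.closure_induction with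
  | mem x hx =>
    rcases hx with rfl | rfl
    · exact hS
    · exact hT
  | one => rw [map_one]; exact one_mem _
  | mul x y _ _ hx hy => rw [map_mul]; exact mul_mem hx hy
  | inv x _ hx => rw [map_inv]; exact inv_mem hx

/-- `SL(2,ℤ) → C₂ * C₃`. -/
noncomputable def toFree : SL(2, ℤ) →* CoprodI Fac :=
  (MonoidHom.ofInjective piHom_injective).symm.toMonoidHom.comp
    (rho.codRestrict piHom.range rho_mem_range)

theorem piHom_toFree (g : SL(2, ℤ)) : piHom (toFree g) = rho g := by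
  have := (MonoidHom.ofInjective piHom_injective).apply_symm_apply
    (rho.codRestrict piHom.range rho_mem_range g)
  exact congrArg Subtype.val this

theorem toFree_S :
    toFree S = CoprodI.of (i := false) (Multiplicative.ofAdd (1 : ZMod (ord false))) := by
  apply piHom_injective
  rw [piHom_toFree]
  exact (freeLift_of_false rho_S_sq rho_ST_cube).symm

theorem toFree_ST :
    toFree (S * T) = CoprodI.of (i := true) (Multiplicative.ofAdd (1 : ZMod (ord true))) := by
  apply piHom_injective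
  rw [piHom_toFree]
  exact (freeLift_of_true rho_S_sq rho_ST_cube).symm

/-- **Universal property of `PSL(2,ℤ) = C₂ * C₃`.** -/
theorem exists_hom {H : Type*} [Group H] (s u : H) (hs : s ^ 2 = 1) (hu : u ^ 3 = 1) :
    ∃ f : SL(2, ℤ) →* H, f S = s ∧ f (S * T) = u :=
  ⟨(freeLift hs hu).comp toFree, by
    rw [MonoidHom.comp_apply, toFree_S, freeLift_of_false], by
    rw [MonoidHom.comp_apply, toFree_ST, freeLift_of_true]⟩

end Fermat.Agent.Lib.PSL2Pres
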