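import Mathlib

/-!
# Representations in which every group element satisfies a quadratic relation

Let `ρ : G →* End κ W` be a representation on a nonzero finite dimensional space, `ω : G →* κˣ`
a character and `t : G → κ` a function with `ρ g ^ 2 - t g • ρ g + ω g = 0` for all `g`
(the shape of the Eichler-Shimura relation, `ω` the cyclotomic character).
If all the polynomials `X ^ 2 - t g X + ω g` have a root in `κ` (e.g. `κ` algebraically closed),
there is a two dimensional representation `ρ'` of `G` with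
`charpoly (ρ' g) = X ^ 2 - t g X + ω g` for **all** `g`, and `ρ' g = 1` whenever `ρ g = 1` and
`ω g = 1`.  No hypothesis on the characteristic.

* `pow_relation`: the relation passes from an operator to all its powers
  (with the Lucas sequence `lucasV`).
* `Rel.t_unique`: `t g` is determined by `ρ g` and `ω g`.
* `Rel.cross`: `gh + hg - t(h) g - t(g) h = t(gh) - t(g) t(h)`.
* `Rel.exists_eigen_or_two`: structural version (a common eigenvector, or an invariant plane
  on which trace and determinant are `t` and `ω`).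
* `Rel.exists_matrix_rep`, `Rel.exists_rep`, `Rel.exists_rep_of_isAlgClosed`: the two dimensional
  representation.
* `Rel.exists_of_generators`: the relation for all `g` from the relation on elements whose powers
  exhaust `G`.
-/

set_option autoImplicit false

namespace Fermat.Agent.Lib.QuadRel

open Polynomial Module

section Pow

variable {R : Type*} [CommRing R] {A : Type*} [Ring A] [Algebra R A]

/-- The Lucas sequence `V_n(τ, w)`: `V_n = α ^ n + β ^ n` if `X ^ 2 - τ X + w = (X - α) (X - β)`. -/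
def lucasV (τ w : R) : ℕ → R
  | 0 => 2
  | 1 => τ
  | (n + 2) => τ * lucasV τ w (n + 1) - w * lucasV τ w n

theorem lucasV_zero (τ w : R) : lucasV τ w 0 = 2 := rfl

theorem lucasV_one (τ w : R) : lucasV τ w 1 = τ := rfl

theorem lucasV_add_two (τ w : R) (n : ℕ) :
    lucasV τ w (n + 2) = τ * lucasV τ w (n + 1) - w * lucasV τ w n := rfl

/-- If `D ^ 2 - τ D + w = 0` then `(D ^ b) ^ 2 - V_b D ^ b + w ^ b = 0`. -/
theorem pow_relation {D : A} {τ w : R} (h : D * D - τ • D + w • (1 : A) = 0) (b : ℕ) :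
    D ^ b * D ^ b - lucasV τ w b • D ^ b + (w ^ b) • (1 : A) = 0 := by
  obtain ⟨E, hE⟩ : ∃ E : A, E = τ • (1 : A) - D := ⟨_, rfl⟩
  have hsum : D + E = τ • (1 : A) := by rw [hE]; abel
  have hDE : D * E = w • (1 : A) := by
    rw [hE, mul_sub, mul_smul_comm, mul_one]
    have : τ • D - D * D = w • (1 : A) - (D * D - τ • D + w • (1 : A)) := by abel
    rw [this, h, sub_zero]
  have hED : E * D = w • (1 : A) := by
    rw [hE, sub_mul, smul_mul_assoc, one_mul]
    have : τ • D - D * D = w • (1 : A) - (D * D - τ • D + w • (1 : A)) := by abel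
    rw [this, h, sub_zero]
  have hV : ∀ n : ℕ, D ^ n + E ^ n = lucasV τ w n • (1 : A) ∧
      D ^ (n + 1) + E ^ (n + 1) = lucasV τ w (n + 1) • (1 : A) := by
    intro n
    induction n with
    | zero =>
      refine ⟨?_, ?_⟩
      · rw [pow_zero, pow_zero, lucasV_zero, two_smul]
      · rw [zero_add, pow_one, pow_one, lucasV_one, hsum]
    | succ n ih =>
      refine ⟨ih.2, ?_⟩
      have key : D ^ (n + 1 + 1) + E ^ (n + 1 + 1)
          = (D + E) * (D ^ (n + 1) + E ^ (n + 1)) - (D * E) * E ^ n - (E * D) * D ^ n := by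
        simp only [pow_succ']
        noncomm_ring
      rw [key, hsum, ih.2, hDE, hED, lucasV_add_two]
      have h2 : w • (1 : A) * E ^ n + w • (1 : A) * D ^ n = w • (lucasV τ w n • (1 : A)) := by
        rw [← ih.1, smul_mul_assoc, smul_mul_assoc, one_mul, one_mul, smul_add, add_comm]
      rw [sub_sub, h2, smul_mul_assoc, one_mul, smul_smul, smul_smul, sub_smul]
  have hP : ∀ n : ℕ, D ^ n * E ^ n = (w ^ n) • (1 : A) := by
    intro n
    induction n with
    | zero => simp
    | succ n ih =>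
      have : D ^ (n + 1) * E ^ (n + 1) = D ^ n * (D * E) * E ^ n := by
        rw [pow_succ, pow_succ']
        noncomm_ring
      rw [this, hDE, mul_smul_comm, mul_one, smul_mul_assoc, ih, smul_smul, pow_succ, mul_comm]
  have h1 : D ^ b = lucasV τ w b • (1 : A) - E ^ b := by
    rw [← (hV b).1]; abel
  calc D ^ b * D ^ b - lucasV τ w b • D ^ b + (w ^ b) • (1 : A)
      = D ^ b * (D ^ b - lucasV τ w b • (1 : A)) + (w ^ b) • (1 : A) := by
        rw [mul_sub, mul_smul_comm, mul_one]
    _ = D ^ b * (-E ^ b) + (w ^ b) • (1 : A) := by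
        congr 2
        rw [h1]; abel
    _ = 0 := by rw [mul_neg, hP b, neg_add_cancel]

end Pow

section Rep

variable {κ : Type*} [Field κ] {G : Type*} [Group G] {W : Type*} [AddCommGroup W] [Module κ W]

/-- Every `ρ g` satisfies `X ^ 2 - t g X + ω g`. -/
def Rel (ρ : G →* Module.End κ W) (ω : G →* κˣ) (t : G → κ) : Prop :=
  ∀ (g : G) (x : W), ρ g (ρ g x) - t g • ρ g x + (ω g : κ) • x = 0

theorem rel_iff (ρ : G →* Module.End κ W) (ω : G →* κˣ) (t : G → κ) :
    Rel ρ ω t ↔ ∀ g, ρ g * ρ g - t g • ρ g + (ω g : κ) • (1 : Module.End κ W) = 0 := by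
  constructor
  · intro h g
    ext x
    simpa using h g x
  · intro h g x
    have := LinearMap.congr_fun (h g) x
    simpa using this

namespace Rel

variable {ρ : G →* Module.End κ W} {ω : G →* κˣ} {t : G → κ}

theorem apply_inv_apply (ρ : G →* Module.End κ W) (g : G) (x : W) : ρ g (ρ g⁻¹ x) = x := by
  rw [← Module.End.mul_apply, ← map_mul, mul_inv_cancel, map_one, Module.End.one_apply]

theorem t_unique [Nontrivial W] (h : Rel ρ ω t) {g : G} {τ : κ}
    (hτ : ∀ x : W, ρ g (ρ g x) - τ • ρ g x + (ω g : κ) • x = 0) : τ = t g := by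
  obtain ⟨x, hx⟩ := exists_ne (0 : W)
  have h1 := h g (ρ g⁻¹ x)
  have h2 := hτ (ρ g⁻¹ x)
  rw [apply_inv_apply] at h1 h2
  have h3 : (τ - t g) • x = 0 := by
    rw [sub_smul]
    have : τ • x - t g • x = (ρ g x - t g • x + (ω g : κ) • ρ g⁻¹ x)
        - (ρ g x - τ • x + (ω g : κ) • ρ g⁻¹ x) := by abel
    rw [this, h1, h2, sub_zero]
  rcases smul_eq_zero.mp h3 with h4 | h4
  · exact sub_eq_zero.mp h4
  · exact absurd h4 hx

theorem star (h : Rel ρ ω t) (g : G) (x : W) : (ω g : κ) • ρ g⁻¹ x = t g • x - ρ g x := by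
  have h1 := h g (ρ g⁻¹ x)
  rw [apply_inv_apply] at h1
  have : (ω g : κ) • ρ g⁻¹ x = (ρ g x - t g • x + (ω g : κ) • ρ g⁻¹ x) + (t g • x - ρ g x) := by
    abel
  rw [this, h1, zero_add]

/-- `g h + h g - t(h) g - t(g) h = t(g h) - t(g) t(h)`. -/
theorem cross (h : Rel ρ ω t) (g k : G) (x : W) :
    ρ g (ρ k x) + ρ k (ρ g x) - t k • ρ g x - t g • ρ k x = (t (g * k) - t g * t k) • x := by
  have h1 := h.star (g * k) x
  rw [map_mul, map_mul, mul_inv_rev, map_mul, Module.End.mul_apply, Module.End.mul_apply,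
    Units.val_mul, mul_comm (ω g : κ), mul_smul, ← map_smul (ρ k⁻¹), h.star g x,
    h.star k] at h1
  rw [map_sub, map_smul, smul_sub, smul_smul] at h1
  rw [sub_smul, mul_comm (t g)]
  have : ρ g (ρ k x) = t (g * k) • x
      - ((t k * t g) • x - t k • ρ g x - (t g • ρ k x - ρ k (ρ g x))) := by
    rw [h1]; abel
  rw [this]; abel

/-- On a minimal invariant subspace `U`, if `u` is an eigenvector of `ρ g` with eigenvalue `lam`
then `ρ g - (t g - lam)` maps `U` into the line of `u`. -/
theorem eigen (h : Rel ρ ω t) {U : Submodule κ W} (hU : ∀ g, ∀ x ∈ U, ρ g x ∈ U)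
    (hmin : ∀ U' : Submodule κ W, U' ≤ U → (∀ g, ∀ x ∈ U', ρ g x ∈ U') → U' = ⊥ ∨ U' = U)
    {g : G} {u : W} {lam : κ} (huU : u ∈ U) (hu : u ≠ 0) (hgu : ρ g u = lam • u) :
    ∀ x ∈ U, ∃ c : κ, ρ g x - (t g - lam) • x = c • u := by
  set S : Submodule κ W := Submodule.span κ (Set.range fun k : G => ρ k u) with hS
  have hSU : S ≤ U := by
    rw [hS, Submodule.span_le]
    rintro _ ⟨k, rfl⟩
    exact hU k u huU
  have hSinv : ∀ g', ∀ x ∈ S, ρ g' x ∈ S := by
    intro g' x hx
    induction hx using Submodule.span_induction with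
    | mem y hy =>
      obtain ⟨k, rfl⟩ := hy
      refine Submodule.subset_span ⟨g' * k, ?_⟩
      simp only [map_mul, Module.End.mul_apply]
    | zero => rw [map_zero]; exact S.zero_mem
    | add y z _ _ hy hz => rw [map_add]; exact S.add_mem hy hz
    | smul a y _ hy => rw [map_smul]; exact S.smul_mem a hy
  have huS : u ∈ S := Submodule.subset_span ⟨1, by simp⟩
  have hSeq : S = U := by
    rcases hmin S hSU hSinv with h0 | h0
    · rw [h0, Submodule.mem_bot] at huS
      exact absurd huS hu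
    · exact h0
  intro x hx
  rw [← hSeq] at hx
  induction hx using Submodule.span_induction with
  | mem y hy =>
    obtain ⟨k, rfl⟩ := hy
    have hc := h.cross g k u
    rw [hgu, map_smul] at hc
    refine ⟨t (g * k) - t g * t k + t k * lam, ?_⟩
    simp only
    rw [add_smul, ← hc, sub_smul, mul_smul]
    abel
  | zero => exact ⟨0, by simp⟩
  | add y z _ _ hy hz =>
    obtain ⟨c, hc⟩ := hy
    obtain ⟨d, hd⟩ := hz
    refine ⟨c + d, ?_⟩
    rw [add_smul, ← hc, ← hd, map_add, smul_add]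
    abel
  | smul a y _ hy =>
    obtain ⟨c, hc⟩ := hy
    refine ⟨a * c, ?_⟩
    rw [mul_smul, ← hc, map_smul, smul_sub, smul_comm]

/-- A minimal invariant subspace on which some `ρ g` is not a scalar is spanned by two vectors. -/
theorem le_span_pair (h : Rel ρ ω t) {U : Submodule κ W} (hU : ∀ g, ∀ x ∈ U, ρ g x ∈ U)
    (hmin : ∀ U' : Submodule κ W, U' ≤ U → (∀ g, ∀ x ∈ U', ρ g x ∈ U') → U' = ⊥ ∨ U' = U)
    {g : G} (hg : ∀ c : κ, ∃ x ∈ U, ρ g x ≠ c • x) {lam : κ}
    (hlam : lam * lam - t g * lam + (ω g : κ) = 0) :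
    ∃ v x₁ : W, U ≤ Submodule.span κ {v, x₁} := by
  obtain ⟨x₁, hx₁U, hx₁⟩ := hg (t g - lam)
  obtain ⟨y, hyU, hy⟩ := hg lam
  obtain ⟨u, hu⟩ : ∃ u : W, u = ρ g x₁ - (t g - lam) • x₁ := ⟨_, rfl⟩
  have hu0 : u ≠ 0 := by rw [hu]; exact sub_ne_zero.mpr hx₁
  have huU : u ∈ U := by rw [hu]; exact U.sub_mem (hU g x₁ hx₁U) (U.smul_mem _ hx₁U)
  have hgu : ρ g u = lam • u := by
    have h1 := h g x₁
    rw [hu, map_sub, map_smul, smul_sub, smul_smul]
    have h2 : lam * (t g - lam) = (ω g : κ) := by linear_combination -hlam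
    rw [h2, sub_smul]
    have : ρ g (ρ g x₁) = (ρ g (ρ g x₁) - t g • ρ g x₁ + (ω g : κ) • x₁)
        + (t g • ρ g x₁ - (ω g : κ) • x₁) := by abel
    rw [this, h1]
    abel
  refine ⟨ρ g y - lam • y, x₁, fun x hx => ?_⟩
  obtain ⟨c, hc⟩ := h.eigen hU hmin huU hu0 hgu x hx
  obtain ⟨z, hz⟩ : ∃ z : W, z = x - c • x₁ := ⟨_, rfl⟩
  have hzU : z ∈ U := by rw [hz]; exact U.sub_mem hx (U.smul_mem _ hx₁U)
  have hgz : ρ g z = (t g - lam) • z := by
    rw [← sub_eq_zero, hz, map_sub, map_smul, smul_sub, smul_comm]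
    have : ρ g x - c • ρ g x₁ - ((t g - lam) • x - c • (t g - lam) • x₁)
        = (ρ g x - (t g - lam) • x) - c • (ρ g x₁ - (t g - lam) • x₁) := by
      rw [smul_sub]; abel
    rw [this, hc, ← hu, sub_self]
  have hxz : x = z + c • x₁ := by rw [hz]; abel
  by_cases hz0 : z = 0
  · rw [hxz, hz0, zero_add]
    exact Submodule.smul_mem _ _ (Submodule.subset_span (by simp))
  · obtain ⟨d, hd⟩ := h.eigen hU hmin hzU hz0 hgz y hyU
    rw [sub_sub_cancel] at hd
    have hd0 : d ≠ 0 := by
      rintro rfl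
      rw [zero_smul] at hd
      exact hy (sub_eq_zero.mp hd)
    have hzv : z = d⁻¹ • (ρ g y - lam • y) := by
      rw [hd, smul_smul, inv_mul_cancel₀ hd0, one_smul]
    rw [hxz, hzv]
    exact Submodule.add_mem _ (Submodule.smul_mem _ _ (Submodule.subset_span (by simp)))
      (Submodule.smul_mem _ _ (Submodule.subset_span (by simp)))

end Rel

end Rep

section Matrix2

variable {κ : Type*} [Field κ] {G : Type*} [Group G]

theorem cayley_hamilton_two (A : Matrix (Fin 2) (Fin 2) κ) :
    A * A - A.trace • A + A.det • (1 : Matrix (Fin 2) (Fin 2) κ) = 0 := by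
  ext i j
  fin_cases i <;> fin_cases j <;>
    simp [Matrix.mul_apply, Fin.sum_univ_two, Matrix.trace_fin_two, Matrix.det_fin_two] <;> ring

theorem trace_det_of_not_scalar {A : Matrix (Fin 2) (Fin 2) κ} {τ w : κ}
    (h : A * A - τ • A + w • (1 : Matrix (Fin 2) (Fin 2) κ) = 0)
    (hA : ∀ c : κ, A ≠ c • (1 : Matrix (Fin 2) (Fin 2) κ)) : A.trace = τ ∧ A.det = w := by
  have hch := cayley_hamilton_two A
  have h1 : (A.trace - τ) • A = (A.det - w) • (1 : Matrix (Fin 2) (Fin 2) κ) := by
    rw [sub_smul, sub_smul]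
    have : A.trace • A - τ • A = (A * A - τ • A + w • (1 : Matrix (Fin 2) (Fin 2) κ))
        - (A * A - A.trace • A + A.det • (1 : Matrix (Fin 2) (Fin 2) κ))
        + (A.det • (1 : Matrix (Fin 2) (Fin 2) κ) - w • (1 : Matrix (Fin 2) (Fin 2) κ)) := by
      abel
    rw [this, h, hch]
    abel
  have h2 : A.trace = τ := by
    by_contra hne
    have hne' : A.trace - τ ≠ 0 := sub_ne_zero.mpr hne
    apply hA ((A.trace - τ)⁻¹ * (A.det - w))
    rw [mul_smul, ← h1, smul_smul, inv_mul_cancel₀ hne', one_smul]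
  refine ⟨h2, ?_⟩
  rw [h2, sub_self, zero_smul] at h1
  have h3 := congrFun (congrFun h1 0) 0
  simp only [Matrix.zero_apply, Matrix.smul_apply, Matrix.one_apply_eq, smul_eq_mul,
    mul_one] at h3
  exact sub_eq_zero.mp h3.symm

/-- A `2 × 2` matrix representation satisfying the quadratic relations and containing a
non-scalar matrix has trace `t` and determinant `ω`. -/
theorem trace_det_of_rel (M : G →* Matrix (Fin 2) (Fin 2) κ) (ω : G →* κˣ) (t : G → κ)
    (h : ∀ g, M g * M g - t g • M g + (ω g : κ) • (1 : Matrix (Fin 2) (Fin 2) κ) = 0)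
    {k : G} (hk : ∀ c : κ, M k ≠ c • (1 : Matrix (Fin 2) (Fin 2) κ)) (g : G) :
    (M g).trace = t g ∧ (M g).det = (ω g : κ) := by
  by_cases hg : ∀ c : κ, M g ≠ c • (1 : Matrix (Fin 2) (Fin 2) κ)
  · exact trace_det_of_not_scalar (h g) hg
  · push Not at hg
    obtain ⟨μ, hμ⟩ := hg
    have hrel : μ * μ - t g * μ + (ω g : κ) = 0 := by
      have h1 := congrFun (congrFun (h g) 0) 0
      rw [hμ] at h1
      simpa [Matrix.mul_apply, Fin.sum_univ_two] using h1
    have hμ0 : μ ≠ 0 := by
      rintro rfl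
      simp at hrel
    have hgk : M (g * k) = μ • M k := by
      rw [map_mul, hμ, smul_mul_assoc, one_mul]
    have hgk' : ∀ c : κ, M (g * k) ≠ c • (1 : Matrix (Fin 2) (Fin 2) κ) := by
      intro c hc
      apply hk (μ⁻¹ * c)
      rw [mul_smul, ← hc, hgk, smul_smul, inv_mul_cancel₀ hμ0, one_smul]
    have h1 := (trace_det_of_not_scalar (h (g * k)) hgk').2
    have h2 := (trace_det_of_not_scalar (h k) hk).2
    rw [hgk, Matrix.det_smul, h2, map_mul, Units.val_mul, Fintype.card_fin] at h1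
    have h3 : (ω g : κ) = μ ^ 2 := (mul_right_cancel₀ (ω k).ne_zero h1).symm
    have h4 : t g = 2 * μ := by
      apply mul_right_cancel₀ hμ0
      linear_combination -hrel + h3
    rw [hμ]
    constructor
    · rw [h4, Matrix.trace_smul, Matrix.trace_one, Fintype.card_fin]
      simp [mul_comm]
    · rw [h3, Matrix.det_smul, Matrix.det_one, Fintype.card_fin, mul_one]

end Matrix2

section Main

variable {κ : Type*} [Field κ] {G : Type*} [Group G] {W : Type*} [AddCommGroup W] [Module κ W]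

/-- The restriction of a representation to an invariant subspace. -/
def subRep (ρ : G →* Module.End κ W) (U : Submodule κ W) (hU : ∀ g, ∀ x ∈ U, ρ g x ∈ U) :
    G →* Module.End κ U where
  toFun g := (ρ g).restrict (hU g)
  map_one' := by
    ext x
    simp
  map_mul' g k := by
    ext x
    simp

@[simp] theorem coe_subRep_apply (ρ : G →* Module.End κ W) (U : Submodule κ W)
    (hU : ∀ g, ∀ x ∈ U, ρ g x ∈ U) (g : G) (x : U) :
    ((subRep ρ U hU g x : U) : W) = ρ g (x : W) := rfl

namespace Rel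

variable {ρ : G →* Module.End κ W} {ω : G →* κˣ} {t : G → κ}

/-- Existence of a minimal nonzero invariant subspace. -/
theorem exists_minimal_invariant (ρ : G →* Module.End κ W) [FiniteDimensional κ W]
    [Nontrivial W] :
    ∃ U : Submodule κ W, U ≠ ⊥ ∧ (∀ g, ∀ x ∈ U, ρ g x ∈ U) ∧
      ∀ U' : Submodule κ W, U' ≤ U → (∀ g, ∀ x ∈ U', ρ g x ∈ U') → U' = ⊥ ∨ U' = U := by
  obtain ⟨U, hUmem, hUmin⟩ := WellFounded.has_min
    (measure (fun U : Submodule κ W => finrank κ U)).wf
    {U : Submodule κ W | U ≠ ⊥ ∧ ∀ g, ∀ x ∈ U, ρ g x ∈ U}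
    ⟨⊤, top_ne_bot, fun _ _ _ => Submodule.mem_top⟩
  refine ⟨U, hUmem.1, hUmem.2, fun U' hle hinv => ?_⟩
  by_cases h0 : U' = ⊥
  · exact Or.inl h0
  · right
    have h1 := hUmin U' ⟨h0, hinv⟩
    exact Submodule.eq_of_le_of_finrank_le hle (not_lt.mp h1)

/-- Structural version: either there is a common eigenvector, or there is an invariant plane
on which some element does not act as a scalar. -/
theorem exists_eigen_or_two [FiniteDimensional κ W] [Nontrivial W] (h : Rel ρ ω t)
    (hsplit : ∀ g, ∃ lam : κ, lam * lam - t g * lam + (ω g : κ) = 0) :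
    (∃ u : W, u ≠ 0 ∧ ∀ g, ∃ c : κ, ρ g u = c • u) ∨
    (∃ U : Submodule κ W, (∀ g, ∀ x ∈ U, ρ g x ∈ U) ∧ finrank κ U = 2 ∧
      ∃ g, ∀ c : κ, ∃ x ∈ U, ρ g x ≠ c • x) := by
  by_cases hcommon : ∃ u : W, u ≠ 0 ∧ ∀ g, ∃ c : κ, ρ g u = c • u
  · exact Or.inl hcommon
  right
  obtain ⟨U, hU0, hU, hmin⟩ := exists_minimal_invariant ρ
  obtain ⟨u, huU, hu0⟩ := Submodule.exists_mem_ne_zero_of_ne_bot hU0
  have hns : ∃ g, ∀ c : κ, ∃ x ∈ U, ρ g x ≠ c • x := by
    by_contra hcon
    push Not at hcon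
    exact hcommon ⟨u, hu0, fun g => (hcon g).imp fun c hc => hc u huU⟩
  obtain ⟨g, hg⟩ := hns
  obtain ⟨lam, hlam⟩ := hsplit g
  obtain ⟨v, x₁, hle⟩ := h.le_span_pair hU hmin hg hlam
  refine ⟨U, hU, ?_, g, hg⟩
  have h2 : finrank κ U ≤ 2 := by
    classical
    have hset : ({v, x₁} : Set W) = (({v, x₁} : Finset W) : Set W) := by simp
    rw [hset] at hle
    calc finrank κ U ≤ finrank κ (Submodule.span κ (({v, x₁} : Finset W) : Set W)) :=
          Submodule.finrank_mono hle
      _ ≤ ({v, x₁} : Finset W).card := finrank_span_finset_le_card _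
      _ ≤ 2 := Finset.card_le_two
  have h1 : finrank κ U ≠ 0 := by
    intro h0
    exact hU0 (Submodule.finrank_eq_zero.mp h0)
  have h1' : finrank κ U ≠ 1 := by
    intro h1
    apply hcommon
    refine ⟨u, hu0, fun k => ?_⟩
    obtain ⟨c, hc⟩ := (finrank_eq_one_iff_of_nonzero' (⟨u, huU⟩ : U)
      (by simpa [Subtype.ext_iff] using hu0)).mp h1 ⟨ρ k u, hU k u huU⟩
    exact ⟨c, by simpa [Subtype.ext_iff] using hc.symm⟩
  omega

/-- **Main theorem, matrix form.** -/
theorem exists_matrix_rep [FiniteDimensional κ W] [Nontrivial W] (h : Rel ρ ω t)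
    (hsplit : ∀ g, ∃ lam : κ, lam * lam - t g * lam + (ω g : κ) = 0) :
    ∃ M : G →* Matrix (Fin 2) (Fin 2) κ,
      (∀ g, (M g).trace = t g ∧ (M g).det = (ω g : κ)) ∧
      (∀ g, ρ g = 1 → ω g = 1 → M g = 1) := by
  rcases h.exists_eigen_or_two hsplit with ⟨u, hu0, hu⟩ | ⟨U, hU, h2, k, hk⟩
  · choose ψ hψ using hu
    have hinj : ∀ a b : κ, a • u = b • u → a = b := fun a b hab =>
      smul_left_injective κ hu0 hab
    have hψ1 : ψ 1 = 1 := by
      apply hinj
      rw [← hψ, map_one, Module.End.one_apply, one_smul]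
    have hψmul : ∀ g k, ψ (g * k) = ψ g * ψ k := by
      intro g k
      apply hinj
      rw [← hψ, map_mul, Module.End.mul_apply, hψ k, map_smul, hψ g, smul_smul, mul_comm]
    have hrel : ∀ g, ψ g * ψ g - t g * ψ g + (ω g : κ) = 0 := by
      intro g
      apply hinj
      have h1 := h g u
      rw [hψ g, map_smul, hψ g, smul_smul, smul_smul] at h1
      rw [zero_smul, add_smul, sub_smul]
      exact h1
    have hψ0 : ∀ g, ψ g ≠ 0 := by
      intro g h0
      have h1 := hrel g
      rw [h0] at h1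
      simp at h1
    refine ⟨{ toFun := fun g => Matrix.diagonal ![ψ g, (ω g : κ) * (ψ g)⁻¹]
              map_one' := ?_
              map_mul' := ?_ }, ?_, ?_⟩
    · rw [hψ1, map_one]
      ext i j
      fin_cases i <;> fin_cases j <;> simp
    · intro g k
      rw [Matrix.diagonal_mul_diagonal, hψmul, map_mul]
      congr 1
      ext i
      fin_cases i
      · simp
      · simp only [Units.val_mul, mul_inv]
        simp
        ring
    · intro g
      simp only [MonoidHom.coe_mk, OneHom.coe_mk]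
      constructor
      · rw [Matrix.trace_fin_two]
        simp only [Matrix.diagonal_apply_eq, Matrix.cons_val_zero, Matrix.cons_val_one]
        have := hrel g
        field_simp [hψ0 g]
        linear_combination this
      · rw [Matrix.det_diagonal, Fin.prod_univ_two]
        simp only [Matrix.cons_val_zero, Matrix.cons_val_one]
        field_simp [hψ0 g]
    · intro g hg hω
      simp only [MonoidHom.coe_mk, OneHom.coe_mk]
      have h1 : ψ g = 1 := by
        apply hinj
        rw [← hψ, hg, Module.End.one_apply, one_smul]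
      rw [h1, hω]
      ext i j
      fin_cases i <;> fin_cases j <;> simp
  · let b : Basis (Fin 2) κ U := finBasisOfFinrankEq κ U h2
    let M : G →* Matrix (Fin 2) (Fin 2) κ :=
      ((LinearMap.toMatrixAlgEquiv b : Module.End κ U ≃ₐ[κ] _) : Module.End κ U →* _).comp
        (subRep ρ U hU)
    have hM : ∀ g, M g = LinearMap.toMatrixAlgEquiv b (subRep ρ U hU g) := fun g => rfl
    have hrelU : ∀ g, subRep ρ U hU g * subRep ρ U hU g - t g • subRep ρ U hU g
        + (ω g : κ) • (1 : Module.End κ U) = 0 := by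
      intro g
      ext x
      simpa using h g x
    have hrelM : ∀ g, M g * M g - t g • M g + (ω g : κ) • (1 : Matrix (Fin 2) (Fin 2) κ) = 0 := by
      intro g
      have := congrArg (LinearMap.toMatrixAlgEquiv b) (hrelU g)
      simpa only [map_add, map_sub, map_mul, map_smul, map_one, map_zero, hM] using this
    have hkM : ∀ c : κ, M k ≠ c • (1 : Matrix (Fin 2) (Fin 2) κ) := by
      intro c hc
      obtain ⟨x, hxU, hx⟩ := hk c
      apply hx
      have h1 : subRep ρ U hU k = c • (1 : Module.End κ U) := by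
        apply (LinearMap.toMatrixAlgEquiv b).injective
        rw [← hM, hc, map_smul, map_one]
      have h3 := congrArg (fun y : U => (y : W)) (LinearMap.congr_fun h1 ⟨x, hxU⟩)
      simpa using h3
    refine ⟨M, trace_det_of_rel M ω t hrelM hkM, fun g hg _ => ?_⟩
    have h1 : subRep ρ U hU g = 1 := by
      ext x
      simp [hg]
    rw [hM, h1, map_one]

/-- **Main theorem.** A two dimensional representation with the prescribed characteristic
polynomials. -/
theorem exists_rep [FiniteDimensional κ W] [Nontrivial W] (h : Rel ρ ω t)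
    (hsplit : ∀ g, ∃ lam : κ, lam * lam - t g * lam + (ω g : κ) = 0) :
    ∃ ρ' : G →* Module.End κ (Fin 2 → κ),
      (∀ g, LinearMap.charpoly (ρ' g) = X ^ 2 - C (t g) * X + C (ω g : κ)) ∧
      (∀ g, ρ g = 1 → ω g = 1 → ρ' g = 1) := by
  obtain ⟨M, hM, hM1⟩ := h.exists_matrix_rep hsplit
  refine ⟨((Matrix.toLinAlgEquiv' : Matrix (Fin 2) (Fin 2) κ ≃ₐ[κ] _) :
    Matrix (Fin 2) (Fin 2) κ →* _).comp M, fun g => ?_, fun g hg hω => ?_⟩
  · have h1 : (((Matrix.toLinAlgEquiv' : Matrix (Fin 2) (Fin 2) κ ≃ₐ[κ] _) :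
        Matrix (Fin 2) (Fin 2) κ →* _).comp M) g = Matrix.toLin' (M g) := rfl
    rw [h1, Matrix.charpoly_toLin', Matrix.charpoly_fin_two, (hM g).1, (hM g).2]
  · have h1 : (((Matrix.toLinAlgEquiv' : Matrix (Fin 2) (Fin 2) κ ≃ₐ[κ] _) :
        Matrix (Fin 2) (Fin 2) κ →* _).comp M) g = Matrix.toLinAlgEquiv' (M g) := rfl
    rw [h1, hM1 g hg hω, map_one]

/-- The relation for a set of elements whose powers exhaust `G` (e.g. Frobenius elements, by the
Frobenius density theorem) gives the relation for all elements. -/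
theorem exists_of_generators (ρ : G →* Module.End κ W) (ω : G →* κˣ)
    (hgen : ∀ g : G, ∃ (δ : G) (b : ℕ) (τ : κ), g = δ ^ b ∧
      ∀ x : W, ρ δ (ρ δ x) - τ • ρ δ x + (ω δ : κ) • x = 0) :
    ∃ t : G → κ, Rel ρ ω t := by
  choose δ b τ hg hrel using hgen
  refine ⟨fun g => lucasV (τ g) (ω (δ g) : κ) (b g), fun g x => ?_⟩
  have h1 : ρ (δ g) * ρ (δ g) - τ g • ρ (δ g) + (ω (δ g) : κ) • (1 : Module.End κ W) = 0 := by
    ext y
    simpa using hrel g y
  have h2 := LinearMap.congr_fun (pow_relation h1 (b g)) x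
  have h3 : ρ g = ρ (δ g) ^ b g := by rw [← map_pow, ← hg g]
  have h4 : (ω g : κ) = (ω (δ g) : κ) ^ b g := by
    rw [← Units.val_pow_eq_pow_val, ← map_pow, ← hg g]
  rw [h3, h4]
  simpa using h2

theorem exists_root_of_isAlgClosed [IsAlgClosed κ] (a b : κ) :
    ∃ lam : κ, lam * lam - a * lam + b = 0 := by
  obtain ⟨lam, hlam⟩ := IsAlgClosed.exists_root (X ^ 2 - C a * X + C b : κ[X]) (by
    have : (X ^ 2 - C a * X + C b : κ[X]).degree = 2 := by compute_degree!
    rw [this]; decide)
  refine ⟨lam, ?_⟩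
  simp only [IsRoot.def, eval_add, eval_sub, eval_pow, eval_X, eval_mul, eval_C] at hlam
  linear_combination hlam

theorem exists_rep_of_isAlgClosed [IsAlgClosed κ] [FiniteDimensional κ W] [Nontrivial W]
    (h : Rel ρ ω t) :
    ∃ ρ' : G →* Module.End κ (Fin 2 → κ),
      (∀ g, LinearMap.charpoly (ρ' g) = X ^ 2 - C (t g) * X + C (ω g : κ)) ∧
      (∀ g, ρ g = 1 → ω g = 1 → ρ' g = 1) :=
  h.exists_rep fun g => exists_root_of_isAlgClosed (t g) (ω g : κ)

end Rel

end Main

end Fermat.Agent.Lib.QuadRel
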