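import Mathlib

/-!
# Representations all of whose elements satisfy a quadratic relation

Let `k` be an algebraically closed field, `G` a group, `ω : G →* kˣ` a character and `t : G → k`
a function.  If `W ≠ 0` is a finite dimensional representation of `G` on which every `g`
satisfies `g ^ 2 - t g • g + ω g = 0`, then there is a two dimensional representation of `G`
such that the characteristic polynomial of every `g` is exactly `X ^ 2 - t g X + ω g`
(`exists_matrix_rep`).  No hypothesis on the characteristic.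

Main steps: Burnside's theorem (`burnside`, from the Jacobson density theorem and Schur's lemma),
the bound `finrank ≤ 2` for a simple constituent (`finrank_le_two`), and a case analysis.
-/

set_option autoImplicit false

namespace Fermat.Agent.Lib.QuadraticRep

open Polynomial Module

section Burnside

variable {k A V : Type*} [Field k] [IsAlgClosed k] [Ring A] [Algebra k A] [AddCommGroup V]
  [Module k V] [Module A V] [IsScalarTower k A V] [IsSimpleModule A V] [FiniteDimensional k V]

/-- **Burnside's theorem**: a simple finite dimensional module over an algebra over an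
algebraically closed field: every `k`-linear endomorphism is given by an element of the algebra. -/
theorem burnside (f : V →ₗ[k] V) : ∃ a : A, ∀ v, f v = a • v := by
  classical
  -- `f` commutes with the `A`-endomorphisms, which are scalars by Schur's lemma
  let f' : Module.End (Module.End A V) V :=
    { toFun := f
      map_add' := f.map_add
      map_smul' := by
        intro φ v
        obtain ⟨c, rfl⟩ := (IsSimpleModule.algebraMap_end_bijective_of_isAlgClosed
          (A := A) (V := V) k).2 φ
        simp }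
  let b := Module.finBasis k V
  obtain ⟨a, ha⟩ := jacobson_density (R := A) f' (Finset.univ.image b)
  refine ⟨a, fun v => ?_⟩
  -- both sides are `k`-linear and agree on a basis
  let g : V →ₗ[k] V :=
    { toFun := fun v => a • v
      map_add' := smul_add a
      map_smul' := fun c v => by simpa using (smul_comm a c v) }
  have hfg : f = g := by
    apply b.ext
    intro i
    exact ha (b i) (Finset.mem_image_of_mem _ (Finset.mem_univ i))
  exact congrArg (fun h : V →ₗ[k] V => h v) hfg

/-- If all anticommutators are as in a quadratic algebra, a simple module has dimension `≤ 2`. -/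
theorem finrank_le_two (τ : A → k)
    (h : ∀ x y : A, ∃ c : k, ∀ u : V, (x * y + y * x) • u - τ y • x • u - τ x • y • u = c • u) :
    finrank k V ≤ 2 := by
  classical
  by_contra hlt
  rw [not_le] at hlt
  let b := Module.finBasis k V
  let i₀ : Fin (finrank k V) := ⟨0, by omega⟩
  let i₁ : Fin (finrank k V) := ⟨1, by omega⟩
  let i₂ : Fin (finrank k V) := ⟨2, by omega⟩
  have h01 : i₀ ≠ i₁ := by simp [i₀, i₁, Fin.ext_iff]
  have h02 : i₀ ≠ i₂ := by simp [i₀, i₂, Fin.ext_iff]
  have h12 : i₁ ≠ i₂ := by simp [i₁, i₂, Fin.ext_iff]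
  obtain ⟨x, hx⟩ := burnside (A := A) ((b.coord i₁).smulRight (b i₀))
  obtain ⟨y, hy⟩ := burnside (A := A) ((b.coord i₂).smulRight (b i₁))
  obtain ⟨c, hc⟩ := h x y
  have hx1 : x • b i₁ = b i₀ := by
    rw [← hx]; simp
  have hx2 : x • b i₂ = 0 := by
    rw [← hx]; simp [h12.symm]
  have hy2 : y • b i₂ = b i₁ := by
    rw [← hy]; simp
  have key := hc (b i₂)
  rw [add_smul, mul_smul, mul_smul, hy2, hx2, hx1, smul_zero, smul_zero, add_zero, sub_zero] at key
  have := congrArg (b.coord i₀) key
  simp [h01.symm, h02.symm] at this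

end Burnside

section Relation

variable {k E G : Type*} [Field k] [Ring E] [Algebra k E] [Group G]
  (ρ : G →* E) (ω : G →* kˣ) (t : G → k)

/-- The span of the pairs `(ρ g, t g)`. -/
def pairSpan : Submodule k (E × k) := Submodule.span k (Set.range fun g => (ρ g, t g))

variable {ρ ω t}

theorem inv_rel (h : ∀ g, ρ g * ρ g - t g • ρ g + (ω g : k) • 1 = 0) (g : G) :
    (ω g : k) • ρ g⁻¹ = t g • 1 - ρ g := by
  have h1 : ρ g * ρ g⁻¹ = 1 := by rw [← map_mul, mul_inv_cancel, map_one]
  have h2 := congrArg (· * ρ g⁻¹) (h g)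
  simp only [add_mul, sub_mul, mul_assoc, h1, mul_one, smul_mul_assoc, one_mul, zero_mul] at h2
  linear_combination (norm := module) h2

theorem anticomm_gen (h : ∀ g, ρ g * ρ g - t g • ρ g + (ω g : k) • 1 = 0) (g g' : G) :
    ρ g * ρ g' + ρ g' * ρ g - t g' • ρ g - t g • ρ g' = (t (g * g') - t g * t g') • 1 := by
  have h1 := inv_rel h (g * g')
  have h2 := inv_rel h g
  have h3 := inv_rel h g'
  have h4 : ((ω (g * g') : kˣ) : k) • ρ (g * g')⁻¹
      = ((ω g' : k) • ρ g'⁻¹) * ((ω g : k) • ρ g⁻¹) := by
    rw [mul_inv_rev, map_mul, map_mul, smul_mul_smul_comm, Units.val_mul, mul_comm (ω g : k)]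
  rw [h1, h2, h3, map_mul] at h4
  have h5 : (t g' • (1 : E) - ρ g') * (t g • 1 - ρ g)
      = (t g * t g') • 1 - t g' • ρ g - t g • ρ g' + ρ g' * ρ g := by
    simp only [sub_mul, mul_sub, smul_mul_assoc, mul_smul_comm, one_mul, mul_one]
    module
  rw [h5] at h4
  linear_combination (norm := module) -h4

theorem anticomm (h : ∀ g, ρ g * ρ g - t g • ρ g + (ω g : k) • 1 = 0) {p q : E × k}
    (hp : p ∈ pairSpan ρ t) (hq : q ∈ pairSpan ρ t) :
    ∃ c : k, p.1 * q.1 + q.1 * p.1 - q.2 • p.1 - p.2 • q.1 = c • 1 := by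
  induction hp using Submodule.span_induction with
  | mem p hp =>
    obtain ⟨g, rfl⟩ := hp
    induction hq using Submodule.span_induction with
    | mem q hq =>
      obtain ⟨g', rfl⟩ := hq
      exact ⟨_, anticomm_gen h g g'⟩
    | zero => exact ⟨0, by simp⟩
    | add q q' _ _ hq hq' =>
      obtain ⟨c, hc⟩ := hq
      obtain ⟨c', hc'⟩ := hq'
      refine ⟨c + c', ?_⟩
      rw [add_smul, ← hc, ← hc']
      simp only [Prod.fst_add, Prod.snd_add, mul_add, add_mul, add_smul, smul_add]
      abel
    | smul a q _ hq =>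
      obtain ⟨c, hc⟩ := hq
      refine ⟨a * c, ?_⟩
      rw [mul_smul, ← hc]
      simp only [Prod.smul_fst, Prod.smul_snd, mul_smul_comm, smul_mul_assoc, smul_sub, smul_add,
        smul_eq_mul, mul_smul, smul_comm a]
  | zero => exact ⟨0, by simp⟩
  | add p p' _ _ hp hp' =>
    obtain ⟨c, hc⟩ := hp
    obtain ⟨c', hc'⟩ := hp'
    refine ⟨c + c', ?_⟩
    rw [add_smul, ← hc, ← hc']
    simp only [Prod.fst_add, Prod.snd_add, mul_add, add_mul, add_smul, smul_add]
    abel
  | smul a p _ hp =>
    obtain ⟨c, hc⟩ := hp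
    refine ⟨a * c, ?_⟩
    rw [mul_smul, ← hc]
    simp only [Prod.smul_fst, Prod.smul_snd, mul_smul_comm, smul_mul_assoc, smul_sub, smul_add,
      smul_eq_mul, mul_smul, smul_comm a]

end Relation

section Simple

variable {k A V G : Type*} [Field k] [IsAlgClosed k] [Ring A] [Algebra k A] [AddCommGroup V]
  [Module k V] [Module A V] [IsScalarTower k A V] [IsSimpleModule A V] [FiniteDimensional k V]
  [Group G] {ι : G →* A} (hι : Submodule.span k (Set.range ι) = ⊤)
  {r : G →* Module.End k V} (hr : ∀ g v, r g v = ι g • v) {ω : G →* kˣ} {t : G → k}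

omit [IsAlgClosed k] [IsSimpleModule A V] [FiniteDimensional k V] in
include hι hr in
theorem exists_pair (x : A) : ∃ p ∈ pairSpan r t, ∀ v, p.1 v = x • v := by
  have hx : x ∈ Submodule.span k (Set.range ι) := by rw [hι]; trivial
  induction hx using Submodule.span_induction with
  | mem x hx =>
    obtain ⟨g, rfl⟩ := hx
    exact ⟨(r g, t g), Submodule.subset_span ⟨g, rfl⟩, hr g⟩
  | zero => exact ⟨0, Submodule.zero_mem _, fun v => by simp⟩
  | add x y _ _ hx hy =>
    obtain ⟨p, hp, hpx⟩ := hx
    obtain ⟨q, hq, hqy⟩ := hy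
    exact ⟨p + q, Submodule.add_mem _ hp hq, fun v => by simp [hpx, hqy, add_smul]⟩
  | smul a x _ hx =>
    obtain ⟨p, hp, hpx⟩ := hx
    exact ⟨a • p, Submodule.smul_mem _ a hp, fun v => by simp [hpx]⟩

include hι hr in
theorem finrank_le_two_of_quadratic (h : ∀ g, r g * r g - t g • r g + (ω g : k) • 1 = 0) :
    finrank k V ≤ 2 := by
  choose P hP hPx using exists_pair (t := t) hι hr
  refine finrank_le_two (A := A) (fun x => (P x).2) fun x y => ?_
  obtain ⟨c, hc⟩ := anticomm h (hP x) (hP y)
  refine ⟨c, fun u => ?_⟩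
  have := congrArg (fun f : Module.End k V => f u) hc
  simpa [hPx, add_smul, mul_smul] using this

include hι hr in
/-- If every group element acts by a scalar, so does every linear map. -/
theorem all_scalar (hs : ∀ g, ∃ c : k, r g = c • 1) (f : Module.End k V) : ∃ c : k, f = c • 1 := by
  obtain ⟨x, hx⟩ := burnside (A := A) f
  have hx' : x ∈ Submodule.span k (Set.range ι) := by rw [hι]; trivial
  suffices H : ∃ c : k, ∀ v : V, x • v = c • v by
    obtain ⟨c, hc⟩ := H
    exact ⟨c, LinearMap.ext fun v => by simp [hx, hc]⟩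
  clear hx
  induction hx' using Submodule.span_induction with
  | mem x hx =>
    obtain ⟨g, rfl⟩ := hx
    obtain ⟨c, hc⟩ := hs g
    exact ⟨c, fun v => by rw [← hr, hc]; simp⟩
  | zero => exact ⟨0, fun v => by simp⟩
  | add x y _ _ hx hy =>
    obtain ⟨c, hc⟩ := hx
    obtain ⟨d, hd⟩ := hy
    exact ⟨c + d, fun v => by rw [add_smul, hc, hd, add_smul]⟩
  | smul a x _ hx =>
    obtain ⟨c, hc⟩ := hx
    exact ⟨a * c, fun v => by rw [smul_assoc, hc, mul_smul]⟩

end Simple

section TwoByTwo

variable {k G : Type*} [Field k] [Group G]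

theorem cayley_two (N : Matrix (Fin 2) (Fin 2) k) : N * N - N.trace • N + N.det • 1 = 0 := by
  ext i j
  fin_cases i <;> fin_cases j <;>
    simp [Matrix.mul_apply, Fin.sum_univ_two, Matrix.det_fin_two, Matrix.trace_fin_two] <;> ring

theorem trace_det_of_not_scalar {N : Matrix (Fin 2) (Fin 2) k} {a w : k}
    (hN : N * N - a • N + w • 1 = 0) (hns : ¬ ∃ c : k, N = c • 1) :
    N.trace = a ∧ N.det = w := by
  have h1 : (N.trace - a) • N = (N.det - w) • 1 := by
    linear_combination (norm := module) hN - cayley_two N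
  have h2 : N.trace = a := by
    by_contra hne
    have hne' : N.trace - a ≠ 0 := sub_ne_zero.mpr hne
    apply hns
    refine ⟨(N.trace - a)⁻¹ * (N.det - w), ?_⟩
    rw [mul_smul, ← h1, smul_smul, inv_mul_cancel₀ hne', one_smul]
  refine ⟨h2, ?_⟩
  rw [h2, sub_self, zero_smul] at h1
  have := congrFun (congrFun h1 0) 0
  simp at this
  exact (sub_eq_zero.mp this.symm)

theorem charpoly_of_quadratic (M : G →* Matrix (Fin 2) (Fin 2) k) (ω : G →* kˣ) (t : G → k)
    (h : ∀ g, M g * M g - t g • M g + (ω g : k) • 1 = 0) (g₀ : G)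
    (hg₀ : ¬ ∃ c : k, M g₀ = c • 1) (g : G) :
    (M g).charpoly = X ^ 2 - C (t g) * X + C (ω g : k) := by
  rw [Matrix.charpoly_fin_two]
  by_cases hs : ∃ c : k, M g = c • 1
  · obtain ⟨c, hc⟩ := hs
    have hc0 : c ≠ 0 := by
      rintro rfl
      have h1 : M g * M g⁻¹ = 1 := by rw [← map_mul, mul_inv_cancel, map_one]
      rw [hc, zero_smul, zero_mul] at h1
      exact zero_ne_one h1
    have hprod : ¬ ∃ d : k, M (g₀ * g) = d • 1 := by
      rintro ⟨d, hd⟩
      apply hg₀
      refine ⟨c⁻¹ * d, ?_⟩
      rw [map_mul, hc, mul_smul_comm, mul_one] at hd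
      rw [mul_smul, ← hd, smul_smul, inv_mul_cancel₀ hc0, one_smul]
    have h1 := (trace_det_of_not_scalar (h (g₀ * g)) hprod).2
    have h2 := (trace_det_of_not_scalar (h g₀) hg₀).2
    have hdet : (M g).det = c ^ 2 := by
      rw [hc]; simp
    have htr : (M g).trace = 2 * c := by
      rw [hc]; simp [mul_comm]
    have hω : (ω g : k) = c ^ 2 := by
      rw [map_mul, Matrix.det_mul, h2, hdet, map_mul, Units.val_mul] at h1
      exact (mul_left_cancel₀ (Units.ne_zero (ω g₀)) h1).symm
    have ht : t g = 2 * c := by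
      have h3 := congrFun (congrFun (h g) 0) 0
      rw [hc, hω] at h3
      simp at h3
      have h4 : c * (2 * c - t g) = 0 := by linear_combination h3
      rcases mul_eq_zero.mp h4 with h5 | h5
      · exact absurd h5 hc0
      · exact (sub_eq_zero.mp h5).symm
    rw [hdet, htr, hω, ht]
  · obtain ⟨h1, h2⟩ := trace_det_of_not_scalar (h g) hs
    rw [h1, h2]

end TwoByTwo

section Main

variable {k : Type*} [Field k] [IsAlgClosed k] {G : Type*} [Group G]

theorem exists_matrix_rep_of_simple {A V : Type*} [Ring A] [Algebra k A] [AddCommGroup V]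
    [Module k V] [Module A V] [IsScalarTower k A V] [IsSimpleModule A V] [FiniteDimensional k V]
    {ι : G →* A} (hι : Submodule.span k (Set.range ι) = ⊤)
    {r : G →* Module.End k V} (hr : ∀ g v, r g v = ι g • v) {ω : G →* kˣ} {t : G → k}
    (h : ∀ g, r g * r g - t g • r g + (ω g : k) • 1 = 0) :
    ∃ ρ₂ : G →* Matrix (Fin 2) (Fin 2) k,
      (∀ g, (ρ₂ g).charpoly = X ^ 2 - C (t g) * X + C (ω g : k)) ∧
      (∀ g, r g = 1 → ω g = 1 → ρ₂ g = 1) := by
  classical
  have hle := finrank_le_two_of_quadratic hι hr h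
  have : Nontrivial V := IsSimpleModule.nontrivial A V
  have hpos : 0 < finrank k V := Module.finrank_pos
  rcases (by omega : finrank k V = 1 ∨ finrank k V = 2) with h1 | h2
  · -- the constituent is a character `ψ`; take `ψ ⊕ ω ψ⁻¹`
    obtain ⟨v, hv, hspan⟩ := finrank_eq_one_iff'.mp h1
    have hex : ∀ g, ∃ c : k, r g v = c • v := fun g => (hspan (r g v)).imp fun c hc => hc.symm
    choose ψ hψ using hex
    have hinj : ∀ a b : k, a • v = b • v → a = b := fun a b hab => smul_left_injective k hv hab
    have hψ1 : ψ 1 = 1 := by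
      apply hinj
      rw [← hψ, map_one, one_smul]; rfl
    have hψmul : ∀ g g', ψ (g * g') = ψ g * ψ g' := by
      intro g g'
      apply hinj
      rw [← hψ, map_mul, Module.End.mul_apply, hψ, map_smul, hψ, smul_smul, mul_comm]
    have hψ0 : ∀ g, ψ g ≠ 0 := by
      intro g h0
      have := hψmul g g⁻¹
      rw [mul_inv_cancel, hψ1, h0, zero_mul] at this
      exact one_ne_zero this
    have hrel : ∀ g, ψ g * ψ g - t g * ψ g + (ω g : k) = 0 := by
      intro g
      apply hinj
      have := congrArg (fun f : Module.End k V => f v) (h g)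
      simp only [LinearMap.add_apply, LinearMap.sub_apply, Module.End.mul_apply,
        LinearMap.smul_apply, Module.End.one_apply, LinearMap.zero_apply, hψ, map_smul] at this
      rw [zero_smul, ← this]
      module
    refine ⟨{ toFun := fun g => Matrix.diagonal ![ψ g, (ω g : k) * (ψ g)⁻¹]
              map_one' := ?_
              map_mul' := ?_ }, ?_, ?_⟩
    · ext i j
      fin_cases i <;> fin_cases j <;> simp [hψ1]
    · intro g g'
      rw [Matrix.diagonal_mul_diagonal]
      congr 1
      ext i
      fin_cases i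
      · simp [hψmul]
      · simp [hψmul]; ring
    · intro g
      rw [Matrix.charpoly_fin_two]
      have htr : (Matrix.diagonal ![ψ g, (ω g : k) * (ψ g)⁻¹]).trace = t g := by
        rw [Matrix.trace_fin_two]
        simp only [Matrix.diagonal_apply_eq, Matrix.cons_val_zero, Matrix.cons_val_one]
        have := hrel g
        field_simp [hψ0 g]
        linear_combination this
      have hdet : (Matrix.diagonal ![ψ g, (ω g : k) * (ψ g)⁻¹]).det = (ω g : k) := by
        rw [Matrix.det_diagonal, Fin.prod_univ_two]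
        simp only [Matrix.cons_val_zero, Matrix.cons_val_one]
        field_simp [hψ0 g]
      change X ^ 2 - C (Matrix.diagonal ![ψ g, (ω g : k) * (ψ g)⁻¹]).trace * X
        + C (Matrix.diagonal ![ψ g, (ω g : k) * (ψ g)⁻¹]).det = _
      rw [htr, hdet]
    · intro g hg hω
      have hψg : ψ g = 1 := by
        apply hinj
        rw [← hψ, hg, one_smul]; rfl
      change Matrix.diagonal ![ψ g, (ω g : k) * (ψ g)⁻¹] = 1
      rw [hψg, hω]
      ext i j
      fin_cases i <;> fin_cases j <;> simp
  · -- a two dimensional constituent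
    let b : Basis (Fin 2) k V := Module.finBasisOfFinrankEq k V h2
    let e : Module.End k V ≃ₐ[k] Matrix (Fin 2) (Fin 2) k := LinearMap.toMatrixAlgEquiv b
    let M : G →* Matrix (Fin 2) (Fin 2) k := (e : Module.End k V →* _).comp r
    have hM : ∀ g, M g = e (r g) := fun g => rfl
    have hMrel : ∀ g, M g * M g - t g • M g + (ω g : k) • 1 = 0 := by
      intro g
      have := congrArg e (h g)
      simpa [hM] using this
    have hns : ∃ g₀, ¬ ∃ c : k, r g₀ = c • 1 := by
      by_contra hcon
      push Not at hcon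
      obtain ⟨c, hc⟩ := all_scalar hι hr hcon ((b.coord 1).smulRight (b 0))
      have h3 := congrArg (fun f : Module.End k V => b.coord 0 (f (b 1))) hc
      simp at h3
    obtain ⟨g₀, hg₀⟩ := hns
    have hg₀' : ¬ ∃ c : k, M g₀ = c • 1 := by
      rintro ⟨c, hc⟩
      apply hg₀
      refine ⟨c, e.injective ?_⟩
      rw [← hM, hc, map_smul, map_one]
    refine ⟨M, charpoly_of_quadratic M ω t hMrel g₀ hg₀', ?_⟩
    intro g hg _
    rw [hM, hg, map_one]

theorem exists_matrix_rep_of_module {A W : Type*} [Ring A] [Algebra k A] [AddCommGroup W]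
    [Module k W] [Module A W] [IsScalarTower k A W] [FiniteDimensional k W] [Nontrivial W]
    {ι : G →* A} (hι : Submodule.span k (Set.range ι) = ⊤)
    {ρ : G →* Module.End k W} (hρ : ∀ g v, ρ g v = ι g • v) {ω : G →* kˣ} {t : G → k}
    (h : ∀ g, ρ g * ρ g - t g • ρ g + (ω g : k) • 1 = 0) :
    ∃ ρ₂ : G →* Matrix (Fin 2) (Fin 2) k,
      (∀ g, (ρ₂ g).charpoly = X ^ 2 - C (t g) * X + C (ω g : k)) ∧
      (∀ g, ρ g = 1 → ω g = 1 → ρ₂ g = 1) := by
  classical
  have : IsArtinian A W := isArtinian_of_tower k inferInstance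
  obtain ⟨U, hU⟩ := IsAtomic.exists_atom (Submodule A W)
  have : IsSimpleModule A U := isSimpleModule_iff_isAtom.mpr hU
  have : FiniteDimensional k U :=
    Module.Finite.of_injective (U.subtype.restrictScalars k) U.injective_subtype
  let r : G →* Module.End k U :=
    ((Algebra.lsmul k k U : A →ₐ[k] Module.End k U) : A →* Module.End k U).comp ι
  have hr : ∀ g (v : U), r g v = ι g • v := fun g v => rfl
  have hcoe : ∀ g (v : U), ((r g v : U) : W) = ρ g (v : W) := fun g v => (hρ g v).symm
  have hrel : ∀ g, r g * r g - t g • r g + (ω g : k) • 1 = 0 := by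
    intro g
    ext v
    have := congrArg (fun f : Module.End k W => f (v : W)) (h g)
    simpa [hcoe] using this
  obtain ⟨ρ₂, h1, h2⟩ := exists_matrix_rep_of_simple hι hr hrel
  refine ⟨ρ₂, h1, fun g hg hω => h2 g ?_ hω⟩
  ext v
  rw [hcoe, hg]
  rfl

/-- **Main theorem.**  A nonzero finite dimensional representation over an algebraically closed
field on which every `g` satisfies `g ^ 2 - t g • g + ω g = 0` gives rise to a two dimensional
representation with characteristic polynomials `X ^ 2 - t g X + ω g`. -/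
theorem exists_matrix_rep {W : Type*} [AddCommGroup W] [Module k W] [FiniteDimensional k W]
    [Nontrivial W] (ρ : G →* Module.End k W) (ω : G →* kˣ) (t : G → k)
    (h : ∀ g, ρ g * ρ g - t g • ρ g + (ω g : k) • 1 = 0) :
    ∃ ρ₂ : G →* Matrix (Fin 2) (Fin 2) k,
      (∀ g, (ρ₂ g).charpoly = X ^ 2 - C (t g) * X + C (ω g : k)) ∧
      (∀ g, ρ g = 1 → ω g = 1 → ρ₂ g = 1) := by
  classical
  let ι : G →* (Algebra.adjoin k (Set.range ρ)) :=
    { toFun := fun g => ⟨ρ g, Algebra.subset_adjoin ⟨g, rfl⟩⟩
      map_one' := by ext1; exact map_one ρ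
      map_mul' := fun g g' => by ext1; exact map_mul ρ g g' }
  have hι : Submodule.span k (Set.range ι) = ⊤ := by
    rw [eq_top_iff]
    rintro ⟨x, hx⟩ -
    have hx' : x ∈ Submodule.span k (Set.range ρ) := by
      have h1 : (Algebra.adjoin k (Set.range ρ)).toSubmodule
          = Submodule.span k (Submonoid.closure (Set.range ρ) : Set (Module.End k W)) :=
        Algebra.adjoin_eq_span k _
      have h2 : (Submonoid.closure (Set.range ρ) : Set (Module.End k W)) = Set.range ρ := by
        rw [← MonoidHom.coe_mrange, Submonoid.closure_eq]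
      rw [h2] at h1
      rw [← h1]
      exact hx
    have h3 : Submodule.map (Algebra.adjoin k (Set.range ρ)).val.toLinearMap
        (Submodule.span k (Set.range ι)) = Submodule.span k (Set.range ρ) := by
      rw [Submodule.map_span, ← Set.range_comp]
      rfl
    rw [← h3] at hx'
    obtain ⟨y, hy, hyx⟩ := hx'
    have : y = ⟨x, hx⟩ := Subtype.ext hyx
    rwa [← this]
  exact exists_matrix_rep_of_module hι (fun g v => rfl) h

/-- Variant of `exists_matrix_rep` where the "traces" are not given as a function. -/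
theorem exists_matrix_rep' {W : Type*} [AddCommGroup W] [Module k W] [FiniteDimensional k W]
    [Nontrivial W] (ρ : G →* Module.End k W) (ω : G →* kˣ)
    (h : ∀ g, ∃ c : k, ρ g * ρ g - c • ρ g + (ω g : k) • 1 = 0) :
    ∃ ρ₂ : G →* Matrix (Fin 2) (Fin 2) k,
      (∀ g (c : k), ρ g * ρ g - c • ρ g + (ω g : k) • 1 = 0 →
        (ρ₂ g).charpoly = X ^ 2 - C c * X + C (ω g : k)) ∧
      (∀ g, ρ g = 1 → ω g = 1 → ρ₂ g = 1) := by
  choose t ht using h
  obtain ⟨ρ₂, h1, h2⟩ := exists_matrix_rep ρ ω t ht
  refine ⟨ρ₂, fun g c hc => ?_, h2⟩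
  have hct : c = t g := by
    have h3 : (c - t g) • ρ g = 0 := by linear_combination (norm := module) ht g - hc
    have h4 : ρ g * ρ g⁻¹ = 1 := by rw [← map_mul, mul_inv_cancel, map_one]
    have h5 : (c - t g) • (1 : Module.End k W) = 0 := by
      rw [← h4, ← smul_mul_assoc, h3, zero_mul]
    rcases smul_eq_zero.mp h5 with h6 | h6
    · exact sub_eq_zero.mp h6
    · exact absurd h6 one_ne_zero
  rw [hct]
  exact h1 g

end Main

section Powers

variable {k : Type*} [Field k]

/-- The Lucas (Dickson) sequence `α ^ n + β ^ n` for `α + β = a`, `α β = w`. -/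
def lucas (a w : k) : ℕ → k
  | 0 => 2
  | 1 => a
  | (n + 2) => a * lucas a w (n + 1) - w * lucas a w n

theorem lucas_dvd (a w : k) (n : ℕ) :
    (X ^ 2 - C a * X + C w : k[X]) ∣ X ^ n + (C a - X) ^ n - C (lucas a w n) := by
  induction n using Nat.twoStepInduction with
  | zero =>
    have : (C (2 : k) : k[X]) = 2 := map_ofNat C 2
    simp only [lucas, pow_zero, this]
    norm_num
  | one => simp [lucas]
  | more n h0 h1 =>
    obtain ⟨c0, h0⟩ := h0
    obtain ⟨c1, h1⟩ := h1
    refine ⟨C a * c1 - X * (C a - X) * c0 + C (lucas a w n), ?_⟩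
    simp only [lucas, C_sub, C_mul]
    linear_combination C a * h1 - X * (C a - X) * h0

theorem lucas_dvd' (a w : k) (n : ℕ) :
    (X ^ 2 - C a * X + C w : k[X]) ∣ X ^ n * X ^ n - C (lucas a w n) * X ^ n + C (w ^ n) := by
  obtain ⟨c, hc⟩ := lucas_dvd a w n
  obtain ⟨d, hd⟩ : (X * (C a - X) - C w : k[X]) ∣ (X * (C a - X)) ^ n - (C w) ^ n :=
    sub_dvd_pow_sub_pow _ _ n
  refine ⟨X ^ n * c + d, ?_⟩
  rw [C_pow]
  rw [mul_pow] at hd
  linear_combination X ^ n * hc - hd

/-- If `δ` satisfies `δ ^ 2 - a δ + w = 0` then `δ ^ n` satisfies the analogous relation with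
`a`, `w` replaced by `lucas a w n`, `w ^ n`. -/
theorem pow_rel {E : Type*} [Ring E] [Algebra k E] {δ : E} {a w : k}
    (h : δ * δ - a • δ + w • 1 = 0) (n : ℕ) :
    δ ^ n * δ ^ n - lucas a w n • δ ^ n + w ^ n • 1 = 0 := by
  obtain ⟨c, hc⟩ := lucas_dvd' a w n
  have h1 : aeval δ (X ^ 2 - C a * X + C w : k[X]) = 0 := by
    simp only [map_add, map_sub, map_mul, map_pow, aeval_X, aeval_C, Algebra.algebraMap_eq_smul_one,
      smul_mul_assoc, one_mul]
    rw [pow_two]; exact h
  have h2 := congrArg (aeval δ) hc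
  rw [map_mul, h1, zero_mul] at h2
  simpa only [map_add, map_sub, map_mul, map_pow, aeval_X, aeval_C, Algebra.algebraMap_eq_smul_one,
      smul_mul_assoc, one_mul, _root_.smul_pow, one_pow] using h2

end Powers

end Fermat.Agent.Lib.QuadraticRep
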