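import Mathlib

/-!
# Ree's inequality / Scott's lemma for a transitive action of a 2-generated group

For a group `G = ⟨a, b⟩` acting transitively on a finite set `X` with `n` elements, writing `o g`
for the number of orbits of `g` on `X`, the number `n + 2 - (o a + o b + o (a * b))` is a
nonnegative even integer (it is twice the genus of the associated covering of the sphere).
-/

namespace Fermat.Agent.Lib.Ree

open Module

section LinearAlgebra

variable {K V : Type*} [Field K] [AddCommGroup V] [Module K V] [FiniteDimensional K V]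

/-- Scott's lemma for two operators. -/
theorem scott (A B : V →ₗ[K] V) (hA : Function.Injective A) :
    finrank K (LinearMap.ker (1 - A ∘ₗ B)) +
        finrank K (LinearMap.range (1 - A) ⊔ LinearMap.range (1 - B) : Submodule K V) ≤
      finrank K (LinearMap.ker (1 - A) ⊓ LinearMap.ker (1 - B) : Submodule K V) +
        (finrank K (LinearMap.range (1 - A)) + finrank K (LinearMap.range (1 - B))) := by
  set U := LinearMap.range (1 - A) with hU
  set W := LinearMap.range (1 - B) with hW
  set Kr := LinearMap.ker (1 - A ∘ₗ B) with hKr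
  set AW := W.map A with hAW
  -- U ⊔ AW = U ⊔ W
  have hsup : U ⊔ AW = U ⊔ W := by
    apply le_antisymm
    · refine sup_le le_sup_left ?_
      rintro _ ⟨w, hw, rfl⟩
      have : A w = w - (1 - A) w := by simp
      rw [this]
      exact Submodule.sub_mem _ (Submodule.mem_sup_right hw)
        (Submodule.mem_sup_left (LinearMap.mem_range_self _ _))
    · refine sup_le le_sup_left ?_
      intro w hw
      have : w = (1 - A) w + A w := by simp
      rw [this]
      exact Submodule.add_mem _ (Submodule.mem_sup_left (LinearMap.mem_range_self _ _))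
        (Submodule.mem_sup_right (Submodule.mem_map_of_mem hw))
  have hAWr : finrank K AW ≤ finrank K W := Submodule.finrank_map_le A W
  have hsi := Submodule.finrank_sup_add_finrank_inf_eq U AW
  rw [hsup] at hsi
  -- the restricted map
  set T : Kr →ₗ[K] V := (1 - A).domRestrict Kr with hT
  have hrn := LinearMap.finrank_range_add_finrank_ker T
  have hrange : LinearMap.range T ≤ U ⊓ AW := by
    rintro _ ⟨⟨v, hv⟩, rfl⟩
    refine ⟨LinearMap.mem_range_self _ _, ?_⟩
    have hv' : v = A (B v) := by
      have := LinearMap.mem_ker.mp hv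
      simpa [sub_eq_zero] using this
    refine ⟨(1 - B) (-v), LinearMap.mem_range_self _ _, ?_⟩
    simp only [hT, LinearMap.domRestrict_apply, LinearMap.sub_apply, Module.End.one_apply, map_neg,
      map_sub]
    rw [← hv']
    abel
  have hker : finrank K (LinearMap.ker T) ≤
      finrank K (LinearMap.ker (1 - A) ⊓ LinearMap.ker (1 - B) : Submodule K V) := by
    have hmap : (LinearMap.ker T).map Kr.subtype ≤
        LinearMap.ker (1 - A) ⊓ LinearMap.ker (1 - B) := by
      rintro _ ⟨⟨v, hv⟩, hvT, rfl⟩
      have hv' : v = A (B v) := by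
        have := LinearMap.mem_ker.mp hv
        simpa [sub_eq_zero] using this
      have hAv : v = A v := by
        have := LinearMap.mem_ker.mp hvT
        simpa [hT, sub_eq_zero] using this
      have hBv : B v = v := hA (by rw [← hv', ← hAv])
      refine ⟨?_, ?_⟩
      · simp [LinearMap.mem_ker, ← hAv]
      · simp [LinearMap.mem_ker, hBv]
    calc finrank K (LinearMap.ker T) = finrank K ((LinearMap.ker T).map Kr.subtype) :=
          (Submodule.finrank_map_subtype_eq _ _).symm
      _ ≤ _ := Submodule.finrank_mono hmap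
  have hr2 : finrank K (LinearMap.range T) ≤ finrank K (U ⊓ AW : Submodule K V) :=
    Submodule.finrank_mono hrange
  omega

end LinearAlgebra

section Perm

open Equiv Equiv.Perm

variable {X : Type*} [Fintype X] [DecidableEq X]

theorem card_sameCycle_quotient (σ : Perm X) :
    Nat.card (Quotient (SameCycle.setoid σ)) =
      Multiset.card σ.cycleType + (Fintype.card X - σ.cycleType.sum) := by
  classical
  -- choose a point in each cycle
  have hne : ∀ c : σ.cycleFactorsFinset, ∃ x, x ∈ (c : Perm X).support := by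
    intro c
    have hc := (mem_cycleFactorsFinset_iff.mp c.2).1
    obtain ⟨x, hx, -⟩ := hc
    exact ⟨x, mem_support.mpr hx⟩
  choose pt hpt using hne
  have hcyc : ∀ c : σ.cycleFactorsFinset, (c : Perm X) = σ.cycleOf (pt c) := fun c =>
    cycle_is_cycleOf (hpt c) c.2
  have hsupp : ∀ c : σ.cycleFactorsFinset, pt c ∈ σ.support := fun c =>
    mem_cycleFactorsFinset_support_le c.2 (hpt c)
  let ι : σ.cycleFactorsFinset ⊕ Function.fixedPoints σ → Quotient (SameCycle.setoid σ) :=
    Sum.elim (fun c => Quotient.mk _ (pt c)) (fun x => Quotient.mk _ (x : X))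
  have hinj : Function.Injective ι := by
    rintro (c | x) (d | y) h
    · have h' : SameCycle σ (pt c) (pt d) := Quotient.exact h
      congr 1
      apply Subtype.ext
      rw [hcyc c, hcyc d, h'.cycleOf_eq]
    · have h' : SameCycle σ (pt c) (y : X) := Quotient.exact h
      exact absurd (h'.eq_of_right y.2 ▸ y.2) (mem_support.mp (hsupp c))
    · have h' : SameCycle σ (x : X) (pt d) := Quotient.exact h
      exact absurd (h'.eq_of_left x.2 ▸ x.2) (mem_support.mp (hsupp d))
    · have h' : SameCycle σ (x : X) (y : X) := Quotient.exact h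
      congr 1
      exact Subtype.ext (h'.eq_of_left x.2)
  have hsurj : Function.Surjective ι := by
    intro q
    induction q using Quotient.inductionOn with
    | h x =>
      by_cases hx : σ x = x
      · exact ⟨Sum.inr ⟨x, hx⟩, rfl⟩
      · have hmem : σ.cycleOf x ∈ σ.cycleFactorsFinset :=
          cycleOf_mem_cycleFactorsFinset_iff.mpr (mem_support.mpr hx)
        refine ⟨Sum.inl ⟨_, hmem⟩, ?_⟩
        apply Quotient.sound
        have := hpt ⟨_, hmem⟩
        rw [mem_support_cycleOf_iff' hx] at this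
        exact this.symm
  rw [← Nat.card_congr (Equiv.ofBijective ι ⟨hinj, hsurj⟩), Nat.card_eq_fintype_card,
    Fintype.card_sum, card_fixedPoints, Fintype.card_coe, cycleType_def, Multiset.card_map]
  rfl

theorem sign_eq_neg_one_pow (σ : Perm X) :
    sign σ = (-1 : ℤˣ) ^ (Fintype.card X + Nat.card (Quotient (SameCycle.setoid σ))) := by
  rw [card_sameCycle_quotient, sign_of_cycleType]
  have h := σ.sum_cycleType_le
  obtain ⟨d, hd⟩ := Nat.exists_eq_add_of_le h
  rw [hd]
  have : σ.cycleType.sum + d + (Multiset.card σ.cycleType + (σ.cycleType.sum + d - σ.cycleType.sum))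
      = (σ.cycleType.sum + Multiset.card σ.cycleType) + 2 * d := by omega
  rw [this, pow_add _ (σ.cycleType.sum + Multiset.card σ.cycleType) (2 * d), pow_mul]
  simp

end Perm

section Action

variable {G X : Type*} [Group G] [MulAction G X]

/-- number of orbits of the cyclic group generated by `g`. -/
noncomputable def orb (X : Type*) [MulAction G X] (g : G) : ℕ :=
  Nat.card (MulAction.orbitRel.Quotient (Subgroup.zpowers g) X)

/-- the operator `f ↦ f ∘ (g • ·)` on rational functions on `X`. -/
noncomputable def opL (X : Type*) [MulAction G X] (g : G) : (X → ℚ) →ₗ[ℚ] (X → ℚ) :=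
  LinearMap.funLeft ℚ ℚ (fun x : X => g • x)

@[simp] theorem opL_apply (g : G) (f : X → ℚ) (x : X) : opL X g f x = f (g • x) := rfl

theorem opL_mul (g h : G) : opL X (g * h) = opL X h ∘ₗ opL X g := by
  ext f x
  simp [mul_smul]

theorem opL_injective (g : G) : Function.Injective (opL X g) :=
  LinearMap.funLeft_injective_of_surjective ℚ ℚ _ (MulAction.surjective g)

theorem mem_ker_iff (g : G) (f : X → ℚ) :
    f ∈ LinearMap.ker (1 - opL X g) ↔ ∀ x, f (g • x) = f x := by
  rw [LinearMap.mem_ker]
  constructor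
  · intro h x
    have := congrFun h x
    simp only [LinearMap.sub_apply, Module.End.one_apply, Pi.sub_apply, opL_apply, Pi.zero_apply,
      sub_eq_zero] at this
    exact this.symm
  · intro h
    ext x
    simp [h x]

/-- the subgroup of elements leaving a function invariant. -/
def stabF (f : X → ℚ) : Subgroup G where
  carrier := {k | ∀ x, f (k • x) = f x}
  one_mem' := fun x => by simp
  mul_mem' := fun {k l} hk hl x => by rw [mul_smul, hk, hl]
  inv_mem' := fun {k} hk x => by
    have := hk (k⁻¹ • x)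
    rw [smul_inv_smul] at this
    exact this.symm

theorem mem_stabF {f : X → ℚ} {k : G} : k ∈ stabF f ↔ ∀ x, f (k • x) = f x := Iff.rfl

variable [Finite X]

theorem finrank_ker (g : G) : finrank ℚ (LinearMap.ker (1 - opL X g)) = orb X g := by
  classical
  have := Fintype.ofFinite X
  set Ω := MulAction.orbitRel.Quotient (Subgroup.zpowers g) X with hΩ
  have : Fintype Ω := Fintype.ofFinite Ω
  let π : X → Ω := Quotient.mk''
  have hπ : Function.Surjective π := Quotient.mk''_surjective
  let Φ : (Ω → ℚ) →ₗ[ℚ] (X → ℚ) := LinearMap.funLeft ℚ ℚ π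
  have hΦ : Function.Injective Φ := LinearMap.funLeft_injective_of_surjective ℚ ℚ _ hπ
  have hrange : LinearMap.range Φ = LinearMap.ker (1 - opL X g) := by
    ext f
    rw [mem_ker_iff]
    constructor
    · rintro ⟨h, rfl⟩ x
      show h (π (g • x)) = h (π x)
      congr 1
      apply Quotient.sound
      exact ⟨⟨g, Subgroup.mem_zpowers g⟩, rfl⟩
    · intro h
      have hz : Subgroup.zpowers g ≤ stabF f := by
        rw [Subgroup.zpowers_le]
        exact h
      refine ⟨Quotient.lift f ?_, ?_⟩
      · rintro x y ⟨⟨k, hk⟩, rfl⟩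
        exact hz hk y
      · ext x
        rfl
  rw [← hrange, LinearMap.finrank_range_of_inj hΦ, Module.finrank_fintype_fun_eq_card, orb,
    Nat.card_eq_fintype_card]

theorem finrank_fun : finrank ℚ (X → ℚ) = Nat.card X := by
  classical
  have := Fintype.ofFinite X
  rw [Module.finrank_fintype_fun_eq_card, Nat.card_eq_fintype_card]

theorem finrank_range (g : G) :
    finrank ℚ (LinearMap.range (1 - opL X g)) + orb X g = Nat.card X := by
  have := Fintype.ofFinite X
  rw [← finrank_ker, LinearMap.finrank_range_add_finrank_ker, finrank_fun]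

theorem finrank_span_one_le (v : X → ℚ) : finrank ℚ (ℚ ∙ v) ≤ 1 := by
  have := Fintype.ofFinite X
  by_cases hv : v = 0
  · subst hv
    rw [Submodule.span_zero_singleton, finrank_bot]
    exact Nat.zero_le 1
  · exact (finrank_span_singleton hv).le

/-- elements `g` such that `f - f ∘ g` lies in a given subspace for all `f`. -/
def rangeSub (S : Submodule ℚ (X → ℚ)) : Subgroup G where
  carrier := {g | LinearMap.range (1 - opL X g) ≤ S}
  one_mem' := by
    rintro _ ⟨f, rfl⟩
    have : (1 - opL X (1 : G)) f = 0 := by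
      ext x
      simp
    rw [this]
    exact S.zero_mem
  mul_mem' := by
    rintro g h hg hh _ ⟨f, rfl⟩
    have : (1 - opL X (g * h)) f =
        (1 - opL X h) f + (1 - opL X g) f - (1 - opL X h) ((1 - opL X g) f) := by
      ext x
      simp only [LinearMap.sub_apply, Module.End.one_apply, Pi.sub_apply, opL_apply, mul_smul,
        Pi.add_apply]
      ring
    rw [this]
    exact S.sub_mem (S.add_mem (hh (LinearMap.mem_range_self _ _))
      (hg (LinearMap.mem_range_self _ _))) (hh (LinearMap.mem_range_self _ _))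
  inv_mem' := by
    rintro g hg _ ⟨f, rfl⟩
    have : (1 - opL X g⁻¹) f = - (1 - opL X g) (opL X g⁻¹ f) := by
      ext x
      simp
    rw [this]
    exact S.neg_mem (hg (LinearMap.mem_range_self _ _))

theorem inequality [MulAction.IsPretransitive G X] (a b : G)
    (hgen : Subgroup.closure {a, b} = ⊤) :
    orb X a + orb X b + orb X (a * b) ≤ Nat.card X + 2 := by
  classical
  have := Fintype.ofFinite X
  have hs := scott (opL X b) (opL X a) (opL_injective b)
  rw [← opL_mul, finrank_ker] at hs
  have hra := finrank_range (X := X) a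
  have hrb := finrank_range (X := X) b
  -- invariants are constants
  have hinv : finrank ℚ (LinearMap.ker (1 - opL X b) ⊓ LinearMap.ker (1 - opL X a) :
      Submodule ℚ (X → ℚ)) ≤ 1 := by
    refine le_trans (Submodule.finrank_mono ?_) (finrank_span_one_le (fun _ => (1 : ℚ)))
    rintro f ⟨hb, ha⟩
    rw [SetLike.mem_coe, mem_ker_iff] at ha hb
    have htop : stabF f = (⊤ : Subgroup G) := by
      rw [eq_top_iff, ← hgen, Subgroup.closure_le]
      rintro g (rfl | rfl)
      · exact ha
      · exact hb
    rcases isEmpty_or_nonempty X with hX | ⟨⟨x₀⟩⟩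
    · have : f = 0 := Subsingleton.elim _ _
      rw [this]
      exact Submodule.zero_mem _
    · rw [Submodule.mem_span_singleton]
      refine ⟨f x₀, ?_⟩
      ext x
      obtain ⟨g, rfl⟩ := MulAction.exists_smul_eq G x₀ x
      have hg : g ∈ stabF f := htop ▸ Subgroup.mem_top g
      simp [hg x₀]
  -- coinvariants
  have hco : Nat.card X ≤ 1 + finrank ℚ (LinearMap.range (1 - opL X b) ⊔
      LinearMap.range (1 - opL X a) : Submodule ℚ (X → ℚ)) := by
    set S : Submodule ℚ (X → ℚ) := LinearMap.range (1 - opL X b) ⊔ LinearMap.range (1 - opL X a)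
      with hS
    rcases isEmpty_or_nonempty X with hX | ⟨⟨x₀⟩⟩
    · simp
    have htop : rangeSub S = (⊤ : Subgroup G) := by
      rw [eq_top_iff, ← hgen, Subgroup.closure_le]
      rintro g (rfl | rfl)
      · exact (le_sup_right : LinearMap.range (1 - opL X g) ≤ S)
      · exact (le_sup_left : LinearMap.range (1 - opL X g) ≤ S)
    have hall : (⊤ : Submodule ℚ (X → ℚ)) ≤ (ℚ ∙ (Pi.single x₀ (1 : ℚ) : X → ℚ)) ⊔ S := by
      intro f _
      rw [pi_eq_sum_univ' f]
      refine Submodule.sum_mem _ fun x _ => Submodule.smul_mem _ _ ?_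
      obtain ⟨g, hg⟩ := MulAction.exists_smul_eq G x₀ x
      have hgS : g ∈ rangeSub S := htop ▸ Subgroup.mem_top g
      have hmem : (1 - opL X g) (Pi.single x (1 : ℚ)) ∈ S := hgS (LinearMap.mem_range_self _ _)
      have heq : (Pi.single x (1 : ℚ) : X → ℚ) =
          Pi.single x₀ (1 : ℚ) + (1 - opL X g) (Pi.single x (1 : ℚ)) := by
        ext z
        simp only [Pi.add_apply, LinearMap.sub_apply, Module.End.one_apply, Pi.sub_apply,
          opL_apply, Pi.single_apply]
        have : (g • z = x) ↔ z = x₀ := by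
          rw [← hg]
          exact (MulAction.injective g).eq_iff
        simp [this]
      rw [heq]
      exact Submodule.add_mem _ (Submodule.mem_sup_left (Submodule.mem_span_singleton_self _))
        (Submodule.mem_sup_right hmem)
    calc Nat.card X = finrank ℚ (⊤ : Submodule ℚ (X → ℚ)) := by rw [finrank_top, finrank_fun]
      _ ≤ finrank ℚ ((ℚ ∙ (Pi.single x₀ (1 : ℚ) : X → ℚ)) ⊔ S : Submodule ℚ (X → ℚ)) :=
          Submodule.finrank_mono hall
      _ ≤ finrank ℚ (ℚ ∙ (Pi.single x₀ (1 : ℚ) : X → ℚ)) + finrank ℚ S :=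
          Submodule.finrank_add_le_finrank_add_finrank _ _
      _ ≤ 1 + finrank ℚ S := Nat.add_le_add_right (finrank_span_one_le _) _
  omega


omit [Finite X] in
theorem orb_eq_card_sameCycle (g : G) :
    orb X g = Nat.card (Quotient (Equiv.Perm.SameCycle.setoid (MulAction.toPermHom G X g))) := by
  refine Nat.card_congr (Quotient.congr (Equiv.refl X) fun x y => ?_)
  constructor
  · rintro ⟨⟨k, i, rfl⟩, hk⟩
    refine Equiv.Perm.SameCycle.symm ⟨i, ?_⟩
    rw [← map_zpow]
    exact hk
  · rintro h
    obtain ⟨i, hi⟩ := h.symm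
    refine ⟨⟨g ^ i, i, rfl⟩, ?_⟩
    rw [← map_zpow] at hi
    exact hi

omit [Finite X] in
theorem sign_toPerm [Fintype X] [DecidableEq X] (g : G) :
    Equiv.Perm.sign (MulAction.toPermHom G X g) =
      (-1 : ℤˣ) ^ (Nat.card X + orb X g) := by
  rw [sign_eq_neg_one_pow, orb_eq_card_sameCycle, Nat.card_eq_fintype_card (α := X)]

theorem parity (a b : G) : Even (Nat.card X + orb X a + orb X b + orb X (a * b)) := by
  classical
  have := Fintype.ofFinite X
  have h : Equiv.Perm.sign (MulAction.toPermHom G X (a * b)) =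
      Equiv.Perm.sign (MulAction.toPermHom G X a) *
        Equiv.Perm.sign (MulAction.toPermHom G X b) := by
    rw [map_mul, map_mul]
  rw [sign_toPerm, sign_toPerm, sign_toPerm, ← pow_add] at h
  have h2 : (-1 : ℤˣ) ^ ((Nat.card X + orb X (a * b)) +
      (Nat.card X + orb X a + (Nat.card X + orb X b))) = 1 := by
    rw [pow_add, h, ← pow_add, ← two_mul, pow_mul]
    simp
  have h3 : Even ((Nat.card X + orb X (a * b)) +
      (Nat.card X + orb X a + (Nat.card X + orb X b))) := by
    by_contra hodd
    rw [Nat.not_even_iff_odd] at hodd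
    rw [hodd.neg_one_pow] at h2
    exact absurd h2 (by decide)
  obtain ⟨k, hk⟩ := h3
  exact ⟨k - Nat.card X, by omega⟩

/-- **Ree's theorem** for a transitive action of a group generated by two elements. -/
theorem main [MulAction.IsPretransitive G X] (a b : G) (hgen : Subgroup.closure {a, b} = ⊤) :
    orb X a + orb X b + orb X (a * b) ≤ Nat.card X + 2 ∧
      Even (Nat.card X + 2 - (orb X a + orb X b + orb X (a * b))) := by
  have h1 := inequality (X := X) a b hgen
  refine ⟨h1, ?_⟩
  obtain ⟨k, hk⟩ := parity (X := X) a b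
  exact ⟨Nat.card X + 1 - k, by omega⟩

/-- If `g ^ p` acts trivially (`p` prime), then `p * #orbits = n + (p - 1) * #fixed points`. -/
theorem mul_orb_of_pow_prime {p : ℕ} (hp : p.Prime) (g : G) (h : ∀ x : X, g ^ p • x = x) :
    p * orb X g = Nat.card X + (p - 1) * Nat.card (MulAction.fixedBy X g) := by
  classical
  have := Fintype.ofFinite X
  set σ : Equiv.Perm X := MulAction.toPermHom G X g with hσ
  have hσp : σ ^ p = 1 := by
    ext x
    rw [hσ, ← map_pow]
    exact h x
  have hall : ∀ m ∈ σ.cycleType, m = p := by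
    intro m hm
    have h1 : m ∣ p := (Equiv.Perm.dvd_of_mem_cycleType hm).trans (orderOf_dvd_of_pow_eq_one hσp)
    rcases (Nat.dvd_prime hp).mp h1 with h2 | h2
    · have := Equiv.Perm.two_le_of_mem_cycleType hm
      omega
    · exact h2
  have hrep := Multiset.eq_replicate_card.mpr hall
  have hsum : σ.cycleType.sum = Multiset.card σ.cycleType * p := by
    conv_lhs => rw [hrep]
    rw [Multiset.sum_replicate, smul_eq_mul]
  have hfix : Nat.card (MulAction.fixedBy X g) = Fintype.card X - σ.cycleType.sum := by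
    rw [← Equiv.Perm.card_fixedPoints, Nat.card_eq_fintype_card]
    rfl
  have hle := σ.sum_cycleType_le
  rw [orb_eq_card_sameCycle, card_sameCycle_quotient, hfix, Nat.card_eq_fintype_card, ← hσ]
  obtain ⟨d, hd⟩ := Nat.exists_eq_add_of_le hle
  obtain ⟨q, rfl⟩ : ∃ q, p = q + 1 := ⟨p - 1, by have := hp.pos; omega⟩
  rw [hd, hsum]
  simp only [Nat.add_sub_cancel_left, Nat.add_sub_cancel]
  ring

end Action

section Gamma0

open CongruenceSubgroup ModularGroup
open scoped MatrixGroups

variable (N : ℕ)

theorem neg_one_smul (x : SL(2, ℤ) ⧸ Gamma0 N) : (-1 : SL(2, ℤ)) • x = x := by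
  induction x using QuotientGroup.induction_on with
  | H g =>
    rw [MulAction.Quotient.smul_mk, QuotientGroup.eq]
    have : ((-1 : SL(2, ℤ)) • g)⁻¹ * g = -1 := by
      rw [smul_eq_mul, mul_inv_rev]
      have h1 : (-1 : SL(2, ℤ))⁻¹ = -1 := by
        rw [inv_eq_iff_mul_eq_one]
        ext i j
        fin_cases i <;> fin_cases j <;> simp
      rw [h1]
      ext i j
      have h2 : g⁻¹ * g = 1 := inv_mul_cancel g
      have : g⁻¹ * -1 * g = -(g⁻¹ * g) := by
        ext i j
        simp
      rw [this, h2]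
    rw [this, Gamma0_mem]
    simp

theorem S_pow_two_smul (x : SL(2, ℤ) ⧸ Gamma0 N) : (S ^ 2 : SL(2, ℤ)) • x = x := by
  have : (S ^ 2 : SL(2, ℤ)) = -1 := by
    apply Subtype.ext
    rw [pow_two, Matrix.SpecialLinearGroup.coe_mul, coe_S, Matrix.mul_fin_two,
      Matrix.SpecialLinearGroup.coe_neg, Matrix.SpecialLinearGroup.coe_one]
    ext i j
    fin_cases i <;> fin_cases j <;> simp
  rw [this, neg_one_smul]

theorem ST_pow_three_smul (x : SL(2, ℤ) ⧸ Gamma0 N) : ((S * T) ^ 3 : SL(2, ℤ)) • x = x := by
  have : ((S * T) ^ 3 : SL(2, ℤ)) = -1 := by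
    apply Subtype.ext
    rw [pow_succ, pow_two]
    simp only [Matrix.SpecialLinearGroup.coe_mul, coe_S, coe_T, Matrix.mul_fin_two,
      Matrix.SpecialLinearGroup.coe_neg, Matrix.SpecialLinearGroup.coe_one]
    ext i j
    fin_cases i <;> fin_cases j <;> simp
  rw [this, neg_one_smul]

variable [NeZero N]

/-- The combinatorial genus of `X₀(N)`: with `n = [SL₂(ℤ) : Γ₀(N)]` and `oS, oT, oU` the numbers of
orbits of `S`, `T`, `S * T` on the cosets, `n + 2 - oS - oT - oU = 2 g` for a natural number `g`,
and `g` is given by the classical formula in terms of fixed points. -/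
theorem exists_genus :
    ∃ g : ℕ,
      Nat.card (SL(2, ℤ) ⧸ Gamma0 N) + 2 =
        orb (SL(2, ℤ) ⧸ Gamma0 N) S + orb (SL(2, ℤ) ⧸ Gamma0 N) T +
          orb (SL(2, ℤ) ⧸ Gamma0 N) (S * T) + 2 * g ∧
      (g : ℚ) = 1 + (Nat.card (SL(2, ℤ) ⧸ Gamma0 N) : ℚ) / 12
        - (Nat.card (MulAction.fixedBy (SL(2, ℤ) ⧸ Gamma0 N) S) : ℚ) / 4
        - (Nat.card (MulAction.fixedBy (SL(2, ℤ) ⧸ Gamma0 N) (S * T)) : ℚ) / 3
        - (orb (SL(2, ℤ) ⧸ Gamma0 N) T : ℚ) / 2 := by
  have hfin : Finite (SL(2, ℤ) ⧸ Gamma0 N) := Subgroup.finite_quotient_of_finiteIndex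
  obtain ⟨h1, k, hk⟩ := main (X := SL(2, ℤ) ⧸ Gamma0 N) S T
    SpecialLinearGroup.SL2Z_generators
  have h2 := mul_orb_of_pow_prime (X := SL(2, ℤ) ⧸ Gamma0 N) Nat.prime_two S (S_pow_two_smul N)
  have h3 := mul_orb_of_pow_prime (X := SL(2, ℤ) ⧸ Gamma0 N) Nat.prime_three (S * T)
    (ST_pow_three_smul N)
  refine ⟨k, by omega, ?_⟩
  have e1 : (Nat.card (SL(2, ℤ) ⧸ Gamma0 N) : ℚ) + 2 =
      orb (SL(2, ℤ) ⧸ Gamma0 N) S + orb (SL(2, ℤ) ⧸ Gamma0 N) T +
          orb (SL(2, ℤ) ⧸ Gamma0 N) (S * T) + 2 * k := by
    have : Nat.card (SL(2, ℤ) ⧸ Gamma0 N) + 2 =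
        orb (SL(2, ℤ) ⧸ Gamma0 N) S + orb (SL(2, ℤ) ⧸ Gamma0 N) T +
          orb (SL(2, ℤ) ⧸ Gamma0 N) (S * T) + 2 * k := by omega
    exact_mod_cast this
  have e2 : (2 : ℚ) * orb (SL(2, ℤ) ⧸ Gamma0 N) S = Nat.card (SL(2, ℤ) ⧸ Gamma0 N) +
      Nat.card (MulAction.fixedBy (SL(2, ℤ) ⧸ Gamma0 N) S) := by
    have := h2
    simp only [Nat.add_one_sub_one, one_mul] at this
    exact_mod_cast this
  have e3 : (3 : ℚ) * orb (SL(2, ℤ) ⧸ Gamma0 N) (S * T) = Nat.card (SL(2, ℤ) ⧸ Gamma0 N) +
      2 * Nat.card (MulAction.fixedBy (SL(2, ℤ) ⧸ Gamma0 N) (S * T)) := by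
    have := h3
    simp only [Nat.add_one_sub_one] at this
    exact_mod_cast this
  linarith

end Gamma0

end Fermat.Agent.Lib.Ree
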