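/-
Lib/SatPerp (owner helper102).  Mathlib only.

Duality for saturated lattices over a principal ideal domain: if `P ⊆ R^ι` is `π`-saturated and
`φ ∈ k^ι` is orthogonal to the reduction of `P` (`κ : R → k` with kernel `(π)`), then `φ` is a
`k`-linear combination of reductions of vectors of `R^ι` orthogonal to `P`.
-/
import Mathlib

set_option autoImplicit false

namespace Fermat.Agent.Lib.SatPerp

open Module

variable {R k : Type*} [CommRing R] [IsDomain R] [IsPrincipalIdealRing R] [Field k]
variable {ι : Type*} [Fintype ι]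

theorem sat_perp (κ : R →+* k) (π : R) (hker : ∀ r, κ r = 0 → π ∣ r) (hπ : κ π = 0)
    (P : Submodule R (ι → R)) (hsat : ∀ v : ι → R, π • v ∈ P → v ∈ P) (φ : ι → k)
    (hφ : ∀ v ∈ P, ∑ i, φ i * κ (v i) = 0) :
    φ ∈ Submodule.span k {ψ : ι → k | ∃ c : ι → R, (∀ v ∈ P, ∑ i, c i * v i = 0) ∧
      ψ = fun i => κ (c i)} := by
  classical
  obtain ⟨n, snf⟩ := Submodule.smithNormalForm (Pi.basisFun R ι) P
  -- the coordinate vectors
  let c : ι → ι → R := fun j i => snf.bM.repr (Pi.single i 1) j
  let Φ : ι → k := fun j => ∑ i, φ i * κ (snf.bM j i)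
  have hcoord : ∀ (j : ι) (v : ι → R), ∑ i, c j i * v i = snf.bM.repr v j := by
    intro j v
    have hv : v = ∑ i, v i • (Pi.single i 1 : ι → R) := by
      funext l
      simp [Finset.sum_apply, Pi.single_apply]
    conv_rhs => rw [hv]
    rw [map_sum, Finsupp.coe_finset_sum, Finset.sum_apply]
    refine Finset.sum_congr rfl fun i _ => ?_
    rw [map_smul, Finsupp.smul_apply, smul_eq_mul, mul_comm]
  -- `φ = ∑ j, Φ j • red (c j)`
  have hexp : φ = ∑ j, Φ j • (fun i => κ (c j i)) := by
    funext i
    have h1 : (Pi.single i 1 : ι → R) = ∑ j, c j i • snf.bM j := by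
      have := (snf.bM.sum_repr (Pi.single i 1 : ι → R)).symm
      exact this
    have h2 : ∀ l, (if l = i then (1 : k) else 0) = ∑ j, κ (c j i) * κ (snf.bM j l) := by
      intro l
      have := congrArg κ (congrFun h1 l)
      rw [Finset.sum_apply, map_sum] at this
      simp only [Pi.smul_apply, smul_eq_mul, map_mul] at this
      rw [← this, Pi.single_apply]
      split_ifs <;> simp
    rw [Finset.sum_apply]
    simp only [Pi.smul_apply, smul_eq_mul, Φ]
    calc φ i = ∑ l, φ l * (if l = i then (1 : k) else 0) := by simp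
      _ = ∑ l, φ l * ∑ j, κ (c j i) * κ (snf.bM j l) := by
          refine Finset.sum_congr rfl fun l _ => ?_
          rw [h2]
      _ = ∑ l, ∑ j, φ l * κ (snf.bM j l) * κ (c j i) := by
          refine Finset.sum_congr rfl fun l _ => ?_
          rw [Finset.mul_sum]
          refine Finset.sum_congr rfl fun j _ => ?_
          ring
      _ = ∑ j, ∑ l, φ l * κ (snf.bM j l) * κ (c j i) := Finset.sum_comm
      _ = ∑ j, (∑ l, φ l * κ (snf.bM j l)) * κ (c j i) := by
          refine Finset.sum_congr rfl fun j _ => ?_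
          rw [Finset.sum_mul]
  -- the diagonal entries are units modulo `π`
  have ha : ∀ l : Fin n, κ (snf.a l) ≠ 0 := by
    intro l h0
    obtain ⟨a', ha'⟩ := hker _ h0
    have hw : a' • snf.bM (snf.f l) ∈ P := by
      apply hsat
      rw [smul_smul, ← ha', ← snf.snf l]
      exact (snf.bN l).2
    have h1 := snf.repr_apply_embedding_eq_repr_smul ⟨_, hw⟩ (i := l)
    rw [map_smul, Finsupp.smul_apply, smul_eq_mul] at h1
    simp only [map_smul, Basis.repr_self, Finsupp.smul_single, smul_eq_mul, mul_one,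
      Finsupp.single_eq_same] at h1
    set x := snf.bN.repr ⟨a' • snf.bM (snf.f l), hw⟩ l with hx
    -- `a' = a l * x = π * a' * x`
    have h2 : a' * (1 - π * x) = 0 := by
      rw [ha', Finsupp.smul_apply, smul_eq_mul, ← hx] at h1
      linear_combination h1
    rcases mul_eq_zero.1 h2 with h3 | h3
    · have h4 : snf.bN l = 0 := by
        apply Subtype.ext
        rw [snf.snf l, ha', h3, mul_zero, zero_smul]
        rfl
      exact snf.bN.ne_zero l h4
    · have h5 := congrArg κ h3
      rw [map_sub, map_one, map_mul, hπ, zero_mul, sub_zero, map_zero] at h5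
      exact one_ne_zero h5
  have hΦ : ∀ l : Fin n, Φ (snf.f l) = 0 := by
    intro l
    have h1 := hφ _ (snf.bN l).2
    rw [snf.snf l] at h1
    simp only [Pi.smul_apply, smul_eq_mul, map_mul] at h1
    have h2 : κ (snf.a l) * Φ (snf.f l) = 0 := by
      rw [← h1]
      simp only [Φ]
      rw [Finset.mul_sum]
      refine Finset.sum_congr rfl fun i _ => ?_
      ring
    exact (mul_eq_zero.1 h2).resolve_left (ha l)
  rw [hexp]
  refine Submodule.sum_mem _ fun j _ => ?_
  by_cases hj : j ∈ Set.range snf.f
  · obtain ⟨l, rfl⟩ := hj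
    rw [hΦ l, zero_smul]
    exact Submodule.zero_mem _
  · refine Submodule.smul_mem _ _ (Submodule.subset_span ⟨c j, fun v hv => ?_, rfl⟩)
    rw [hcoord]
    exact snf.repr_eq_zero_of_notMem_range ⟨v, hv⟩ hj

end Fermat.Agent.Lib.SatPerp
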