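/-
Case I of Fermat's Last Theorem through the theorem of Sophie Germain (with Legendre's
extension): generic statement with an auxiliary prime `q`, and the instances
`(p, q) = (5, 11), (7, 29), (11, 23), (13, 53)`.
-/
import Mathlib

set_option autoImplicit false

namespace Fermat.Agent.Lib.SophieGermain

open Finset

/-- The cofactor `(y ^ p + z ^ p) / (y + z)` for odd `p`. -/
def cof (p : ℕ) (y z : ℤ) : ℤ := ∑ i ∈ range p, y ^ i * (-z) ^ (p - 1 - i)

theorem cof_mul {p : ℕ} (hp : Odd p) (y z : ℤ) : cof p y z * (y + z) = y ^ p + z ^ p := by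
  have h := geom_sum₂_mul y (-z) p
  rw [hp.neg_pow] at h
  rw [cof]
  linarith [h]

/-- Modulo any `r` dividing `y + z`, the cofactor is `p * z ^ (p - 1)`. -/
theorem dvd_cof_iff {p : ℕ} {y z r : ℤ} (h : r ∣ y + z) :
    r ∣ cof p y z ↔ r ∣ (p : ℤ) * (-z) ^ (p - 1) := by
  have h' : r ∣ y - (-z) := by simpa using h
  exact dvd_geom_sum₂_iff_of_dvd_sub h'

theorem isCoprime_add_cof {p : ℕ} (hp : p.Prime) {y z : ℤ} (hyz : IsCoprime y z)
    (hpd : ¬ (p : ℤ) ∣ y + z) : IsCoprime (y + z) (cof p y z) := by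
  apply isCoprime_of_prime_dvd
  · rintro ⟨h0, -⟩
    exact hpd (h0 ▸ dvd_zero _)
  · intro r hr h1 h2
    rw [dvd_cof_iff h1] at h2
    rcases hr.dvd_or_dvd h2 with h3 | h3
    · -- r ∣ p, so r is associated to p
      have hpp : Prime (p : ℤ) := Nat.prime_iff_prime_int.1 hp
      have hass : Associated r (p : ℤ) := hr.associated_of_dvd hpp h3
      exact hpd (hass.symm.dvd.trans h1)
    · have h4 : r ∣ -z := hr.dvd_of_dvd_pow h3
      have h5 : r ∣ z := by simpa using h4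
      have h6 : r ∣ y := by
        have := dvd_sub h1 h5
        simpa using this
      exact hr.not_isUnit (hyz.isUnit_of_dvd' h6 h5)

/-- If `x ^ p + y ^ p + z ^ p = 0`, `y, z` coprime and `p ∤ x`, then `y + z` and the cofactor are
`p`-th powers. -/
theorem exists_pow_eq {p : ℕ} (hp : p.Prime) (hodd : Odd p) {x y z : ℤ} (hyz : IsCoprime y z)
    (hx : ¬ (p : ℤ) ∣ x) (h : x ^ p + y ^ p + z ^ p = 0) :
    (∃ a : ℤ, y + z = a ^ p) ∧ ∃ α : ℤ, cof p y z = α ^ p := by
  have hpp : Prime (p : ℤ) := Nat.prime_iff_prime_int.1 hp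
  have hmul : (y + z) * cof p y z = (-x) ^ p := by
    rw [mul_comm, cof_mul hodd, hodd.neg_pow]; linarith
  have hpd : ¬ (p : ℤ) ∣ y + z := by
    intro hd
    have h1 : (p : ℤ) ∣ (-x) ^ p := hmul ▸ hd.mul_right _
    have h2 : (p : ℤ) ∣ -x := hpp.dvd_of_dvd_pow h1
    exact hx (by simpa using h2)
  exact Int.eq_pow_of_mul_eq_pow_odd (isCoprime_add_cof hp hyz hpd) hodd hmul

/-- image of the cofactor in `ZMod q`. -/
theorem cast_cof (q p : ℕ) (y z : ℤ) :
    ((cof p y z : ℤ) : ZMod q) = ∑ i ∈ range p, (y : ZMod q) ^ i * (-(z : ZMod q)) ^ (p - 1 - i) := by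
  simp [cof]

theorem cast_cof_of_add_eq_zero {q p : ℕ} {y z : ℤ} (h : ((y + z : ℤ) : ZMod q) = 0) :
    ((cof p y z : ℤ) : ZMod q) = (p : ZMod q) * (y : ZMod q) ^ (p - 1) := by
  have hz : -(z : ZMod q) = (y : ZMod q) := by
    push_cast at h
    linear_combination -h
  rw [cast_cof, hz]
  have : ∀ i ∈ range p, (y : ZMod q) ^ i * (y : ZMod q) ^ (p - 1 - i) = (y : ZMod q) ^ (p - 1) := by
    intro i hi
    rw [← pow_add]
    congr 1
    have := mem_range.1 hi
    omega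
  rw [sum_congr rfl this]
  simp

theorem cast_cof_of_left_eq_zero {q p : ℕ} (hp : Odd p) {x y : ℤ} (h : ((x : ℤ) : ZMod q) = 0) :
    ((cof p x y : ℤ) : ZMod q) = (y : ZMod q) ^ (p - 1) := by
  rw [cast_cof, h]
  obtain ⟨k, rfl⟩ := hp
  rw [sum_range_succ']
  have : ∀ i ∈ range (2 * k), (0 : ZMod q) ^ (i + 1) * (-(y : ZMod q)) ^ (2 * k + 1 - 1 - (i + 1)) = 0 := by
    intro i _
    simp
  rw [sum_congr rfl this]
  simp [Even.neg_pow (even_two_mul k)]

/-- The core of Sophie Germain's argument, in the case `q ∣ x`. -/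
theorem core {p q : ℕ} (hp : p.Prime) (hodd : Odd p) (hq : q.Prime)
    (h1 : ∀ x y z : ZMod q, x ^ p + y ^ p + z ^ p = 0 → x = 0 ∨ y = 0 ∨ z = 0)
    (h2 : ∀ x : ZMod q, x ^ p ≠ (p : ZMod q))
    {x y z : ℤ} (hxy : IsCoprime x y) (hyz : IsCoprime y z) (hzx : IsCoprime z x)
    (h : x ^ p + y ^ p + z ^ p = 0) (hpx : ¬ (p : ℤ) ∣ x) (hpy : ¬ (p : ℤ) ∣ y)
    (hpz : ¬ (p : ℤ) ∣ z) (hqx : ((x : ℤ) : ZMod q) = 0) : False := by
  have : Fact q.Prime := ⟨hq⟩
  have hqp : Prime (q : ℤ) := Nat.prime_iff_prime_int.1 hq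
  have hqx' : (q : ℤ) ∣ x := (ZMod.intCast_zmod_eq_zero_iff_dvd x q).1 hqx
  have hqy : ((y : ℤ) : ZMod q) ≠ 0 := by
    intro h0
    have : (q : ℤ) ∣ y := (ZMod.intCast_zmod_eq_zero_iff_dvd y q).1 h0
    exact hqp.not_isUnit (hxy.isUnit_of_dvd' hqx' this)
  have hqz : ((z : ℤ) : ZMod q) ≠ 0 := by
    intro h0
    have : (q : ℤ) ∣ z := (ZMod.intCast_zmod_eq_zero_iff_dvd z q).1 h0
    exact hqp.not_isUnit (hzx.isUnit_of_dvd' this hqx')
  obtain ⟨⟨a, ha⟩, ⟨α, hα⟩⟩ := exists_pow_eq hp hodd hyz hpx h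
  obtain ⟨⟨b, hb⟩, -⟩ := exists_pow_eq hp hodd hzx hpy (x := y) (y := z) (z := x) (by linarith)
  obtain ⟨⟨c, hc⟩, ⟨γ, hγ⟩⟩ := exists_pow_eq hp hodd hxy hpz (x := z) (y := x) (z := y)
    (by linarith)
  -- `b ^ p + c ^ p + (-a) ^ p = 2 x ≡ 0`
  have hsum : ((b : ℤ) : ZMod q) ^ p + ((c : ℤ) : ZMod q) ^ p + ((-a : ℤ) : ZMod q) ^ p = 0 := by
    have : b ^ p + c ^ p + (-a) ^ p = 2 * x := by
      rw [hodd.neg_pow, ← ha, ← hb, ← hc]; ring
    have h3 := congrArg (fun t : ℤ => (t : ZMod q)) this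
    push_cast at h3
    push_cast
    rw [h3, hqx, mul_zero]
  rcases h1 _ _ _ hsum with hb0 | hc0 | ha0
  · -- q ∣ b, so q ∣ z + x, so q ∣ z
    apply hqz
    have h3 := congrArg (fun t : ℤ => (t : ZMod q)) hb
    push_cast at h3
    rw [hb0, hqx, zero_pow hp.ne_zero, add_zero] at h3
    exact h3
  · apply hqy
    have h3 := congrArg (fun t : ℤ => (t : ZMod q)) hc
    push_cast at h3
    rw [hc0, hqx, zero_pow hp.ne_zero, zero_add] at h3
    exact h3
  · -- q ∣ a, so y + z ≡ 0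
    have ha0' : ((a : ℤ) : ZMod q) = 0 := by
      push_cast at ha0
      simpa using ha0
    have hyz0 : ((y + z : ℤ) : ZMod q) = 0 := by
      rw [ha]; push_cast; rw [ha0', zero_pow hp.ne_zero]
    have e1 : ((α : ℤ) : ZMod q) ^ p = (p : ZMod q) * (y : ZMod q) ^ (p - 1) := by
      rw [← cast_cof_of_add_eq_zero hyz0, hα]; push_cast; rfl
    have e2 : ((γ : ℤ) : ZMod q) ^ p = (y : ZMod q) ^ (p - 1) := by
      rw [← cast_cof_of_left_eq_zero hodd hqx, hγ]; push_cast; rfl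
    have hγ0 : ((γ : ℤ) : ZMod q) ≠ 0 := by
      intro h0
      rw [h0, zero_pow hp.ne_zero] at e2
      exact pow_ne_zero _ hqy e2.symm
    apply h2 (((α : ℤ) : ZMod q) / ((γ : ℤ) : ZMod q))
    rw [div_pow, e1, e2]
    field_simp

/-- **Sophie Germain's theorem** (with a general auxiliary prime). -/
theorem sophieGermain {p q : ℕ} (hp : p.Prime) (hodd : Odd p) (hq : q.Prime)
    (h1 : ∀ x y z : ZMod q, x ^ p + y ^ p + z ^ p = 0 → x = 0 ∨ y = 0 ∨ z = 0)
    (h2 : ∀ x : ZMod q, x ^ p ≠ (p : ZMod q))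
    {x y z : ℤ} (hxy : IsCoprime x y) (hyz : IsCoprime y z) (hzx : IsCoprime z x)
    (h : x ^ p + y ^ p + z ^ p = 0) : (p : ℤ) ∣ x * y * z := by
  have hpp : Prime (p : ℤ) := Nat.prime_iff_prime_int.1 hp
  by_contra hnd
  have hpx : ¬ (p : ℤ) ∣ x := fun hd => hnd ((hd.mul_right y).mul_right z)
  have hpy : ¬ (p : ℤ) ∣ y := fun hd => hnd ((hd.mul_left x).mul_right z)
  have hpz : ¬ (p : ℤ) ∣ z := fun hd => hnd (hd.mul_left (x * y))
  have h3 := congrArg (fun t : ℤ => (t : ZMod q)) h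
  push_cast at h3
  rcases h1 _ _ _ h3 with h0 | h0 | h0
  · exact core hp hodd hq h1 h2 hxy hyz hzx h hpx hpy hpz h0
  · exact core hp hodd hq h1 h2 hyz hzx hxy (by linarith) hpy hpz hpx h0
  · exact core hp hodd hq h1 h2 hzx hxy hyz (by linarith) hpz hpx hpy h0

/-- Reformulation for `a ^ p + b ^ p = c ^ p` with `a, b` coprime. -/
theorem caseI_of_aux {p q : ℕ} (hp : p.Prime) (hodd : Odd p) (hq : q.Prime)
    (h1 : ∀ x y z : ZMod q, x ^ p + y ^ p + z ^ p = 0 → x = 0 ∨ y = 0 ∨ z = 0)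
    (h2 : ∀ x : ZMod q, x ^ p ≠ (p : ZMod q))
    {a b c : ℤ} (hab : IsCoprime a b) (h : a ^ p + b ^ p = c ^ p) : (p : ℤ) ∣ a * b * c := by
  have hp0 : p ≠ 0 := hp.ne_zero
  -- `b, c` coprime and `c, a` coprime
  have hbc : IsCoprime b c := by
    apply isCoprime_of_prime_dvd
    · rintro ⟨rfl, rfl⟩
      rw [zero_pow hp0, add_zero] at h
      have ha : a = 0 := pow_eq_zero_iff hp0 |>.1 h
      subst ha
      exact not_isUnit_zero (isCoprime_zero_left.1 hab)
    · intro r hr hb hc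
      have h3 : r ∣ a ^ p := by
        have : a ^ p = c ^ p - b ^ p := by linarith
        rw [this]
        exact dvd_sub (dvd_pow hc hp0) (dvd_pow hb hp0)
      exact hr.not_isUnit (hab.isUnit_of_dvd' (hr.dvd_of_dvd_pow h3) hb)
  have hca : IsCoprime c a := by
    apply isCoprime_of_prime_dvd
    · rintro ⟨rfl, rfl⟩
      rw [zero_pow hp0, zero_add] at h
      have hb : b = 0 := pow_eq_zero_iff hp0 |>.1 h
      subst hb
      exact not_isUnit_zero (isCoprime_zero_left.1 hab)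
    · intro r hr hc ha
      have h3 : r ∣ b ^ p := by
        have : b ^ p = c ^ p - a ^ p := by linarith
        rw [this]
        exact dvd_sub (dvd_pow hc hp0) (dvd_pow ha hp0)
      exact hr.not_isUnit (hab.isUnit_of_dvd' ha (hr.dvd_of_dvd_pow h3))
  have key := sophieGermain hp hodd hq h1 h2 (x := a) (y := b) (z := -c) hab hbc.neg_right
    hca.neg_left (by rw [hodd.neg_pow]; linarith)
  have : a * b * -c = -(a * b * c) := by ring
  rw [this, dvd_neg] at key
  exact key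

/-- A convenient way to check the first hypothesis: all `p`-th powers lie in a small set `S`
no three nonzero elements of which sum to zero. -/
theorem h1_of_finset {p q : ℕ} (S : Finset (ZMod q)) (hS : ∀ x : ZMod q, x ≠ 0 → x ^ p ∈ S)
    (hsum : ∀ u ∈ S, ∀ v ∈ S, ∀ w ∈ S, u + v + w ≠ 0) :
    ∀ x y z : ZMod q, x ^ p + y ^ p + z ^ p = 0 → x = 0 ∨ y = 0 ∨ z = 0 := by
  intro x y z h
  by_contra hne
  push Not at hne
  exact hsum _ (hS x hne.1) _ (hS y hne.2.1) _ (hS z hne.2.2) h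

theorem caseI_five {a b c : ℤ} (hab : IsCoprime a b) (h : a ^ 5 + b ^ 5 = c ^ 5) :
    (5 : ℤ) ∣ a * b * c := by
  have := caseI_of_aux (p := 5) (q := 11) (by norm_num) (by decide) (by norm_num)
    (h1_of_finset ({1, -1} : Finset (ZMod 11)) (by decide) (by decide)) (by decide) hab h
  exact_mod_cast this

theorem caseI_seven {a b c : ℤ} (hab : IsCoprime a b) (h : a ^ 7 + b ^ 7 = c ^ 7) :
    (7 : ℤ) ∣ a * b * c := by
  have := caseI_of_aux (p := 7) (q := 29) (by norm_num) (by decide) (by norm_num)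
    (h1_of_finset ({1, -1, 12, -12} : Finset (ZMod 29)) (by decide) (by decide)) (by decide) hab h
  exact_mod_cast this

theorem caseI_eleven {a b c : ℤ} (hab : IsCoprime a b) (h : a ^ 11 + b ^ 11 = c ^ 11) :
    (11 : ℤ) ∣ a * b * c := by
  have := caseI_of_aux (p := 11) (q := 23) (by norm_num) (by decide) (by norm_num)
    (h1_of_finset ({1, -1} : Finset (ZMod 23)) (by decide) (by decide)) (by decide) hab h
  exact_mod_cast this

set_option maxRecDepth 100000 in
theorem caseI_thirteen {a b c : ℤ} (hab : IsCoprime a b) (h : a ^ 13 + b ^ 13 = c ^ 13) :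
    (13 : ℤ) ∣ a * b * c := by
  have := caseI_of_aux (p := 13) (q := 53) (by norm_num) (by decide) (by norm_num)
    (h1_of_finset ({1, -1, 23, -23} : Finset (ZMod 53)) (by decide) (by decide)) (by decide) hab h
  exact_mod_cast this

/-- Case I for all four exponents at once. -/
theorem caseI {p : ℕ} (hp : p = 5 ∨ p = 7 ∨ p = 11 ∨ p = 13) {a b c : ℤ} (hab : IsCoprime a b)
    (h : a ^ p + b ^ p = c ^ p) : (p : ℤ) ∣ a * b * c := by
  rcases hp with rfl | rfl | rfl | rfl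
  · exact caseI_five hab h
  · exact caseI_seven hab h
  · exact caseI_eleven hab h
  · exact caseI_thirteen hab h

end Fermat.Agent.Lib.SophieGermain
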