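import Mathlib

/-!
# Behaviour at `i∞` of vector valued functions on the upper half plane

`X` is a finite set with a permutation `σ` (the action of `T`), `σ ^ N = 1`, and
`v : X → ℍ → ℂ` is a family of holomorphic functions, bounded at `i∞`, with
`v x (1 +ᵥ τ) = v (σ x) τ`.
-/

set_option autoImplicit false
set_option linter.unusedSectionVars false

open UpperHalfPlane hiding I
open Complex Filter Topology Function
open scoped Real Manifold

noncomputable section

namespace Fermat.Agent.Lib.VecCusp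

local notation "𝕢" => Function.Periodic.qParam

/-- periodicity on `ℍ` gives periodicity of `f ∘ ofComplex`. -/
lemma periodic_comp_ofComplex {W : ℍ → ℂ} (hper : ∀ τ : ℍ, W ((1 : ℝ) +ᵥ τ) = W τ) :
    Function.Periodic (W ∘ ofComplex) (1 : ℝ) := by
  intro w
  by_cases hw : 0 < im w
  · have h1 : 0 < im (w + (1 : ℝ)) := by simpa using hw
    simp only [comp_apply, ofComplex_apply_of_im_pos h1, ofComplex_apply_of_im_pos hw]
    rw [← hper ⟨w, hw⟩]
    congr 1
    ext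
    simp [add_comm]
  · have hw' : im w ≤ 0 := not_lt.mp hw
    have h1 : im (w + (1 : ℝ)) ≤ 0 := by simpa using hw'
    simp only [comp_apply]
    rw [ofComplex_apply_of_im_nonpos h1, ofComplex_apply_of_im_nonpos hw']

/-- Removable singularity at `i∞`: a `1`-periodic holomorphic function `W` such that `q * W → 0`
has a limit at `i∞`. -/
theorem exists_tendsto_of_qParam_mul_isZero {W : ℍ → ℂ} (hhol : MDiff W)
    (hper : ∀ τ : ℍ, W ((1 : ℝ) +ᵥ τ) = W τ)
    (hzero : IsZeroAtImInfty (fun τ : ℍ => 𝕢 1 τ * W τ)) :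
    ∃ l : ℂ, Tendsto W atImInfty (𝓝 l) := by
  set g : ℍ → ℂ := fun τ : ℍ => 𝕢 1 τ * W τ with hg
  have hgper : ∀ τ : ℍ, g ((1 : ℝ) +ᵥ τ) = g τ := by
    intro τ
    simp only [hg, hper τ]
    congr 1
    simp only [Function.Periodic.qParam, coe_vadd]
    rw [show 2 * (π : ℂ) * I * (((1 : ℝ) : ℂ) + (τ : ℂ)) / ((1 : ℝ) : ℂ)
      = 2 * π * I * τ / ((1 : ℝ) : ℂ) + 2 * π * I by push_cast; ring]
    rw [Complex.exp_add, Complex.exp_two_pi_mul_I, mul_one]
  have hgper' := periodic_comp_ofComplex hgper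
  have hghol : MDiff g := by
    refine MDifferentiable.mul ?_ hhol
    rw [UpperHalfPlane.mdifferentiable_iff]
    have : DifferentiableOn ℂ (𝕢 1) {z | 0 < z.im} :=
      (Function.Periodic.differentiable_qParam).differentiableOn
    refine this.congr ?_
    intro z hz
    simp [Function.comp_apply, ofComplex_apply_of_im_pos hz]
  have hgbdd : IsBoundedAtImInfty g := hzero.boundedAtFilter
  have hdiff : DifferentiableAt ℂ (cuspFunction 1 g) 0 :=
    differentiableAt_cuspFunction one_pos hgper' hghol hgbdd (by simp)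
  have h0 : cuspFunction 1 g 0 = 0 := hzero.cuspFunction_apply_zero one_pos
  refine ⟨dslope (cuspFunction 1 g) 0 0, ?_⟩
  have hcont : ContinuousAt (dslope (cuspFunction 1 g) 0) 0 := continuousAt_dslope_same.mpr hdiff
  have hW : W = fun τ : ℍ => dslope (cuspFunction 1 g) 0 (𝕢 1 τ) := by
    funext τ
    have hq : 𝕢 1 (τ : ℂ) ≠ 0 := Function.Periodic.qParam_ne_zero _
    rw [dslope_of_ne _ hq, slope_def_field, h0, sub_zero, sub_zero,
      eq_cuspFunction τ one_ne_zero hgper']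
    simp only [hg]
    field_simp
  rw [hW]
  exact hcont.tendsto.comp (qParam_tendsto_atImInfty one_pos)

/-! ### Roots of unity -/

/-- The standard primitive `N`-th root of unity. -/
def zeta (N : ℕ) : ℂ := Complex.exp (2 * π * I / N)

lemma zeta_isPrimitiveRoot (N : ℕ) [NeZero N] : IsPrimitiveRoot (zeta N) N :=
  Complex.isPrimitiveRoot_exp N (NeZero.ne N)

lemma zeta_pow (N : ℕ) [NeZero N] : zeta N ^ N = 1 := (zeta_isPrimitiveRoot N).pow_eq_one

lemma zeta_ne_zero (N : ℕ) : zeta N ≠ 0 := Complex.exp_ne_zero _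

lemma sum_pow_of_pow_eq_one {N : ℕ} {η : ℂ} (h : η ^ N = 1) :
    ∑ t ∈ Finset.range N, η ^ t = if η = 1 then (N : ℂ) else 0 := by
  split_ifs with h1
  · simp [h1]
  · have := mul_neg_geom_sum η N
    rw [h, sub_self] at this
    rcases mul_eq_zero.mp this with h2 | h2
    · exact absurd (sub_eq_zero.mp h2).symm h1
    · exact h2

/-- `ζ^s * ζ⁻¹^r = 1` iff `r = s` for `r, s < N`. -/
lemma zeta_pow_mul_inv_pow_eq_one_iff {N : ℕ} [NeZero N] {r s : ℕ} (hr : r < N) (hs : s < N) :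
    zeta N ^ s * (zeta N)⁻¹ ^ r = 1 ↔ r = s := by
  have hz := zeta_ne_zero N
  rw [inv_pow, mul_inv_eq_one₀ (pow_ne_zero _ hz)]
  constructor
  · intro h
    exact ((zeta_isPrimitiveRoot N).pow_inj hs hr h).symm
  · rintro rfl; rfl

/-! ### The projectors `π_r` -/

variable {X : Type*}

/-- The projector onto the `ζ^r`-eigenspace of `a ↦ a ∘ σ`. -/
def proj (σ : Equiv.Perm X) (N r : ℕ) (a : X → ℂ) (x : X) : ℂ :=
  (N : ℂ)⁻¹ * ∑ t ∈ Finset.range N, (zeta N)⁻¹ ^ (r * t) * a ((σ ^ t) x)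

lemma proj_add (σ : Equiv.Perm X) (N r : ℕ) (a b : X → ℂ) :
    proj σ N r (a + b) = proj σ N r a + proj σ N r b := by
  funext x
  simp only [proj, Pi.add_apply, mul_add, Finset.sum_add_distrib]

lemma proj_smul (σ : Equiv.Perm X) (N r : ℕ) (c : ℂ) (a : X → ℂ) :
    proj σ N r (c • a) = c • proj σ N r a := by
  funext x
  simp only [proj, Pi.smul_apply, smul_eq_mul, Finset.mul_sum]
  refine Finset.sum_congr rfl fun t _ => by ring

lemma proj_zero (σ : Equiv.Perm X) (N r : ℕ) : proj σ N r (0 : X → ℂ) = 0 := by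
  funext x; simp [proj]

lemma proj_sum {ι : Type*} (σ : Equiv.Perm X) (N r : ℕ) (s : Finset ι) (a : ι → X → ℂ) :
    proj σ N r (∑ i ∈ s, a i) = ∑ i ∈ s, proj σ N r (a i) := by
  classical
  induction s using Finset.induction_on with
  | empty => simp [proj_zero]
  | insert i s hi ih => rw [Finset.sum_insert hi, Finset.sum_insert hi, proj_add, ih]

lemma proj_comp (σ : Equiv.Perm X) (N r : ℕ) (a : X → ℂ) (x : X) :
    proj σ N r (fun y => a (σ y)) x = proj σ N r a (σ x) := by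
  simp only [proj]
  congr 1
  refine Finset.sum_congr rfl fun t _ => ?_
  congr 2
  rw [← Equiv.Perm.mul_apply, ← Equiv.Perm.mul_apply, ← pow_succ', ← pow_succ]

variable {σ : Equiv.Perm X} {N : ℕ} [NeZero N]

/-- (P1) `π_r a` is a `ζ^r`-eigenvector. -/
lemma proj_apply_perm (hσ : σ ^ N = 1) (r : ℕ) (a : X → ℂ) (x : X) :
    proj σ N r a (σ x) = zeta N ^ r * proj σ N r a x := by
  have hz := zeta_ne_zero N
  simp only [proj]
  rw [mul_left_comm]
  congr 1
  set f : ℕ → ℂ := fun t => (zeta N)⁻¹ ^ (r * t) * a ((σ ^ t) x) with hf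
  have h1 : ∀ t, (zeta N)⁻¹ ^ (r * t) * a ((σ ^ t) (σ x)) = zeta N ^ r * f (t + 1) := by
    intro t
    simp only [hf]
    rw [← Equiv.Perm.mul_apply, ← pow_succ, mul_add, mul_one, ← mul_assoc]
    congr 1
    rw [pow_add, mul_comm ((zeta N)⁻¹ ^ (r * t)), ← mul_assoc, inv_pow (zeta N) r,
      mul_inv_cancel₀ (pow_ne_zero _ hz), one_mul]
  have h2 : f N = f 0 := by
    simp only [hf, hσ, mul_zero, pow_zero]
    rw [mul_comm r N, pow_mul, inv_pow, zeta_pow, inv_one, one_pow]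
  rw [Finset.sum_congr rfl (fun t _ => h1 t), ← Finset.mul_sum]
  congr 1
  have h3 := Finset.sum_range_succ f N
  have h4 := Finset.sum_range_succ' f N
  rw [h3, h2] at h4
  exact (add_right_cancel h4).symm

lemma apply_pow_of_eigen {a : X → ℂ} {c : ℂ} (ha : ∀ x, a (σ x) = c * a x) (t : ℕ) (x : X) :
    a ((σ ^ t) x) = c ^ t * a x := by
  induction t generalizing x with
  | zero => simp
  | succ t ih => rw [pow_succ, Equiv.Perm.mul_apply, ih, ha, pow_succ]; ring

/-- (P3) `π_r` on a `ζ^s`-eigenvector. -/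
lemma proj_of_eigen {r s : ℕ} (hr : r < N) (hs : s < N) {a : X → ℂ}
    (ha : ∀ x, a (σ x) = zeta N ^ s * a x) :
    proj σ N r a = if r = s then a else 0 := by
  funext x
  simp only [proj]
  have h1 : ∀ t, (zeta N)⁻¹ ^ (r * t) * a ((σ ^ t) x)
      = (zeta N ^ s * (zeta N)⁻¹ ^ r) ^ t * a x := by
    intro t
    rw [apply_pow_of_eigen ha, mul_pow, pow_mul]; ring
  rw [Finset.sum_congr rfl (fun t _ => h1 t), ← Finset.sum_mul, sum_pow_of_pow_eq_one]
  · have hN : (N : ℂ) ≠ 0 := Nat.cast_ne_zero.mpr (NeZero.ne N)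
    simp only [zeta_pow_mul_inv_pow_eq_one_iff hr hs]
    split_ifs with h
    · field_simp
    · simp
  · rw [mul_pow, ← pow_mul, ← pow_mul, mul_comm s N, mul_comm r N, pow_mul, pow_mul, inv_pow,
      zeta_pow, inv_one, one_pow, one_pow, one_mul]

/-- (P4) -/
lemma proj_proj (hσ : σ ^ N = 1) {r s : ℕ} (hr : r < N) (hs : s < N) (a : X → ℂ) :
    proj σ N r (proj σ N s a) = if r = s then proj σ N s a else 0 :=
  proj_of_eigen hr hs (proj_apply_perm hσ s a)

/-- (P2) the projectors sum to the identity. -/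
lemma sum_proj (a : X → ℂ) (x : X) :
    ∑ r ∈ Finset.range N, proj σ N r a x = a x := by
  have hN : (N : ℂ) ≠ 0 := Nat.cast_ne_zero.mpr (NeZero.ne N)
  simp only [proj]
  rw [← Finset.mul_sum, Finset.sum_comm]
  have h1 : ∀ t ∈ Finset.range N, ∑ r ∈ Finset.range N, (zeta N)⁻¹ ^ (r * t) * a ((σ ^ t) x)
      = if t = 0 then (N : ℂ) * a x else 0 := by
    intro t ht
    rw [← Finset.sum_mul]
    have h2 : ∀ r, (zeta N)⁻¹ ^ (r * t) = ((zeta N)⁻¹ ^ t) ^ r := by
      intro r; rw [mul_comm, pow_mul]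
    rw [Finset.sum_congr rfl (fun r _ => h2 r), sum_pow_of_pow_eq_one]
    · have h3 : ((zeta N)⁻¹ ^ t = 1) ↔ t = 0 := by
        have := zeta_pow_mul_inv_pow_eq_one_iff (N := N) (r := t) (s := 0)
          (Finset.mem_range.mp ht) (Nat.pos_of_ne_zero (NeZero.ne N))
        simpa using this
      simp only [h3]
      split_ifs with h
      · subst h; simp
      · simp
    · rw [← pow_mul, mul_comm, pow_mul, inv_pow, zeta_pow, inv_one, one_pow]
  rw [Finset.sum_congr rfl h1, Finset.sum_ite_eq' (Finset.range N) 0]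
  simp only [Finset.mem_range, Nat.pos_of_ne_zero (NeZero.ne N), if_true]
  field_simp

/-! ### Vector valued functions -/

/-- The hypotheses on a vector valued function `v : X → ℍ → ℂ`. -/
structure IsTVec (σ : Equiv.Perm X) (v : X → ℍ → ℂ) : Prop where
  holo : ∀ x, MDiff (v x)
  bdd : ∀ x, IsBoundedAtImInfty (v x)
  shift : ∀ x (τ : ℍ), v x ((1 : ℝ) +ᵥ τ) = v (σ x) τ

/-- The twisted component `q_N^{-r} π_r v`. -/
def tw (σ : Equiv.Perm X) (N r : ℕ) (v : X → ℍ → ℂ) (x : X) (τ : ℍ) : ℂ :=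
  (𝕢 N τ)⁻¹ ^ r * proj σ N r (fun y => v y τ) x

lemma qParam_vadd_one (N : ℕ) [NeZero N] (τ : ℍ) :
    𝕢 N (((1 : ℝ) +ᵥ τ : ℍ) : ℂ) = zeta N * 𝕢 N τ := by
  have hN : (N : ℂ) ≠ 0 := Nat.cast_ne_zero.mpr (NeZero.ne N)
  simp only [Function.Periodic.qParam, zeta, coe_vadd, ← Complex.exp_add]
  congr 1
  push_cast
  field_simp

lemma qParam_pow (N : ℕ) [NeZero N] (z : ℂ) : 𝕢 N z ^ N = 𝕢 1 z := by
  have hN : (N : ℂ) ≠ 0 := Nat.cast_ne_zero.mpr (NeZero.ne N)
  simp only [Function.Periodic.qParam, ← Complex.exp_nat_mul]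
  congr 1
  push_cast
  field_simp

lemma mdiff_qParam (h : ℝ) : MDiff (fun τ : ℍ => 𝕢 h τ) := by
  rw [UpperHalfPlane.mdifferentiable_iff]
  have : DifferentiableOn ℂ (𝕢 h) {z | 0 < z.im} :=
    (Function.Periodic.differentiable_qParam).differentiableOn
  refine this.congr ?_
  intro z hz
  simp [Function.comp_apply, ofComplex_apply_of_im_pos hz]

lemma mdiff_qParam_inv (h : ℝ) : MDiff (fun τ : ℍ => (𝕢 h τ)⁻¹) := by
  rw [UpperHalfPlane.mdifferentiable_iff]
  have : DifferentiableOn ℂ (fun z => (𝕢 h z)⁻¹) {z | 0 < z.im} :=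
    ((Function.Periodic.differentiable_qParam).inv
      (fun z => Function.Periodic.qParam_ne_zero z)).differentiableOn
  refine this.congr ?_
  intro z hz
  simp [Function.comp_apply, ofComplex_apply_of_im_pos hz]

lemma tw_apply_perm (hσ : σ ^ N = 1) (r : ℕ) (v : X → ℍ → ℂ) (x : X) (τ : ℍ) :
    tw σ N r v (σ x) τ = zeta N ^ r * tw σ N r v x τ := by
  simp only [tw, proj_apply_perm hσ]; ring

lemma sum_qParam_pow_mul_tw (v : X → ℍ → ℂ) (x : X) (τ : ℍ) :
    ∑ r ∈ Finset.range N, 𝕢 N τ ^ r * tw σ N r v x τ = v x τ := by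
  have hq : 𝕢 N (τ : ℂ) ≠ 0 := Function.Periodic.qParam_ne_zero _
  rw [← sum_proj (σ := σ) (N := N) (fun y => v y τ) x]
  refine Finset.sum_congr rfl fun r _ => ?_
  simp only [tw]
  rw [← mul_assoc, inv_pow, mul_inv_cancel₀ (pow_ne_zero _ hq), one_mul]

lemma tw_smul_fun (r : ℕ) (A : ℍ → ℂ) (v : X → ℍ → ℂ) (x : X) (τ : ℍ) :
    tw σ N r (fun y τ => A τ * v y τ) x τ = A τ * tw σ N r v x τ := by
  simp only [tw]
  have : (fun y => A τ * v y τ) = A τ • (fun y => v y τ) := by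
    funext y; simp
  rw [this, proj_smul]
  simp only [Pi.smul_apply, smul_eq_mul]; ring

lemma tw_add (r : ℕ) (v w : X → ℍ → ℂ) (x : X) (τ : ℍ) :
    tw σ N r (v + w) x τ = tw σ N r v x τ + tw σ N r w x τ := by
  simp only [tw]
  have : (fun y => (v + w) y τ) = (fun y => v y τ) + (fun y => w y τ) := by
    funext y; simp
  rw [this, proj_add]
  simp only [Pi.add_apply]; ring

namespace IsTVec

variable {v : X → ℍ → ℂ}

lemma proj_mdiff (hv : IsTVec σ v) (r : ℕ) (x : X) :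
    MDiff (fun τ : ℍ => proj σ N r (fun y => v y τ) x) := by
  simp only [proj]
  refine MDifferentiable.mul mdifferentiable_const ?_
  have : (fun τ : ℍ => ∑ t ∈ Finset.range N, (zeta N)⁻¹ ^ (r * t) * v ((σ ^ t) x) τ)
      = ∑ t ∈ Finset.range N, fun τ : ℍ => (zeta N)⁻¹ ^ (r * t) * v ((σ ^ t) x) τ := by
    funext τ; simp
  rw [this]
  exact MDifferentiable.sum fun t _ => MDifferentiable.mul mdifferentiable_const (hv.holo _)

lemma proj_bdd (hv : IsTVec σ v) (r : ℕ) (x : X) :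
    IsBoundedAtImInfty (fun τ : ℍ => proj σ N r (fun y => v y τ) x) := by
  simp only [proj, IsBoundedAtImInfty, BoundedAtFilter]
  refine Asymptotics.IsBigO.const_mul_left ?_ _
  refine Asymptotics.IsBigO.fun_sum fun t _ => ?_
  exact Asymptotics.IsBigO.const_mul_left (hv.bdd _) _

lemma tw_mdiff (hv : IsTVec σ v) (r : ℕ) (x : X) : MDiff (tw σ N r v x) := by
  unfold tw
  exact MDifferentiable.mul ((mdiff_qParam_inv N).pow r) (hv.proj_mdiff r x)

lemma tw_periodic (hv : IsTVec σ v) (hσ : σ ^ N = 1) (r : ℕ) (x : X) (τ : ℍ) :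
    tw σ N r v x ((1 : ℝ) +ᵥ τ) = tw σ N r v x τ := by
  have hz := zeta_ne_zero N
  simp only [tw, qParam_vadd_one, hv.shift]
  rw [proj_comp σ N r (fun y => v y τ) x, proj_apply_perm hσ, mul_inv, mul_pow, inv_pow (zeta N)]
  field_simp

lemma qParam_mul_tw_isZero (hv : IsTVec σ v) {r : ℕ} (hr : r < N) (x : X) :
    IsZeroAtImInfty (fun τ : ℍ => 𝕢 1 τ * tw σ N r v x τ) := by
  have h1 : (fun τ : ℍ => 𝕢 1 τ * tw σ N r v x τ)
      = fun τ : ℍ => 𝕢 N τ ^ (N - r) * proj σ N r (fun y => v y τ) x := by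
    funext τ
    have hq : 𝕢 N (τ : ℂ) ≠ 0 := Function.Periodic.qParam_ne_zero _
    simp only [tw]
    rw [← qParam_pow N, ← mul_assoc]
    congr 1
    have h5 : 𝕢 N (τ : ℂ) ^ N = 𝕢 N (τ : ℂ) ^ (N - r) * 𝕢 N (τ : ℂ) ^ r := by
      rw [← pow_add, Nat.sub_add_cancel hr.le]
    rw [inv_pow, h5, mul_assoc, mul_inv_cancel₀ (pow_ne_zero _ hq), mul_one]
  rw [h1]
  have hNpos : (0 : ℝ) < N := Nat.cast_pos.mpr (Nat.pos_of_ne_zero (NeZero.ne N))
  have h2 : Tendsto (fun τ : ℍ => 𝕢 N τ ^ (N - r)) atImInfty (𝓝 0) := by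
    have := (qParam_tendsto_atImInfty hNpos).pow (N - r)
    rwa [zero_pow (Nat.sub_ne_zero_of_lt hr)] at this
  have h3 := hv.proj_bdd (N := N) r x
  simp only [IsZeroAtImInfty, ZeroAtFilter]
  have h4 : (fun τ : ℍ => 𝕢 N τ ^ (N - r) * proj σ N r (fun y => v y τ) x)
      =o[atImInfty] (fun _ : ℍ => (1 : ℝ) * (1 : ℝ)) :=
    ((Asymptotics.isLittleO_one_iff ℝ).mpr h2).mul_isBigO h3
  rw [mul_one] at h4
  exact (Asymptotics.isLittleO_one_iff ℝ).mp h4

/-- The twisted components have limits at `i∞`. -/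
lemma tw_tendsto (hv : IsTVec σ v) (hσ : σ ^ N = 1) {r : ℕ} (hr : r < N) (x : X) :
    Tendsto (tw σ N r v x) atImInfty (𝓝 (valueAtInfty (tw σ N r v x))) := by
  obtain ⟨l, hl⟩ := exists_tendsto_of_qParam_mul_isZero (hv.tw_mdiff (N := N) r x)
    (hv.tw_periodic hσ r x) (hv.qParam_mul_tw_isZero hr x)
  rw [valueAtInfty, hl.limUnder_eq]
  exact hl

end IsTVec

/-! ### The leading vector -/

/-- The `r`-th leading component. -/
def leadComp (σ : Equiv.Perm X) (N r : ℕ) (v : X → ℍ → ℂ) (x : X) : ℂ :=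
  valueAtInfty (tw σ N r v x)

/-- The leading vector `∑_{r<N} lim q_N^{-r} π_r v`. -/
def lead (σ : Equiv.Perm X) (N : ℕ) (v : X → ℍ → ℂ) (x : X) : ℂ :=
  ∑ r ∈ Finset.range N, leadComp σ N r v x

/-- `Ψ = E Φ`. -/
def Psi (σ : Equiv.Perm X) (N : ℕ) (v : X → ℍ → ℂ) (x : X) (τ : ℍ) : ℂ :=
  ∑ r ∈ Finset.range N, tw σ N r v x τ

namespace IsTVec

variable {v w : X → ℍ → ℂ}

lemma tw_tendsto' (hv : IsTVec σ v) (hσ : σ ^ N = 1) {r : ℕ} (hr : r < N) (x : X) :
    Tendsto (tw σ N r v x) atImInfty (𝓝 (leadComp σ N r v x)) := hv.tw_tendsto hσ hr x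

lemma Psi_tendsto (hv : IsTVec σ v) (hσ : σ ^ N = 1) (x : X) :
    Tendsto (Psi σ N v x) atImInfty (𝓝 (lead σ N v x)) := by
  unfold Psi lead
  exact tendsto_finsetSum _ fun r hr => hv.tw_tendsto' hσ (Finset.mem_range.mp hr) x

lemma leadComp_apply_perm (hv : IsTVec σ v) (hσ : σ ^ N = 1) {r : ℕ} (hr : r < N) (x : X) :
    leadComp σ N r v (σ x) = zeta N ^ r * leadComp σ N r v x := by
  have h1 := hv.tw_tendsto' hσ hr (σ x)
  have h2 := (hv.tw_tendsto' hσ hr x).const_mul (zeta N ^ r)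
  have h3 : tw σ N r v (σ x) = fun τ => zeta N ^ r * tw σ N r v x τ := by
    funext τ; exact tw_apply_perm hσ r v x τ
  rw [h3] at h1
  exact tendsto_nhds_unique h1 h2

lemma proj_lead (hv : IsTVec σ v) (hσ : σ ^ N = 1) {r : ℕ} (hr : r < N) :
    proj σ N r (lead σ N v) = leadComp σ N r v := by
  have h1 : lead σ N v = ∑ s ∈ Finset.range N, leadComp σ N s v := by
    funext x; simp [lead]
  rw [h1, proj_sum]
  have h2 : ∀ s ∈ Finset.range N, proj σ N r (leadComp σ N s v)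
      = if r = s then leadComp σ N s v else 0 := fun s hs =>
    proj_of_eigen hr (Finset.mem_range.mp hs) (hv.leadComp_apply_perm hσ (Finset.mem_range.mp hs))
  rw [Finset.sum_congr rfl h2, Finset.sum_ite_eq (Finset.range N) r]
  simp [hr]

lemma leadComp_eq_zero_of_lead (hv : IsTVec σ v) (hσ : σ ^ N = 1) (h : lead σ N v = 0)
    {r : ℕ} (hr : r < N) : leadComp σ N r v = 0 := by
  rw [← hv.proj_lead hσ hr, h, proj_zero]

/-- Saturation: if the leading vector vanishes, all components are `O(exp(-2π Im τ))`. -/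
theorem isBigO_of_lead_eq_zero (hv : IsTVec σ v) (hσ : σ ^ N = 1) (h : lead σ N v = 0) (x : X) :
    v x =O[atImInfty] fun τ : ℍ => Real.exp (-2 * π * τ.im) := by
  have h1 : v x = fun τ : ℍ => ∑ r ∈ Finset.range N, 𝕢 N τ ^ r * tw σ N r v x τ := by
    funext τ; exact (sum_qParam_pow_mul_tw v x τ).symm
  rw [h1]
  refine Asymptotics.IsBigO.fun_sum fun r hr => ?_
  have hr' := Finset.mem_range.mp hr
  have hzero : IsZeroAtImInfty (tw σ N r v x) := by
    have := hv.tw_tendsto' hσ hr' x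
    rwa [congrFun (hv.leadComp_eq_zero_of_lead hσ h hr') x] at this
  have h2 := hzero.exp_decay_atImInfty one_pos
    (periodic_comp_ofComplex (hv.tw_periodic hσ r x)) (hv.tw_mdiff r x) hzero.boundedAtFilter
  have h3 : (fun τ : ℍ => 𝕢 N τ ^ r) =O[atImInfty] fun _ : ℍ => (1 : ℝ) := by
    refine Asymptotics.IsBigO.of_bound 1 (Eventually.of_forall fun τ => ?_)
    have hNpos : (0 : ℝ) < N := Nat.cast_pos.mpr (Nat.pos_of_ne_zero (NeZero.ne N))
    have := (Function.Periodic.norm_qParam_lt_one hNpos τ.im_pos).le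
    simpa using pow_le_one₀ (norm_nonneg _) this
  have h4 := h3.mul h2
  simpa using h4

lemma add (hv : IsTVec σ v) (hw : IsTVec σ w) : IsTVec σ (v + w) where
  holo x := (hv.holo x).add (hw.holo x)
  bdd x := (hv.bdd x).add (hw.bdd x)
  shift x τ := by simp [hv.shift, hw.shift]

lemma leadComp_add (hv : IsTVec σ v) (hw : IsTVec σ w) (hσ : σ ^ N = 1) {r : ℕ} (hr : r < N)
    (x : X) : leadComp σ N r (v + w) x = leadComp σ N r v x + leadComp σ N r w x := by
  have h1 := (hv.tw_tendsto' hσ hr x).add (hw.tw_tendsto' hσ hr x)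
  have h2 : tw σ N r (v + w) x = fun τ => tw σ N r v x τ + tw σ N r w x τ := by
    funext τ; exact tw_add r v w x τ
  rw [leadComp, valueAtInfty, h2]
  exact h1.limUnder_eq

lemma lead_add (hv : IsTVec σ v) (hw : IsTVec σ w) (hσ : σ ^ N = 1) :
    lead σ N (v + w) = lead σ N v + lead σ N w := by
  funext x
  simp only [lead, Pi.add_apply, ← Finset.sum_add_distrib]
  exact Finset.sum_congr rfl fun r hr => hv.leadComp_add hw hσ (Finset.mem_range.mp hr) x

/-- `lead (A v) = A(∞) lead v`. -/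
lemma leadComp_mul (hv : IsTVec σ v) (hσ : σ ^ N = 1) {A : ℍ → ℂ} {a : ℂ}
    (hA : Tendsto A atImInfty (𝓝 a)) {r : ℕ} (hr : r < N) (x : X) :
    leadComp σ N r (fun y τ => A τ * v y τ) x = a * leadComp σ N r v x := by
  have h1 := hA.mul (hv.tw_tendsto' hσ hr x)
  have h2 : tw σ N r (fun y τ => A τ * v y τ) x = fun τ => A τ * tw σ N r v x τ := by
    funext τ; exact tw_smul_fun r A v x τ
  rw [leadComp, valueAtInfty, h2]
  exact h1.limUnder_eq

lemma lead_mul (hv : IsTVec σ v) (hσ : σ ^ N = 1) {A : ℍ → ℂ} {a : ℂ}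
    (hA : Tendsto A atImInfty (𝓝 a)) :
    lead σ N (fun y τ => A τ * v y τ) = a • lead σ N v := by
  funext x
  simp only [lead, Pi.smul_apply, smul_eq_mul, Finset.mul_sum]
  exact Finset.sum_congr rfl fun r hr => hv.leadComp_mul hσ hA (Finset.mem_range.mp hr) x

end IsTVec

lemma lead_zero : lead σ N (0 : X → ℍ → ℂ) = 0 := by
  funext x
  simp only [lead, leadComp, Pi.zero_apply]
  refine Finset.sum_eq_zero fun r _ => ?_
  have : tw σ N r (0 : X → ℍ → ℂ) x = fun _ => 0 := by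
    funext τ
    simp only [tw]
    have : (fun y => (0 : X → ℍ → ℂ) y τ) = 0 := by funext y; simp
    rw [this, proj_zero]; simp
  rw [this, valueAtInfty]
  exact tendsto_const_nhds.limUnder_eq

/-! ### The operator `E` and its determinant -/

theorem det_idem {V : Type*} [AddCommGroup V] [Module ℂ V] [FiniteDimensional ℂ V]
    (p : V →ₗ[ℂ] V) (hp : IsIdempotentElem p) (w : ℂ) :
    LinearMap.det (p + w • (LinearMap.id - p)) = w ^ (Module.finrank ℂ (LinearMap.ker p)) := by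
  set e := (LinearMap.range p).prodEquivOfIsCompl (LinearMap.ker p)
    (LinearMap.IsIdempotentElem.isCompl hp) with he
  have h1 : p = e.conj (LinearMap.prodMap LinearMap.id 0) :=
    (LinearMap.IsIdempotentElem.isProj_range p hp).eq_conj_prodMap
  have h2 : (LinearMap.id : V →ₗ[ℂ] V) = e.conj (LinearMap.prodMap LinearMap.id LinearMap.id) := by
    rw [LinearMap.prodMap_id, LinearEquiv.conj_id]
  have h3 : p + w • (LinearMap.id - p)
      = e.conj (LinearMap.prodMap LinearMap.id (w • LinearMap.id)) := by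
    have : (LinearMap.prodMap LinearMap.id (w • LinearMap.id) :
        (LinearMap.range p × LinearMap.ker p) →ₗ[ℂ] (LinearMap.range p × LinearMap.ker p))
        = LinearMap.prodMap LinearMap.id 0 + w • (LinearMap.prodMap LinearMap.id LinearMap.id
          - LinearMap.prodMap LinearMap.id 0) := by
      ext x <;> simp
    rw [this, map_add, map_smul, map_sub, ← h1, ← h2]
  rw [h3, LinearEquiv.conj_apply, LinearMap.comp_assoc, LinearMap.det_conj, LinearMap.det_prodMap,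
    LinearMap.det_id, LinearMap.det_smul, LinearMap.det_id, one_mul, mul_one]

/-- `π_r` as a linear map. -/
def projL (σ : Equiv.Perm X) (N r : ℕ) : (X → ℂ) →ₗ[ℂ] (X → ℂ) where
  toFun := proj σ N r
  map_add' := proj_add σ N r
  map_smul' c a := proj_smul σ N r c a

@[simp] lemma projL_apply (σ : Equiv.Perm X) (N r : ℕ) (a : X → ℂ) :
    projL σ N r a = proj σ N r a := rfl

/-- `E_z = ∑_{r<N} z^r π_r`. -/
def EL (σ : Equiv.Perm X) (N : ℕ) (z : ℂ) : (X → ℂ) →ₗ[ℂ] (X → ℂ) :=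
  ∑ r ∈ Finset.range N, z ^ r • projL σ N r

lemma EL_apply (σ : Equiv.Perm X) (N : ℕ) (z : ℂ) (a : X → ℂ) :
    EL σ N z a = ∑ r ∈ Finset.range N, z ^ r • proj σ N r a := by
  simp [EL, LinearMap.sum_apply]

lemma Psi_eq_EL (σ : Equiv.Perm X) (N : ℕ) (v : X → ℍ → ℂ) (x : X) (τ : ℍ) :
    Psi σ N v x τ = EL σ N (𝕢 N τ)⁻¹ (fun y => v y τ) x := by
  simp [Psi, EL_apply, tw, Finset.sum_apply]

/-- The space of `σ`-invariant vectors. -/
def invSub (σ : Equiv.Perm X) : Submodule ℂ (X → ℂ) where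
  carrier := {a | ∀ x, a (σ x) = a x}
  add_mem' := by
    intro a b ha hb x
    simp [ha x, hb x]
  zero_mem' := by intro x; simp
  smul_mem' := by
    intro c a ha x
    simp [ha x]

lemma inv_pow_eq_one (hσ : σ ^ N = 1) : σ⁻¹ ^ N = 1 := by rw [inv_pow, hσ, inv_one]

/-- an eigenvector of `σ⁻¹` for `ζ^s` is an eigenvector of `σ` for `ζ^{s'}`. -/
lemma eigen_inv {s : ℕ} (hs : s < N) {b : X → ℂ} (hb : ∀ x, b (σ⁻¹ x) = zeta N ^ s * b x) (x : X) :
    b (σ x) = zeta N ^ (if s = 0 then 0 else N - s) * b x := by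
  have h1 := hb (σ x)
  rw [show σ⁻¹ (σ x) = x from σ.symm_apply_apply x] at h1
  rw [h1, ← mul_assoc]
  split_ifs with h0
  · subst h0; simp
  · rw [← pow_add, Nat.sub_add_cancel hs.le, zeta_pow, one_mul]

lemma EL_proj_inv (hσ : σ ^ N = 1) (z : ℂ) {s : ℕ} (hs : s < N) (a : X → ℂ) :
    EL σ N z (proj σ⁻¹ N s a) = z ^ (if s = 0 then 0 else N - s) • proj σ⁻¹ N s a := by
  have hNpos : 0 < N := Nat.pos_of_ne_zero (NeZero.ne N)
  have hs' : (if s = 0 then 0 else N - s) < N := by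
    split_ifs with h0
    · exact hNpos
    · omega
  have h1 := eigen_inv hs (proj_apply_perm (inv_pow_eq_one hσ) s a)
  rw [EL_apply]
  have h2 : ∀ r ∈ Finset.range N, z ^ r • proj σ N r (proj σ⁻¹ N s a)
      = if r = (if s = 0 then 0 else N - s) then z ^ r • proj σ⁻¹ N s a else 0 := by
    intro r hr
    rw [proj_of_eigen (Finset.mem_range.mp hr) hs' h1]
    split_ifs <;> simp
  rw [Finset.sum_congr rfl h2, Finset.sum_ite_eq' (Finset.range N)]
  simp [hs']

lemma EL_comp_EL_inv (hσ : σ ^ N = 1) (z : ℂ) :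
    EL σ N z ∘ₗ EL σ⁻¹ N z
      = projL σ⁻¹ N 0 + z ^ N • (LinearMap.id - projL σ⁻¹ N 0) := by
  have hNpos : 0 < N := Nat.pos_of_ne_zero (NeZero.ne N)
  refine LinearMap.ext fun a => ?_
  rw [LinearMap.comp_apply, EL_apply σ⁻¹, map_sum]
  have h1 : ∀ s ∈ Finset.range N, EL σ N z (z ^ s • proj σ⁻¹ N s a)
      = z ^ N • proj σ⁻¹ N s a + if s = 0 then (1 - z ^ N) • proj σ⁻¹ N 0 a else 0 := by
    intro s hs
    have hs' := Finset.mem_range.mp hs
    rw [map_smul, EL_proj_inv hσ z hs', smul_smul]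
    split_ifs with h0
    · subst h0
      rw [← add_smul]; simp
    · rw [← pow_add, Nat.add_sub_cancel' hs'.le, add_zero]
  rw [Finset.sum_congr rfl h1, Finset.sum_add_distrib, ← Finset.smul_sum,
    Finset.sum_ite_eq' (Finset.range N)]
  have h2 : ∑ s ∈ Finset.range N, proj σ⁻¹ N s a = a := by
    funext x
    rw [Finset.sum_apply]
    exact sum_proj a x
  rw [h2]
  simp only [Finset.mem_range, hNpos, if_true, LinearMap.add_apply, LinearMap.smul_apply,
    LinearMap.sub_apply, LinearMap.id_apply, projL_apply, sub_smul, smul_sub, one_smul]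
  abel

lemma projL_isIdempotentElem (hσ : σ ^ N = 1) {r : ℕ} (hr : r < N) :
    IsIdempotentElem (projL σ N r) := by
  refine LinearMap.ext fun a => ?_
  rw [Module.End.mul_apply, projL_apply, projL_apply, proj_proj hσ hr hr]
  simp

lemma range_projL_zero (hσ : σ ^ N = 1) : LinearMap.range (projL σ N 0) = invSub σ := by
  have hNpos : 0 < N := Nat.pos_of_ne_zero (NeZero.ne N)
  apply le_antisymm
  · rintro _ ⟨a, rfl⟩ x
    rw [projL_apply, proj_apply_perm hσ]; simp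
  · intro a ha
    refine ⟨a, ?_⟩
    rw [projL_apply, proj_of_eigen hNpos hNpos (s := 0) (fun x => by simpa using ha x)]
    simp

lemma invSub_inv (σ : Equiv.Perm X) : invSub σ⁻¹ = invSub σ := by
  ext a
  constructor
  · intro h x
    have := h (σ x)
    rw [show σ⁻¹ (σ x) = x from σ.symm_apply_apply x] at this
    exact this.symm
  · intro h x
    have := h (σ⁻¹ x)
    rw [show σ (σ⁻¹ x) = x from σ.apply_symm_apply x] at this
    exact this.symm

section Det

variable [Fintype X] [DecidableEq X]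

lemma toMatrix'_projL_transpose (σ : Equiv.Perm X) (N r : ℕ) :
    (LinearMap.toMatrix' (projL σ N r)).transpose = LinearMap.toMatrix' (projL σ⁻¹ N r) := by
  ext x y
  rw [Matrix.transpose_apply, LinearMap.toMatrix'_apply, LinearMap.toMatrix'_apply]
  simp only [projL_apply, proj]
  congr 1
  refine Finset.sum_congr rfl fun t _ => ?_
  congr 1
  have : ((σ ^ t) y = x) ↔ ((σ⁻¹ ^ t) x = y) := by
    rw [inv_pow, Equiv.Perm.inv_eq_iff_eq]
    exact eq_comm
  simp only [Pi.single_apply, this]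

lemma det_EL_inv (σ : Equiv.Perm X) (N : ℕ) (z : ℂ) :
    LinearMap.det (EL σ⁻¹ N z) = LinearMap.det (EL σ N z) := by
  rw [← LinearMap.det_toMatrix', ← LinearMap.det_toMatrix', ← Matrix.det_transpose]
  congr 1
  simp only [EL, map_sum, map_smul, Matrix.transpose_sum, Matrix.transpose_smul,
    toMatrix'_projL_transpose, inv_inv]

/-- `det(E_z)^2 = (z^N)^(μ - c)`. -/
theorem det_EL_sq (hσ : σ ^ N = 1) (z : ℂ) :
    LinearMap.det (EL σ N z) ^ 2
      = (z ^ N) ^ (Fintype.card X - Module.finrank ℂ (invSub σ)) := by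
  have hNpos : 0 < N := Nat.pos_of_ne_zero (NeZero.ne N)
  have h1 : LinearMap.det (EL σ N z) ^ 2 = LinearMap.det (EL σ N z ∘ₗ EL σ⁻¹ N z) := by
    rw [LinearMap.det_comp, det_EL_inv, sq]
  rw [h1, EL_comp_EL_inv hσ, det_idem _ (projL_isIdempotentElem (inv_pow_eq_one hσ) hNpos)]
  congr 1
  have h2 := LinearMap.finrank_range_add_finrank_ker (projL σ⁻¹ N 0)
  rw [range_projL_zero (inv_pow_eq_one hσ), invSub_inv, Module.finrank_fintype_fun_eq_card] at h2
  omega

end Det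

/-! ### Determinant asymptotics and the sum of the weights -/

section Asymptotics

variable [Fintype X] [DecidableEq X]

/-- The matrix `Φ(τ)`: rows = components, columns = members of the family. -/
def matM (f : X → X → ℍ → ℂ) (τ : ℍ) : Matrix X X ℂ := Matrix.of fun x j => f j x τ

/-- The matrix `Ψ(τ) = E(τ) Φ(τ)`. -/
def matP (σ : Equiv.Perm X) (N : ℕ) (f : X → X → ℍ → ℂ) (τ : ℍ) : Matrix X X ℂ :=
  Matrix.of fun x j => Psi σ N (f j) x τ

/-- The matrix of leading vectors. -/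
def matL (σ : Equiv.Perm X) (N : ℕ) (f : X → X → ℍ → ℂ) : Matrix X X ℂ :=
  Matrix.of fun x j => lead σ N (f j) x

lemma matP_eq (σ : Equiv.Perm X) (N : ℕ) (f : X → X → ℍ → ℂ) (τ : ℍ) :
    matP σ N f τ = LinearMap.toMatrix' (EL σ N (𝕢 N τ)⁻¹) * matM f τ := by
  ext x j
  rw [Matrix.mul_apply]
  have h := congrFun (LinearMap.toMatrix'_mulVec (EL σ N (𝕢 N τ)⁻¹) (fun y => f j y τ)) x
  rw [Matrix.mulVec, dotProduct] at h
  simp only [matP, matM, Matrix.of_apply, Psi_eq_EL]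
  exact h.symm

lemma det_matP_sq (hσ : σ ^ N = 1) (f : X → X → ℍ → ℂ) (τ : ℍ) :
    (matP σ N f τ).det ^ 2
      = ((𝕢 1 τ)⁻¹) ^ (Fintype.card X - Module.finrank ℂ (invSub σ)) * (matM f τ).det ^ 2 := by
  rw [matP_eq, Matrix.det_mul, LinearMap.det_toMatrix', mul_pow, det_EL_sq hσ, inv_pow,
    qParam_pow]

lemma tendsto_det_matP (hσ : σ ^ N = 1) {f : X → X → ℍ → ℂ} (hf : ∀ j, IsTVec σ (f j)) :
    Tendsto (fun τ => (matP σ N f τ).det) atImInfty (𝓝 (matL σ N f).det) := by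
  have h1 : Tendsto (fun τ => matP σ N f τ) atImInfty (𝓝 (matL σ N f)) := by
    refine tendsto_pi_nhds.mpr fun x => tendsto_pi_nhds.mpr fun j => ?_
    exact (hf j).Psi_tendsto hσ x
  exact ((continuous_id.matrix_det).tendsto (matL σ N f)).comp h1

/-- Theorem A. -/
theorem tendsto_det_sq (hσ : σ ^ N = 1) {f : X → X → ℍ → ℂ} (hf : ∀ j, IsTVec σ (f j)) :
    Tendsto (fun τ : ℍ => ((𝕢 1 τ)⁻¹) ^ (Fintype.card X - Module.finrank ℂ (invSub σ))
      * (matM f τ).det ^ 2) atImInfty (𝓝 ((matL σ N f).det ^ 2)) := by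
  have := (tendsto_det_matP hσ hf).pow 2
  refine this.congr fun τ => ?_
  exact det_matP_sq hσ f τ

lemma qParam_zpow_not_tendsto {d : ℤ} {m : ℂ} (hm : m ≠ 0)
    (h : Tendsto (fun τ : ℍ => (𝕢 1 τ) ^ d) atImInfty (𝓝 m)) : d = 0 := by
  have hq : Tendsto (fun τ : ℍ => 𝕢 1 τ) atImInfty (𝓝 0) := qParam_tendsto_atImInfty one_pos
  rcases lt_trichotomy d 0 with hd | hd | hd
  · exfalso
    obtain ⟨n, hn⟩ : ∃ n : ℕ, d = -(n : ℤ) := ⟨(-d).toNat, by omega⟩
    have hn0 : n ≠ 0 := by rintro rfl; simp at hn; omega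
    have h1 : Tendsto (fun τ : ℍ => (𝕢 1 τ) ^ n) atImInfty (𝓝 0) := by
      have := hq.pow n
      rwa [zero_pow hn0] at this
    have h2 : Tendsto (fun τ : ℍ => (𝕢 1 τ) ^ n) atImInfty (𝓝 m⁻¹) := by
      have := h.inv₀ hm
      refine this.congr fun τ => ?_
      rw [hn, zpow_neg, inv_inv, zpow_natCast]
    exact inv_ne_zero hm (tendsto_nhds_unique h2 h1)
  · exact hd
  · exfalso
    obtain ⟨n, hn⟩ : ∃ n : ℕ, d = (n : ℤ) := ⟨d.toNat, by omega⟩
    have hn0 : n ≠ 0 := by rintro rfl; simp at hn; omega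
    have h1 : Tendsto (fun τ : ℍ => (𝕢 1 τ) ^ d) atImInfty (𝓝 0) := by
      have := hq.pow n
      rw [zero_pow hn0] at this
      refine this.congr fun τ => ?_
      rw [hn, zpow_natCast]
    exact hm (tendsto_nhds_unique h h1)

/-- Theorem B: the sum of the weights. -/
theorem weight_eq (hσ : σ ^ N = 1) {f : X → X → ℍ → ℂ} (hf : ∀ j, IsTVec σ (f j))
    (hL : (matL σ N f).det ≠ 0) {κ : ℂ} {K : ℤ}
    (hdet : ∀ τ : ℍ, (matM f τ).det ^ 12 = κ * ModularForm.discriminant τ ^ K) :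
    K = 6 * ((Fintype.card X - Module.finrank ℂ (invSub σ) : ℕ) : ℤ) := by
  set e : ℕ := Fintype.card X - Module.finrank ℂ (invSub σ) with he
  set p : ℍ → ℂ := fun τ => ∏' n, (1 - ModularForm.eta_q n τ) ^ 24 with hp
  have hp1 : Tendsto p atImInfty (𝓝 1) := ModularForm.tendsto_atImInfty_tprod_one_sub_eta_q_pow
  have hΔ : ∀ τ : ℍ, ModularForm.discriminant τ = 𝕢 1 τ * p τ :=
    fun τ => ModularForm.discriminant_eq_q_prod τ
  have hA := (tendsto_det_sq hσ hf).pow 6
  have hq0 : ∀ τ : ℍ, 𝕢 1 (τ : ℂ) ≠ 0 := fun τ => Function.Periodic.qParam_ne_zero _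
  have h1 : ∀ τ : ℍ, (((𝕢 1 τ)⁻¹) ^ e * (matM f τ).det ^ 2) ^ 6
      = κ * ((𝕢 1 τ) ^ (K - 6 * (e : ℤ)) * p τ ^ K) := by
    intro τ
    rw [mul_pow, ← pow_mul, ← pow_mul, show 2 * 6 = 12 from rfl, hdet τ, hΔ τ, mul_zpow,
      zpow_sub₀ (hq0 τ), inv_pow]
    have : (𝕢 1 (τ : ℂ)) ^ (6 * (e : ℤ)) = (𝕢 1 (τ : ℂ)) ^ (e * 6) := by
      rw [← zpow_natCast]; congr 1; push_cast; ring
    rw [this]
    field_simp
  have hℓ : ((matL σ N f).det ^ 2) ^ 6 ≠ 0 := pow_ne_zero _ (pow_ne_zero _ hL)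
  have hκ : κ ≠ 0 := by
    rintro rfl
    have h2 : Tendsto (fun τ : ℍ => (((𝕢 1 τ)⁻¹) ^ e * (matM f τ).det ^ 2) ^ 6) atImInfty (𝓝 0) :=
      tendsto_const_nhds.congr fun τ => by rw [h1 τ, zero_mul]
    exact hℓ (tendsto_nhds_unique hA h2)
  have hpK : Tendsto (fun τ => p τ ^ K) atImInfty (𝓝 1) := by
    have := hp1.zpow₀ K (Or.inl one_ne_zero)
    rwa [one_zpow] at this
  have hpne : ∀ τ : ℍ, p τ ≠ 0 := by
    intro τ h0
    exact ModularForm.discriminant_ne_zero τ (by rw [hΔ τ, h0, mul_zero])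
  have h3 : Tendsto (fun τ : ℍ => (𝕢 1 τ) ^ (K - 6 * (e : ℤ))) atImInfty
      (𝓝 (κ⁻¹ * ((matL σ N f).det ^ 2) ^ 6 / 1)) := by
    have := (hA.const_mul κ⁻¹).div hpK one_ne_zero
    refine this.congr fun τ => ?_
    have h5 := h1 τ
    rw [he] at h5
    simp only [Pi.div_apply]
    rw [h5, ← he]
    have := zpow_ne_zero K (hpne τ)
    field_simp
  have h4 := qParam_zpow_not_tendsto (by
    rw [div_one]; exact mul_ne_zero (inv_ne_zero hκ) hℓ) h3
  omega

end Asymptotics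

end Fermat.Agent.Lib.VecCusp
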