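import Fermat.Agent.Lib.WeakChebotarev.NumberField
import Fermat.Agent.Lib.WeakChebotarev.Inertia
import Fermat.Agent.Lib.WeakChebotarev.Qbar

/-!
# Weak Chebotarev (Frobenius density theorem, existence form) for `Gal(ℚ̄/ℚ)`

* `weak_chebotarev` : consumer form.  For a finite normal `L ⊆ ℚ̄`, `σ ∈ Gal(ℚ̄/ℚ)` and a finite
  set `T` of primes there are a prime `ℓ ∉ T` and a place `A` of `ℚ̄` above `ℓ` such that the
  inertia group at `A` acts trivially on `L` and every Frobenius element at `A` generates on `L`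
  the same cyclic group as `σ`.
* `weak_chebotarev_fixingSubgroup` : the same with `A.inertiaSubgroupIn ℚ ≤ L.fixingSubgroup`.
* `weak_chebotarev_exists` : with one chosen Frobenius element.
* `weak_chebotarev_of_finite` : `L` finite, not necessarily normal.
-/

set_option autoImplicit false

namespace Fermat.Agent.Lib.WeakChebotarev

open NumberField
open scoped Pointwise

/-- WEAK CHEBOTAREV, consumer form. -/
theorem weak_chebotarev (L : IntermediateField ℚ (AlgebraicClosure ℚ)) [FiniteDimensional ℚ L]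
    [Normal ℚ L] (σ : AlgebraicClosure ℚ ≃ₐ[ℚ] AlgebraicClosure ℚ) (T : Finset ℕ) :
    ∃ (ℓ : ℕ) (A : ValuationSubring (AlgebraicClosure ℚ)), ℓ.Prime ∧ ℓ ∉ T ∧
      A.LiesOverPrime ℓ ∧
      (∀ τ ∈ A.inertiaSubgroupIn ℚ, ∀ x ∈ L, τ x = x) ∧
      ∀ φ : AlgebraicClosure ℚ ≃ₐ[ℚ] AlgebraicClosure ℚ, A.IsFrobeniusAt φ ℓ →
        (∃ k : ℕ, ∀ x ∈ L, φ x = (σ ^ k) x) ∧ (∃ k : ℕ, ∀ x ∈ L, σ x = (φ ^ k) x) :=
  weak_chebotarev_of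
    (fun L _ _ _ σ T ↦ exists_stabilizer_eq_zpowers L σ T)
    (fun L _ _ _ ℓ hℓ hunr Q _ hQ g hg ↦ inertia_eq_bot L ℓ hℓ hunr Q hQ g hg)
    (fun L _ _ _ ℓ hℓ hunr Q _ hQ φ hφ ↦ zpowers_eq_stabilizer L ℓ hℓ hunr Q hQ φ hφ)
    L σ T

/-- `weak_chebotarev` for a finite, not necessarily normal `L` (pass to the normal closure). -/
theorem weak_chebotarev_of_finite (L : IntermediateField ℚ (AlgebraicClosure ℚ))
    [FiniteDimensional ℚ L] (σ : AlgebraicClosure ℚ ≃ₐ[ℚ] AlgebraicClosure ℚ) (T : Finset ℕ) :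
    ∃ (ℓ : ℕ) (A : ValuationSubring (AlgebraicClosure ℚ)), ℓ.Prime ∧ ℓ ∉ T ∧
      A.LiesOverPrime ℓ ∧
      (∀ τ ∈ A.inertiaSubgroupIn ℚ, ∀ x ∈ L, τ x = x) ∧
      ∀ φ : AlgebraicClosure ℚ ≃ₐ[ℚ] AlgebraicClosure ℚ, A.IsFrobeniusAt φ ℓ →
        (∃ k : ℕ, ∀ x ∈ L, φ x = (σ ^ k) x) ∧ (∃ k : ℕ, ∀ x ∈ L, σ x = (φ ^ k) x) := by
  have : IsGalois ℚ (AlgebraicClosure ℚ) := Fermat.Agent.Lib.Frobenius.isGalois_rat
  let E : IntermediateField ℚ (AlgebraicClosure ℚ) :=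
    IntermediateField.normalClosure ℚ L (AlgebraicClosure ℚ)
  have : FiniteDimensional ℚ E := normalClosure.is_finiteDimensional ℚ L (AlgebraicClosure ℚ)
  have : Normal ℚ E := normalClosure.normal ℚ L (AlgebraicClosure ℚ)
  have hLE : L ≤ E := L.le_normalClosure
  obtain ⟨ℓ, A, h1, h2, h3, h4, h5⟩ := weak_chebotarev E σ T
  refine ⟨ℓ, A, h1, h2, h3, fun τ hτ x hx ↦ h4 τ hτ x (hLE hx), fun φ hφ ↦ ?_⟩
  obtain ⟨⟨a, ha⟩, ⟨b, hb⟩⟩ := h5 φ hφ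
  exact ⟨⟨a, fun x hx ↦ ha x (hLE hx)⟩, ⟨b, fun x hx ↦ hb x (hLE hx)⟩⟩

/-- `weak_chebotarev` with the inertia condition phrased with `fixingSubgroup`. -/
theorem weak_chebotarev_fixingSubgroup (L : IntermediateField ℚ (AlgebraicClosure ℚ))
    [FiniteDimensional ℚ L] (σ : AlgebraicClosure ℚ ≃ₐ[ℚ] AlgebraicClosure ℚ) (T : Finset ℕ) :
    ∃ (ℓ : ℕ) (A : ValuationSubring (AlgebraicClosure ℚ)), ℓ.Prime ∧ ℓ ∉ T ∧
      A.LiesOverPrime ℓ ∧ A.inertiaSubgroupIn ℚ ≤ L.fixingSubgroup ∧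
      ∀ φ : AlgebraicClosure ℚ ≃ₐ[ℚ] AlgebraicClosure ℚ, A.IsFrobeniusAt φ ℓ →
        (∃ k : ℕ, ∀ x ∈ L, φ x = (σ ^ k) x) ∧ (∃ k : ℕ, ∀ x ∈ L, σ x = (φ ^ k) x) := by
  obtain ⟨ℓ, A, h1, h2, h3, h4, h5⟩ := weak_chebotarev_of_finite L σ T
  refine ⟨ℓ, A, h1, h2, h3, fun τ hτ ↦ ?_, h5⟩
  rw [IntermediateField.mem_fixingSubgroup_iff]
  exact fun x hx ↦ h4 τ hτ x hx

/-- `weak_chebotarev` with one chosen Frobenius element. -/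
theorem weak_chebotarev_exists (L : IntermediateField ℚ (AlgebraicClosure ℚ))
    [FiniteDimensional ℚ L] (σ : AlgebraicClosure ℚ ≃ₐ[ℚ] AlgebraicClosure ℚ) (T : Finset ℕ) :
    ∃ (ℓ : ℕ) (A : ValuationSubring (AlgebraicClosure ℚ))
      (φ : AlgebraicClosure ℚ ≃ₐ[ℚ] AlgebraicClosure ℚ), ℓ.Prime ∧ ℓ ∉ T ∧
      A.LiesOverPrime ℓ ∧ A.inertiaSubgroupIn ℚ ≤ L.fixingSubgroup ∧ A.IsFrobeniusAt φ ℓ ∧
        (∃ k : ℕ, ∀ x ∈ L, φ x = (σ ^ k) x) ∧ (∃ k : ℕ, ∀ x ∈ L, σ x = (φ ^ k) x) := by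
  obtain ⟨ℓ, A, h1, h2, h3, h4, h5⟩ := weak_chebotarev_fixingSubgroup L σ T
  obtain ⟨φ, hφ⟩ := Fermat.Agent.Lib.Frobenius.exists_isFrobeniusAt A ℓ h1 h3
  exact ⟨ℓ, A, φ, h1, h2, h3, h4, hφ, h5 φ hφ⟩

end Fermat.Agent.Lib.WeakChebotarev
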